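import Mathlib
import Fermat.Agent.Lib.FrobeniusExists
import Fermat.Agent.Unram.Inertia

/-!
# S13 / package D: the Minkowski bridge

`Qb = AlgebraicClosure ℚ`, `GQ = Gal(Qb/ℚ)`.

* `exists_prime_forall_inertia_ne_bot`: (Minkowski + Hilbert theory, pure Mathlib) for a number field
  `K` Galois over `ℚ` of degree `> 1` there is a prime `p` such that every prime of `𝓞 K` above `p` has
  a nontrivial inertia group.
* `exists_inertia_lift`: every element of the inertia group of `(idealQ A) ∩ 𝓞 K` in `Gal(K/ℚ)` is the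
  restriction of an element of `A.inertiaSubgroupIn ℚ`.
* `eq_bot_of_forall_inertia_fix`, `eq_top_of_forall_inertia_le`,
  `eq_top_of_finset_of_forall_inertia_le`, `monoidHom_eq_one`: a finite Galois subextension of
  `Qb/ℚ` fixed by one inertia group over every prime is `ℚ`; an open normal subgroup of `GQ`
  containing one inertia group over every prime is `⊤`; a character with open kernel which is
  unramified everywhere is trivial.
-/

set_option autoImplicit false

open scoped Pointwise NumberField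

noncomputable section

namespace Fermat.Agent.Cofix.Mink

/-- Minkowski + `card_inertia_eq_ramificationIdxIn`: some rational prime has only primes with
nontrivial inertia above it. -/
theorem exists_prime_forall_inertia_ne_bot (K : Type*) [Field K] [NumberField K] [IsGalois ℚ K]
    (H : 1 < Module.finrank ℚ K) :
    ∃ p : ℕ, p.Prime ∧ ∀ (P : Ideal (𝓞 K)) (_ : P.IsPrime), (p : 𝓞 K) ∈ P →
      ∃ g : Gal(K/ℚ), g ∈ P.toAddSubgroup.inertia Gal(K/ℚ) ∧ g ≠ 1 := by
  obtain ⟨p, hp, h⟩ := NumberField.exists_not_isUnramifiedAt_int_of_isGalois (K := K) (𝒪 := 𝓞 K) H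
  refine ⟨p, hp, fun P hP hpP => ?_⟩
  have h1 := h P hP hpP
  rw [← Ideal.ramificationIdx_eq_one_iff] at h1
  have hne : P.under ℤ ≠ ⊥ := by
    intro h0
    have : (p : ℤ) ∈ P.under ℤ := by
      rw [Ideal.under_def, Ideal.mem_comap]
      simpa using hpP
    rw [h0] at this
    simp at this
    exact hp.ne_zero this
  have : (P.under ℤ).IsMaximal := Ring.DimensionLEOne.maximalOfPrime hne inferInstance
  rw [← Ideal.ramificationIdxIn_eq_ramificationIdx (P.under ℤ) P Gal(K/ℚ),
    ← Ideal.card_inertia_eq_ramificationIdxIn (G := Gal(K/ℚ)) (P.under ℤ) P] at h1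
  by_contra hcon
  push Not at hcon
  apply h1
  rw [Nat.card_eq_one_iff_unique]
  refine ⟨⟨fun a b => ?_⟩, ⟨1⟩⟩
  apply Subtype.ext
  rw [hcon a.1 a.2, hcon b.1 b.2]

local notation "Qb" => AlgebraicClosure ℚ
local notation "GQ" => (AlgebraicClosure ℚ ≃ₐ[ℚ] AlgebraicClosure ℚ)
local notation "OQ" => integralClosure ℤ (AlgebraicClosure ℚ)

local instance isAlgebraicQbar_h7 : Algebra.IsAlgebraic ℚ (AlgebraicClosure ℚ) :=
  AlgebraicClosure.isAlgebraic ℚ
local instance isAlgClosureQbar_h7 : IsAlgClosure ℚ (AlgebraicClosure ℚ) :=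
  ⟨inferInstance, inferInstance⟩

local instance topB_h7 : TopologicalSpace OQ := ⊥
local instance discB_h7 : DiscreteTopology OQ := ⟨rfl⟩
local instance contB_h7 : ContinuousSMul GQ OQ := Fermat.Agent.Lib.Frob.continuousSMul_B

open Fermat.Agent.Lib.Frob

variable (K : IntermediateField ℚ Qb)

/-- the inclusion `𝓞 K → OQ` -/
def ιK : 𝓞 K →+* OQ where
  toFun := fun x => ⟨algebraMap K Qb (x : K), (NumberField.RingOfIntegers.isIntegral_coe x).algebraMap⟩
  map_one' := by ext; simp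
  map_mul' := fun _ _ => by ext; simp
  map_zero' := by ext; simp
  map_add' := fun _ _ => by ext; simp

@[simp] theorem coe_ιK (x : 𝓞 K) : ((ιK K x : OQ) : Qb) = ((x : K) : Qb) := rfl

local instance algK_h7 : Algebra (𝓞 K) OQ := (ιK K).toAlgebra

theorem algebraMap_OK_apply (x : 𝓞 K) : algebraMap (𝓞 K) OQ x = ιK K x := rfl

theorem smul_ιK_of_mem_fixingSubgroup {h : GQ} (hh : h ∈ K.fixingSubgroup) (x : 𝓞 K) :
    h • ιK K x = ιK K x := by
  apply Subtype.ext
  show h ((x : K) : Qb) = ((x : K) : Qb)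
  exact (IntermediateField.mem_fixingSubgroup_iff K h).1 hh _ (x : K).2

local instance smulComm_h7 : SMulCommClass K.fixingSubgroup (𝓞 K) OQ where
  smul_comm h a b := by
    rw [Algebra.smul_def, Algebra.smul_def, smul_mul', algebraMap_OK_apply]
    congr 1
    exact smul_ιK_of_mem_fixingSubgroup K h.2 a

theorem isInvariant_OK : Algebra.IsInvariant (𝓞 K) OQ K.fixingSubgroup := by
  refine ⟨fun b hb => ?_⟩
  have h1 : (b : Qb) ∈ IntermediateField.fixedField K.fixingSubgroup := by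
    rw [IntermediateField.mem_fixedField_iff]
    intro f hf
    have := congrArg (fun z : OQ => (z : Qb)) (hb ⟨f, hf⟩)
    simpa using this
  rw [InfiniteGalois.fixedField_fixingSubgroup] at h1
  have h2 : IsIntegral ℤ (⟨(b : Qb), h1⟩ : K) := by
    have : IsIntegral ℤ (algebraMap K Qb ⟨(b : Qb), h1⟩) := b.2
    exact (isIntegral_algebraMap_iff (algebraMap K Qb).injective).1 this
  refine ⟨⟨⟨(b : Qb), h1⟩, h2⟩, Subtype.ext ?_⟩
  rfl

theorem compactSpace_fixingSubgroup : CompactSpace K.fixingSubgroup :=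
  isCompact_iff_compactSpace.mp (InfiniteGalois.fixingSubgroup_isClosed K).isCompact

section inertiaBridge

variable (A : ValuationSubring Qb) (ℓ : ℕ) (hℓ : ℓ.Prime) (hA : (ℓ : Qb) ∈ A.nonunits)

include hℓ hA in
/-- an element of `GQ` acting trivially on `OQ ⧸ idealQ A` lies in the inertia group of `A` -/
theorem mem_inertiaSubgroupIn_of_forall_sub_mem {σ : GQ}
    (hσ : ∀ b : OQ, σ • b - b ∈ idealQ A) : σ ∈ A.inertiaSubgroupIn ℚ := by
  have hstab : σ ∈ MulAction.stabilizer GQ (idealQ A) :=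
    Ideal.inertia_le_stabilizer (M := GQ) (idealQ A) hσ
  have hdec : σ ∈ A.decompositionSubgroup ℚ :=
    mem_decompositionSubgroup_of_mem_stabilizer A ℓ hℓ hA hstab
  rw [Fermat.Agent.Unram.mem_inertiaSubgroupIn_iff]
  refine ⟨hdec, fun xbar => ?_⟩
  obtain ⟨xA, rfl⟩ := IsLocalRing.residue_surjective xbar
  obtain ⟨y, z, hy, hxyz⟩ := exists_integral_fraction A ℓ hℓ hA xA xA.2
  set g : A.decompositionSubgroup ℚ := ⟨σ, hdec⟩ with hg
  rw [← IsLocalRing.ResidueField.residue_smul]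
  have hfix : ∀ b : OQ, toResidue A (σ • b) = toResidue A b := by
    intro b
    have h1 : toResidue A (σ • b - b) = 0 := hσ b
    rwa [map_sub, sub_eq_zero] at h1
  have e1 : xA * toA A y = toA A z := Subtype.ext hxyz
  have e2 : g • toA A y = toA A (σ • y) := Subtype.ext rfl
  have e3 : g • toA A z = toA A (σ • z) := Subtype.ext rfl
  have e4 : (g • xA) * toA A (σ • y) = toA A (σ • z) := by
    rw [← e2, ← e3, ← smul_mul', e1]
  have e5 : IsLocalRing.residue A (g • xA) * toResidue A y = toResidue A z := by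
    rw [← hfix y, ← hfix z]
    have := congrArg (IsLocalRing.residue A) e4
    rw [map_mul] at this
    exact this
  have e6 : IsLocalRing.residue A xA * toResidue A y = toResidue A z := by
    have := congrArg (IsLocalRing.residue A) e1
    rw [map_mul] at this
    exact this
  have hy0 : toResidue A y ≠ 0 := by
    intro h
    have : y ∈ idealQ A := h
    exact hy ((mem_idealQ_iff A _).1 this)
  apply mul_right_cancel₀ hy0
  rw [e5, e6]

end inertiaBridge

section lift

variable [IsGalois ℚ K]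

theorem ιK_restrict (σ : GQ) (x : 𝓞 K) :
    ιK K (AlgEquiv.restrictNormalHom K σ • x) = σ • ιK K x := by
  apply Subtype.ext
  show algebraMap K Qb ((AlgEquiv.restrictNormalHom K σ) (x : K)) = σ (algebraMap K Qb (x : K))
  exact AlgEquiv.restrictNormal_commutes σ K (x : K)

theorem restrictNormalHom_eq_one_of_mem {τ : GQ} (hτ : τ ∈ K.fixingSubgroup) :
    AlgEquiv.restrictNormalHom K τ = 1 := by
  ext x
  have h1 : algebraMap K Qb ((AlgEquiv.restrictNormalHom K τ) x) = τ (algebraMap K Qb x) :=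
    AlgEquiv.restrictNormal_commutes τ K x
  have h2 : τ (algebraMap K Qb x) = algebraMap K Qb x :=
    (IntermediateField.mem_fixingSubgroup_iff K τ).1 hτ _ x.2
  rw [h2] at h1
  exact h1

variable (A : ValuationSubring Qb) (ℓ : ℕ) (hℓ : ℓ.Prime) (hA : (ℓ : Qb) ∈ A.nonunits)

include hℓ hA in
/-- **Inertia lifting.** Every element of the inertia group of `(idealQ A) ∩ 𝓞 K` in `Gal(K/ℚ)` is the
restriction of an element of the inertia group of `A`. -/
theorem exists_inertia_lift (g : Gal(K/ℚ))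
    (hg : g ∈ ((idealQ A).under (𝓞 K)).toAddSubgroup.inertia Gal(K/ℚ)) :
    ∃ σ : GQ, σ ∈ A.inertiaSubgroupIn ℚ ∧ AlgEquiv.restrictNormalHom K σ = g := by
  have := isInvariant_OK K
  have := compactSpace_fixingSubgroup K
  obtain ⟨σ₀, hσ₀⟩ := AlgEquiv.restrictNormalHom_surjective Qb g
  set Q : Ideal OQ := idealQ A with hQ
  set P : Ideal (𝓞 K) := Q.under (𝓞 K) with hP
  have hmemP : ∀ x : 𝓞 K, x ∈ P ↔ ιK K x ∈ Q := fun x => Iff.rfl
  -- `g` and `g⁻¹` preserve `P`
  have hgP : ∀ (g' : Gal(K/ℚ)), g' ∈ P.toAddSubgroup.inertia Gal(K/ℚ) →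
      ∀ x : 𝓞 K, g' • x ∈ P ↔ x ∈ P := by
    intro g' hg' x
    have h1 : g' • x - x ∈ P := hg' x
    constructor
    · intro h
      have := P.sub_mem h h1
      simpa using this
    · intro h
      have := P.add_mem h1 h
      simpa using this
  -- Step 2: move `σ₀ • Q` back to `Q` with an element of `K.fixingSubgroup`
  have hunder : (σ₀ • Q).under (𝓞 K) = Q.under (𝓞 K) := by
    ext x
    rw [Ideal.under_def, Ideal.mem_comap, Ideal.mem_pointwise_smul_iff_inv_smul_mem,
      algebraMap_OK_apply, ← ιK_restrict, map_inv, hσ₀]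
    exact hgP g⁻¹ (inv_mem hg) x
  obtain ⟨τ₁, hτ₁⟩ := Algebra.IsInvariant.exists_smul_of_under_eq_of_profinite
    (A := 𝓞 K) (B := OQ) (G := K.fixingSubgroup) (σ₀ • Q) Q hunder
  set σ₁ : GQ := (τ₁ : GQ) * σ₀ with hσ₁
  have hσ₁Q : σ₁ • Q = Q := by
    rw [hσ₁, mul_smul]
    exact hτ₁.symm
  have hσ₁K : AlgEquiv.restrictNormalHom K σ₁ = g := by
    rw [hσ₁, map_mul, restrictNormalHom_eq_one_of_mem K τ₁.2, one_mul, hσ₀]
  -- Step 3: the automorphism of `OQ ⧸ Q` induced by `σ₁` is `𝓞 K ⧸ P`-linear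
  have hσ₁stab : σ₁ ∈ MulAction.stabilizer GQ Q := hσ₁Q
  let φ : (OQ ⧸ Q) ≃ₐ[ℤ ⧸ Q.under ℤ] (OQ ⧸ Q) :=
    Ideal.Quotient.stabilizerHom Q (Q.under ℤ) GQ ⟨σ₁, hσ₁stab⟩
  have hφ : ∀ b : OQ, φ (Ideal.Quotient.mk Q b) = Ideal.Quotient.mk Q (σ₁ • b) := fun b => rfl
  let φ' : (OQ ⧸ Q) ≃ₐ[𝓞 K ⧸ P] (OQ ⧸ Q) :=
    { φ.toRingEquiv with
      commutes' := by
        intro r
        obtain ⟨a, rfl⟩ := Ideal.Quotient.mk_surjective r
        show φ (algebraMap (𝓞 K ⧸ P) (OQ ⧸ Q) (Ideal.Quotient.mk P a)) =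
          algebraMap (𝓞 K ⧸ P) (OQ ⧸ Q) (Ideal.Quotient.mk P a)
        have e1 : algebraMap (𝓞 K ⧸ P) (OQ ⧸ Q) (Ideal.Quotient.mk P a) =
            Ideal.Quotient.mk Q (ιK K a) := rfl
        rw [e1, hφ, Ideal.Quotient.eq, ← ιK_restrict, hσ₁K, ← map_sub, ← hmemP]
        exact hg a }
  have hφ' : ∀ b : OQ, φ' (Ideal.Quotient.mk Q b) = Ideal.Quotient.mk Q (σ₁ • b) := fun b => rfl
  -- Step 4: realise `φ'` by an element of `K.fixingSubgroup`
  obtain ⟨⟨τ₂, hτ₂⟩, hτ₂φ⟩ := Ideal.Quotient.stabilizerHom_surjective_of_profinite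
    (G := K.fixingSubgroup) P Q φ'
  have hτ₂b : ∀ b : OQ, σ₁ • b - (τ₂ : GQ) • b ∈ Q := by
    intro b
    have h := congrArg (fun ψ => ψ (Ideal.Quotient.mk Q b)) hτ₂φ
    simp only [Ideal.Quotient.stabilizerHom_apply] at h
    rw [hφ', Ideal.Quotient.eq] at h
    have h2 := Q.neg_mem h
    rw [neg_sub] at h2
    exact h2
  have hτ₂Q : (τ₂ : GQ) • Q = Q := by
    have := hτ₂
    rw [MulAction.mem_stabilizer_iff] at this
    exact this
  refine ⟨(τ₂ : GQ)⁻¹ * σ₁, ?_, ?_⟩
  · apply mem_inertiaSubgroupIn_of_forall_sub_mem A ℓ hℓ hA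
    intro b
    have h1 : (τ₂ : GQ)⁻¹ • (σ₁ • b - (τ₂ : GQ) • b) ∈ (τ₂ : GQ)⁻¹ • Q :=
      Ideal.smul_mem_pointwise_smul _ _ _ (hτ₂b b)
    have h2 : (τ₂ : GQ)⁻¹ • Q = Q := by
      conv_lhs => rw [← hτ₂Q]
      rw [inv_smul_smul]
    rw [h2, smul_sub, inv_smul_smul, ← mul_smul] at h1
    exact h1
  · rw [map_mul, map_inv, restrictNormalHom_eq_one_of_mem K τ₂.2, inv_one, one_mul, hσ₁K]

end lift

section main

theorem eq_bot_of_finrank_eq_one (h : Module.finrank ℚ K = 1) : K = ⊥ := by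
  rw [eq_bot_iff]
  intro x hx
  have h1 : (1 : K) ≠ 0 := one_ne_zero
  obtain ⟨c, hc⟩ := exists_smul_eq_of_finrank_eq_one h h1 (⟨x, hx⟩ : K)
  rw [IntermediateField.mem_bot]
  refine ⟨c, ?_⟩
  have h2 := congrArg (fun z : K => (z : Qb)) hc
  simp only [Algebra.smul_def, mul_one] at h2
  rw [← h2]
  rfl

/-- **Minkowski bridge, field form.** A finite Galois subextension of `Qb/ℚ` that is fixed pointwise
by all inertia groups is `ℚ`. -/
theorem eq_bot_of_forall_inertia_fix [FiniteDimensional ℚ K] [IsGalois ℚ K]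
    (h : ∀ (q : ℕ), q.Prime → ∃ A : ValuationSubring Qb, A.LiesOverPrime q ∧
      ∀ σ ∈ A.inertiaSubgroupIn ℚ, ∀ x ∈ K, σ x = x) : K = ⊥ := by
  by_contra hne
  have : NumberField K := ⟨⟩
  have hpos : 0 < Module.finrank ℚ K := Module.finrank_pos
  have hne1 : Module.finrank ℚ K ≠ 1 := fun h1 => hne (eq_bot_of_finrank_eq_one K h1)
  have hgt : 1 < Module.finrank ℚ K := by omega
  obtain ⟨p, hp, hP⟩ := exists_prime_forall_inertia_ne_bot K hgt
  obtain ⟨A, hA, hAfix⟩ := h p hp
  have hpP : (p : 𝓞 K) ∈ (idealQ A).under (𝓞 K) := by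
    rw [Ideal.under_def, Ideal.mem_comap, map_natCast]
    exact natCast_mem_idealQ A p hA
  obtain ⟨g, hg, hg1⟩ := hP ((idealQ A).under (𝓞 K)) inferInstance hpP
  obtain ⟨σ, hσ, hσg⟩ := exists_inertia_lift K A p hp hA g hg
  apply hg1
  rw [← hσg]
  ext x
  have h1 : algebraMap K Qb ((AlgEquiv.restrictNormalHom K σ) x) = σ (algebraMap K Qb x) :=
    AlgEquiv.restrictNormal_commutes σ K x
  have h2 : σ (algebraMap K Qb x) = algebraMap K Qb x := hAfix σ hσ _ x.2
  rw [h2] at h1
  exact h1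

/-- **Minkowski bridge, subgroup form.** An open normal subgroup of `GQ` containing all inertia
groups is everything. -/
theorem eq_top_of_forall_inertia_le (H : Subgroup GQ) [hn : H.Normal] (hopen : IsOpen (H : Set GQ))
    (h : ∀ (q : ℕ), q.Prime → ∃ A : ValuationSubring Qb, A.LiesOverPrime q ∧
      A.inertiaSubgroupIn ℚ ≤ H) : H = ⊤ := by
  have hclosed : IsClosed (H : Set GQ) := Subgroup.isClosed_of_isOpen H hopen
  set Hc : ClosedSubgroup GQ := ⟨H, hclosed⟩ with hHc
  set K : IntermediateField ℚ Qb := IntermediateField.fixedField H with hK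
  have hfix : K.fixingSubgroup = H := InfiniteGalois.fixingSubgroup_fixedField Hc
  have h1 : IsOpen K.fixingSubgroup.carrier ∧ K.fixingSubgroup.Normal := by
    rw [hfix]
    exact ⟨hopen, hn⟩
  rw [InfiniteGalois.isOpen_and_normal_iff_finite_and_isGalois] at h1
  obtain ⟨hfin, hgal⟩ := h1
  have hfin' : FiniteDimensional ℚ K := hfin
  have hgal' : IsGalois ℚ K := hgal
  have hbot : K = ⊥ := by
    apply eq_bot_of_forall_inertia_fix K
    intro q hq
    obtain ⟨A, hA, hAH⟩ := h q hq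
    refine ⟨A, hA, fun σ hσ x hx => ?_⟩
    have hσH : σ ∈ H := hAH hσ
    exact hx ⟨σ, hσH⟩
  rw [← hfix, hbot, IntermediateField.fixingSubgroup_bot]

/-- **Minkowski bridge, consumer form.** A normal subgroup of `GQ` containing the pointwise
stabiliser of a finite set and all inertia groups is everything. -/
theorem eq_top_of_finset_of_forall_inertia_le (H : Subgroup GQ) [hn : H.Normal] (s : Finset Qb)
    (hs : ∀ σ : GQ, (∀ x ∈ s, σ x = x) → σ ∈ H)
    (h : ∀ (q : ℕ), q.Prime → ∃ A : ValuationSubring Qb, A.LiesOverPrime q ∧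
      A.inertiaSubgroupIn ℚ ≤ H) : H = ⊤ := by
  apply eq_top_of_forall_inertia_le H _ h
  set E : IntermediateField ℚ Qb := IntermediateField.adjoin ℚ (s : Set Qb) with hE
  have hEfin : FiniteDimensional ℚ E :=
    IntermediateField.finiteDimensional_adjoin fun x _ => (Algebra.IsIntegral.isIntegral x)
  have hEopen : IsOpen (E.fixingSubgroup : Set GQ) := IntermediateField.fixingSubgroup_isOpen E
  have hle : E.fixingSubgroup ≤ H := by
    intro σ hσ
    apply hs
    intro x hx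
    exact (IntermediateField.mem_fixingSubgroup_iff E σ).1 hσ x
      (IntermediateField.subset_adjoin ℚ _ hx)
  exact Subgroup.isOpen_mono hle hEopen

/-- **Minkowski bridge, character form.** A homomorphism from `GQ` to any group which is trivial
on the pointwise stabiliser of a finite set and, for every prime `q`, on the inertia group of (at
least) one valuation subring over `q`, is trivial. -/
theorem monoidHom_eq_one {M : Type*} [Group M] (χ : GQ →* M) (s : Finset Qb)
    (hs : ∀ σ : GQ, (∀ x ∈ s, σ x = x) → χ σ = 1)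
    (h : ∀ (q : ℕ), q.Prime → ∃ A : ValuationSubring Qb, A.LiesOverPrime q ∧
      ∀ σ ∈ A.inertiaSubgroupIn ℚ, χ σ = 1) (σ : GQ) : χ σ = 1 := by
  have htop : χ.ker = ⊤ := by
    apply eq_top_of_finset_of_forall_inertia_le χ.ker s
    · intro τ hτ
      exact MonoidHom.mem_ker.2 (hs τ hτ)
    · intro q hq
      obtain ⟨A, hA, hAχ⟩ := h q hq
      exact ⟨A, hA, fun τ hτ => MonoidHom.mem_ker.2 (hAχ τ hτ)⟩
  have : σ ∈ χ.ker := by rw [htop]; exact Subgroup.mem_top σ
  exact MonoidHom.mem_ker.1 this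

/-- Variant of `monoidHom_eq_one` with the hypothesis for all valuation subrings. -/
theorem monoidHom_eq_one' {M : Type*} [Group M] (χ : GQ →* M) (s : Finset Qb)
    (hs : ∀ σ : GQ, (∀ x ∈ s, σ x = x) → χ σ = 1)
    (h : ∀ (q : ℕ), q.Prime → ∀ A : ValuationSubring Qb, A.LiesOverPrime q →
      ∀ σ ∈ A.inertiaSubgroupIn ℚ, χ σ = 1) (σ : GQ) : χ σ = 1 := by
  apply monoidHom_eq_one χ s hs _ σ
  intro q hq
  obtain ⟨A, hA⟩ := exists_liesOverPrime q hq
  exact ⟨A, hA, h q hq A hA⟩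

end main

end Fermat.Agent.Cofix.Mink
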