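/-
S13 (Frey E[p] reducible ⇒ Galois-stable cofixed line), package E: the abstract glue.
All arithmetic inputs are hypotheses here; they are supplied by the other `Cofix` packages.
-/
import Mathlib
import Fermat.Prelude.Def_FLTPrelim_GaloisRep
import Fermat.Prelude.Def_FLTPrelim_Ramification
import Fermat.Prelude.Def_FLTPrelim_CofixedLine

set_option autoImplicit false

namespace Fermat.Agent.Cofix

open WeierstrassCurve WeierstrassCurve.Affine WeierstrassCurve.Affine.Point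

section glue

variable {L : Type*} [Field L] [DecidableEq L] [Algebra ℚ L]
variable (W' : WeierstrassCurve ℚ) (p : ℕ)

/-- The Galois action on the torsion module is additive (rw-friendly forms). -/
lemma tors_smul_sub (σ : L ≃ₐ[ℚ] L) (x y : Submodule.torsionBy ℤ (W'⁄L).toAffine.Point p) :
    σ • (x - y) = σ • x - σ • y :=
  Subtype.ext (smul_sub σ (x : (W'⁄L).toAffine.Point) (y : (W'⁄L).toAffine.Point))

lemma tors_smul_add (σ : L ≃ₐ[ℚ] L) (x y : Submodule.torsionBy ℤ (W'⁄L).toAffine.Point p) :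
    σ • (x + y) = σ • x + σ • y :=
  Subtype.ext (smul_add σ (x : (W'⁄L).toAffine.Point) (y : (W'⁄L).toAffine.Point))

lemma tors_smul_neg (σ : L ≃ₐ[ℚ] L) (x : Submodule.torsionBy ℤ (W'⁄L).toAffine.Point p) :
    σ • (-x) = -(σ • x) :=
  Subtype.ext (smul_neg σ (x : (W'⁄L).toAffine.Point))

lemma tors_smul_zero (σ : L ≃ₐ[ℚ] L) :
    σ • (0 : Submodule.torsionBy ℤ (W'⁄L).toAffine.Point p) = 0 :=
  Subtype.ext (smul_zero (A := (W'⁄L).toAffine.Point) σ)

lemma tors_mul_smul (σ τ : L ≃ₐ[ℚ] L) (x : Submodule.torsionBy ℤ (W'⁄L).toAffine.Point p) :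
    (σ * τ) • x = σ • (τ • x) :=
  Subtype.ext (mul_smul σ τ (x : (W'⁄L).toAffine.Point))

lemma tors_one_smul (x : Submodule.torsionBy ℤ (W'⁄L).toAffine.Point p) :
    (1 : L ≃ₐ[ℚ] L) • x = x :=
  Subtype.ext (one_smul (L ≃ₐ[ℚ] L) (x : (W'⁄L).toAffine.Point))

lemma tors_inv_smul_smul (σ : L ≃ₐ[ℚ] L) (x : Submodule.torsionBy ℤ (W'⁄L).toAffine.Point p) :
    σ⁻¹ • (σ • x) = x :=
  Subtype.ext (inv_smul_smul σ (x : (W'⁄L).toAffine.Point))

lemma tors_smul_inv_smul (σ : L ≃ₐ[ℚ] L) (x : Submodule.torsionBy ℤ (W'⁄L).toAffine.Point p) :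
    σ • (σ⁻¹ • x) = x :=
  Subtype.ext (smul_inv_smul σ (x : (W'⁄L).toAffine.Point))

lemma tors_smul_zsmul (σ : L ≃ₐ[ℚ] L) (k : ℤ) (x : Submodule.torsionBy ℤ (W'⁄L).toAffine.Point p) :
    σ • (k • x) = k • (σ • x) := by
  apply Subtype.ext
  exact algEquiv_smul_zsmul σ k (x : (W'⁄L).toAffine.Point)

/-- The Galois action is `ZMod p`-linear. -/
lemma tors_smul_zmod_smul [NeZero p] (σ : L ≃ₐ[ℚ] L) (c : ZMod p)
    (x : Submodule.torsionBy ℤ (W'⁄L).toAffine.Point p) :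
    σ • (c • x) = c • (σ • x) := by
  obtain ⟨k, rfl⟩ := ZMod.intCast_surjective c
  rw [Int.cast_smul_eq_zsmul, Int.cast_smul_eq_zsmul, tors_smul_zsmul]


variable {W' p}

/-- `H₁`: the elements acting trivially on the stable submodule `N`. -/
def fixSubgroup (N : Submodule (ZMod p) (Submodule.torsionBy ℤ (W'⁄L).toAffine.Point p)) :
    Subgroup (L ≃ₐ[ℚ] L) where
  carrier := {σ | ∀ x ∈ N, σ • x = x}
  one_mem' := fun x _ => tors_one_smul W' p x
  mul_mem' := by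
    intro σ τ hσ hτ x hx
    rw [tors_mul_smul, hτ x hx, hσ x hx]
  inv_mem' := by
    intro σ hσ x hx
    have h := hσ x hx
    calc σ⁻¹ • x = σ⁻¹ • (σ • x) := by rw [h]
      _ = x := tors_inv_smul_smul W' p σ x

/-- `H₂`: the elements acting trivially on the quotient by the stable submodule `N`. -/
def cofixSubgroup (N : Submodule (ZMod p) (Submodule.torsionBy ℤ (W'⁄L).toAffine.Point p))
    (hN : IsGaloisStable ℚ N) : Subgroup (L ≃ₐ[ℚ] L) where
  carrier := {σ | ∀ x, σ • x - x ∈ N}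
  one_mem' := fun x => by
    rw [tors_one_smul, sub_self]; exact N.zero_mem
  mul_mem' := by
    intro σ τ hσ hτ x
    have h1 : (σ * τ) • x - x = σ • (τ • x - x) + (σ • x - x) := by
      rw [tors_mul_smul, tors_smul_sub]; abel
    rw [h1]
    exact N.add_mem (hN σ _ (hτ x)) (hσ x)
  inv_mem' := by
    intro σ hσ x
    have h1 : σ⁻¹ • x - x = -(σ⁻¹ • (σ • x - x)) := by
      rw [tors_smul_sub, tors_inv_smul_smul]; abel
    rw [h1]
    exact N.neg_mem (hN σ⁻¹ _ (hσ x))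

lemma mem_fixSubgroup {N : Submodule (ZMod p) (Submodule.torsionBy ℤ (W'⁄L).toAffine.Point p)}
    {σ : L ≃ₐ[ℚ] L} : σ ∈ fixSubgroup N ↔ ∀ x ∈ N, σ • x = x := Iff.rfl

lemma mem_cofixSubgroup {N : Submodule (ZMod p) (Submodule.torsionBy ℤ (W'⁄L).toAffine.Point p)}
    {hN : IsGaloisStable ℚ N} {σ : L ≃ₐ[ℚ] L} :
    σ ∈ cofixSubgroup N hN ↔ ∀ x, σ • x - x ∈ N := Iff.rfl

lemma fixSubgroup_normal (N : Submodule (ZMod p) (Submodule.torsionBy ℤ (W'⁄L).toAffine.Point p))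
    (hN : IsGaloisStable ℚ N) : (fixSubgroup N).Normal := by
  constructor
  intro σ hσ τ x hx
  have h1 := hσ (τ⁻¹ • x) (hN τ⁻¹ x hx)
  rw [tors_mul_smul, tors_mul_smul, h1, tors_smul_inv_smul]

lemma cofixSubgroup_normal (N : Submodule (ZMod p) (Submodule.torsionBy ℤ (W'⁄L).toAffine.Point p))
    (hN : IsGaloisStable ℚ N) : (cofixSubgroup N hN).Normal := by
  constructor
  intro σ hσ τ x
  have h1 : (τ * σ * τ⁻¹) • x - x = τ • (σ • (τ⁻¹ • x) - τ⁻¹ • x) := by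
    rw [tors_mul_smul, tors_mul_smul, tors_smul_sub, tors_smul_inv_smul]
  rw [h1]
  exact hN τ _ (hσ _)

section open_

variable [Algebra.IsAlgebraic ℚ L]

/-- The stabiliser of a point is open in the Krull topology. -/
lemma isOpen_stabilizer_point (x : (W'⁄L).toAffine.Point) :
    IsOpen ((MulAction.stabilizer (L ≃ₐ[ℚ] L) x : Subgroup (L ≃ₐ[ℚ] L)) : Set (L ≃ₐ[ℚ] L)) := by
  have : Algebra.IsIntegral ℚ L := Algebra.IsAlgebraic.isIntegral
  cases x with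
  | zero =>
    have : (MulAction.stabilizer (L ≃ₐ[ℚ] L) (Point.zero : (W'⁄L).toAffine.Point)) = ⊤ := by
      ext σ
      simp only [MulAction.mem_stabilizer_iff, Subgroup.mem_top, iff_true]
      rfl
    rw [this]
    exact isOpen_univ
  | some a b h =>
    have ha := stabilizer_isOpen_of_isIntegral (K := ℚ) (L := L) a
    have hb := stabilizer_isOpen_of_isIntegral (K := ℚ) (L := L) b
    have hle : MulAction.stabilizer (L ≃ₐ[ℚ] L) a ⊓ MulAction.stabilizer (L ≃ₐ[ℚ] L) b ≤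
        MulAction.stabilizer (L ≃ₐ[ℚ] L) (Point.some a b h : (W'⁄L).toAffine.Point) := by
      intro σ hσ
      rw [Subgroup.mem_inf, MulAction.mem_stabilizer_iff, MulAction.mem_stabilizer_iff] at hσ
      rw [MulAction.mem_stabilizer_iff]
      show Point.map σ.toAlgHom (Point.some a b h) = Point.some a b h
      have h1 : σ a = a := hσ.1
      have h2 : σ b = b := hσ.2
      simp [Point.map_some, h1, h2]
    refine Subgroup.isOpen_mono hle ?_
    exact IsOpen.inter ha hb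

/-- The pointwise stabiliser of the (finite) torsion module is open. -/
lemma isOpen_of_forall_fix_le [Finite (Submodule.torsionBy ℤ (W'⁄L).toAffine.Point p)]
    (H : Subgroup (L ≃ₐ[ℚ] L))
    (hH : ∀ σ : L ≃ₐ[ℚ] L, (∀ x : Submodule.torsionBy ℤ (W'⁄L).toAffine.Point p, σ • x = x) → σ ∈ H) :
    IsOpen (H : Set (L ≃ₐ[ℚ] L)) := by
  classical
  let K : Subgroup (L ≃ₐ[ℚ] L) :=
    ⨅ x : Submodule.torsionBy ℤ (W'⁄L).toAffine.Point p,
      MulAction.stabilizer (L ≃ₐ[ℚ] L) (x : (W'⁄L).toAffine.Point)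
  have hKopen : IsOpen (K : Set (L ≃ₐ[ℚ] L)) := by
    have : (K : Set (L ≃ₐ[ℚ] L)) =
        ⋂ x : Submodule.torsionBy ℤ (W'⁄L).toAffine.Point p,
          ((MulAction.stabilizer (L ≃ₐ[ℚ] L) (x : (W'⁄L).toAffine.Point) :
            Subgroup (L ≃ₐ[ℚ] L)) : Set (L ≃ₐ[ℚ] L)) := by
      simp [K, Subgroup.coe_iInf]
    rw [this]
    exact isOpen_iInter_of_finite fun x => isOpen_stabilizer_point (x : (W'⁄L).toAffine.Point)
  refine Subgroup.isOpen_mono (H₁ := K) ?_ hKopen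
  intro σ hσ
  apply hH
  intro x
  apply Subtype.ext
  have := (Subgroup.mem_iInf.mp hσ) x
  rwa [MulAction.mem_stabilizer_iff] at this

end open_


section main

variable [hp : Fact p.Prime]

/-- Dimension count: if `#V ≤ p²` and `N ≠ ⊥, ⊤` then `N` and `V ⧸ N` are lines. -/
lemma line_structure [Finite (Submodule.torsionBy ℤ (W'⁄L).toAffine.Point p)]
    (hcard : Nat.card (Submodule.torsionBy ℤ (W'⁄L).toAffine.Point p) ≤ p ^ 2)
    (N : Submodule (ZMod p) (Submodule.torsionBy ℤ (W'⁄L).toAffine.Point p))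
    (hN0 : N ≠ ⊥) (hNtop : N ≠ ⊤) :
    (∃ n₀ ∈ N, n₀ ≠ 0 ∧ ∀ n ∈ N, ∃ c : ZMod p, n = c • n₀) ∧
    (∃ x₀, x₀ ∉ N ∧ ∀ x, ∃ c : ZMod p, x - c • x₀ ∈ N) := by
  have hp1 : 1 < p := hp.out.one_lt
  haveI : Module.Finite (ZMod p) (Submodule.torsionBy ℤ (W'⁄L).toAffine.Point p) :=
    Module.Finite.of_finite
  have hV : Module.finrank (ZMod p) (Submodule.torsionBy ℤ (W'⁄L).toAffine.Point p) ≤ 2 := by
    have h := Module.natCard_eq_pow_finrank (K := ZMod p)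
      (V := Submodule.torsionBy ℤ (W'⁄L).toAffine.Point p)
    rw [Nat.card_zmod] at h
    rw [h] at hcard
    exact (Nat.pow_le_pow_iff_right hp1).mp hcard
  have hlt := Submodule.finrank_lt hNtop
  have hpos : 0 < Module.finrank (ZMod p) N := by
    rw [Nat.pos_iff_ne_zero]
    intro h0
    exact hN0 (Submodule.finrank_eq_zero.mp h0)
  have hN1 : Module.finrank (ZMod p) N = 1 := by omega
  have hV2 : Module.finrank (ZMod p) (Submodule.torsionBy ℤ (W'⁄L).toAffine.Point p) = 2 := by omega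
  have hQ1 : Module.finrank (ZMod p)
      ((Submodule.torsionBy ℤ (W'⁄L).toAffine.Point p) ⧸ N) = 1 := by
    have := N.finrank_quotient_add_finrank
    omega
  constructor
  · obtain ⟨v, hv0, hv⟩ := finrank_eq_one_iff'.mp hN1
    refine ⟨v, v.2, fun h => hv0 (Subtype.ext h), fun n hn => ?_⟩
    obtain ⟨c, hc⟩ := hv ⟨n, hn⟩
    exact ⟨c, by rw [← Submodule.coe_smul, hc]⟩
  · obtain ⟨q, hq0, hq⟩ := finrank_eq_one_iff'.mp hQ1
    obtain ⟨x₀, rfl⟩ := Submodule.Quotient.mk_surjective N q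
    refine ⟨x₀, fun h => hq0 ((Submodule.Quotient.mk_eq_zero N).mpr h), fun x => ?_⟩
    obtain ⟨c, hc⟩ := hq (Submodule.Quotient.mk x)
    refine ⟨c, ?_⟩
    rw [← Submodule.Quotient.mk_eq_zero N, Submodule.Quotient.mk_sub, Submodule.Quotient.mk_smul,
      hc, sub_self]

/-- A unipotent element `σ` (`(σ-1)² = 0` on `V`) fixes a stable line pointwise and acts trivially on
the quotient line. -/
lemma unipotent_mem
    (N : Submodule (ZMod p) (Submodule.torsionBy ℤ (W'⁄L).toAffine.Point p))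
    (hN : IsGaloisStable ℚ N)
    (hline : (∃ n₀ ∈ N, n₀ ≠ 0 ∧ ∀ n ∈ N, ∃ c : ZMod p, n = c • n₀) ∧
      (∃ x₀, x₀ ∉ N ∧ ∀ x, ∃ c : ZMod p, x - c • x₀ ∈ N))
    (σ : L ≃ₐ[ℚ] L)
    (hσ : ∀ x : Submodule.torsionBy ℤ (W'⁄L).toAffine.Point p, σ • (σ • x - x) = σ • x - x) :
    σ ∈ fixSubgroup N ∧ σ ∈ cofixSubgroup N hN := by
  haveI : NeZero p := ⟨hp.out.ne_zero⟩
  obtain ⟨⟨n₀, hn₀N, hn₀0, hn₀⟩, ⟨x₀, hx₀N, hx₀⟩⟩ := hline
  -- `σ` fixes `n₀`
  have hfix0 : σ • n₀ = n₀ := by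
    obtain ⟨c, hc⟩ := hn₀ (σ • n₀) (hN σ n₀ hn₀N)
    have h1 := hσ n₀
    rw [hc, tors_smul_sub, tors_smul_zmod_smul, hc] at h1
    -- h1 : c • c • n₀ - c • n₀ = c • n₀ - n₀
    have h2 : ((c - 1) * (c - 1)) • n₀ = 0 := by
      have : ((c - 1) * (c - 1)) • n₀ = (c • c • n₀ - c • n₀) - (c • n₀ - n₀) := by
        simp only [sub_smul, mul_sub, sub_mul, one_smul, mul_one, one_mul, smul_smul]
        try abel
      rw [this, h1, sub_self]
    have h3 : (c - 1) * (c - 1) = 0 := by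
      by_contra hne
      exact hn₀0 ((smul_eq_zero_iff_right hne).mp h2)
    have h4 : c = 1 := by
      have := mul_self_eq_zero.mp h3
      exact sub_eq_zero.mp this
    rw [hc, h4, one_smul]
  have hfix : σ ∈ fixSubgroup N := by
    intro n hn
    obtain ⟨c, rfl⟩ := hn₀ n hn
    rw [tors_smul_zmod_smul, hfix0]
  refine ⟨hfix, ?_⟩
  -- `σ x₀ - x₀ ∈ N`
  have hx₀' : σ • x₀ - x₀ ∈ N := by
    obtain ⟨d, hd⟩ := hx₀ (σ • x₀)
    obtain ⟨n', hn'N, hy⟩ : ∃ n' ∈ N, σ • x₀ = d • x₀ + n' := ⟨σ • x₀ - d • x₀, hd, by abel⟩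
    have hσn' : σ • n' = n' := hfix n' hn'N
    have h1 := hσ x₀
    have hσy : σ • (σ • x₀) = d • (d • x₀ + n') + n' := by
      rw [hy, tors_smul_add, tors_smul_zmod_smul, hσn', hy]
    rw [tors_smul_sub, hσy, hy] at h1
    -- h1 : d • (d • x₀ + n') + n' - (d • x₀ + n') = d • x₀ + n' - x₀
    have h2 : ((d - 1) * (d - 1)) • x₀ + (d - 1) • n' = 0 := by
      have : ((d - 1) * (d - 1)) • x₀ + (d - 1) • n' =
          (d • (d • x₀ + n') + n' - (d • x₀ + n')) - (d • x₀ + n' - x₀) := by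
        simp only [sub_smul, mul_sub, sub_mul, one_smul, mul_one, one_mul, smul_add, smul_smul]
        abel
      rw [this, h1, sub_self]
    have h3 : ((d - 1) * (d - 1)) • x₀ ∈ N := by
      have : ((d - 1) * (d - 1)) • x₀ = -((d - 1) • n') := by
        rw [eq_neg_iff_add_eq_zero]; exact h2
      rw [this]
      exact N.neg_mem (N.smul_mem _ hn'N)
    have h4 : (d - 1) * (d - 1) = 0 := by
      by_contra hne
      apply hx₀N
      have := N.smul_mem ((d - 1) * (d - 1))⁻¹ h3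
      rwa [smul_smul, inv_mul_cancel₀ hne, one_smul] at this
    have h5 : d = 1 := sub_eq_zero.mp (mul_self_eq_zero.mp h4)
    rw [hy, h5, one_smul]
    simpa using hn'N
  intro x
  obtain ⟨c, hc⟩ := hx₀ x
  obtain ⟨n, hnN, hx⟩ : ∃ n ∈ N, x = c • x₀ + n := ⟨x - c • x₀, hc, by abel⟩
  have hσn : σ • n = n := hfix n hnN
  have : σ • x - x = c • (σ • x₀ - x₀) := by
    rw [hx, tors_smul_add, tors_smul_zmod_smul, hσn, smul_sub]; abel
  rw [this]
  exact N.smul_mem _ hx₀'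

/-- Variant of `line_structure` with the hypothesis `finrank ≤ 2`. -/
lemma line_structure' [Finite (Submodule.torsionBy ℤ (W'⁄L).toAffine.Point p)]
    (hfr : Module.finrank (ZMod p) (Submodule.torsionBy ℤ (W'⁄L).toAffine.Point p) ≤ 2)
    (N : Submodule (ZMod p) (Submodule.torsionBy ℤ (W'⁄L).toAffine.Point p))
    (hN0 : N ≠ ⊥) (hNtop : N ≠ ⊤) :
    (∃ n₀ ∈ N, n₀ ≠ 0 ∧ ∀ n ∈ N, ∃ c : ZMod p, n = c • n₀) ∧
    (∃ x₀, x₀ ∉ N ∧ ∀ x, ∃ c : ZMod p, x - c • x₀ ∈ N) := by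
  have hp1 : 1 < p := hp.out.one_lt
  haveI : Module.Finite (ZMod p) (Submodule.torsionBy ℤ (W'⁄L).toAffine.Point p) :=
    Module.Finite.of_finite
  refine line_structure ?_ N hN0 hNtop
  have h := Module.natCard_eq_pow_finrank (K := ZMod p)
    (V := Submodule.torsionBy ℤ (W'⁄L).toAffine.Point p)
  rw [Nat.card_zmod] at h
  rw [h]
  exact Nat.pow_le_pow_right hp1.le hfr

/-- The `p`-adic dichotomy: if inertia moves `V` only inside a proper subgroup `C` (the kernel of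
reduction), then it fixes the stable line `N` pointwise or acts trivially on `V ⧸ N`. -/
lemma padic_dichotomy
    (N : Submodule (ZMod p) (Submodule.torsionBy ℤ (W'⁄L).toAffine.Point p))
    (hN : IsGaloisStable ℚ N)
    (hline : (∃ n₀ ∈ N, n₀ ≠ 0 ∧ ∀ n ∈ N, ∃ c : ZMod p, n = c • n₀) ∧
      (∃ x₀, x₀ ∉ N ∧ ∀ x, ∃ c : ZMod p, x - c • x₀ ∈ N))
    (I : Set (L ≃ₐ[ℚ] L))
    (E1 : Submodule.torsionBy ℤ (W'⁄L).toAffine.Point p → Prop)
    (h0 : E1 0) (hsub : ∀ x y, E1 x → E1 y → E1 (x - y))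
    (hin : ∀ σ ∈ I, ∀ x, E1 (σ • x - x))
    (hnot : ∃ x, ¬ E1 x) :
    (∀ σ ∈ I, ∀ x ∈ N, σ • x = x) ∨ (∀ σ ∈ I, ∀ x, σ • x - x ∈ N) := by
  haveI : NeZero p := ⟨hp.out.ne_zero⟩
  -- `C` as an additive subgroup, closed under `ZMod p`-scalars
  let C : AddSubgroup (Submodule.torsionBy ℤ (W'⁄L).toAffine.Point p) :=
    AddSubgroup.ofSub {x | E1 x} ⟨0, h0⟩ (fun {x} hx {y} hy => hsub x y hx hy)
  have hC : ∀ x, x ∈ C ↔ E1 x := fun x => Iff.rfl
  have hCsmul : ∀ (c : ZMod p) x, x ∈ C → c • x ∈ C := by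
    intro c x hx
    obtain ⟨k, rfl⟩ := ZMod.intCast_surjective c
    rw [Int.cast_smul_eq_zsmul]
    exact C.zsmul_mem hx k
  obtain ⟨⟨n₀, hn₀N, hn₀0, hn₀⟩, ⟨x₀, hx₀N, hx₀⟩⟩ := hline
  by_cases hCN : ∀ x, x ∈ C → x ∈ N
  · right
    intro σ hσ x
    exact hCN _ ((hC _).mpr (hin σ hσ x))
  · left
    push Not at hCN
    obtain ⟨c, hcC, hcN⟩ := hCN
    intro σ hσ n hn
    by_contra hne
    -- `d = σ n - n` is a nonzero element of `C ∩ N`
    have hdC : σ • n - n ∈ C := (hC _).mpr (hin σ hσ n)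
    have hdN : σ • n - n ∈ N := N.sub_mem (hN σ n hn) hn
    have hd0 : σ • n - n ≠ 0 := fun h => hne (sub_eq_zero.mp h)
    -- so `N ⊆ C`
    obtain ⟨cd, hcd⟩ := hn₀ _ hdN
    have hcd0 : cd ≠ 0 := by
      rintro rfl
      rw [zero_smul] at hcd
      exact hd0 hcd
    have hn₀C : n₀ ∈ C := by
      have : n₀ = cd⁻¹ • (σ • n - n) := by
        rw [hcd, smul_smul, inv_mul_cancel₀ hcd0, one_smul]
      rw [this]
      exact hCsmul _ _ hdC
    have hNC : ∀ m ∈ N, m ∈ C := by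
      intro m hm
      obtain ⟨cm, rfl⟩ := hn₀ m hm
      exact hCsmul _ _ hn₀C
    -- `x₀ ∈ C`
    obtain ⟨k₀, hk₀⟩ := hx₀ c
    have hk₀0 : k₀ ≠ 0 := by
      rintro rfl
      rw [zero_smul, sub_zero] at hk₀
      exact hcN hk₀
    have hx₀C : x₀ ∈ C := by
      have h1 : k₀ • x₀ ∈ C := by
        have : k₀ • x₀ = c - (c - k₀ • x₀) := by abel
        rw [this]
        exact C.sub_mem hcC (hNC _ hk₀)
      have : x₀ = k₀⁻¹ • (k₀ • x₀) := by
        rw [smul_smul, inv_mul_cancel₀ hk₀0, one_smul]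
      rw [this]
      exact hCsmul _ _ h1
    -- hence `C = V`
    obtain ⟨y, hy⟩ := hnot
    apply hy
    rw [← hC]
    obtain ⟨k, hk⟩ := hx₀ y
    have : y = k • x₀ + (y - k • x₀) := by abel
    rw [this]
    exact C.add_mem (hCsmul _ _ hx₀C) (hNC _ hk)

/-- **Abstract glue for S13.** -/
theorem hasCofixedLine_of_reducible [Algebra.IsAlgebraic ℚ L]
    [Finite (Submodule.torsionBy ℤ (W'⁄L).toAffine.Point p)]
    (hnontriv : ∃ x : Submodule.torsionBy ℤ (W'⁄L).toAffine.Point p, x ≠ 0)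
    (hfr : Module.finrank (ZMod p) (Submodule.torsionBy ℤ (W'⁄L).toAffine.Point p) ≤ 2)
    (hmink : ∀ H : Subgroup (L ≃ₐ[ℚ] L), H.Normal → IsOpen (H : Set (L ≃ₐ[ℚ] L)) →
      (∀ ℓ : ℕ, ℓ.Prime → ∃ A : ValuationSubring L, A.LiesOverPrime ℓ ∧
        A.inertiaSubgroupIn ℚ ≤ H) → H = ⊤)
    (hexA : ∀ ℓ : ℕ, ℓ.Prime → ∃ A : ValuationSubring L, A.LiesOverPrime ℓ)
    (hunr : ∀ q : ℕ, q.Prime → q ≠ 2 → q ≠ p →
      GaloisRepUnramifiedAt (K := L) ℚ W' p q)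
    (h2 : ∃ A : ValuationSubring L, A.LiesOverPrime 2 ∧ ∀ σ ∈ A.inertiaSubgroupIn ℚ,
      ∀ x : Submodule.torsionBy ℤ (W'⁄L).toAffine.Point p, σ • (σ • x - x) = σ • x - x)
    (hp' : ∀ N : Submodule (ZMod p) (Submodule.torsionBy ℤ (W'⁄L).toAffine.Point p),
      IsGaloisStable ℚ N → N ≠ ⊥ → N ≠ ⊤ →
      ∃ A : ValuationSubring L, A.LiesOverPrime p ∧
        ((∀ σ ∈ A.inertiaSubgroupIn ℚ, ∀ x ∈ N, σ • x = x) ∨
         (∀ σ ∈ A.inertiaSubgroupIn ℚ, ∀ x, σ • x - x ∈ N)))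
    (hnorat : ¬ ∃ x : Submodule.torsionBy ℤ (W'⁄L).toAffine.Point p,
      x ≠ 0 ∧ ∀ σ : L ≃ₐ[ℚ] L, σ • x = x)
    (hred : ¬ GaloisRepIsIrreducible (K := L) ℚ W' p) :
    HasGaloisStableCofixedLine (K := L) ℚ W' p := by
  classical
  -- a proper nonzero stable submodule
  have hN : ∃ N : Submodule (ZMod p) (Submodule.torsionBy ℤ (W'⁄L).toAffine.Point p),
      IsGaloisStable ℚ N ∧ N ≠ ⊥ ∧ N ≠ ⊤ := by
    by_contra hcon
    apply hred
    refine ⟨?_, fun N hN => ?_⟩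
    · obtain ⟨x, hx⟩ := hnontriv
      exact ⟨⟨x, 0, hx⟩⟩
    · by_contra h
      push Not at h
      exact hcon ⟨N, hN, h.1, h.2⟩
  obtain ⟨N, hNst, hN0, hNtop⟩ := hN
  refine ⟨N, hNst, hN0, hNtop, ?_⟩
  have hline := line_structure' hfr N hN0 hNtop
  -- away from `p`, inertia lies in both subgroups
  have hboth : ∀ ℓ : ℕ, ℓ.Prime → ℓ ≠ p → ∃ A : ValuationSubring L, A.LiesOverPrime ℓ ∧
      A.inertiaSubgroupIn ℚ ≤ fixSubgroup N ∧ A.inertiaSubgroupIn ℚ ≤ cofixSubgroup N hNst := by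
    intro ℓ hℓ hℓp
    by_cases hℓ2 : ℓ = 2
    · subst hℓ2
      obtain ⟨A, hA, hAσ⟩ := h2
      exact ⟨A, hA, fun σ hσ => (unipotent_mem N hNst hline σ (hAσ σ hσ)).1,
        fun σ hσ => (unipotent_mem N hNst hline σ (hAσ σ hσ)).2⟩
    · obtain ⟨A, hA⟩ := hexA ℓ hℓ
      have htriv := hunr ℓ hℓ hℓ2 hℓp A hA
      refine ⟨A, hA, fun σ hσ x _ => htriv σ hσ x, fun σ hσ x => ?_⟩
      have hx : σ • x = x := htriv σ hσ x
      rw [hx, sub_self]
      exact N.zero_mem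
  obtain ⟨A, hA, hAor⟩ := hp' N hNst hN0 hNtop
  rcases hAor with h1 | h2'
  · exfalso
    have htop : fixSubgroup N = ⊤ := by
      refine hmink _ (fixSubgroup_normal N hNst)
        (isOpen_of_forall_fix_le (W' := W') (p := p) _ (fun σ h x _ => h x)) (fun ℓ hℓ => ?_)
      by_cases hℓp : ℓ = p
      · subst hℓp
        exact ⟨A, hA, fun σ hσ => h1 σ hσ⟩
      · obtain ⟨B, hB, hB1, -⟩ := hboth ℓ hℓ hℓp
        exact ⟨B, hB, hB1⟩
    obtain ⟨n₀, hn₀N, hn₀0, -⟩ := hline.1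
    refine hnorat ⟨n₀, hn₀0, fun σ => ?_⟩
    have hσ : σ ∈ fixSubgroup N := by rw [htop]; exact Subgroup.mem_top σ
    exact hσ n₀ hn₀N
  · have htop : cofixSubgroup N hNst = ⊤ := by
      refine hmink _ (cofixSubgroup_normal N hNst)
        (isOpen_of_forall_fix_le (W' := W') (p := p) _ (fun σ h x => ?_)) (fun ℓ hℓ => ?_)
      · rw [h x, sub_self]
        exact N.zero_mem
      · by_cases hℓp : ℓ = p
        · subst hℓp
          exact ⟨A, hA, fun σ hσ => h2' σ hσ⟩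
        · obtain ⟨B, hB, -, hB2⟩ := hboth ℓ hℓ hℓp
          exact ⟨B, hB, hB2⟩
    intro σ x
    have hσ : σ ∈ cofixSubgroup N hNst := by rw [htop]; exact Subgroup.mem_top σ
    exact hσ x

end main

end glue

end Fermat.Agent.Cofix
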