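/-
S13 package H2: `#E[p] < p³` on a short curve `Y² = X³ + aX² + bX` over a field of characteristic `0`,
by pure algebra (`x`-only polynomial recursion with degree / leading-coefficient tracking).
-/
import Fermat.Agent.Unram.Setup
import Fermat.Agent.Unram.XOnly
import Fermat.Agent.Unram.Annulus

set_option autoImplicit false

namespace Fermat.Agent.Cofix

open Polynomial WeierstrassCurve WeierstrassCurve.Affine Fermat.Agent.Unram

section poly

variable {L : Type*} [Field L]

/-- `N / D` has "degree one" with leading data `(e, c)` and leading ratio `1 / s`. -/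
structure LeadData (N D : L[X]) (e : ℕ) (c s : L) : Prop where
  he : 1 ≤ e
  hc : c ≠ 0
  degN : N.natDegree ≤ e
  coeffN : N.coeff e = c
  degD : D.natDegree ≤ e - 1
  coeffD : D.coeff (e - 1) = s * c

lemma leadData_one : LeadData (X : L[X]) 1 1 1 1 where
  he := le_rfl
  hc := one_ne_zero
  degN := natDegree_X_le
  coeffN := coeff_X_one
  degD := by simp
  coeffD := by simp

/-- coefficient of `p - C b * q` at `n` when `q` has degree `< n`. -/
lemma coeff_sub_C_mul_of_lt {p q : L[X]} {n : ℕ} (b : L) (hq : q.natDegree < n) :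
    (p - C b * q).coeff n = p.coeff n := by
  rw [coeff_sub, coeff_C_mul, coeff_eq_zero_of_natDegree_lt hq, mul_zero, sub_zero]

lemma natDegree_sub_C_mul_le {p q : L[X]} {n : ℕ} (b : L) (hp : p.natDegree ≤ n)
    (hq : q.natDegree ≤ n) : (p - C b * q).natDegree ≤ n :=
  (natDegree_sub_le_iff_left ((natDegree_C_mul_le _ _).trans hq)).mpr hp

/-- The doubling step. -/
lemma LeadData.double {N D : L[X]} {e : ℕ} {c s : L} (h : LeadData N D e c s) (a b : L) :
    LeadData ((N ^ 2 - C b * D ^ 2) ^ 2)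
      (C 4 * (N * D) * (N ^ 2 + C a * (N * D) + C b * D ^ 2)) (4 * e) (c ^ 4) (4 * s) := by
  obtain ⟨he, hc, degN, coeffN, degD, coeffD⟩ := h
  have hD2 : (D ^ 2).natDegree ≤ 2 * (e - 1) := natDegree_pow_le_of_le 2 degD
  have hN2 : (N ^ 2).natDegree ≤ 2 * e := natDegree_pow_le_of_le 2 degN
  have hN2c : (N ^ 2).coeff (2 * e) = c ^ 2 := by
    rw [coeff_pow_of_natDegree_le degN, coeffN]
  have hND : (N * D).natDegree ≤ e + (e - 1) := natDegree_mul_le_of_le degN degD
  have hNDc : (N * D).coeff (e + (e - 1)) = c * (s * c) := by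
    rw [coeff_mul_add_eq_of_natDegree_le degN degD, coeffN, coeffD]
  -- `A = N² - b D²`
  have hA : (N ^ 2 - C b * D ^ 2).natDegree ≤ 2 * e :=
    natDegree_sub_C_mul_le b hN2 (hD2.trans (by omega))
  have hAc : (N ^ 2 - C b * D ^ 2).coeff (2 * e) = c ^ 2 := by
    rw [coeff_sub_C_mul_of_lt b (lt_of_le_of_lt hD2 (by omega)), hN2c]
  -- `B = N² + a N D + b D²`
  have hB : (N ^ 2 + C a * (N * D) + C b * D ^ 2).natDegree ≤ 2 * e := by
    refine natDegree_add_le_of_degree_le (natDegree_add_le_of_degree_le hN2 ?_) ?_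
    · exact (natDegree_C_mul_le _ _).trans (hND.trans (by omega))
    · exact (natDegree_C_mul_le _ _).trans (hD2.trans (by omega))
  have hBc : (N ^ 2 + C a * (N * D) + C b * D ^ 2).coeff (2 * e) = c ^ 2 := by
    rw [coeff_add, coeff_add, coeff_C_mul, coeff_C_mul,
      coeff_eq_zero_of_natDegree_lt (lt_of_le_of_lt hND (by omega)),
      coeff_eq_zero_of_natDegree_lt (lt_of_le_of_lt hD2 (by omega)), hN2c]
    ring
  refine ⟨by omega, pow_ne_zero 4 hc, ?_, ?_, ?_, ?_⟩
  · have := natDegree_pow_le_of_le 2 hA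
    omega
  · have h4 : 4 * e = 2 * (2 * e) := by ring
    rw [h4, coeff_pow_of_natDegree_le hA, hAc]
    ring
  · have h1 : (C (4 : L) * (N * D)).natDegree ≤ e + (e - 1) :=
      (natDegree_C_mul_le _ _).trans hND
    have := natDegree_mul_le_of_le h1 hB
    omega
  · have h1 : (C (4 : L) * (N * D)).natDegree ≤ e + (e - 1) :=
      (natDegree_C_mul_le _ _).trans hND
    have h4 : 4 * e - 1 = (e + (e - 1)) + 2 * e := by omega
    rw [h4, coeff_mul_add_eq_of_natDegree_le h1 hB, coeff_C_mul, hNDc, hBc]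
    ring

/-- The odd step. -/
lemma LeadData.odd {N D N' D' : L[X]} {e e' : ℕ} {c c' s s' : L} (h : LeadData N D e c s)
    (h' : LeadData N' D' e' c' s') (b : L) :
    LeadData ((N' * N - C b * (D' * D)) ^ 2) (X * (N' * D - N * D') ^ 2) (2 * (e' + e))
      ((c' * c) ^ 2) ((s - s') ^ 2) := by
  obtain ⟨he, hc, degN, coeffN, degD, coeffD⟩ := h
  obtain ⟨he', hc', degN', coeffN', degD', coeffD'⟩ := h'
  have hNN : (N' * N).natDegree ≤ e' + e := natDegree_mul_le_of_le degN' degN
  have hNNc : (N' * N).coeff (e' + e) = c' * c := by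
    rw [coeff_mul_add_eq_of_natDegree_le degN' degN, coeffN', coeffN]
  have hDD : (D' * D).natDegree ≤ (e' - 1) + (e - 1) := natDegree_mul_le_of_le degD' degD
  have hA : (N' * N - C b * (D' * D)).natDegree ≤ e' + e :=
    natDegree_sub_C_mul_le b hNN (hDD.trans (by omega))
  have hAc : (N' * N - C b * (D' * D)).coeff (e' + e) = c' * c := by
    rw [coeff_sub_C_mul_of_lt b (lt_of_le_of_lt hDD (by omega)), hNNc]
  have hND1 : (N' * D).natDegree ≤ e' + (e - 1) := natDegree_mul_le_of_le degN' degD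
  have hND2 : (N * D').natDegree ≤ e + (e' - 1) := natDegree_mul_le_of_le degN degD'
  have heq : e + (e' - 1) = e' + (e - 1) := by omega
  have hB : (N' * D - N * D').natDegree ≤ e' + (e - 1) :=
    (natDegree_sub_le_iff_left (heq ▸ hND2)).mpr hND1
  have hBc : (N' * D - N * D').coeff (e' + (e - 1)) = c' * c * (s - s') := by
    rw [coeff_sub, coeff_mul_add_eq_of_natDegree_le degN' degD, ← heq,
      coeff_mul_add_eq_of_natDegree_le degN degD', coeffN', coeffN, coeffD, coeffD']
    ring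
  refine ⟨by omega, pow_ne_zero 2 (mul_ne_zero hc' hc), ?_, ?_, ?_, ?_⟩
  · exact natDegree_pow_le_of_le 2 hA
  · rw [coeff_pow_of_natDegree_le hA, hAc]
  · have h1 := natDegree_pow_le_of_le 2 hB
    have h2 : (X * (N' * D - N * D') ^ 2).natDegree ≤ 1 + 2 * (e' + (e - 1)) :=
      natDegree_mul_le_of_le natDegree_X_le h1
    omega
  · have h4 : 2 * (e' + e) - 1 = 2 * (e' + (e - 1)) + 1 := by omega
    rw [h4, coeff_X_mul, coeff_pow_of_natDegree_le hB, hBc]
    ring

end poly

section points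

variable {L : Type*} [Field L] [DecidableEq L] {W : WeierstrassCurve L}

lemma two_nsmul_eq_zero_of_yc_eq_zero (hW : IsShort W) {P : W.toAffine.Point} (hy : yc P = 0) :
    2 • P = 0 := by
  by_cases hP : P = 0
  · rw [hP, smul_zero]
  have hneg : -P = P := by
    refine point_ext (_root_.neg_ne_zero.mpr hP) hP (xc_neg P) ?_
    rw [hW.yc_neg, hy, _root_.neg_zero]
  rw [two_nsmul]
  nth_rewrite 1 [← hneg]
  exact neg_add_cancel P

lemma yc_ne_zero_of_two_nsmul_ne_zero (hW : IsShort W) {P : W.toAffine.Point} (h : 2 • P ≠ 0) :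
    yc P ≠ 0 := fun hy => h (two_nsmul_eq_zero_of_yc_eq_zero hW hy)

lemma xc_ne_zero_of_two_nsmul_ne_zero (hW : IsShort W) {P : W.toAffine.Point} (h : 2 • P ≠ 0) :
    xc P ≠ 0 := by
  intro hx
  have hP : P ≠ 0 := by
    rintro rfl
    exact h (smul_zero _)
  have hy2 := hW.yc_sq hP
  rw [hx] at hy2
  have hy : yc P = 0 := by
    have : yc P ^ 2 = 0 := by rw [hy2]; ring
    exact pow_eq_zero_iff (two_ne_zero) |>.mp this
  exact yc_ne_zero_of_two_nsmul_ne_zero hW h hy

/-- The representation statement: `x(nP) = N(x_P) / D(x_P)` with leading data. -/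
def Rep (W : WeierstrassCurve L) (n : ℕ) : Prop :=
  ∃ (N D : L[X]) (e : ℕ) (c : L), LeadData N D e c ((n : L) ^ 2) ∧ e ≤ 2 * n ^ 2 - 1 ∧
    ∀ P : W.toAffine.Point, (∀ k, 1 ≤ k → k ≤ n → k • P ≠ 0) →
      D.eval (xc P) ≠ 0 ∧ xc (n • P) * D.eval (xc P) = N.eval (xc P)

lemma rep_one (W : WeierstrassCurve L) : Rep W 1 := by
  refine ⟨X, 1, 1, 1, ?_, by norm_num, fun P _ => ?_⟩
  · have := leadData_one (L := L)
    simpa using this
  · simp

lemma rep_double [CharZero L] (hW : IsShort W) {k : ℕ} (hk : 1 ≤ k) (h : Rep W k) :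
    Rep W (2 * k) := by
  obtain ⟨N, D, e, c, hL, he, hP⟩ := h
  refine ⟨(N ^ 2 - C W.a₄ * D ^ 2) ^ 2,
    C 4 * (N * D) * (N ^ 2 + C W.a₂ * (N * D) + C W.a₄ * D ^ 2), 4 * e, c ^ 4, ?_, ?_,
    fun P hPk => ?_⟩
  · have := hL.double W.a₂ W.a₄
    convert this using 1
    push_cast
    ring
  · have h1 : 1 ≤ k ^ 2 := Nat.one_le_pow _ _ hk
    have : (2 * k) ^ 2 = 4 * k ^ 2 := by ring
    omega
  · have h2 : (2 : L) ≠ 0 := two_ne_zero
    have h4 : (4 : L) ≠ 0 := by
      have : (4 : L) = 2 * 2 := by norm_num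
      rw [this]; exact mul_ne_zero h2 h2
    obtain ⟨hD, hN⟩ := hP P (fun j hj1 hjk => hPk j hj1 (by omega))
    have h2R : 2 • (k • P) ≠ 0 := by
      rw [← mul_nsmul']
      exact hPk (2 * k) (by omega) le_rfl
    have hR0 : k • P ≠ 0 := by
      intro h0
      exact h2R (by rw [h0, smul_zero])
    have hy := yc_ne_zero_of_two_nsmul_ne_zero hW h2R
    have hdup := hW.xc_two_nsmul_mul h2 hR0 hy
    have hysq := hW.yc_sq hR0
    rw [mul_nsmul']
    simp only [eval_mul, eval_pow, eval_add, eval_sub, eval_C]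
    -- `xc R * d = ν`
    have key : N.eval (xc P) * D.eval (xc P) * (N.eval (xc P) ^ 2
        + W.a₂ * (N.eval (xc P) * D.eval (xc P)) + W.a₄ * D.eval (xc P) ^ 2)
        = D.eval (xc P) ^ 4 * yc (k • P) ^ 2 := by
      rw [hysq, ← hN]; ring
    constructor
    · rw [mul_assoc (4 : L), key]
      exact mul_ne_zero h4 (mul_ne_zero (pow_ne_zero 4 hD) (pow_ne_zero 2 hy))
    · rw [mul_assoc (4 : L), key]
      have : xc (2 • k • P) * (4 * (D.eval (xc P) ^ 4 * yc (k • P) ^ 2))
          = D.eval (xc P) ^ 4 * (xc (2 • k • P) * (4 * yc (k • P) ^ 2)) := by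
        ring
      rw [this, hdup, ← hN]
      ring

lemma rep_odd [CharZero L] (hW : IsShort W) {k : ℕ} (hk : 1 ≤ k) (h : Rep W k)
    (h' : Rep W (k + 1)) : Rep W (2 * k + 1) := by
  obtain ⟨N, D, e, c, hL, he, hP⟩ := h
  obtain ⟨N', D', e', c', hL', he', hP'⟩ := h'
  refine ⟨(N' * N - C W.a₄ * (D' * D)) ^ 2, X * (N' * D - N * D') ^ 2, 2 * (e' + e),
    (c' * c) ^ 2, ?_, ?_, fun P hPk => ?_⟩
  · have := hL.odd hL' W.a₄
    convert this using 1
    push_cast
    ring
  · have h1 : 1 ≤ k ^ 2 := Nat.one_le_pow _ _ hk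
    have h2 : (k + 1) ^ 2 = k ^ 2 + 2 * k + 1 := by ring
    have h3 : (2 * k + 1) ^ 2 = 4 * k ^ 2 + 4 * k + 1 := by ring
    omega
  · obtain ⟨hD, hN⟩ := hP P (fun j hj1 hjk => hPk j hj1 (by omega))
    obtain ⟨hD', hN'⟩ := hP' P (fun j hj1 hjk => hPk j hj1 (by omega))
    have hS0 : k • P ≠ 0 := hPk k hk (by omega)
    have hR0 : (k + 1) • P ≠ 0 := hPk (k + 1) (by omega) (by omega)
    have hP1 : P ≠ 0 := by
      have := hPk 1 le_rfl (by omega)
      rwa [one_nsmul] at this
    have h2P : 2 • P ≠ 0 := hPk 2 (by omega) (by omega)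
    have hx0 : xc P ≠ 0 := xc_ne_zero_of_two_nsmul_ne_zero hW h2P
    have hsum : (k + 1) • P + k • P = (2 * k + 1) • P := by
      rw [← add_nsmul]; congr 1; ring
    have hdiff : (k + 1) • P - k • P = P := by
      rw [succ_nsmul]; abel
    have hx : xc ((k + 1) • P) ≠ xc (k • P) := by
      intro hx
      rcases eq_or_eq_neg_of_xc_eq hR0 hS0 hx with h1 | h1
      · apply hP1
        rw [← hdiff, h1, sub_self]
      · apply hPk (2 * k + 1) (by omega) le_rfl
        rw [← hsum, h1, neg_add_cancel]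
    have hprod := hW.xc_add_mul_xc_sub_mul hR0 hS0 hx
    rw [hsum, hdiff] at hprod
    simp only [eval_mul, eval_pow, eval_sub, eval_C, eval_X]
    have e1 : N'.eval (xc P) * D.eval (xc P) - N.eval (xc P) * D'.eval (xc P)
        = (xc ((k + 1) • P) - xc (k • P)) * (D'.eval (xc P) * D.eval (xc P)) := by
      rw [← hN, ← hN']; ring
    have e2 : N'.eval (xc P) * N.eval (xc P) - W.a₄ * (D'.eval (xc P) * D.eval (xc P))
        = (xc ((k + 1) • P) * xc (k • P) - W.a₄) * (D'.eval (xc P) * D.eval (xc P)) := by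
      rw [← hN, ← hN']; ring
    constructor
    · rw [e1]
      exact mul_ne_zero hx0 (pow_ne_zero 2 (mul_ne_zero (sub_ne_zero.mpr hx)
        (mul_ne_zero hD' hD)))
    · rw [e1, e2]
      linear_combination (D'.eval (xc P) * D.eval (xc P)) ^ 2 * hprod

theorem rep_all [CharZero L] (hW : IsShort W) : ∀ n : ℕ, 1 ≤ n → Rep W n := by
  intro n
  induction n using Nat.strong_induction_on with
  | _ n ih =>
    intro hn
    rcases Nat.even_or_odd' n with ⟨k, rfl | rfl⟩
    · have hk : 1 ≤ k := by omega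
      exact rep_double hW hk (ih k (by omega) hk)
    · by_cases hk0 : k = 0
      · subst hk0
        exact rep_one W
      · have hk : 1 ≤ k := Nat.one_le_iff_ne_zero.mpr hk0
        exact rep_odd hW hk (ih k (by omega) hk) (ih (k + 1) (by omega) (by omega))

/-- The `x`-coordinates of nonzero `p`-torsion points are roots of a nonzero polynomial of degree
`≤ p² - 2`. -/
theorem exists_poly_of_torsion [CharZero L] (hW : IsShort W) {p : ℕ} (hp : p.Prime)
    (hp2 : p ≠ 2) :
    ∃ Φ : L[X], Φ ≠ 0 ∧ Φ.natDegree ≤ p ^ 2 - 2 ∧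
      ∀ P : W.toAffine.Point, P ≠ 0 → p • P = 0 → Φ.eval (xc P) = 0 := by
  obtain ⟨m, hm⟩ := hp.odd_of_ne_two hp2
  have hm1 : 1 ≤ m := by
    have := hp.two_le
    omega
  obtain ⟨N, D, e, c, hL, he, hP⟩ := rep_all hW m hm1
  obtain ⟨N', D', e', c', hL', he', hP'⟩ := rep_all hW (m + 1) (by omega)
  refine ⟨N * D' - N' * D, ?_, ?_, fun P hP0 hpP => ?_⟩
  · -- nonzero: coefficient in degree `e + (e' - 1)`
    have heq : e + (e' - 1) = e' + (e - 1) := by
      have := hL.he; have := hL'.he; omega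
    have hcoeff : (N * D' - N' * D).coeff (e + (e' - 1)) = c * c' * (p : L) := by
      rw [coeff_sub, coeff_mul_add_eq_of_natDegree_le hL.degN hL'.degD, heq,
        coeff_mul_add_eq_of_natDegree_le hL'.degN hL.degD, hL.coeffN, hL'.coeffN, hL.coeffD,
        hL'.coeffD, hm]
      push_cast
      ring
    intro h0
    rw [h0, coeff_zero] at hcoeff
    have hpL : (p : L) ≠ 0 := Nat.cast_ne_zero.mpr hp.ne_zero
    exact mul_ne_zero (mul_ne_zero hL.hc hL'.hc) hpL hcoeff.symm
  · have heq : e + (e' - 1) = e' + (e - 1) := by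
      have := hL.he; have := hL'.he; omega
    have h1 : (N * D').natDegree ≤ e + (e' - 1) := natDegree_mul_le_of_le hL.degN hL'.degD
    have h2 : (N' * D).natDegree ≤ e + (e' - 1) :=
      heq ▸ natDegree_mul_le_of_le hL'.degN hL.degD
    have h3 : (N * D' - N' * D).natDegree ≤ e + (e' - 1) :=
      (natDegree_sub_le_iff_left h2).mpr h1
    have hL1 := hL.he
    have hL1' := hL'.he
    have hm2 : 1 ≤ m ^ 2 := Nat.one_le_pow _ _ hm1
    have hsq : (m + 1) ^ 2 = m ^ 2 + 2 * m + 1 := by ring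
    have hp2' : p ^ 2 = 4 * m ^ 2 + 4 * m + 1 := by rw [hm]; ring
    omega
  · -- all multiples `k • P`, `1 ≤ k < p`, are nonzero
    have hord : ∀ k, 1 ≤ k → k < p → k • P ≠ 0 := by
      intro k hk1 hkp hk0
      have hcop : Nat.Coprime p k :=
        (Nat.Prime.coprime_iff_not_dvd hp).mpr (Nat.not_dvd_of_pos_of_lt hk1 hkp)
      have h1 : addOrderOf P ∣ p := addOrderOf_dvd_of_nsmul_eq_zero hpP
      have h2 : addOrderOf P ∣ k := addOrderOf_dvd_of_nsmul_eq_zero hk0
      have h3 : addOrderOf P ∣ 1 := by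
        have := Nat.dvd_gcd h1 h2
        rwa [hcop] at this
      exact hP0 (AddMonoid.addOrderOf_eq_one_iff.mp (Nat.dvd_one.mp h3))
    obtain ⟨hD, hN⟩ := hP P (fun k hk1 hkm => hord k hk1 (by omega))
    obtain ⟨hD', hN'⟩ := hP' P (fun k hk1 hkm => hord k hk1 (by omega))
    have hneg : (m + 1) • P = -(m • P) := by
      rw [eq_neg_iff_add_eq_zero, ← add_nsmul]
      have : m + 1 + m = p := by omega
      rw [this, hpP]
    have hxeq : xc ((m + 1) • P) = xc (m • P) := by rw [hneg, xc_neg]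
    rw [eval_sub, eval_mul, eval_mul, ← hN, ← hN', hxeq]
    ring

/-- Coordinates of a point, as an option. -/
def toPair : W.toAffine.Point → Option (L × L)
  | .zero => none
  | .some x y _ => some (x, y)

omit [DecidableEq L] in
lemma toPair_injective : Function.Injective (toPair (W := W)) := by
  rintro (_ | ⟨x, y, h⟩) (_ | ⟨x', y', h'⟩) hPQ
  · rfl
  · simp [toPair] at hPQ
  · simp [toPair] at hPQ
  · simp only [toPair, Option.some.injEq, Prod.mk.injEq] at hPQ
    obtain ⟨rfl, rfl⟩ := hPQ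
    rfl

/-- The finite set of candidate coordinates. -/
noncomputable def candidates (W : WeierstrassCurve L) (Φ : L[X]) : Finset (L × L) :=
  Φ.roots.toFinset.biUnion fun x =>
    ((X ^ 2 - C (x ^ 3 + W.a₂ * x ^ 2 + W.a₄ * x) : L[X]).roots.toFinset).image fun y => (x, y)

lemma card_candidates_le (W : WeierstrassCurve L) (Φ : L[X]) :
    (candidates W Φ).card ≤ 2 * Φ.natDegree := by
  unfold candidates
  refine Finset.card_biUnion_le.trans ?_
  have h1 : ∀ x ∈ Φ.roots.toFinset,
      (((X ^ 2 - C (x ^ 3 + W.a₂ * x ^ 2 + W.a₄ * x) : L[X]).roots.toFinset).image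
        fun y => (x, y)).card ≤ 2 := by
    intro x _
    refine Finset.card_image_le.trans ((Multiset.toFinset_card_le _).trans ?_)
    refine (card_roots' _).trans ?_
    rw [natDegree_X_pow_sub_C]
  refine (Finset.sum_le_sum h1).trans ?_
  rw [Finset.sum_const, smul_eq_mul, mul_comm]
  exact Nat.mul_le_mul_left 2 ((Multiset.toFinset_card_le _).trans (card_roots' _))

theorem card_torsion_le [CharZero L] (hW : IsShort W) {p : ℕ} (hp : p.Prime) (hp2 : p ≠ 2) :
    {P : W.toAffine.Point | p • P = 0}.Finite ∧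
      {P : W.toAffine.Point | p • P = 0}.ncard ≤ 2 * (p ^ 2 - 2) + 1 := by
  obtain ⟨Φ, hΦ0, hΦdeg, hΦ⟩ := exists_poly_of_torsion hW hp hp2
  have hmaps : ∀ P ∈ {P : W.toAffine.Point | p • P = 0},
      toPair P ∈ ((candidates W Φ).insertNone : Set (Option (L × L))) := by
    intro P hP
    rw [Finset.mem_coe, Finset.mem_insertNone]
    intro a ha
    cases P with
    | zero => simp [toPair] at ha
    | some x y h =>
      simp only [toPair, Option.mem_def, Option.some.injEq] at ha
      subst ha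
      have hroot := hΦ (Point.some x y h) (Point.some_ne_zero h) hP
      rw [xc_some] at hroot
      unfold candidates
      rw [Finset.mem_biUnion]
      refine ⟨x, ?_, ?_⟩
      · rw [Multiset.mem_toFinset, mem_roots hΦ0]
        exact hroot
      · rw [Finset.mem_image]
        refine ⟨y, ?_, rfl⟩
        rw [Multiset.mem_toFinset, mem_roots (X_pow_sub_C_ne_zero (by norm_num) _)]
        have := (hW.equation_iff x y).mp h.1
        simp only [IsRoot.def, eval_sub, eval_pow, eval_X, eval_C]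
        rw [this]; ring
  have hinj : Set.InjOn (toPair (W := W)) {P : W.toAffine.Point | p • P = 0} :=
    toPair_injective.injOn
  refine ⟨Set.Finite.of_injOn hmaps hinj (Finset.finite_toSet _), ?_⟩
  refine (Set.ncard_le_ncard_of_injOn _ hmaps hinj (Finset.finite_toSet _)).trans ?_
  rw [Set.ncard_coe_finset, Finset.card_insertNone]
  have := card_candidates_le W Φ
  omega

theorem card_torsion_lt [CharZero L] (hW : IsShort W) {p : ℕ} (hp : p.Prime) (hp2 : p ≠ 2) :
    {P : W.toAffine.Point | p • P = 0}.Finite ∧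
      {P : W.toAffine.Point | p • P = 0}.ncard < p ^ 3 := by
  obtain ⟨hfin, hle⟩ := card_torsion_le hW hp hp2
  refine ⟨hfin, lt_of_le_of_lt hle ?_⟩
  have h3 : 3 ≤ p := by
    have := hp.two_le
    omega
  have h9 : 9 ≤ p ^ 2 := by nlinarith
  have : p ^ 3 = p * p ^ 2 := by ring
  have h3' : 3 * p ^ 2 ≤ p * p ^ 2 := Nat.mul_le_mul_right _ h3
  omega

end points

end Fermat.Agent.Cofix
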