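/-
S13 package H2, consumer form: the `p`-torsion of the Frey curve over any field extension `L` of `ℚ`
is finite of `𝔽_p`-dimension at most `2`.
-/
import Fermat.Agent.Cofix.TorsionBound
import Fermat.Agent.Unram.FreyModel

set_option autoImplicit false

namespace Fermat.Agent.Cofix

open WeierstrassCurve WeierstrassCurve.Affine WeierstrassCurve.Affine.Point Fermat.Agent.Unram

variable {L : Type*} [Field L] [DecidableEq L] [Algebra ℚ L]

/-- The `p`-torsion of the Frey curve over `L` is finite, with fewer than `p³` elements. -/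
theorem frey_torsion_finite_card_lt (P : FreyPackage) :
    Finite (Submodule.torsionBy ℤ (P.freyCurve⁄L).Point P.p) ∧
      Nat.card (Submodule.torsionBy ℤ (P.freyCurve⁄L).Point P.p) < P.p ^ 3 := by
  have : CharZero L := algebraRat.charZero L
  obtain ⟨α, β, m, -, -, -, -, φ, hφ, -⟩ := exists_freyModel P (L := L) Nat.prime_two
  have hp2 : P.p ≠ 2 := by have := P.hp5; omega
  obtain ⟨hfin, hlt⟩ := card_torsion_lt
    (isShort_shortW_baseChange (S := L) ((α : ℚ) + β) ((α : ℚ) * β)) P.pp hp2
  -- the injection of the torsion into the finite set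
  let ψ : Submodule.torsionBy ℤ (P.freyCurve⁄L).Point P.p →
      {Q : ((shortW ((α : ℚ) + β) ((α : ℚ) * β))⁄L).toAffine.Point | P.p • Q = 0} := fun v =>
    ⟨φ v.1, by
      have hv := v.2
      rw [Submodule.mem_torsionBy_iff] at hv
      show P.p • φ v.1 = 0
      rw [← map_nsmul, ← natCast_zsmul, hv, _root_.map_zero]⟩
  have hψ : Function.Injective ψ := by
    intro v w hvw
    apply Subtype.ext
    apply hφ
    exact congrArg Subtype.val hvw
  have : Finite {Q : ((shortW ((α : ℚ) + β) ((α : ℚ) * β))⁄L).toAffine.Point | P.p • Q = 0} :=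
    hfin.to_subtype
  have hV : Finite (Submodule.torsionBy ℤ (P.freyCurve⁄L).Point P.p) := Finite.of_injective ψ hψ
  refine ⟨hV, lt_of_le_of_lt (Nat.card_le_card_of_injective ψ hψ) ?_⟩
  rwa [Nat.card_coe_set_eq]

/-- The `p`-torsion of the Frey curve over `L` has `𝔽_p`-dimension at most `2`. -/
theorem frey_torsion_finrank_le_two (P : FreyPackage) :
    Module.finrank (ZMod P.p) (Submodule.torsionBy ℤ (P.freyCurve⁄L).Point P.p) ≤ 2 := by
  have : Fact P.p.Prime := ⟨P.pp⟩
  obtain ⟨hfin, hlt⟩ := frey_torsion_finite_card_lt (L := L) P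
  have := hfin
  have hcard := Module.natCard_eq_pow_finrank (K := ZMod P.p)
    (V := Submodule.torsionBy ℤ (P.freyCurve⁄L).Point P.p)
  rw [Nat.card_zmod] at hcard
  rw [hcard] at hlt
  have := (Nat.pow_lt_pow_iff_right P.pp.one_lt).mp hlt
  omega

end Fermat.Agent.Cofix
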