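/-
S13, package E (second half): assembly of the arithmetic packages into the hypotheses of the abstract
glue `hasCofixedLine_of_reducible`, for the Frey curve over an arbitrary algebraic closure `L` of `ℚ`.
The four inputs proved in other files (torsion existence, unipotence at `2`, no rational torsion point,
root count at `p`) and the two global inputs (Minkowski, existence of places) are hypotheses here.
-/
import Mathlib
import Fermat.Agent.Cofix.Glue
import Fermat.Agent.Cofix.TorsionDim
import Fermat.Agent.Cofix.FreyE1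
import Fermat.Agent.S05

set_option autoImplicit false

namespace Fermat.Agent.Cofix

open WeierstrassCurve WeierstrassCurve.Affine WeierstrassCurve.Affine.Point
open Fermat.Agent.Unram

section assemble

variable {L : Type} [Field L] [DecidableEq L] [Algebra ℚ L] [IsAlgClosed L]
  [Algebra.IsAlgebraic ℚ L]

/-- Assembly: the Frey curve has a Galois-stable cofixed line as soon as its mod-`p` representation is
reducible, given the arithmetic packages as hypotheses. -/
theorem cofixed_of_packages (P : FreyPackage)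
    (hmink : ∀ H : Subgroup (L ≃ₐ[ℚ] L), H.Normal → IsOpen (H : Set (L ≃ₐ[ℚ] L)) →
      (∀ ℓ : ℕ, ℓ.Prime → ∃ A : ValuationSubring L, A.LiesOverPrime ℓ ∧
        A.inertiaSubgroupIn ℚ ≤ H) → H = ⊤)
    (hexA : ∀ ℓ : ℕ, ℓ.Prime → ∃ A : ValuationSubring L, A.LiesOverPrime ℓ)
    (hA : ∃ x : (P.freyCurve⁄L).toAffine.Point, x ≠ 0 ∧ (P.p : ℤ) • x = 0)
    (hT1 : ∀ A : ValuationSubring L, A.LiesOverPrime 2 → ∀ σ : L ≃ₐ[ℚ] L,
      σ ∈ A.inertiaSubgroupIn ℚ → ∀ x : (P.freyCurve⁄L).toAffine.Point, (P.p : ℤ) • x = 0 →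
        σ • (σ • x - x) = σ • x - x)
    (hT2 : ∀ x : (P.freyCurve⁄L).toAffine.Point, (P.p : ℤ) • x = 0 →
      (∀ σ : L ≃ₐ[ℚ] L, σ • x = x) → x = 0)
    (hC2 : ∀ A : ValuationSubring L, A.LiesOverPrime P.p →
      Finite (Submodule.torsionBy ℤ (P.freyCurve⁄L).toAffine.Point P.p) →
      ∀ N : Submodule (ZMod P.p) (Submodule.torsionBy ℤ (P.freyCurve⁄L).toAffine.Point P.p),
        IsGaloisStable ℚ N → N ≠ ⊥ → N ≠ ⊤ →
        ∃ x : Submodule.torsionBy ℤ (P.freyCurve⁄L).toAffine.Point P.p,
          ¬ InE1 A (x : (P.freyCurve⁄L).toAffine.Point))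
    (hred : ¬ GaloisRepIsIrreducible (K := L) ℚ P.freyCurve P.p) :
    HasGaloisStableCofixedLine (K := L) ℚ P.freyCurve P.p := by
  haveI : Fact P.p.Prime := ⟨P.pp⟩
  obtain ⟨hfin, -⟩ := frey_torsion_finite_card_lt (L := L) P
  haveI := hfin
  have hp2 : P.p ≠ 2 := by have := P.hp5; omega
  refine hasCofixedLine_of_reducible (W' := P.freyCurve) (p := P.p) ?_
    (frey_torsion_finrank_le_two (L := L) P) hmink hexA ?_ ?_ ?_ ?_ hred
  · -- nontriviality
    obtain ⟨x, hx0, hpx⟩ := hA
    refine ⟨⟨x, ?_⟩, ?_⟩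
    · rw [Submodule.mem_torsionBy_iff]; exact hpx
    · intro h
      exact hx0 (congrArg Subtype.val h)
  · -- unramified away from `2p`
    intro q hq hq2 hqp
    exact Fermat.Agent.S05.unramified_generic P hq hq2 hqp
  · -- unipotent at `2`
    obtain ⟨A, hA2⟩ := hexA 2 Nat.prime_two
    refine ⟨A, hA2, fun σ hσ x => ?_⟩
    apply Subtype.ext
    have hx := x.2
    rw [Submodule.mem_torsionBy_iff] at hx
    exact hT1 A hA2 σ hσ x.1 hx
  · -- the dichotomy at `p`
    intro N hN hN0 hNtop
    obtain ⟨A, hAp⟩ := hexA P.p P.pp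
    refine ⟨A, hAp, ?_⟩
    have hline := line_structure' (frey_torsion_finrank_le_two (L := L) P) N hN0 hNtop
    refine padic_dichotomy N hN hline (A.inertiaSubgroupIn ℚ : Set (L ≃ₐ[ℚ] L))
      (fun x => InE1 A (x : (P.freyCurve⁄L).toAffine.Point)) (Or.inl rfl) ?_ ?_
      (hC2 A hAp hfin N hN hN0 hNtop)
    · intro x y hx hy
      exact C1_inE1_sub P A hAp hx hy
    · intro σ hσ x
      have hx := x.2
      rw [Submodule.mem_torsionBy_iff] at hx
      exact C1_inertia_p P A hAp σ hσ x.1 hx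
  · -- no rational point of order `p`
    rintro ⟨x, hx0, hfix⟩
    apply hx0
    apply Subtype.ext
    have hx := x.2
    rw [Submodule.mem_torsionBy_iff] at hx
    exact hT2 x.1 hx (fun σ => congrArg Subtype.val (hfix σ))

end assemble

end Fermat.Agent.Cofix
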