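/-
S13 (Cofix): shared definitions for the 2-adic packages (B1, B2, B3, T1, T2), verbatim from helper9's blueprint.
The Frey model `y² + xy = x³ + a₂x² + a₄x` over a valuation subring of residue characteristic `2`.
-/
import Mathlib
import Fermat.Agent.Unram.Setup
import Fermat.Agent.Unram.Annulus

set_option autoImplicit false

namespace Fermat.Agent.Cofix

open WeierstrassCurve WeierstrassCurve.Affine WeierstrassCurve.Affine.Point
open Fermat.Agent.Unram

variable {L : Type*} [Field L]

/-- The 2-adic context: `W : y² + xy = x³ + a₂x² + a₄x`, residue characteristic `2`, `a₂` integral,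
`0 < |a₄| < 1`. -/
structure Ctx2 (A : ValuationSubring L) (W : WeierstrassCurve L) : Prop where
  a1 : W.a₁ = 1
  a3 : W.a₃ = 0
  a6 : W.a₆ = 0
  two : A.valuation (2 : L) < 1
  two0 : (2 : L) ≠ 0
  ha2 : A.valuation W.a₂ ≤ 1
  ha4 : A.valuation W.a₄ < 1
  ha40 : W.a₄ ≠ 0

/-- Unit points: affine with `v x = 1` (they reduce to nonsingular points other than the origin). -/
def InU {W : WeierstrassCurve L} (A : ValuationSubring L) (P : W.toAffine.Point) : Prop :=
  P ≠ 0 ∧ A.valuation (xc P) = 1

/-- Two annulus points are on the same branch: `y/x ≡ y'/x'` modulo the maximal ideal. -/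
def SameBranch {W : WeierstrassCurve L} (A : ValuationSubring L) (P Q : W.toAffine.Point) : Prop :=
  A.valuation (yc P / xc P - yc Q / xc Q) < 1

namespace Ctx2

variable {A : ValuationSubring L} {W : WeierstrassCurve L}

lemma val_two_le (h : Ctx2 A W) : A.valuation (2 : L) ≤ 1 := h.two.le

lemma val_four_lt (h : Ctx2 A W) : A.valuation (4 : L) < 1 := by
  have e : (4 : L) = 2 * 2 := by norm_num
  rw [e, map_mul]
  calc A.valuation 2 * A.valuation 2 ≤ A.valuation 2 * 1 := by
        gcongr
        exact h.two.le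
    _ = A.valuation 2 := mul_one _
    _ < 1 := h.two

/-- `b₂ = 1 + 4a₂` is a unit. -/
lemma b2_unit (h : Ctx2 A W) : A.valuation (1 + 4 * W.a₂) = 1 := by
  have h4 : A.valuation (4 * W.a₂) < 1 := by
    rw [map_mul]
    calc A.valuation 4 * A.valuation W.a₂ ≤ A.valuation 4 * 1 := by
          gcongr
          exact h.ha2
      _ = A.valuation 4 := mul_one _
      _ < 1 := h.val_four_lt
  rw [Valuation.map_add_eq_of_lt_left, map_one]
  rw [map_one]; exact h4

lemma val_a4_pos (h : Ctx2 A W) : 0 < A.valuation W.a₄ :=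
  zero_lt_iff.mpr ((Valuation.ne_zero_iff _).mpr h.ha40)

lemma val_a4_le (h : Ctx2 A W) : A.valuation W.a₄ ≤ 1 := h.ha4.le

end Ctx2

lemma InU.ne_zero {W : WeierstrassCurve L} {A : ValuationSubring L} {P : W.toAffine.Point}
    (h : InU A P) : P ≠ 0 := h.1

lemma InU.val_xc {W : WeierstrassCurve L} {A : ValuationSubring L} {P : W.toAffine.Point}
    (h : InU A P) : A.valuation (xc P) = 1 := h.2

end Fermat.Agent.Cofix
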