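/-
S13 package B2 (`Cofix/DiffTwo.lean`, helper3): difference lemmas on the model
`y² + xy = x³ + a₂x² + a₄x (+ a₆)` in residue characteristic `2` (`v 2 < 1`, `a₂` integral, `v a₄ < 1`).

* `sub_some_some_unit`: two points with unit `x`-coordinate and the same reduction differ by a point of `E₁`.
* `sub_some_some_annulus`: two points with the same `v x` in the annulus `v a₄ < v x < 1` on the same branch
  (`y/x ≡ y'/x'`) differ by `0` or a point with `1 ≤ v x` (a point of `E₀`).
* `one_le_val_addX_double`: a point with `v x ≤ v a₄` (deep point) has `1 ≤ v x(2P)`.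
* Galois forms for `σ` acting trivially on the residue field and preserving the valuation.
-/
import Mathlib
import Fermat.Agent.Unram.Setup
import Fermat.Agent.Unram.Annulus
import Fermat.Agent.Cofix.Setup2

set_option autoImplicit false
set_option linter.unusedSectionVars false

namespace Fermat.Agent.Cofix
namespace DiffTwo

open WeierstrassCurve WeierstrassCurve.Affine

variable {L : Type*} [Field L] [DecidableEq L]
  {Γ₀ : Type*} [LinearOrderedCommGroupWithZero Γ₀] (v : Valuation L Γ₀)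

/-! ### small valuation lemmas -/

lemma dt_one_lt_of_add {z w : L} (hz : 1 < v z) (hw : v w ≤ 1) : 1 < v (z + w) := by
  rw [Valuation.map_add_eq_of_lt_left v (lt_of_le_of_lt hw hz)]
  exact hz

lemma dt_val_two_mul_lt {z : L} (h2 : v 2 < 1) (hz : v z ≤ 1) : v (2 * z) < 1 := by
  rw [map_mul]
  calc v 2 * v z ≤ v 2 * 1 := by gcongr
    _ < 1 := by rw [mul_one]; exact h2

lemma dt_ne_zero_of_val_ne_zero {z : L} (hz : v z ≠ 0) : z ≠ 0 := by
  rintro rfl
  exact hz (map_zero v)

/-- `v (ℓ² + ℓ) = v ℓ ²` for `1 < v ℓ`. -/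
lemma dt_val_sq_add {ℓ : L} (hℓ : 1 < v ℓ) : v (ℓ ^ 2 + ℓ) = v ℓ ^ 2 := by
  have h : v ℓ < v (ℓ ^ 2) := by
    rw [map_pow, pow_two]
    have h0 : 0 < v ℓ := lt_trans zero_lt_one hℓ
    calc v ℓ = v ℓ * 1 := (mul_one _).symm
      _ < v ℓ * v ℓ := by gcongr
  rw [Valuation.map_add_eq_of_lt_left v h, map_pow]

/-- integrality of `y` from the equation. -/
lemma dt_val_y_le_one {W : Affine L} (h1 : W.a₁ = 1) (h3 : W.a₃ = 0) (ha2 : v W.a₂ ≤ 1)
    (ha4 : v W.a₄ ≤ 1) (ha6 : v W.a₆ ≤ 1) {x y : L} (h : W.Equation x y) (hx : v x ≤ 1) :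
    v y ≤ 1 := by
  by_contra hy
  push Not at hy
  have hE := (W.equation_iff x y).mp h
  rw [h1, h3] at hE
  have hlhs : v (y ^ 2 + 1 * x * y + 0 * y) = v y ^ 2 := by
    have e : y ^ 2 + 1 * x * y + 0 * y = y ^ 2 + x * y := by ring
    rw [e, Valuation.map_add_eq_of_lt_left, map_pow]
    rw [map_pow, map_mul, pow_two]
    have h0 : 0 < v y := lt_trans zero_lt_one hy
    calc v x * v y ≤ 1 * v y := by gcongr
      _ = v y * 1 := by rw [one_mul, mul_one]
      _ < v y * v y := by gcongr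
  have hrhs : v (x ^ 3 + W.a₂ * x ^ 2 + W.a₄ * x + W.a₆) ≤ 1 := by
    refine v.map_add_le (v.map_add_le (v.map_add_le ?_ ?_) ?_) ha6
    · rw [map_pow]; exact pow_le_one₀ zero_le hx
    · rw [map_mul, map_pow]
      calc v W.a₂ * v x ^ 2 ≤ 1 * 1 := by
            gcongr
            exact pow_le_one₀ zero_le hx
        _ = 1 := one_mul 1
    · rw [map_mul]
      calc v W.a₄ * v x ≤ 1 * 1 := by gcongr
        _ = 1 := one_mul 1
  rw [← hE, hlhs] at hrhs
  exact absurd (one_lt_pow₀ hy two_ne_zero) (not_lt.mpr hrhs)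

/-! ### unit `x`: same reduction ⟹ difference in `E₁` -/

theorem sub_some_some_unit {W : Affine L} (h1 : W.a₁ = 1) (h3 : W.a₃ = 0) (ha2 : v W.a₂ ≤ 1)
    (h2 : v 2 < 1) {x y x' y' : L} (h : W.Nonsingular x y) (h' : W.Nonsingular x' y')
    (hx : v x = 1) (hy : v y ≤ 1) (hxx : v (x' - x) < 1) (hyy : v (y' - y) < 1) :
    Point.some x' y' h' - Point.some x y h = 0 ∨
      ∃ (x₃ y₃ : L) (h₃ : W.Nonsingular x₃ y₃),
        Point.some x' y' h' - Point.some x y h = Point.some x₃ y₃ h₃ ∧ 1 < v x₃ := by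
  have hnegY : W.negY x y = -y - x := by simp [negY, h1, h3]
  have hx' : v x' ≤ 1 := by
    have : x' = x + (x' - x) := by ring
    rw [this]; exact v.map_add_le hx.le hxx.le
  -- the key unit: `2y + x`
  have hunit : v (y' + y + x) = 1 := by
    have e : y' + y + x = x + (2 * y + (y' - y)) := by ring
    rw [e, Valuation.map_add_eq_of_lt_left, hx]
    rw [hx]
    exact lt_of_le_of_lt (v.map_add _ _) (max_lt (dt_val_two_mul_lt v h2 hy) hyy)
  rw [sub_eq_add_neg, Point.neg_some]
  by_cases hxe : x' = x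
  · left
    subst hxe
    rcases Y_eq_of_X_eq h'.1 h.1 rfl with hye | hye
    · subst hye
      exact Point.add_of_Y_eq rfl (by rw [negY_negY])
    · exfalso
      rw [hnegY] at hye
      have : y' + y + x' = 0 := by rw [hye]; ring
      rw [this, map_zero] at hunit
      exact zero_ne_one hunit
  · right
    rw [Point.add_of_X_ne hxe]
    refine ⟨_, _, _, rfl, ?_⟩
    have hxne : x' - x ≠ 0 := sub_ne_zero.mpr hxe
    have hℓ : 1 < v (W.slope x' x y' (W.negY x y)) := by
      rw [slope_of_X_ne hxe, hnegY]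
      have e : y' - (-y - x) = y' + y + x := by ring
      rw [e, map_div₀, hunit, one_div]
      have hb0' : v (x' - x) ≠ 0 := (Valuation.ne_zero_iff v).mpr hxne
      exact (one_lt_inv₀ (zero_lt_iff.mpr hb0')).mpr hxx
    set ℓ := W.slope x' x y' (W.negY x y) with hℓdef
    have e : W.addX x' x ℓ = (ℓ ^ 2 + ℓ) + (-(W.a₂ + x' + x)) := by
      simp only [addX, h1]; ring
    rw [e]
    apply dt_one_lt_of_add
    · rw [dt_val_sq_add v hℓ]; exact one_lt_pow₀ hℓ two_ne_zero
    · rw [Valuation.map_neg]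
      exact v.map_add_le (v.map_add_le ha2 hx') hx.le

/-! ### annulus: same position, same branch ⟹ difference in `E₀` -/

/-- integrality of the branch parameter `θ = y/x` of an annulus point. -/
lemma dt_val_theta_le_one {W : Affine L} (h1 : W.a₁ = 1) (h3 : W.a₃ = 0) (h6 : W.a₆ = 0)
    (ha2 : v W.a₂ ≤ 1) {x y : L} (h : W.Equation x y) (hx1 : v x ≤ 1) (hxa : v W.a₄ ≤ v x)
    (hx0 : x ≠ 0) : v (y / x) ≤ 1 ∧ (y / x) ^ 2 + y / x = x + W.a₂ + W.a₄ / x := by
  have hE := (W.equation_iff x y).mp h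
  rw [h1, h3, h6] at hE
  have hθ : (y / x) ^ 2 + y / x = x + W.a₂ + W.a₄ / x := by
    field_simp
    linear_combination hE
  refine ⟨?_, hθ⟩
  by_contra hy
  push Not at hy
  have hlhs : v ((y / x) ^ 2 + y / x) = v (y / x) ^ 2 := dt_val_sq_add v hy
  have hrhs : v (x + W.a₂ + W.a₄ / x) ≤ 1 := by
    refine v.map_add_le (v.map_add_le hx1 ha2) ?_
    rw [map_div₀]
    have hvx : 0 < v x := zero_lt_iff.mpr ((Valuation.ne_zero_iff v).mpr hx0)
    exact (div_le_one₀ hvx).mpr hxa
  rw [← hθ, hlhs] at hrhs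
  exact absurd (one_lt_pow₀ hy two_ne_zero) (not_lt.mpr hrhs)

theorem sub_some_some_annulus {W : Affine L} (h1 : W.a₁ = 1) (h3 : W.a₃ = 0) (h6 : W.a₆ = 0)
    (ha2 : v W.a₂ ≤ 1) (h2 : v 2 < 1) {x y x' y' : L} (h : W.Nonsingular x y)
    (h' : W.Nonsingular x' y') (hx1 : v x < 1) (hxa : v W.a₄ < v x) (hxx : v x' = v x)
    (hθθ : v (y' / x' - y / x) < 1) :
    Point.some x' y' h' - Point.some x y h = 0 ∨
      ∃ (x₃ y₃ : L) (h₃ : W.Nonsingular x₃ y₃),
        Point.some x' y' h' - Point.some x y h = Point.some x₃ y₃ h₃ ∧ 1 ≤ v x₃ := by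
  have hvx0 : v x ≠ 0 := fun h0 => by
    rw [h0] at hxa
    exact not_lt_zero hxa
  have hx0 : x ≠ 0 := dt_ne_zero_of_val_ne_zero v hvx0
  have hx'0 : x' ≠ 0 := dt_ne_zero_of_val_ne_zero v (by rw [hxx]; exact hvx0)
  have hvxpos : 0 < v x := zero_lt_iff.mpr hvx0
  have hnegY : W.negY x y = -y - x := by simp [negY, h1, h3]
  obtain ⟨hθ1, hθeq⟩ := dt_val_theta_le_one v h1 h3 h6 ha2 h.1 hx1.le hxa.le hx0
  set θ := y / x with hθdef
  set θ' := y' / x' with hθ'def
  have hy : y = x * θ := by rw [hθdef]; field_simp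
  have hy' : y' = x' * θ' := by rw [hθ'def]; field_simp
  have h2θ : v (2 * θ) < 1 := dt_val_two_mul_lt v h2 hθ1
  rw [sub_eq_add_neg, Point.neg_some]
  by_cases hxe : x' = x
  · left
    subst hxe
    rcases Y_eq_of_X_eq h'.1 h.1 rfl with hye | hye
    · subst hye
      exact Point.add_of_Y_eq rfl (by rw [negY_negY])
    · exfalso
      rw [hnegY] at hye
      have e : θ' - θ = -(2 * θ) + (-1) := by
        rw [hθ'def, hθdef, hye]; field_simp; ring
      rw [e, Valuation.map_add_eq_of_lt_right, Valuation.map_neg, map_one] at hθθ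
      · exact lt_irrefl _ hθθ
      · rw [Valuation.map_neg, Valuation.map_neg, map_one]; exact h2θ
  · right
    rw [Point.add_of_X_ne hxe]
    refine ⟨_, _, _, rfl, ?_⟩
    set d := x' - x with hd
    have hd0 : d ≠ 0 := sub_ne_zero.mpr hxe
    have hvd0 : v d ≠ 0 := (Valuation.ne_zero_iff v).mpr hd0
    have hvdpos : 0 < v d := zero_lt_iff.mpr hvd0
    have hvd : v d ≤ v x := by
      rw [hd]
      exact le_trans (v.map_sub _ _) (max_le hxx.le le_rfl)
    set ℓ := W.slope x' x y' (W.negY x y) with hℓdef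
    have hℓ : ℓ = (y' + y + x) / d := by
      rw [hℓdef, slope_of_X_ne hxe, hnegY]
      congr 1; ring
    set u := ℓ + θ with hu
    -- `d * u = x + ε₁`, `d * (u + 1) = x' + ε₁`
    set ε₁ := x' * (θ' - θ) + 2 * x' * θ with hε₁
    have hdu : d * u = x + ε₁ := by
      rw [hu, hℓ, hε₁, hy, hy']
      field_simp
      ring
    have hdu1 : d * (u + 1) = x' + ε₁ := by
      rw [mul_add, hdu, mul_one, hd]; ring
    have hε₁v : v ε₁ < v x := by
      rw [hε₁]
      refine lt_of_le_of_lt (v.map_add _ _) (max_lt ?_ ?_)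
      · rw [map_mul, hxx]
        calc v x * v (θ' - θ) < v x * 1 := by gcongr
          _ = v x := mul_one _
      · have e : 2 * x' * θ = x' * (2 * θ) := by ring
        rw [e, map_mul, hxx]
        calc v x * v (2 * θ) < v x * 1 := by gcongr
          _ = v x := mul_one _
    have hvdu : v d * v u = v x := by
      rw [← map_mul, hdu, Valuation.map_add_eq_of_lt_left v hε₁v]
    have hvdu1 : v d * v (u + 1) = v x := by
      rw [← map_mul, hdu1, Valuation.map_add_eq_of_lt_left v (by rw [hxx]; exact hε₁v), hxx]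
    have hvu : 1 ≤ v u := by
      by_contra hlt
      push Not at hlt
      have : v d * v u < v x := by
        calc v d * v u < v d * 1 := by gcongr
          _ = v d := mul_one _
          _ ≤ v x := hvd
      exact this.ne hvdu
    have hvu1 : 1 ≤ v (u + 1) := by
      by_contra hlt
      push Not at hlt
      have : v d * v (u + 1) < v x := by
        calc v d * v (u + 1) < v d * 1 := by gcongr
          _ = v d := mul_one _
          _ ≤ v x := hvd
      exact this.ne hvdu1
    -- the formula for `x₃`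
    have hx3 : W.addX x' x ℓ = u * (u + 1) + (-(2 * θ) * (u + 1) + W.a₄ / x - x') := by
      have hℓu : ℓ = u - θ := by rw [hu]; ring
      simp only [addX, h1]
      rw [hℓu]
      linear_combination hθeq
    rw [hx3]
    have hmain : 1 ≤ v (u * (u + 1)) := by
      rw [map_mul]
      calc (1 : Γ₀) = 1 * 1 := (one_mul 1).symm
        _ ≤ v u * v (u + 1) := by gcongr
    have hrest : v (-(2 * θ) * (u + 1) + W.a₄ / x - x') < v (u * (u + 1)) := by
      refine lt_of_le_of_lt (v.map_sub _ _) (max_lt ?_ ?_)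
      · refine lt_of_le_of_lt (v.map_add _ _) (max_lt ?_ ?_)
        · rw [map_mul, Valuation.map_neg, map_mul (f := v) u]
          have hpos : 0 < v (u + 1) := lt_of_lt_of_le zero_lt_one hvu1
          calc v (2 * θ) * v (u + 1) < 1 * v (u + 1) := by gcongr
            _ ≤ v u * v (u + 1) := by gcongr
        · refine lt_of_lt_of_le ?_ hmain
          rw [map_div₀]
          exact (div_lt_one₀ hvxpos).mpr hxa
      · refine lt_of_lt_of_le ?_ hmain
        rw [hxx]; exact hx1
    rw [Valuation.map_add_eq_of_lt_left v hrest]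
    exact hmain

/-! ### deep points: doubling lands in `E₀` -/

/-- the duplication formula on `y² + xy = x³ + a₂x² + a₄x`:
`x(2P) (2y + x)² = (x² - a₄)²`. -/
lemma dt_addX_double_mul {W : Affine L} (h1 : W.a₁ = 1) (h3 : W.a₃ = 0) (h6 : W.a₆ = 0)
    {x y : L} (h : W.Equation x y) (hy : y ≠ W.negY x y) :
    W.addX x x (W.slope x x y y) * (2 * y + x) ^ 2 = (x ^ 2 - W.a₄) ^ 2 := by
  have hE := (W.equation_iff x y).mp h
  rw [h1, h3, h6] at hE
  have hnegY : W.negY x y = -y - x := by simp [negY, h1, h3]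
  have hne : 2 * y + x ≠ 0 := by
    intro h0
    apply hy
    rw [hnegY]
    linear_combination h0
  rw [slope_of_Y_ne rfl hy, hnegY, h1]
  simp only [addX, h1]
  have e : y - (-y - x) = 2 * y + x := by ring
  rw [e]
  field_simp
  linear_combination (-(1 + 4 * W.a₂ + 8 * x)) * hE

/-- `(2y + x)² = 4(x³ + a₂x² + a₄x) + x²` on the curve. -/
lemma dt_two_y_add_x_sq {W : Affine L} (h1 : W.a₁ = 1) (h3 : W.a₃ = 0) (h6 : W.a₆ = 0)
    {x y : L} (h : W.Equation x y) :
    (2 * y + x) ^ 2 = 4 * (x ^ 3 + W.a₂ * x ^ 2 + W.a₄ * x) + x ^ 2 := by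
  have hE := (W.equation_iff x y).mp h
  rw [h1, h3, h6] at hE
  linear_combination 4 * hE

/-- deep points: `v x ≤ v a₄ < 1` ⟹ `1 ≤ v x(2P)`. -/
theorem one_le_val_addX_double {W : Affine L} (h1 : W.a₁ = 1) (h3 : W.a₃ = 0) (h6 : W.a₆ = 0)
    (ha2 : v W.a₂ ≤ 1) (h2 : v 2 ≤ 1) (ha40 : W.a₄ ≠ 0) (ha4 : v W.a₄ < 1) {x y : L}
    (h : W.Equation x y) (hy : y ≠ W.negY x y) (hxa : v x ≤ v W.a₄) :
    1 ≤ v (W.addX x x (W.slope x x y y)) := by
  have hnegY : W.negY x y = -y - x := by simp [negY, h1, h3]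
  have hne : 2 * y + x ≠ 0 := by
    intro h0
    apply hy
    rw [hnegY]
    linear_combination h0
  have hva4 : 0 < v W.a₄ := zero_lt_iff.mpr ((Valuation.ne_zero_iff v).mpr ha40)
  have hx1 : v x ≤ 1 := hxa.trans ha4.le
  have hmul := dt_addX_double_mul h1 h3 h6 h hy
  -- numerator
  have hx2 : v (x ^ 2) < v W.a₄ := by
    rw [map_pow, pow_two]
    calc v x * v x ≤ v W.a₄ * v W.a₄ := mul_le_mul' hxa hxa
      _ < v W.a₄ * 1 := by
          exact mul_lt_mul_of_pos_left ha4 hva4
      _ = v W.a₄ := mul_one _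
  have hnum : v ((x ^ 2 - W.a₄) ^ 2) = v W.a₄ ^ 2 := by
    rw [map_pow, Valuation.map_sub_eq_of_lt_right v hx2]
  -- denominator
  have h4 : v (4 : L) ≤ 1 := by
    have e : (4 : L) = 2 * 2 := by norm_num
    rw [e, map_mul]
    calc v 2 * v 2 ≤ 1 * 1 := by gcongr
      _ = 1 := one_mul 1
  have hden : v ((2 * y + x) ^ 2) ≤ v W.a₄ ^ 2 := by
    rw [dt_two_y_add_x_sq h1 h3 h6 h]
    refine v.map_add_le ?_ ?_
    · have e : 4 * (x ^ 3 + W.a₂ * x ^ 2 + W.a₄ * x) = 4 * (x * (x ^ 2 + W.a₂ * x + W.a₄)) := by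
        ring
      have hin : v (x ^ 2 + W.a₂ * x + W.a₄) ≤ v W.a₄ := by
        refine v.map_add_le (v.map_add_le hx2.le ?_) le_rfl
        rw [map_mul]
        calc v W.a₂ * v x ≤ 1 * v W.a₄ := mul_le_mul' ha2 hxa
          _ = v W.a₄ := one_mul _
      rw [e, map_mul, map_mul]
      calc v 4 * (v x * v (x ^ 2 + W.a₂ * x + W.a₄)) ≤ 1 * (v W.a₄ * v W.a₄) :=
            mul_le_mul' h4 (mul_le_mul' hxa hin)
        _ = v W.a₄ ^ 2 := by rw [one_mul, pow_two]
    · rw [map_pow]
      exact pow_le_pow_left₀ zero_le hxa 2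
  by_contra hlt
  push Not at hlt
  have hdpos : 0 < v ((2 * y + x) ^ 2) :=
    zero_lt_iff.mpr ((Valuation.ne_zero_iff v).mpr (pow_ne_zero _ hne))
  have : v W.a₄ ^ 2 < v W.a₄ ^ 2 := by
    calc v W.a₄ ^ 2 = v (W.addX x x (W.slope x x y y)) * v ((2 * y + x) ^ 2) := by
          rw [← map_mul, hmul, hnum]
      _ < 1 * v ((2 * y + x) ^ 2) := by gcongr
      _ = v ((2 * y + x) ^ 2) := one_mul _
      _ ≤ v W.a₄ ^ 2 := hden
  exact lt_irrefl _ this

/-- unit points: `v x = 1` ⟹ `2P ≠ 0` and `v x(2P) = 1`. -/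
theorem val_addX_double_unit {W : Affine L} (h1 : W.a₁ = 1) (h3 : W.a₃ = 0) (h6 : W.a₆ = 0)
    (h2 : v 2 < 1) (ha4 : v W.a₄ < 1) {x y : L}
    (h : W.Equation x y) (hx : v x = 1) (hy1 : v y ≤ 1) :
    y ≠ W.negY x y ∧ v (W.addX x x (W.slope x x y y)) = 1 := by
  have hnegY : W.negY x y = -y - x := by simp [negY, h1, h3]
  have hunit : v (2 * y + x) = 1 := by
    rw [add_comm, Valuation.map_add_eq_of_lt_left, hx]
    rw [hx]; exact dt_val_two_mul_lt v h2 hy1
  have hy : y ≠ W.negY x y := by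
    intro h0
    rw [hnegY] at h0
    have : 2 * y + x = 0 := by linear_combination h0
    rw [this, map_zero] at hunit
    exact zero_ne_one hunit
  refine ⟨hy, ?_⟩
  have hmul := dt_addX_double_mul h1 h3 h6 h hy
  have hnum : v ((x ^ 2 - W.a₄) ^ 2) = 1 := by
    rw [map_pow, Valuation.map_sub_eq_of_lt_left, map_pow, hx, one_pow, one_pow]
    rw [map_pow, hx, one_pow]; exact ha4
  have := congrArg v hmul
  rw [map_mul, map_pow, hunit, one_pow, mul_one, hnum] at this
  exact this

/-! ### point-level forms (blueprint shapes) -/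

section points

open Fermat.Agent.Unram

variable {A : ValuationSubring L} {W : WeierstrassCurve L}

/-- integrality of `yc` for an integral affine point. -/
lemma val_yc_le_one (h : Ctx2 A W) {P : W.toAffine.Point} (hx : A.valuation (xc P) ≤ 1) :
    A.valuation (yc P) ≤ 1 := by
  cases P with
  | zero =>
    change A.valuation (yc (0 : W.toAffine.Point)) ≤ 1
    rw [yc_zero, map_zero]; exact zero_le_one
  | some x y hP =>
    simp only [xc_some, yc_some] at hx ⊢
    exact dt_val_y_le_one A.valuation h.a1 h.a3 h.ha2 h.ha4.le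
      (by rw [h.a6, map_zero]; exact zero_le_one) hP.1 hx

/-- (B2a) same nonsingular reduction ⇒ difference in `E₁`. -/
theorem B2_inE1_sub_of_close (h : Ctx2 A W) {P Q : W.toAffine.Point} (hP : InU A P) (hQ : InU A Q)
    (hx : A.valuation (xc P - xc Q) < 1) (hy : A.valuation (yc P - yc Q) < 1) : InE1 A (P - Q) := by
  have hyQ := val_yc_le_one h hQ.2.le
  cases P with
  | zero => exact absurd rfl hP.1
  | some x' y' hP' =>
    cases Q with
    | zero => exact absurd rfl hQ.1
    | some x y hQ' =>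
      simp only [xc_some, yc_some] at hx hy hyQ
      have hxQ : A.valuation x = 1 := hQ.2
      rcases sub_some_some_unit A.valuation h.a1 h.a3 h.ha2 h.two hQ' hP' hxQ hyQ hx hy with
        h0 | ⟨x₃, y₃, h₃, he, hv⟩
      · left; exact h0
      · right
        rw [he, xc_some]
        exact hv

/-- `2 • P` in coordinates when `y ≠ negY`. -/
lemma two_nsmul_some {x y : L} (hP : W.toAffine.Nonsingular x y) (hy : y ≠ W.toAffine.negY x y) :
    ∃ h₃, (2 : ℕ) • (Point.some x y hP : W.toAffine.Point) =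
      Point.some (W.toAffine.addX x x (W.toAffine.slope x x y y))
        (W.toAffine.addY x x y (W.toAffine.slope x x y y)) h₃ := by
  refine ⟨nonsingular_add hP hP (fun hxy => hy hxy.right), ?_⟩
  rw [two_nsmul]
  exact Point.add_self_of_Y_ne hy

/-- (B2b) doubling keeps unit points unit. -/
theorem B2_inU_two_nsmul (h : Ctx2 A W) {P : W.toAffine.Point} (hP : InU A P) : InU A (2 • P) := by
  have hyP := val_yc_le_one h hP.2.le
  cases P with
  | zero => exact absurd rfl hP.1
  | some x y hP' =>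
    simp only [yc_some] at hyP
    have hx : A.valuation x = 1 := hP.2
    obtain ⟨hy, hv⟩ := val_addX_double_unit A.valuation h.a1 h.a3 h.a6 h.two h.ha4 hP'.1 hx hyP
    obtain ⟨h₃, he⟩ := two_nsmul_some hP' hy
    rw [he]
    exact ⟨Point.some_ne_zero _, by rw [xc_some]; exact hv⟩

/-- (B2c) doubling out of the middle region. -/
theorem B2_one_le_val_two_nsmul (h : Ctx2 A W) {P : W.toAffine.Point} (hP : P ≠ 0)
    (h2P : 2 • P ≠ 0) (hx : A.valuation (xc P) ≤ A.valuation W.a₄) :
    1 ≤ A.valuation (xc (2 • P)) := by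
  cases P with
  | zero => exact absurd rfl hP
  | some x y hP' =>
    simp only [xc_some] at hx
    have hy : y ≠ W.toAffine.negY x y := by
      intro h0
      apply h2P
      rw [two_nsmul]
      exact Point.add_self_of_Y_eq h0
    obtain ⟨h₃, he⟩ := two_nsmul_some hP' hy
    rw [he, xc_some]
    exact one_le_val_addX_double A.valuation h.a1 h.a3 h.a6 h.ha2 h.two.le h.ha40 h.ha4 hP'.1 hy hx

/-- (B2d) annulus difference lemma: same `v x`, same branch ⇒ the difference is `0` or has `v x ≥ 1`. -/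
theorem B2_annulus_sub (h : Ctx2 A W) {P Q : W.toAffine.Point} (hP : InAnn A P) (hQ : InAnn A Q)
    (hv : A.valuation (xc P) = A.valuation (xc Q)) (hb : SameBranch A P Q) :
    P - Q = 0 ∨ 1 ≤ A.valuation (xc (P - Q)) := by
  cases P with
  | zero => exact absurd rfl hP.1
  | some x' y' hP' =>
    cases Q with
    | zero => exact absurd rfl hQ.1
    | some x y hQ' =>
      have hx1 : A.valuation x < 1 := hQ.2.2
      have hxa : A.valuation W.a₄ < A.valuation x := hQ.2.1
      simp only [xc_some] at hv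
      unfold SameBranch at hb
      simp only [xc_some, yc_some] at hb
      rcases sub_some_some_annulus A.valuation h.a1 h.a3 h.a6 h.ha2 h.two hQ' hP' hx1 hxa hv hb with
        h0 | ⟨x₃, y₃, h₃, he, hv3⟩
      · left; exact h0
      · right
        rw [he, xc_some]
        exact hv3

end points

end DiffTwo
end Fermat.Agent.Cofix
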