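import Mathlib

/-!
# S13, package B3 (part 1): valuation algebra of the walk step, model independent

Same bookkeeping as `Unram/WalkStep` (section `ValuationAlgebra`), but the numerator `N` of the
`x`-only sum identity is abstract: only `v N = v xR * v xS` is used. This covers the model
`Y² + XY = X³ + a₂X² + a₄X` in residue characteristic `2` (where `N` is dominated by `b₂ x_R x_S`,
`b₂ = 1 + 4a₂` a unit).
-/

set_option autoImplicit false

namespace Fermat.Agent.Cofix

section ValuationAlgebra

variable {L Γ₀ : Type*} [Field L] [LinearOrderedCommGroupWithZero Γ₀] (v : Valuation L Γ₀)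

/-- in a linearly ordered group with zero: squares are injective. -/
lemma walk2_sq_eq_sq_imp {x y : Γ₀} (h : x ^ 2 = y ^ 2) : x = y :=
  (pow_left_inj₀ zero_le zero_le two_ne_zero).mp h

/-- the asymmetric core of the walk step: `v xR < v xS`. -/
theorem stepG_val_aux {b xR xS xp xm N : L}
    (hR : v b < v xR) (hS : v b < v xS) (hS1 : v xS < 1)
    (hp : v b < v xp) (hm : v b < v xm)
    (hlt : v xR < v xS)
    (hprod : xp * xm * (xR - xS) ^ 2 = (xR * xS - b) ^ 2)
    (hsum : (xp + xm) * (xR - xS) ^ 2 = N) (hN : v N = v xR * v xS) :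
    v xR * v xS ≠ v b ∧
    (v b < v xR * v xS →
      (v xp = v xR / v xS ∧ v xm = v xR * v xS) ∨ (v xm = v xR / v xS ∧ v xp = v xR * v xS)) ∧
    (v xR * v xS < v b →
      (v xp = v xR / v xS ∧ v xm = v b ^ 2 / (v xR * v xS)) ∨
        (v xm = v xR / v xS ∧ v xp = v b ^ 2 / (v xR * v xS))) := by
  -- positivity
  have hr0 : 0 < v xR := lt_of_le_of_lt zero_le hR
  have hc0 : 0 < v xS := lt_of_le_of_lt zero_le hS
  have hu0 : 0 < v xp := lt_of_le_of_lt zero_le hp
  have hw0 : 0 < v xm := lt_of_le_of_lt zero_le hm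
  have hrc0 : 0 < v xR * v xS := mul_pos hr0 hc0
  have hδ : v (xR - xS) = v xS := Valuation.map_sub_eq_of_lt_right v hlt
  have hsumv : v (xp + xm) * v xS ^ 2 = v xR * v xS := by
    have := congrArg v hsum
    rwa [map_mul, map_pow, hδ, hN] at this
  have hsumv' : v (xp + xm) = v xR / v xS := by
    rw [eq_div_iff hc0.ne']
    have : v (xp + xm) * v xS * v xS = v xR * v xS := by rw [mul_assoc, ← sq]; exact hsumv
    exact mul_right_cancel₀ hc0.ne' this
  have hprodv : v xp * v xm * v xS ^ 2 = v (xR * xS - b) ^ 2 := by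
    have := congrArg v hprod
    rwa [map_mul, map_mul, map_pow, map_pow, hδ] at this
  have hle_max : v xR / v xS ≤ max (v xp) (v xm) := by
    rw [← hsumv']; exact v.map_add xp xm
  refine ⟨?_, ?_, ?_⟩
  · -- `r c ≠ β`
    intro hEq
    have h1 : v (xR * xS - b) ≤ v b := by
      have := v.map_sub (xR * xS) b
      rwa [map_mul, hEq, max_self] at this
    have h2' : v xp * v xm * v xS ^ 2 ≤ v b ^ 2 := by
      rw [hprodv]; exact pow_le_pow_left₀ zero_le h1 2
    have h3 : v xR / v xS * v b < v xp * v xm := by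
      rcases le_total (v xp) (v xm) with h | h
      · rw [max_eq_right h] at hle_max
        calc v xR / v xS * v b ≤ v xm * v b := mul_le_mul_left hle_max _
          _ < v xm * v xp := mul_lt_mul_of_pos_left hp hw0
          _ = v xp * v xm := mul_comm _ _
      · rw [max_eq_left h] at hle_max
        calc v xR / v xS * v b ≤ v xp * v b := mul_le_mul_left hle_max _
          _ < v xp * v xm := mul_lt_mul_of_pos_left hm hu0
    have h4 : v xR / v xS * v b * v xS ^ 2 < v b ^ 2 :=
      lt_of_lt_of_le (mul_lt_mul_of_pos_right h3 (pow_pos hc0 2)) h2'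
    have h5 : v xR / v xS * v b * v xS ^ 2 = v b ^ 2 := by
      rw [← hEq]
      field_simp
    exact absurd h5 h4.ne
  · -- `β < r c`
    intro hgt
    have h1 : v (xR * xS - b) = v xR * v xS := by
      rw [Valuation.map_sub_eq_of_lt_left v (by rw [map_mul]; exact hgt), map_mul]
    rw [h1] at hprodv
    have huw : v xp * v xm = v xR ^ 2 := by
      have : v xp * v xm * v xS ^ 2 = v xR ^ 2 * v xS ^ 2 := by rw [hprodv, mul_pow]
      exact mul_right_cancel₀ (pow_pos hc0 2).ne' this
    rcases lt_trichotomy (v xp) (v xm) with h | h | h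
    · right
      have hmax : v (xp + xm) = v xm := Valuation.map_add_eq_of_lt_right v h
      rw [hsumv'] at hmax
      refine ⟨hmax.symm, ?_⟩
      have : v xp * v xm = v xR * v xS * v xm := by
        rw [huw, ← hmax]; field_simp
      exact mul_right_cancel₀ hw0.ne' this
    · exfalso
      rw [h, ← sq] at huw
      have hwr : v xm = v xR := walk2_sq_eq_sq_imp huw
      rw [h, max_self, hwr] at hle_max
      have : v xR / v xS * v xS ≤ v xR * v xS := mul_le_mul_left hle_max _
      rw [div_mul_cancel₀ _ hc0.ne'] at this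
      have h6 : v xR * v xS < v xR * 1 := mul_lt_mul_of_pos_left hS1 hr0
      rw [mul_one] at h6
      exact absurd this (not_le.mpr h6)
    · left
      have hmax : v (xp + xm) = v xp := Valuation.map_add_eq_of_lt_left v h
      rw [hsumv'] at hmax
      refine ⟨hmax.symm, ?_⟩
      have : v xp * v xm = v xp * (v xR * v xS) := by
        rw [huw, ← hmax]; field_simp
      exact mul_left_cancel₀ hu0.ne' this
  · -- `r c < β`
    intro hlt'
    have hb0 : 0 < v b := lt_of_le_of_lt zero_le hlt'
    have h1 : v (xR * xS - b) = v b := by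
      rw [Valuation.map_sub_eq_of_lt_right v (by rw [map_mul]; exact hlt')]
    rw [h1] at hprodv
    rcases lt_trichotomy (v xp) (v xm) with h | h | h
    · right
      have hmax : v (xp + xm) = v xm := Valuation.map_add_eq_of_lt_right v h
      rw [hsumv'] at hmax
      refine ⟨hmax.symm, ?_⟩
      rw [eq_div_iff hrc0.ne']
      have : v xp * (v xR * v xS) * (v xS * v xm) = v b ^ 2 * (v xS * v xm) := by
        rw [← hprodv, ← hmax]; field_simp
      exact mul_right_cancel₀ (mul_pos hc0 hw0).ne' this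
    · exfalso
      rw [h, ← sq, ← mul_pow] at hprodv
      have hwr : v xm * v xS = v b := walk2_sq_eq_sq_imp hprodv
      rw [h, max_self] at hle_max
      have : v xR / v xS * v xS ≤ v xm * v xS := mul_le_mul_left hle_max _
      rw [div_mul_cancel₀ _ hc0.ne', hwr] at this
      exact absurd this (not_le.mpr hR)
    · left
      have hmax : v (xp + xm) = v xp := Valuation.map_add_eq_of_lt_left v h
      rw [hsumv'] at hmax
      refine ⟨hmax.symm, ?_⟩
      rw [eq_div_iff hrc0.ne']
      have : v xm * (v xR * v xS) * (v xS * v xp) = v b ^ 2 * (v xS * v xp) := by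
        rw [← hprodv, ← hmax]; field_simp
      exact mul_right_cancel₀ (mul_pos hc0 hu0).ne' this

/-- in the situation of the walk step the two valuations are different. -/
theorem stepG_val_ne {b xR xS xp xm N : L}
    (hR : v b < v xR)
    (hp1 : v xp < 1) (hm1 : v xm < 1) (hne : xR ≠ xS)
    (hsum : (xp + xm) * (xR - xS) ^ 2 = N) (hN : v N = v xR * v xS) :
    v xR ≠ v xS := by
  intro hEq
  have hr0 : 0 < v xR := lt_of_le_of_lt zero_le hR
  have hδ0 : 0 < v (xR - xS) := by
    rw [Valuation.pos_iff]; exact sub_ne_zero.mpr hne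
  have hδ : v (xR - xS) ≤ v xR := by
    have := v.map_sub xR xS
    rwa [← hEq, max_self] at this
  have hsumv : v (xp + xm) * v (xR - xS) ^ 2 = v xR * v xS := by
    have := congrArg v hsum
    rwa [map_mul, map_pow, hN] at this
  have hlt1 : v (xp + xm) < 1 := lt_of_le_of_lt (v.map_add xp xm) (max_lt hp1 hm1)
  have h3 : v (xp + xm) * v (xR - xS) ^ 2 < v xR * v xS := by
    calc v (xp + xm) * v (xR - xS) ^ 2 < 1 * v (xR - xS) ^ 2 :=
          mul_lt_mul_of_pos_right hlt1 (pow_pos hδ0 2)
      _ = v (xR - xS) ^ 2 := one_mul _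
      _ ≤ v xR ^ 2 := pow_le_pow_left₀ zero_le hδ 2
      _ = v xR * v xS := by rw [sq, ← hEq]
  exact absurd hsumv h3.ne

/-- **the walk step** (valuation form, abstract sum numerator). -/
theorem stepG_val {b xR xS xp xm N : L}
    (hR : v b < v xR) (hR1 : v xR < 1) (hS : v b < v xS) (hS1 : v xS < 1)
    (hp : v b < v xp) (hp1 : v xp < 1) (hm : v b < v xm) (hm1 : v xm < 1) (hne : xR ≠ xS)
    (hprod : xp * xm * (xR - xS) ^ 2 = (xR * xS - b) ^ 2)
    (hsum : (xp + xm) * (xR - xS) ^ 2 = N) (hN : v N = v xR * v xS) :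
    v xR ≠ v xS ∧ v xR * v xS ≠ v b ∧
    (v b < v xR * v xS →
      (v xp = min (v xR) (v xS) / max (v xR) (v xS) ∧ v xm = v xR * v xS) ∨
        (v xm = min (v xR) (v xS) / max (v xR) (v xS) ∧ v xp = v xR * v xS)) ∧
    (v xR * v xS < v b →
      (v xp = min (v xR) (v xS) / max (v xR) (v xS) ∧ v xm = v b ^ 2 / (v xR * v xS)) ∨
        (v xm = min (v xR) (v xS) / max (v xR) (v xS) ∧ v xp = v b ^ 2 / (v xR * v xS))) := by
  have hne' := stepG_val_ne v hR hp1 hm1 hne hsum hN
  refine ⟨hne', ?_⟩
  rcases lt_or_gt_of_ne hne' with hlt | hgt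
  · have := stepG_val_aux v hR hS hS1 hp hm hlt hprod hsum hN
    rwa [min_eq_left hlt.le, max_eq_right hlt.le]
  · have hprod' : xp * xm * (xS - xR) ^ 2 = (xS * xR - b) ^ 2 := by
      have : (xS - xR) ^ 2 = (xR - xS) ^ 2 := by ring
      rw [this, hprod]; ring
    have hsum' : (xp + xm) * (xS - xR) ^ 2 = N := by
      have : (xS - xR) ^ 2 = (xR - xS) ^ 2 := by ring
      rw [this, hsum]
    have hN' : v N = v xS * v xR := by rw [hN, mul_comm]
    have := stepG_val_aux v hS hR hR1 hp hm hgt hprod' hsum' hN'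
    rwa [min_eq_right hgt.le, max_eq_left hgt.le, mul_comm (v xR) (v xS)]

/-- **the doubling step** (valuation form, abstract denominator `G` with `v G = (v x)²`). -/
theorem doubleG_val {b x x2 G : L}
    (hx : v b < v x) (h2x : v b < v x2)
    (hG : v G = v x ^ 2) (hdup : x2 * G = (x ^ 2 - b) ^ 2) :
    v x ^ 2 ≠ v b ∧ (v b < v x ^ 2 → v x2 = v x ^ 2) ∧
      (v x ^ 2 < v b → v x2 = v b ^ 2 / v x ^ 2) := by
  have hx0 : 0 < v x := lt_of_le_of_lt zero_le hx
  have hdupv : v x2 * v x ^ 2 = v (x ^ 2 - b) ^ 2 := by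
    have := congrArg v hdup
    rwa [map_mul, hG, map_pow] at this
  refine ⟨?_, ?_, ?_⟩
  · intro hEq
    have h1 : v (x ^ 2 - b) ≤ v b := by
      have := v.map_sub (x ^ 2) b
      rwa [map_pow, hEq, max_self] at this
    have h3 : v x2 * v x ^ 2 ≤ v b ^ 2 := by
      rw [hdupv]; exact pow_le_pow_left₀ zero_le h1 2
    have h5 : v b * v x ^ 2 < v x2 * v x ^ 2 := mul_lt_mul_of_pos_right h2x (pow_pos hx0 2)
    have h6 : v b ^ 2 < v x2 * v x ^ 2 := by
      calc v b ^ 2 = v b * v x ^ 2 := by rw [hEq, sq]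
        _ < v x2 * v x ^ 2 := h5
    exact absurd h3 (not_le.mpr h6)
  · intro hgt
    have h1 : v (x ^ 2 - b) = v x ^ 2 := by
      rw [Valuation.map_sub_eq_of_lt_left v (by rw [map_pow]; exact hgt), map_pow]
    rw [h1, sq (v x ^ 2)] at hdupv
    exact mul_right_cancel₀ (pow_pos hx0 2).ne' hdupv
  · intro hlt
    have h1 : v (x ^ 2 - b) = v b := by
      rw [Valuation.map_sub_eq_of_lt_right v (by rw [map_pow]; exact hlt)]
    rw [h1] at hdupv
    rw [eq_div_iff (pow_pos hx0 2).ne']
    exact hdupv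

/-- the sum numerator of the model `Y² + XY = X³ + a₂X² + a₄X` has valuation `v xR * v xS` in the
annulus (`c = b₂ = 1 + 4a₂` a unit, `t = 2` integral). -/
theorem walk2_val_sumNumerator {b c t xR xS : L} (hc : v c = 1) (ht : v t ≤ 1)
    (hR : v b < v xR) (hR1 : v xR < 1) (hS : v b < v xS) (hS1 : v xS < 1) :
    v (t * (xR * xS) * (xR + xS) + c * (xR * xS) + t * b * (xR + xS)) = v xR * v xS := by
  have hr0 : 0 < v xR := lt_of_le_of_lt zero_le hR
  have hc0 : 0 < v xS := lt_of_le_of_lt zero_le hS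
  have hrc0 : 0 < v xR * v xS := mul_pos hr0 hc0
  have hadd : v (xR + xS) ≤ max (v xR) (v xS) := v.map_add _ _
  have hadd1 : v (xR + xS) < 1 := lt_of_le_of_lt hadd (max_lt hR1 hS1)
  have hmain : v (c * (xR * xS)) = v xR * v xS := by rw [map_mul, hc, one_mul, map_mul]
  have h1 : v (t * (xR * xS) * (xR + xS)) < v xR * v xS := by
    rw [map_mul, map_mul, map_mul]
    calc v t * (v xR * v xS) * v (xR + xS) ≤ 1 * (v xR * v xS) * v (xR + xS) := by gcongr
      _ = (v xR * v xS) * v (xR + xS) := by rw [one_mul]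
      _ < (v xR * v xS) * 1 := mul_lt_mul_of_pos_left hadd1 hrc0
      _ = v xR * v xS := mul_one _
  have h3 : v (t * b * (xR + xS)) < v xR * v xS := by
    rw [map_mul, map_mul]
    have hb : v t * v b ≤ v b := by
      calc v t * v b ≤ 1 * v b := by gcongr
        _ = v b := one_mul _
    rcases le_total (v xR) (v xS) with h | h
    · rw [max_eq_right h] at hadd
      calc v t * v b * v (xR + xS) ≤ v b * v xS := mul_le_mul' hb hadd
        _ < v xR * v xS := mul_lt_mul_of_pos_right hR hc0
    · rw [max_eq_left h] at hadd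
      calc v t * v b * v (xR + xS) ≤ v b * v xR := mul_le_mul' hb hadd
        _ < v xS * v xR := mul_lt_mul_of_pos_right hS hr0
        _ = v xR * v xS := mul_comm _ _
  have h12 : v (t * (xR * xS) * (xR + xS) + c * (xR * xS)) = v xR * v xS := by
    rw [Valuation.map_add_eq_of_lt_right v (by rw [hmain]; exact h1), hmain]
  rw [Valuation.map_add_eq_of_lt_left v (by rw [h12]; exact h3), h12]

/-- the doubling denominator `4x³ + b₂x² + 4a₄x` has valuation `(v x)²` in the annulus. -/
theorem walk2_val_dupDenominator {b c t x : L} (hc : v c = 1) (ht : v t ≤ 1)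
    (hx : v b < v x) (hx1 : v x < 1) :
    v (t * x ^ 3 + c * x ^ 2 + t * b * x) = v x ^ 2 := by
  have hx0 : 0 < v x := lt_of_le_of_lt zero_le hx
  have hmain : v (c * x ^ 2) = v x ^ 2 := by rw [map_mul, hc, one_mul, map_pow]
  have h1 : v (t * x ^ 3) < v x ^ 2 := by
    rw [map_mul, map_pow]
    calc v t * v x ^ 3 ≤ 1 * v x ^ 3 := by gcongr
      _ = v x ^ 2 * v x := by rw [one_mul, pow_succ]
      _ < v x ^ 2 * 1 := mul_lt_mul_of_pos_left hx1 (pow_pos hx0 2)
      _ = v x ^ 2 := mul_one _
  have h3 : v (t * b * x) < v x ^ 2 := by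
    rw [map_mul, map_mul]
    calc v t * v b * v x ≤ 1 * v b * v x := by gcongr
      _ = v b * v x := by rw [one_mul]
      _ < v x * v x := mul_lt_mul_of_pos_right hx hx0
      _ = v x ^ 2 := (sq _).symm
  have h12 : v (t * x ^ 3 + c * x ^ 2) = v x ^ 2 := by
    rw [Valuation.map_add_eq_of_lt_right v (by rw [hmain]; exact h1), hmain]
  rw [Valuation.map_add_eq_of_lt_left v (by rw [h12]; exact h3), h12]

end ValuationAlgebra

end Fermat.Agent.Cofix
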