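import Mathlib
import Fermat.Agent.Unram.Setup
import Fermat.Agent.Unram.Annulus
import Fermat.Agent.Unram.WalkMain
import Fermat.Agent.Cofix.Walk2Val

/-!
# S13, package B3: the walk on the model `Y² + XY = X³ + a₂X² + a₄X` (any residue characteristic)

* `walk2_prod`, `walk2_sum`, `walk2_dup`: the `x`-only identities on points of a curve with
  `a₁ = 1`, `a₃ = a₆ = 0` (`b₂ = 1 + 4a₂`, `b₄ = 2a₄`, `b₆ = 0`, `b₈ = -a₄²`);
* `walk2Step_pt`, `walk2Double_pt`: the local steps in the annulus `v a₄ < v x < 1`, under the only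
  valuation hypothesis `v (1 + 4a₂) = 1` (automatic in residue characteristic `2`);
* `walk2`: if `p • P = 0` (`p` an odd prime) and all `k • P`, `1 ≤ k < p`, lie in the annulus, then
  `(v x_P) ^ p ∈ (v a₄) ^ (2ℤ)`.
-/

set_option autoImplicit false

namespace Fermat.Agent.Cofix

open WeierstrassCurve WeierstrassCurve.Affine WeierstrassCurve.Affine.Point
open Fermat.Agent.Unram

section XOnly

variable {L : Type*} [Field L] {W : WeierstrassCurve L}

lemma walk2_equation_iff (h₁ : W.a₁ = 1) (h₃ : W.a₃ = 0) (h₆ : W.a₆ = 0) (x y : L) :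
    W.toAffine.Equation x y ↔ y ^ 2 + x * y = x ^ 3 + W.a₂ * x ^ 2 + W.a₄ * x := by
  rw [Affine.equation_iff, h₁, h₃, h₆]
  constructor <;> intro h <;> linear_combination h

lemma walk2_negY (h₁ : W.a₁ = 1) (h₃ : W.a₃ = 0) (x y : L) :
    W.toAffine.negY x y = -y - x := by
  simp [Affine.negY, h₁, h₃]

lemma walk2_addX (h₁ : W.a₁ = 1) (x₁ x₂ ℓ : L) :
    W.toAffine.addX x₁ x₂ ℓ = ℓ ^ 2 + ℓ - W.a₂ - x₁ - x₂ := by
  simp [Affine.addX, h₁]

/-- the equation of the curve in terms of `xc`, `yc`. -/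
lemma walk2_equation (h₁ : W.a₁ = 1) (h₃ : W.a₃ = 0) (h₆ : W.a₆ = 0)
    {R : W.toAffine.Point} (hR : R ≠ 0) :
    yc R ^ 2 + xc R * yc R = xc R ^ 3 + W.a₂ * xc R ^ 2 + W.a₄ * xc R := by
  cases R with
  | zero => exact absurd rfl hR
  | some x y h => exact (walk2_equation_iff h₁ h₃ h₆ x y).mp h.left

lemma walk2_yc_neg (h₁ : W.a₁ = 1) (h₃ : W.a₃ = 0) (P : W.toAffine.Point) :
    yc (-P) = -yc P - xc P := by
  cases P with
  | zero =>
    change yc (0 : W.toAffine.Point) = -yc (0 : W.toAffine.Point) - xc (0 : W.toAffine.Point)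
    simp
  | some x y h =>
    rw [Point.neg_some, yc_some, yc_some, xc_some]
    exact walk2_negY h₁ h₃ x y

variable [DecidableEq L]

lemma walk2_xc_add (h₁ : W.a₁ = 1) {R S : W.toAffine.Point} (hR : R ≠ 0) (hS : S ≠ 0)
    (hne : xc R ≠ xc S) :
    R + S ≠ 0 ∧ xc (R + S) = ((yc R - yc S) / (xc R - xc S)) ^ 2 + (yc R - yc S) / (xc R - xc S)
      - W.a₂ - xc R - xc S := by
  cases R with
  | zero => exact absurd rfl hR
  | some x₁ y₁ h₁' =>
    cases S with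
    | zero => exact absurd rfl hS
    | some x₂ y₂ h₂' =>
      simp only [xc_some, yc_some] at hne ⊢
      rw [Point.add_of_X_ne hne]
      refine ⟨Point.some_ne_zero _, ?_⟩
      rw [xc_some, walk2_addX h₁, Affine.slope_of_X_ne hne]

lemma walk2_xc_sub (h₁ : W.a₁ = 1) (h₃ : W.a₃ = 0) {R S : W.toAffine.Point} (hR : R ≠ 0)
    (hS : S ≠ 0) (hne : xc R ≠ xc S) :
    R - S ≠ 0 ∧ xc (R - S) = ((yc R + yc S + xc S) / (xc R - xc S)) ^ 2
      + (yc R + yc S + xc S) / (xc R - xc S) - W.a₂ - xc R - xc S := by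
  have hS' : -S ≠ 0 := neg_ne_zero.mpr hS
  have hne' : xc R ≠ xc (-S) := by rwa [xc_neg]
  have := walk2_xc_add h₁ hR hS' hne'
  rw [sub_eq_add_neg]
  rw [xc_neg, walk2_yc_neg h₁ h₃] at this
  have e : yc R - (-yc S - xc S) = yc R + yc S + xc S := by ring
  rw [e] at this
  exact this

/-- **Prod**: `x(R+S) x(R-S) (x_R - x_S)² = (x_R x_S - a₄)²`. -/
theorem walk2_prod (h₁ : W.a₁ = 1) (h₃ : W.a₃ = 0) (h₆ : W.a₆ = 0) {R S : W.toAffine.Point}
    (hR : R ≠ 0) (hS : S ≠ 0) (hne : xc R ≠ xc S) :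
    xc (R + S) * xc (R - S) * (xc R - xc S) ^ 2 = (xc R * xc S - W.a₄) ^ 2 := by
  have hd : xc R - xc S ≠ 0 := sub_ne_zero.mpr hne
  have e₁ := walk2_equation h₁ h₃ h₆ hR
  have e₂ := walk2_equation h₁ h₃ h₆ hS
  have hp : xc (R + S) * (xc R - xc S) ^ 2 =
      (yc R - yc S) ^ 2 + (yc R - yc S) * (xc R - xc S)
        - (W.a₂ + xc R + xc S) * (xc R - xc S) ^ 2 := by
    rw [(walk2_xc_add h₁ hR hS hne).2]; field_simp; ring
  have hm : xc (R - S) * (xc R - xc S) ^ 2 =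
      (yc R + yc S + xc S) ^ 2 + (yc R + yc S + xc S) * (xc R - xc S)
        - (W.a₂ + xc R + xc S) * (xc R - xc S) ^ 2 := by
    rw [(walk2_xc_sub h₁ h₃ hR hS hne).2]; field_simp; ring
  have key : (xc (R + S) * (xc R - xc S) ^ 2) * (xc (R - S) * (xc R - xc S) ^ 2) =
      (xc R * xc S - W.a₄) ^ 2 * (xc R - xc S) ^ 2 := by
    rw [hp, hm]
    linear_combination
      ((yc R ^ 2 + xc R * yc R - (xc R ^ 3 + W.a₂ * xc R ^ 2 + W.a₄ * xc R))
        - (yc S ^ 2 + xc S * yc S - (xc S ^ 3 + W.a₂ * xc S ^ 2 + W.a₄ * xc S))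
        + 2 * ((xc R ^ 3 + W.a₂ * xc R ^ 2 + W.a₄ * xc R)
          - (xc S ^ 3 + W.a₂ * xc S ^ 2 + W.a₄ * xc S))
        - 2 * (W.a₂ + xc R + xc S) * (xc R - xc S) ^ 2 + (xc R - xc S) * xc S) * e₁
      + (-((yc R ^ 2 + xc R * yc R - (xc R ^ 3 + W.a₂ * xc R ^ 2 + W.a₄ * xc R))
        - (yc S ^ 2 + xc S * yc S - (xc S ^ 3 + W.a₂ * xc S ^ 2 + W.a₄ * xc S)))
        - 2 * ((xc R ^ 3 + W.a₂ * xc R ^ 2 + W.a₄ * xc R)
          - (xc S ^ 3 + W.a₂ * xc S ^ 2 + W.a₄ * xc S))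
        - 2 * (W.a₂ + xc R + xc S) * (xc R - xc S) ^ 2 - (xc R - xc S) * xc R) * e₂
  have hd2 : (xc R - xc S) ^ 2 ≠ 0 := pow_ne_zero 2 hd
  apply mul_right_cancel₀ hd2
  rw [← key]; ring

/-- **Sum**: `(x(R+S) + x(R-S)) (x_R - x_S)² = 2 x_R x_S (x_R + x_S) + b₂ x_R x_S + 2a₄ (x_R + x_S)`. -/
theorem walk2_sum (h₁ : W.a₁ = 1) (h₃ : W.a₃ = 0) (h₆ : W.a₆ = 0) {R S : W.toAffine.Point}
    (hR : R ≠ 0) (hS : S ≠ 0) (hne : xc R ≠ xc S) :
    (xc (R + S) + xc (R - S)) * (xc R - xc S) ^ 2 =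
      2 * (xc R * xc S) * (xc R + xc S) + (1 + 4 * W.a₂) * (xc R * xc S)
        + 2 * W.a₄ * (xc R + xc S) := by
  have hd : xc R - xc S ≠ 0 := sub_ne_zero.mpr hne
  have e₁ := walk2_equation h₁ h₃ h₆ hR
  have e₂ := walk2_equation h₁ h₃ h₆ hS
  have hp : xc (R + S) * (xc R - xc S) ^ 2 =
      (yc R - yc S) ^ 2 + (yc R - yc S) * (xc R - xc S)
        - (W.a₂ + xc R + xc S) * (xc R - xc S) ^ 2 := by
    rw [(walk2_xc_add h₁ hR hS hne).2]; field_simp; ring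
  have hm : xc (R - S) * (xc R - xc S) ^ 2 =
      (yc R + yc S + xc S) ^ 2 + (yc R + yc S + xc S) * (xc R - xc S)
        - (W.a₂ + xc R + xc S) * (xc R - xc S) ^ 2 := by
    rw [(walk2_xc_sub h₁ h₃ hR hS hne).2]; field_simp; ring
  rw [add_mul, hp, hm]
  linear_combination 2 * e₁ + 2 * e₂

/-- **Dup**: `x(2R) (2y_R + x_R)² = (x_R² - a₄)²` when `2y_R + x_R ≠ 0`. -/
theorem walk2_dup (h₁ : W.a₁ = 1) (h₃ : W.a₃ = 0) (h₆ : W.a₆ = 0) {R : W.toAffine.Point}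
    (hR : R ≠ 0) (hy : 2 * yc R + xc R ≠ 0) :
    (2 : ℕ) • R ≠ 0 ∧ xc ((2 : ℕ) • R) * (2 * yc R + xc R) ^ 2 = (xc R ^ 2 - W.a₄) ^ 2 := by
  have e := walk2_equation h₁ h₃ h₆ hR
  cases R with
  | zero => exact absurd rfl hR
  | some x y h =>
    simp only [xc_some, yc_some] at hy e ⊢
    have hyne : y ≠ W.toAffine.negY x y := by
      rw [walk2_negY h₁ h₃]
      intro h'
      apply hy
      linear_combination h'
    rw [two_nsmul, Point.add_self_of_Y_ne hyne]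
    refine ⟨Point.some_ne_zero _, ?_⟩
    rw [xc_some, walk2_addX h₁, Affine.slope_of_Y_ne rfl hyne, walk2_negY h₁ h₃, h₁]
    have hden : y - (-y - x) = 2 * y + x := by ring
    rw [hden]
    have hsl : ((3 * x ^ 2 + 2 * W.a₂ * x + W.a₄ - 1 * y) / (2 * y + x)) ^ 2 * (2 * y + x) ^ 2 =
        (3 * x ^ 2 + 2 * W.a₂ * x + W.a₄ - y) ^ 2 := by
      field_simp
    have hsl1 : ((3 * x ^ 2 + 2 * W.a₂ * x + W.a₄ - 1 * y) / (2 * y + x)) * (2 * y + x) ^ 2 =
        (3 * x ^ 2 + 2 * W.a₂ * x + W.a₄ - y) * (2 * y + x) := by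
      field_simp
    linear_combination hsl + hsl1 + (-(1 + 4 * W.a₂ + 8 * x)) * e

omit [DecidableEq L] in
/-- `(2y + x)² = 4x³ + b₂x² + 4a₄x`. -/
lemma walk2_sq_two_yc_add (h₁ : W.a₁ = 1) (h₃ : W.a₃ = 0) (h₆ : W.a₆ = 0)
    {R : W.toAffine.Point} (hR : R ≠ 0) :
    (2 * yc R + xc R) ^ 2 = 4 * xc R ^ 3 + (1 + 4 * W.a₂) * xc R ^ 2 + 4 * W.a₄ * xc R := by
  have e := walk2_equation h₁ h₃ h₆ hR
  linear_combination 4 * e

end XOnly

/-! ### The walk step on points -/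

section Points

variable {L : Type*} [Field L] [DecidableEq L] {W : WeierstrassCurve L} {A : ValuationSubring L}

omit [DecidableEq L] in
lemma walk2_val_ofNat_le (A : ValuationSubring L) (n : ℕ) [n.AtLeastTwo] :
    A.valuation (OfNat.ofNat n : L) ≤ 1 :=
  (A.valuation_le_one_iff _).mpr (ofNat_mem A n)

/-- **the walk step** on the model `Y² + XY = X³ + a₂X² + a₄X`. -/
theorem walk2Step (h₁ : W.a₁ = 1) (h₃ : W.a₃ = 0) (h₆ : W.a₆ = 0)
    (hb2 : A.valuation (1 + 4 * W.a₂) = 1) {R S : W.toAffine.Point}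
    (hR : InAnn A R) (hS : InAnn A S) (hadd : InAnn A (R + S))
    (hsub : InAnn A (R - S)) (hne : xc R ≠ xc S) :
    A.valuation (xc R) ≠ A.valuation (xc S) ∧
    A.valuation (xc R) * A.valuation (xc S) ≠ A.valuation W.a₄ ∧
    (A.valuation W.a₄ < A.valuation (xc R) * A.valuation (xc S) →
      (A.valuation (xc (R + S)) =
          min (A.valuation (xc R)) (A.valuation (xc S)) /
            max (A.valuation (xc R)) (A.valuation (xc S)) ∧
        A.valuation (xc (R - S)) = A.valuation (xc R) * A.valuation (xc S)) ∨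
      (A.valuation (xc (R - S)) =
          min (A.valuation (xc R)) (A.valuation (xc S)) /
            max (A.valuation (xc R)) (A.valuation (xc S)) ∧
        A.valuation (xc (R + S)) = A.valuation (xc R) * A.valuation (xc S))) ∧
    (A.valuation (xc R) * A.valuation (xc S) < A.valuation W.a₄ →
      (A.valuation (xc (R + S)) =
          min (A.valuation (xc R)) (A.valuation (xc S)) /
            max (A.valuation (xc R)) (A.valuation (xc S)) ∧
        A.valuation (xc (R - S)) =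
          A.valuation W.a₄ ^ 2 / (A.valuation (xc R) * A.valuation (xc S))) ∨
      (A.valuation (xc (R - S)) =
          min (A.valuation (xc R)) (A.valuation (xc S)) /
            max (A.valuation (xc R)) (A.valuation (xc S)) ∧
        A.valuation (xc (R + S)) =
          A.valuation W.a₄ ^ 2 / (A.valuation (xc R) * A.valuation (xc S)))) :=
  stepG_val A.valuation hR.2.1 hR.2.2 hS.2.1 hS.2.2 hadd.2.1 hadd.2.2
    hsub.2.1 hsub.2.2 hne (walk2_prod h₁ h₃ h₆ hR.1 hS.1 hne) (walk2_sum h₁ h₃ h₆ hR.1 hS.1 hne)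
    (walk2_val_sumNumerator A.valuation hb2 (walk2_val_ofNat_le A 2) hR.2.1 hR.2.2 hS.2.1 hS.2.2)

/-- the walk step in exactly the shape consumed by `Unram.walk_of_steps`. -/
theorem walk2Step_pt (h₁ : W.a₁ = 1) (h₃ : W.a₃ = 0) (h₆ : W.a₆ = 0)
    (hb2 : A.valuation (1 + 4 * W.a₂) = 1) :
    ∀ R S : W.toAffine.Point, InAnn A R → InAnn A S → InAnn A (R + S) →
      InAnn A (R - S) → xc R ≠ xc S →
      ∃ X Y : A.ValueGroup,
        (X = A.valuation (xc R) / A.valuation (xc S) ∨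
          X = A.valuation (xc S) / A.valuation (xc R)) ∧
        (Y = A.valuation (xc R) * A.valuation (xc S) ∨
          Y = A.valuation W.a₄ ^ 2 / (A.valuation (xc R) * A.valuation (xc S))) ∧
        ((A.valuation (xc (R + S)) = X ∧ A.valuation (xc (R - S)) = Y) ∨
          (A.valuation (xc (R + S)) = Y ∧ A.valuation (xc (R - S)) = X)) := by
  intro R S hR hS hadd hsub hne
  obtain ⟨-, h2, h3, h4⟩ := walk2Step h₁ h₃ h₆ hb2 hR hS hadd hsub hne
  have hX : min (A.valuation (xc R)) (A.valuation (xc S)) /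
        max (A.valuation (xc R)) (A.valuation (xc S)) =
        A.valuation (xc R) / A.valuation (xc S) ∨
      min (A.valuation (xc R)) (A.valuation (xc S)) /
        max (A.valuation (xc R)) (A.valuation (xc S)) =
        A.valuation (xc S) / A.valuation (xc R) := by
    rcases le_total (A.valuation (xc R)) (A.valuation (xc S)) with hle | hle
    · left; rw [min_eq_left hle, max_eq_right hle]
    · right; rw [min_eq_right hle, max_eq_left hle]
  rcases lt_or_gt_of_ne h2 with hlt | hgt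
  · rcases h4 hlt with ⟨e1, e2⟩ | ⟨e1, e2⟩
    · exact ⟨_, _, hX, Or.inr rfl, Or.inl ⟨e1, e2⟩⟩
    · exact ⟨_, _, hX, Or.inr rfl, Or.inr ⟨e2, e1⟩⟩
  · rcases h3 hgt with ⟨e1, e2⟩ | ⟨e1, e2⟩
    · exact ⟨_, _, hX, Or.inl rfl, Or.inl ⟨e1, e2⟩⟩
    · exact ⟨_, _, hX, Or.inl rfl, Or.inr ⟨e2, e1⟩⟩

omit [DecidableEq L] in
/-- in the annulus `v (2y + x)² = (v x)²`; in particular `2y + x ≠ 0`. -/
lemma walk2_val_sq_two_yc_add (h₁ : W.a₁ = 1) (h₃ : W.a₃ = 0) (h₆ : W.a₆ = 0)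
    (hb2 : A.valuation (1 + 4 * W.a₂) = 1) {P : W.toAffine.Point} (hP : InAnn A P) :
    A.valuation ((2 * yc P + xc P) ^ 2) = A.valuation (xc P) ^ 2 := by
  rw [walk2_sq_two_yc_add h₁ h₃ h₆ hP.1]
  exact walk2_val_dupDenominator A.valuation hb2 (walk2_val_ofNat_le A 4) hP.2.1 hP.2.2

omit [DecidableEq L] in
lemma walk2_two_yc_add_ne_zero (h₁ : W.a₁ = 1) (h₃ : W.a₃ = 0) (h₆ : W.a₆ = 0)
    (hb2 : A.valuation (1 + 4 * W.a₂) = 1) {P : W.toAffine.Point} (hP : InAnn A P) :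
    2 * yc P + xc P ≠ 0 := by
  intro h0
  have h := walk2_val_sq_two_yc_add h₁ h₃ h₆ hb2 hP
  rw [h0] at h
  have hx0 : 0 < A.valuation (xc P) := lt_of_le_of_lt zero_le hP.2.1
  simp only [ne_eq, OfNat.ofNat_ne_zero, not_false_eq_true, zero_pow, _root_.map_zero] at h
  exact (pow_pos hx0 2).ne h

/-- **the doubling step** on the model `Y² + XY = X³ + a₂X² + a₄X`. -/
theorem walk2Double (h₁ : W.a₁ = 1) (h₃ : W.a₃ = 0) (h₆ : W.a₆ = 0)
    (hb2 : A.valuation (1 + 4 * W.a₂) = 1) {P : W.toAffine.Point}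
    (hP : InAnn A P) (h2P : InAnn A ((2 : ℕ) • P)) :
    A.valuation (xc P) ^ 2 ≠ A.valuation W.a₄ ∧
    (A.valuation W.a₄ < A.valuation (xc P) ^ 2 →
      A.valuation (xc ((2 : ℕ) • P)) = A.valuation (xc P) ^ 2) ∧
    (A.valuation (xc P) ^ 2 < A.valuation W.a₄ →
      A.valuation (xc ((2 : ℕ) • P)) = A.valuation W.a₄ ^ 2 / A.valuation (xc P) ^ 2) :=
  doubleG_val A.valuation hP.2.1 h2P.2.1 (walk2_val_sq_two_yc_add h₁ h₃ h₆ hb2 hP)
    (walk2_dup h₁ h₃ h₆ hP.1 (walk2_two_yc_add_ne_zero h₁ h₃ h₆ hb2 hP)).2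

/-- the doubling step in exactly the shape consumed by `Unram.walk_of_steps`. -/
theorem walk2Double_pt (h₁ : W.a₁ = 1) (h₃ : W.a₃ = 0) (h₆ : W.a₆ = 0)
    (hb2 : A.valuation (1 + 4 * W.a₂) = 1) :
    ∀ P : W.toAffine.Point, InAnn A P → InAnn A (2 • P) →
      A.valuation (xc (2 • P)) = A.valuation (xc P) ^ 2 ∨
        A.valuation (xc (2 • P)) = A.valuation W.a₄ ^ 2 / A.valuation (xc P) ^ 2 := by
  intro P hP h2P
  obtain ⟨h1, h2, h3⟩ := walk2Double h₁ h₃ h₆ hb2 hP h2P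
  rcases lt_or_gt_of_ne h1 with hlt | hgt
  · exact Or.inr (h3 hlt)
  · exact Or.inl (h2 hgt)

/-- **(W) on the model `Y² + XY = X³ + a₂X² + a₄X`**: if `p • P = 0` (`p` an odd prime) and all
`k • P`, `1 ≤ k < p`, lie in the annulus `v a₄ < v x < 1`, then `(v x_P) ^ p ∈ (v a₄) ^ (2 ℤ)`.
The only valuation hypothesis on the model is that `b₂ = 1 + 4a₂` is a unit. -/
theorem walk2 (h₁ : W.a₁ = 1) (h₃ : W.a₃ = 0) (h₆ : W.a₆ = 0)
    (hb2 : A.valuation (1 + 4 * W.a₂) = 1) (ha40 : W.a₄ ≠ 0) (ha4 : A.valuation W.a₄ < 1)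
    {p : ℕ} (hp : p.Prime) (hp2 : p ≠ 2) {P : W.toAffine.Point} (hpP : p • P = 0)
    (hann : ∀ k, 1 ≤ k → k < p →
      A.valuation W.a₄ < A.valuation (xc (k • P)) ∧ A.valuation (xc (k • P)) < 1) :
    ∃ j : ℤ, A.valuation (xc P) ^ p = A.valuation W.a₄ ^ (2 * j) :=
  walk_of_steps A ha40 ha4 (walk2Step_pt h₁ h₃ h₆ hb2) (walk2Double_pt h₁ h₃ h₆ hb2) hp hp2 hpP
    (fun k hk hkp => (inAnn_iff A _).mpr (hann k hk hkp))

end Points

end Fermat.Agent.Cofix
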