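/-
S13, package B3 part 2 (helper8): on the model `Y² + XY = X³ + a₂X² + a₄X` over `ℚ`, multiplicative at `2`
with `v₂(a₄) = k` prime to `p`, there is no Galois-fixed (i.e. rational) point of order `p ≥ 5`, PROVIDED the
kernel of reduction `E₁` at `2` has no `p`-torsion (hypothesis `tors`, supplied by package B1).

* `walk2_one_le_val_two_nsmul` : deep points (`v x ≤ v a₄`) double to points with `v x ≥ 1`;
* `walk2_inE1_sub_of_same_red` : two unit-`x` points with the same reduction differ by an element of `E₁`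
  (residue characteristic `2`);
* `walk2_unit_rational_false` : no rational `p`-torsion point with unit `x`;
* `walk2_no_fixed_torsion` : the main theorem.
-/
import Fermat.Agent.Cofix.Walk2
import Fermat.Agent.Unram.Inertia

set_option autoImplicit false

namespace Fermat.Agent.Cofix

open WeierstrassCurve WeierstrassCurve.Affine WeierstrassCurve.Affine.Point
open Fermat.Agent.Unram

section ValuationAlgebra2

variable {L Γ₀ : Type*} [Field L] [LinearOrderedCommGroupWithZero Γ₀] (v : Valuation L Γ₀)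

/-- deep case: `v x ≤ v b < 1` forces `v x(2P) ≥ 1`. -/
theorem walk2_val_deep {b c t x x2 : L} (hc : v c = 1) (ht : v t ≤ 1) (hb0 : b ≠ 0)
    (hb1 : v b < 1) (hx : v x ≤ v b)
    (hG0 : t * x ^ 3 + c * x ^ 2 + t * b * x ≠ 0)
    (hdup : x2 * (t * x ^ 3 + c * x ^ 2 + t * b * x) = (x ^ 2 - b) ^ 2) : 1 ≤ v x2 := by
  have hb : 0 < v b := v.pos_iff.mpr hb0
  have hbb : v b ^ 2 < v b := by
    calc v b ^ 2 = v b * v b := sq _
      _ < v b * 1 := mul_lt_mul_of_pos_left hb1 hb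
      _ = v b := mul_one _
  have hxb : v x ^ 2 ≤ v b ^ 2 := pow_le_pow_left₀ zero_le hx 2
  have h1 : v (x ^ 2) < v b := by rw [map_pow]; exact lt_of_le_of_lt hxb hbb
  have h2 : v (x ^ 2 - b) = v b := Valuation.map_sub_eq_of_lt_right v h1
  have hx1 : v x ≤ 1 := hx.trans hb1.le
  have t1 : v (t * x ^ 3) ≤ v b ^ 2 := by
    rw [map_mul, map_pow]
    calc v t * v x ^ 3 ≤ 1 * v x ^ 3 := by gcongr
      _ = v x ^ 2 * v x := by rw [one_mul, pow_succ]
      _ ≤ v x ^ 2 * 1 := by gcongr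
      _ = v x ^ 2 := mul_one _
      _ ≤ v b ^ 2 := hxb
  have t2 : v (c * x ^ 2) ≤ v b ^ 2 := by
    rw [map_mul, hc, one_mul, map_pow]; exact hxb
  have t3 : v (t * b * x) ≤ v b ^ 2 := by
    rw [map_mul, map_mul]
    calc v t * v b * v x ≤ 1 * v b * v b := by gcongr
      _ = v b ^ 2 := by rw [one_mul, sq]
  have hG : v (t * x ^ 3 + c * x ^ 2 + t * b * x) ≤ v b ^ 2 :=
    (v.map_add _ _).trans (max_le ((v.map_add _ _).trans (max_le t1 t2)) t3)
  have hGpos : 0 < v (t * x ^ 3 + c * x ^ 2 + t * b * x) := v.pos_iff.mpr hG0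
  have hdupv : v x2 * v (t * x ^ 3 + c * x ^ 2 + t * b * x) = v b ^ 2 := by
    have := congrArg v hdup
    rwa [map_mul, map_pow, h2] at this
  by_contra hlt
  rw [not_le] at hlt
  have : v x2 * v (t * x ^ 3 + c * x ^ 2 + t * b * x) < v b ^ 2 := by
    calc v x2 * v (t * x ^ 3 + c * x ^ 2 + t * b * x)
        < 1 * v (t * x ^ 3 + c * x ^ 2 + t * b * x) := mul_lt_mul_of_pos_right hlt hGpos
      _ = v (t * x ^ 3 + c * x ^ 2 + t * b * x) := one_mul _
      _ ≤ v b ^ 2 := hG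
  rw [hdupv] at this
  exact lt_irrefl _ this

/-- on an integral model, a point with integral `x` has integral `y`. -/
theorem walk2_val_y_le_one {a b x y : L} (hx : v x ≤ 1) (ha : v a ≤ 1) (hb : v b ≤ 1)
    (e : y ^ 2 + x * y = x ^ 3 + a * x ^ 2 + b * x) : v y ≤ 1 := by
  by_contra hlt
  rw [not_le] at hlt
  have hy0 : 0 < v y := lt_trans zero_lt_one hlt
  have h1 : v (x * y) < v (y ^ 2) := by
    rw [map_mul, map_pow, sq]
    calc v x * v y ≤ 1 * v y := by gcongr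
      _ = v y := one_mul _
      _ = 1 * v y := (one_mul _).symm
      _ < v y * v y := mul_lt_mul_of_pos_right hlt hy0
  have h2 : v (y ^ 2 + x * y) = v y ^ 2 := by
    rw [Valuation.map_add_eq_of_lt_left v h1, map_pow]
  have h3 : 1 < v y ^ 2 := by
    calc (1 : Γ₀) < v y := hlt
      _ = v y * 1 := (mul_one _).symm
      _ ≤ v y * v y := by gcongr
      _ = v y ^ 2 := (sq _).symm
  have r1 : v (x ^ 3) ≤ 1 := by rw [map_pow]; exact pow_le_one₀ zero_le hx
  have r2 : v (a * x ^ 2) ≤ 1 := by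
    rw [map_mul, map_pow]; exact mul_le_one₀ ha zero_le (pow_le_one₀ zero_le hx)
  have r3 : v (b * x) ≤ 1 := by
    rw [map_mul]; exact mul_le_one₀ hb zero_le hx
  have hR : v (x ^ 3 + a * x ^ 2 + b * x) ≤ 1 :=
    (v.map_add _ _).trans (max_le ((v.map_add _ _).trans (max_le r1 r2)) r3)
  rw [← e, h2] at hR
  exact absurd hR (not_le.mpr h3)

/-- a slope of valuation `> 1` dominates the `x`-coordinate of the sum. -/
theorem walk2_val_slope {l a x₁ x₂ : L} (hl : 1 < v l) (ha : v a ≤ 1) (h1 : v x₁ ≤ 1)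
    (h2 : v x₂ ≤ 1) : 1 < v (l ^ 2 + l - a - x₁ - x₂) := by
  have hl0 : 0 < v l := lt_trans zero_lt_one hl
  have hll : v l < v (l ^ 2) := by
    rw [map_pow, sq]
    calc v l = 1 * v l := (one_mul _).symm
      _ < v l * v l := mul_lt_mul_of_pos_right hl hl0
  have h1l : 1 < v (l ^ 2) := hl.trans hll
  have e1 : v (l ^ 2 + l) = v (l ^ 2) := Valuation.map_add_eq_of_lt_left v hll
  have e2 : v (l ^ 2 + l - a) = v (l ^ 2) := by
    rw [Valuation.map_sub_eq_of_lt_left v (by rw [e1]; exact lt_of_le_of_lt ha h1l), e1]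
  have e3 : v (l ^ 2 + l - a - x₁) = v (l ^ 2) := by
    rw [Valuation.map_sub_eq_of_lt_left v (by rw [e2]; exact lt_of_le_of_lt h1 h1l), e2]
  have e4 : v (l ^ 2 + l - a - x₁ - x₂) = v (l ^ 2) := by
    rw [Valuation.map_sub_eq_of_lt_left v (by rw [e3]; exact lt_of_le_of_lt h2 h1l), e3]
  rw [e4]; exact h1l

end ValuationAlgebra2

section Points2

variable {L : Type*} [Field L] [DecidableEq L] {W : WeierstrassCurve L} {A : ValuationSubring L}

/-- if `2y + x = 0` then `P = -P`. -/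
lemma walk2_neg_eq_self_of (h₁ : W.a₁ = 1) (h₃ : W.a₃ = 0) {P : W.toAffine.Point}
    (hP0 : P ≠ 0) (h : 2 * yc P + xc P = 0) : -P = P := by
  have hnP : -P ≠ 0 := neg_ne_zero.mpr hP0
  refine point_ext hnP hP0 (xc_neg P) ?_
  rw [walk2_yc_neg h₁ h₃]
  linear_combination -h

/-- if `2y + x = 0` then `2 • P = 0`. -/
lemma walk2_two_nsmul_eq_zero_of (h₁ : W.a₁ = 1) (h₃ : W.a₃ = 0) {P : W.toAffine.Point}
    (hP0 : P ≠ 0) (h : 2 * yc P + xc P = 0) : (2 : ℕ) • P = 0 := by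
  have hneg := walk2_neg_eq_self_of h₁ h₃ hP0 h
  rw [two_nsmul]
  nth_rewrite 1 [← hneg]
  exact neg_add_cancel P

/-- **deep points**: `v x ≤ v a₄ < 1` and `2 • P ≠ 0` force `v x(2P) ≥ 1`. -/
theorem walk2_one_le_val_two_nsmul (h₁ : W.a₁ = 1) (h₃ : W.a₃ = 0) (h₆ : W.a₆ = 0)
    (hb2 : A.valuation (1 + 4 * W.a₂) = 1) (ha40 : W.a₄ ≠ 0) (ha4 : A.valuation W.a₄ < 1)
    {P : W.toAffine.Point} (hP0 : P ≠ 0) (h2P : (2 : ℕ) • P ≠ 0)
    (hdeep : A.valuation (xc P) ≤ A.valuation W.a₄) :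
    1 ≤ A.valuation (xc ((2 : ℕ) • P)) := by
  have hy : 2 * yc P + xc P ≠ 0 := fun h => h2P (walk2_two_nsmul_eq_zero_of h₁ h₃ hP0 h)
  obtain ⟨_, hdup⟩ := walk2_dup h₁ h₃ h₆ hP0 hy
  have hsq := walk2_sq_two_yc_add h₁ h₃ h₆ hP0
  rw [hsq] at hdup
  have hG0 : 4 * xc P ^ 3 + (1 + 4 * W.a₂) * xc P ^ 2 + 4 * W.a₄ * xc P ≠ 0 := by
    rw [← hsq]; exact pow_ne_zero 2 hy
  exact walk2_val_deep A.valuation hb2 (walk2_val_ofNat_le A 4) ha40 ha4 hdeep hG0 hdup

/-- **same reduction ⇒ difference in `E₁`** for unit-`x` points, residue characteristic `2`. -/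
theorem walk2_inE1_sub_of_same_red (h₁ : W.a₁ = 1) (h₃ : W.a₃ = 0) (h₆ : W.a₆ = 0)
    (h2 : A.valuation (2 : L) < 1) (ha2 : A.valuation W.a₂ ≤ 1) (ha4 : A.valuation W.a₄ ≤ 1)
    {R S : W.toAffine.Point} (hR0 : R ≠ 0) (hS0 : S ≠ 0) (hxR : A.valuation (xc R) = 1)
    (hx : A.valuation (xc R - xc S) < 1) (hy : A.valuation (yc R - yc S) < 1) :
    InE1 A (R - S) := by
  have e₁ := walk2_equation h₁ h₃ h₆ hR0
  have e₂ := walk2_equation h₁ h₃ h₆ hS0
  have hxS : A.valuation (xc S) = 1 := by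
    have : xc S = xc R - (xc R - xc S) := by ring
    rw [this, Valuation.map_sub_eq_of_lt_left A.valuation (by rw [hxR]; exact hx), hxR]
  have hyS : A.valuation (yc S) ≤ 1 := walk2_val_y_le_one A.valuation hxS.le ha2 ha4 e₂
  have h2y : A.valuation (2 * yc S) < 1 := by
    rw [map_mul]
    exact mul_lt_one_of_lt_of_le h2 hyS
  have hN : A.valuation (yc R + yc S + xc S) = 1 := by
    have : yc R + yc S + xc S = xc S + (2 * yc S + (yc R - yc S)) := by ring
    rw [this, Valuation.map_add_eq_of_lt_left A.valuation, hxS]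
    rw [hxS]
    exact lt_of_le_of_lt (A.valuation.map_add _ _) (max_lt h2y hy)
  by_cases hne : xc R = xc S
  · have hprod : (yc R - yc S) * (yc R + yc S + xc S) = 0 := by
      rw [hne] at e₁
      linear_combination e₁ - e₂
    rcases mul_eq_zero.mp hprod with h | h
    · left
      have : R = S := point_ext hR0 hS0 hne (sub_eq_zero.mp h)
      rw [this, sub_self]
    · exfalso
      rw [h, _root_.map_zero] at hN
      exact zero_ne_one hN
  · obtain ⟨_, hxsub⟩ := walk2_xc_sub h₁ h₃ hR0 hS0 hne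
    right
    rw [hxsub]
    have hd0 : xc R - xc S ≠ 0 := sub_ne_zero.mpr hne
    have hdpos : 0 < A.valuation (xc R - xc S) := A.valuation.pos_iff.mpr hd0
    have hl : 1 < A.valuation ((yc R + yc S + xc S) / (xc R - xc S)) := by
      rw [map_div₀, hN, one_div]
      exact (one_lt_inv₀ hdpos).mpr hx
    exact walk2_val_slope A.valuation hl ha2 hxR.le hxS.le

end Points2

/-! ### Rational numbers modulo `2` -/

section Rational

variable {L : Type*} [Field L] [CharZero L] (A : ValuationSubring L)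

omit [CharZero L] in
lemma walk2_val_two_lt_one (hA : A.LiesOverPrime 2) : A.valuation (2 : L) < 1 := by
  simpa using valuation_prime_lt_one A hA

omit [CharZero L] in
lemma walk2_val_intCast_lt_one_of_even (h2 : A.valuation (2 : L) < 1) {n : ℤ}
    (hn : (2 : ℤ) ∣ n) : A.valuation (n : L) < 1 := by
  obtain ⟨k, rfl⟩ := hn
  push_cast
  rw [map_mul]
  exact mul_lt_one_of_lt_of_le h2 (valuation_intCast_le_one A k)

/-- a `2`-integral rational number is `≡ 0` or `≡ 1` modulo the maximal ideal. -/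
lemma walk2_rat_mod_two (hA : A.LiesOverPrime 2) (r : ℚ) (hr : A.valuation (r : L) ≤ 1) :
    A.valuation (r : L) < 1 ∨ A.valuation ((r : L) - 1) < 1 := by
  have h2 := walk2_val_two_lt_one A hA
  have hden0 : (r.den : L) ≠ 0 := Nat.cast_ne_zero.mpr r.den_ne_zero
  have hr' : (r : L) = (r.num : L) / (r.den : L) := Rat.cast_def r
  have hdodd : ¬ (2 : ℤ) ∣ (r.den : ℤ) := by
    intro hd
    have hnodd : ¬ ((2 : ℕ) : ℤ) ∣ r.num := by
      intro hn
      have h1 : 2 ∣ r.num.natAbs := Int.natCast_dvd.mp hn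
      have h2' : 2 ∣ r.den := by exact_mod_cast hd
      have h3 : 2 ∣ Nat.gcd r.num.natAbs r.den := Nat.dvd_gcd h1 h2'
      have h4 : Nat.gcd r.num.natAbs r.den = 1 := r.reduced
      rw [h4] at h3
      omega
    have hvn : A.valuation (r.num : L) = 1 :=
      valuation_intCast_eq_one_of_not_dvd A Nat.prime_two hA hnodd
    have hvd : A.valuation (r.den : L) < 1 := by
      have := walk2_val_intCast_lt_one_of_even A h2 hd
      simpa using this
    have hvd0 : 0 < A.valuation (r.den : L) := A.valuation.pos_iff.mpr hden0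
    rw [hr', map_div₀, hvn, one_div] at hr
    exact absurd hr (not_le.mpr ((one_lt_inv₀ hvd0).mpr hvd))
  have hvd : A.valuation (r.den : L) = 1 := by
    have hdodd' : ¬ ((2 : ℕ) : ℤ) ∣ (r.den : ℤ) := by simpa using hdodd
    have := valuation_intCast_eq_one_of_not_dvd A Nat.prime_two hA hdodd'
    simpa using this
  by_cases hn : (2 : ℤ) ∣ r.num
  · left
    rw [hr', map_div₀, hvd, div_one]
    exact walk2_val_intCast_lt_one_of_even A h2 hn
  · right
    have e : (r : L) - 1 = ((r.num - r.den : ℤ) : L) / (r.den : L) := by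
      rw [hr']; push_cast; field_simp
    rw [e, map_div₀, hvd, div_one]
    apply walk2_val_intCast_lt_one_of_even A h2
    omega

end Rational

/-! ### The unit case -/

section Unit

lemma walk2_nsmul_ne_zero {G : Type*} [AddGroup G] {p : ℕ} (hp : p.Prime) {Q : G}
    (hpQ : p • Q = 0) (hQ0 : Q ≠ 0) (k : ℕ) (hk1 : 1 ≤ k) (hkp : k < p) : k • Q ≠ 0 := by
  intro hk
  have h1 : addOrderOf Q ∣ p := addOrderOf_dvd_of_nsmul_eq_zero hpQ
  have h2 : addOrderOf Q ∣ k := addOrderOf_dvd_of_nsmul_eq_zero hk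
  rcases (Nat.dvd_prime hp).mp h1 with h | h
  · exact hQ0 (AddMonoid.addOrderOf_eq_one_iff.mp h)
  · rw [h] at h2
    have := Nat.le_of_dvd (by omega) h2
    omega

variable {L : Type*} [Field L] [DecidableEq L] [CharZero L] {W : WeierstrassCurve L}
  {A : ValuationSubring L}

/-- **unit case**: a rational point of prime order `p ≥ 5` cannot have a unit `x`-coordinate at `2`. -/
theorem walk2_unit_rational_false (h₁ : W.a₁ = 1) (h₃ : W.a₃ = 0) (h₆ : W.a₆ = 0)
    (hA : A.LiesOverPrime 2) (hb2 : A.valuation (1 + 4 * W.a₂) = 1)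
    (ha2 : A.valuation W.a₂ ≤ 1) (ha4 : A.valuation W.a₄ < 1)
    {p : ℕ} (hp : p.Prime) (hp5 : 5 ≤ p)
    (tors : ∀ D : W.toAffine.Point, InE1 A D → p • D = 0 → D = 0)
    {Q : W.toAffine.Point} (hQ0 : Q ≠ 0) (hpQ : p • Q = 0) (hx1 : A.valuation (xc Q) = 1)
    (hrx : ∃ r : ℚ, xc Q = (r : L)) (hry : ∃ r : ℚ, yc Q = (r : L))
    (hrx2 : ∃ r : ℚ, xc ((2 : ℕ) • Q) = (r : L))
    (hry2 : ∃ r : ℚ, yc ((2 : ℕ) • Q) = (r : L)) : False := by
  have h2 := walk2_val_two_lt_one A hA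
  have h4 : A.valuation (4 : L) < 1 := by
    have : (4 : L) = 2 * 2 := by norm_num
    rw [this, map_mul]
    exact mul_lt_one_of_lt_of_le h2 h2.le
  have hmult := walk2_nsmul_ne_zero hp hpQ hQ0
  have h2Q : (2 : ℕ) • Q ≠ 0 := hmult 2 (by norm_num) (by omega)
  have h3Q : (3 : ℕ) • Q ≠ 0 := hmult 3 (by norm_num) (by omega)
  have hy : 2 * yc Q + xc Q ≠ 0 := fun h => h2Q (walk2_two_nsmul_eq_zero_of h₁ h₃ hQ0 h)
  obtain ⟨_, hdup⟩ := walk2_dup h₁ h₃ h₆ hQ0 hy
  have hsq := walk2_sq_two_yc_add h₁ h₃ h₆ hQ0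
  have hG : A.valuation ((2 * yc Q + xc Q) ^ 2) = 1 := by
    rw [hsq]
    have t1 : A.valuation (4 * xc Q ^ 3) < 1 := by
      rw [map_mul, map_pow, hx1, one_pow, mul_one]; exact h4
    have t2 : A.valuation ((1 + 4 * W.a₂) * xc Q ^ 2) = 1 := by
      rw [map_mul, map_pow, hb2, hx1, one_pow, one_mul]
    have t3 : A.valuation (4 * W.a₄ * xc Q) < 1 := by
      rw [map_mul, map_mul, hx1, mul_one]; exact mul_lt_one_of_lt_of_le h4 ha4.le
    have t12 : A.valuation (4 * xc Q ^ 3 + (1 + 4 * W.a₂) * xc Q ^ 2) = 1 := by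
      rw [Valuation.map_add_eq_of_lt_right A.valuation (by rw [t2]; exact t1), t2]
    rw [Valuation.map_add_eq_of_lt_left A.valuation (by rw [t12]; exact t3), t12]
  have hnum : A.valuation (xc Q ^ 2 - W.a₄) = 1 := by
    rw [Valuation.map_sub_eq_of_lt_left A.valuation (by rw [map_pow, hx1, one_pow]; exact ha4),
      map_pow, hx1, one_pow]
  have hx21 : A.valuation (xc ((2 : ℕ) • Q)) = 1 := by
    have := congrArg A.valuation hdup
    rwa [map_mul, hG, mul_one, map_pow, hnum, one_pow] at this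
  -- `x ≡ 1`, `x₂ ≡ 1`
  have hxm : A.valuation (xc Q - 1) < 1 := by
    obtain ⟨r, hr⟩ := hrx
    rcases walk2_rat_mod_two A hA r (by rw [← hr]; exact hx1.le) with h | h
    · rw [← hr, hx1] at h; exact absurd h (lt_irrefl _)
    · rwa [← hr] at h
  have hx2m : A.valuation (xc ((2 : ℕ) • Q) - 1) < 1 := by
    obtain ⟨r, hr⟩ := hrx2
    rcases walk2_rat_mod_two A hA r (by rw [← hr]; exact hx21.le) with h | h
    · rw [← hr, hx21] at h; exact absurd h (lt_irrefl _)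
    · rwa [← hr] at h
  have hxx : A.valuation (xc ((2 : ℕ) • Q) - xc Q) < 1 := by
    have : xc ((2 : ℕ) • Q) - xc Q = (xc ((2 : ℕ) • Q) - 1) - (xc Q - 1) := by ring
    rw [this]
    exact Valuation.map_sub_lt A.valuation hx2m hxm
  have hyQ : A.valuation (yc Q) ≤ 1 :=
    walk2_val_y_le_one A.valuation hx1.le ha2 ha4.le (walk2_equation h₁ h₃ h₆ hQ0)
  have hy2Q : A.valuation (yc ((2 : ℕ) • Q)) ≤ 1 :=
    walk2_val_y_le_one A.valuation hx21.le ha2 ha4.le (walk2_equation h₁ h₃ h₆ h2Q)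
  have hym : A.valuation (yc Q) < 1 ∨ A.valuation (yc Q - 1) < 1 := by
    obtain ⟨r, hr⟩ := hry
    rw [hr]; exact walk2_rat_mod_two A hA r (by rw [← hr]; exact hyQ)
  have hy2m : A.valuation (yc ((2 : ℕ) • Q)) < 1 ∨ A.valuation (yc ((2 : ℕ) • Q) - 1) < 1 := by
    obtain ⟨r, hr⟩ := hry2
    rw [hr]; exact walk2_rat_mod_two A hA r (by rw [← hr]; exact hy2Q)
  -- the two alternatives
  have same : A.valuation (yc ((2 : ℕ) • Q) - yc Q) < 1 → False := by
    intro hyy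
    have hE := walk2_inE1_sub_of_same_red h₁ h₃ h₆ h2 ha2 ha4.le h2Q hQ0 hx21 hxx hyy
    have e : (2 : ℕ) • Q - Q = Q := by rw [two_nsmul, add_sub_cancel_right]
    rw [e] at hE
    rcases hE with h | h
    · exact hQ0 h
    · rw [hx1] at h; exact lt_irrefl _ h
  have diff : A.valuation (yc ((2 : ℕ) • Q) + yc Q + xc Q) < 1 → False := by
    intro hyy
    have hS0 : -Q ≠ 0 := neg_ne_zero.mpr hQ0
    have hE := walk2_inE1_sub_of_same_red h₁ h₃ h₆ h2 ha2 ha4.le h2Q hS0 hx21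
      (by rw [xc_neg]; exact hxx)
      (by
        rw [walk2_yc_neg h₁ h₃]
        have : yc ((2 : ℕ) • Q) - (-yc Q - xc Q) = yc ((2 : ℕ) • Q) + yc Q + xc Q := by ring
        rw [this]; exact hyy)
    have e : (2 : ℕ) • Q - -Q = (3 : ℕ) • Q := by
      rw [sub_neg_eq_add, ← succ_nsmul]
    rw [e] at hE
    refine h3Q (tors _ hE ?_)
    rw [smul_comm, hpQ, smul_zero]
  rcases hym with hy0 | hy1 <;> rcases hy2m with hz0 | hz1
  · exact same (Valuation.map_sub_lt A.valuation hz0 hy0)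
  · apply diff
    have : yc ((2 : ℕ) • Q) + yc Q + xc Q = (yc ((2 : ℕ) • Q) - 1) + yc Q + (xc Q - 1) + 2 := by
      ring
    rw [this]
    exact Valuation.map_add_lt _ (Valuation.map_add_lt _ (Valuation.map_add_lt _ hz1 hy0) hxm) h2
  · apply diff
    have : yc ((2 : ℕ) • Q) + yc Q + xc Q = yc ((2 : ℕ) • Q) + (yc Q - 1) + (xc Q - 1) + 2 := by
      ring
    rw [this]
    exact Valuation.map_add_lt _ (Valuation.map_add_lt _ (Valuation.map_add_lt _ hz0 hy1) hxm) h2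
  · apply same
    have : yc ((2 : ℕ) • Q) - yc Q = (yc ((2 : ℕ) • Q) - 1) - (yc Q - 1) := by ring
    rw [this]
    exact Valuation.map_sub_lt A.valuation hz1 hy1

end Unit

/-! ### The main theorem -/

section Main

variable {L : Type*} [Field L] [DecidableEq L] [Algebra ℚ L]

/-- **B3**: on `W' : Y² + XY = X³ + a₂X² + a₄X` over `ℚ` with `v₂(a₄) = k ≥ 1` prime to `p ≥ 5`,
`b₂ = 1 + 4a₂` a `2`-adic unit, and `E₁` (at a place `A` of `L` over `2`) without `p`-torsion, no nonzero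
point of `W'[p](L)` is fixed by the whole Galois group. -/
theorem walk2_no_fixed_torsion [IsAlgClosed L] [Algebra.IsAlgebraic ℚ L]
    (W' : WeierstrassCurve ℚ) (h₁ : W'.a₁ = 1) (h₃ : W'.a₃ = 0) (h₆ : W'.a₆ = 0)
    (A : ValuationSubring L) (hA : A.LiesOverPrime 2)
    (hb2 : A.valuation (1 + 4 * (W'⁄L).a₂) = 1) (ha2 : A.valuation (W'⁄L).a₂ ≤ 1)
    {k : ℕ} (hk : A.valuation (W'⁄L).a₄ = A.valuation (2 : L) ^ k) (hk0 : 0 < k)
    {p : ℕ} (hp : p.Prime) (hp5 : 5 ≤ p) (hpk : ¬ p ∣ k)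
    (tors : ∀ D : (W'⁄L).toAffine.Point, InE1 A D → p • D = 0 → D = 0)
    (Q : (W'⁄L).toAffine.Point) (hQ0 : Q ≠ 0) (hpQ : p • Q = 0)
    (hfix : ∀ σ : L ≃ₐ[ℚ] L, σ • Q = Q) : False := by
  classical
  have : CharZero L := algebraRat.charZero L
  have : IsAlgClosure ℚ L := ⟨inferInstance, inferInstance⟩
  have : IsGalois ℚ L := IsAlgClosure.isGalois ℚ L
  have h₁' : (W'⁄L).a₁ = 1 := by
    change algebraMap ℚ L W'.a₁ = 1
    rw [h₁, map_one]
  have h₃' : (W'⁄L).a₃ = 0 := by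
    change algebraMap ℚ L W'.a₃ = 0
    rw [h₃, _root_.map_zero]
  have h₆' : (W'⁄L).a₆ = 0 := by
    change algebraMap ℚ L W'.a₆ = 0
    rw [h₆, _root_.map_zero]
  have h2 := walk2_val_two_lt_one A hA
  have h20 : 0 < A.valuation (2 : L) := A.valuation.pos_iff.mpr two_ne_zero
  have ha4pos : 0 < A.valuation (W'⁄L).a₄ := by rw [hk]; exact pow_pos h20 k
  have ha40 : (W'⁄L).a₄ ≠ 0 := A.valuation.pos_iff.mp ha4pos
  have ha4 : A.valuation (W'⁄L).a₄ < 1 := by
    rw [hk]; exact pow_lt_one₀ zero_le h2 hk0.ne'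
  have hp2 : p ≠ 2 := by omega
  -- rational coordinates of fixed points
  have hrat : ∀ R : (W'⁄L).toAffine.Point, (∀ σ : L ≃ₐ[ℚ] L, σ • R = R) →
      (∃ r : ℚ, xc R = (r : L)) ∧ (∃ r : ℚ, yc R = (r : L)) := by
    intro R hR
    constructor
    · have hmem : xc R ∈ Set.range (algebraMap ℚ L) :=
        (InfiniteGalois.mem_range_algebraMap_iff_fixed (xc R)).mpr
          (fun σ => by rw [← xc_smul, hR])
      obtain ⟨r, hr⟩ := hmem
      exact ⟨r, by rw [← hr, eq_ratCast]⟩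
    · have hmem : yc R ∈ Set.range (algebraMap ℚ L) :=
        (InfiniteGalois.mem_range_algebraMap_iff_fixed (yc R)).mpr
          (fun σ => by rw [← yc_smul, hR])
      obtain ⟨r, hr⟩ := hmem
      exact ⟨r, by rw [← hr, eq_ratCast]⟩
  have hfixn : ∀ n : ℕ, ∀ σ : L ≃ₐ[ℚ] L, σ • (n • Q) = n • Q := fun n σ => by
    rw [gal_smul_nsmul, hfix]
  have hpn : ∀ n : ℕ, p • (n • Q) = 0 := fun n => by rw [smul_comm, hpQ, smul_zero]
  -- Case A: a multiple with `v x ≥ 1`
  have caseA : ∀ n : ℕ, n • Q ≠ 0 → 1 ≤ A.valuation (xc (n • Q)) → False := by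
    intro n hn h1
    have h1' : A.valuation (xc (n • Q)) = 1 := by
      refine le_antisymm (not_lt.mp fun hlt => hn ?_) h1
      exact tors _ (Or.inr hlt) (hpn n)
    have hfix2 : ∀ σ : L ≃ₐ[ℚ] L, σ • ((2 : ℕ) • (n • Q)) = (2 : ℕ) • (n • Q) := fun σ => by
      rw [gal_smul_nsmul, hfixn]
    exact walk2_unit_rational_false h₁' h₃' h₆' hA hb2 ha2 ha4 hp hp5 tors hn (hpn n) h1'
      (hrat _ (hfixn n)).1 (hrat _ (hfixn n)).2 (hrat _ hfix2).1 (hrat _ hfix2).2
  -- Case B: a multiple with `v x ≤ v a₄`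
  have caseB : ∀ n : ℕ, n • Q ≠ 0 →
      A.valuation (xc (n • Q)) ≤ A.valuation (W'⁄L).a₄ → False := by
    intro n hn hb
    have h2n : (2 : ℕ) • (n • Q) ≠ 0 :=
      walk2_nsmul_ne_zero hp (hpn n) hn 2 (by norm_num) (by omega)
    have := walk2_one_le_val_two_nsmul h₁' h₃' h₆' hb2 ha40 ha4 hn h2n hb
    rw [← mul_smul] at this h2n
    exact caseA _ h2n this
  by_cases hAe : ∃ n : ℕ, n • Q ≠ 0 ∧ 1 ≤ A.valuation (xc (n • Q))
  · obtain ⟨n, hn, h1⟩ := hAe
    exact caseA n hn h1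
  by_cases hBe : ∃ n : ℕ, n • Q ≠ 0 ∧ A.valuation (xc (n • Q)) ≤ A.valuation (W'⁄L).a₄
  · obtain ⟨n, hn, hb⟩ := hBe
    exact caseB n hn hb
  -- Case C: all nonzero multiples in the annulus
  push Not at hAe hBe
  have hmult := walk2_nsmul_ne_zero hp hpQ hQ0
  obtain ⟨j, hj⟩ := walk2 h₁' h₃' h₆' hb2 ha40 ha4 hp hp2 hpQ (fun m hm1 hmp =>
    ⟨hBe m (hmult m hm1 hmp), hAe m (hmult m hm1 hmp)⟩)
  have hQ1 : (1 : ℕ) • Q ≠ 0 := by rwa [one_smul]
  have hann1 := hBe 1 hQ1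
  have hann2 := hAe 1 hQ1
  rw [one_smul] at hann1 hann2
  obtain ⟨r, hr⟩ := (hrat Q hfix).1
  have hx0 : xc Q ≠ 0 := A.valuation.pos_iff.mp (lt_trans ha4pos hann1)
  have hr0 : r ≠ 0 := by
    rintro rfl
    exact hx0 (by rw [hr, Rat.cast_zero])
  have hvx : A.valuation (xc Q) = A.valuation (2 : L) ^ padicValRat 2 r := by
    rw [hr]
    have := valuation_ratCast A Nat.prime_two hA hr0
    simpa using this
  have h21 : A.valuation (2 : L) ≠ 1 := h2.ne
  have hinj : padicValRat 2 r * (p : ℤ) = (k : ℤ) * (2 * j) := by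
    apply zpow_right_injective₀ h20 h21
    change A.valuation (2 : L) ^ (padicValRat 2 r * (p : ℤ)) = A.valuation (2 : L) ^ ((k : ℤ) * (2 * j))
    rw [zpow_mul, zpow_natCast, ← hvx, hj, hk, ← zpow_natCast, ← zpow_mul]
  have hpZ : Prime (p : ℤ) := Nat.prime_iff_prime_int.mp hp
  have hpj : (p : ℤ) ∣ j := by
    have hdvd : (p : ℤ) ∣ (k : ℤ) * (2 * j) := ⟨padicValRat 2 r, by rw [← hinj]; ring⟩
    rcases hpZ.dvd_or_dvd hdvd with h | h
    · exact absurd (Int.natCast_dvd_natCast.mp h) hpk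
    · rcases hpZ.dvd_or_dvd h with h' | h'
      · have := Int.le_of_dvd (by norm_num) h'
        omega
      · exact h'
  obtain ⟨j', rfl⟩ := hpj
  have hp0 : (p : ℤ) ≠ 0 := by exact_mod_cast hp.ne_zero
  have hi : padicValRat 2 r = (k : ℤ) * (2 * j') := by
    apply mul_right_cancel₀ hp0
    rw [hinj]; ring
  have hvx' : A.valuation (xc Q) = A.valuation (W'⁄L).a₄ ^ (2 * j') := by
    rw [hvx, hi, hk, ← zpow_natCast, ← zpow_mul]
  rw [hvx'] at hann1 hann2
  have c1 : (2 * j' : ℤ) < 1 := by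
    have : A.valuation (W'⁄L).a₄ ^ (1 : ℤ) < A.valuation (W'⁄L).a₄ ^ (2 * j') := by
      rw [zpow_one]; exact hann1
    exact (zpow_lt_zpow_iff_right_of_lt_one₀ ha4pos ha4).mp this
  have c2 : (0 : ℤ) < 2 * j' := by
    have : A.valuation (W'⁄L).a₄ ^ (2 * j') < A.valuation (W'⁄L).a₄ ^ (0 : ℤ) := by
      rw [zpow_zero]; exact hann2
    exact (zpow_lt_zpow_iff_right_of_lt_one₀ ha4pos ha4).mp this
  omega

end Main

end Fermat.Agent.Cofix
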