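import Mathlib
import Fermat.Agent.Unram.Setup

/-!
# S13 / B1-alg: the algebra of the formal group of `y² + a₁xy = x³ + a₂x² + a₄x`

`W` a Weierstrass curve with `a₃ = a₆ = 0` (`c = a₁`, `a = a₂`, `b = a₄`) over a field `L`.
For an affine point `(x, y)` with `y ≠ 0` put `t = x / y`, `s = 1 / y`; then
`s + c t s = t³ + a t² s + b t s²`.  For two such points the chord/tangent in the `(t, s)`-plane is
`s = κ t + μ` with `κ = Num / Den`, and the THIRD intersection point `(x₃, y₃')`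
(`x₃ = addX`, `y₃' = negAddY`, so that `P₁ + P₂ = (x₃, -y₃' - c x₃)`) satisfies
`x₃ / y₃' = -(t₁ + t₂) - (a μ + 2 b κ μ - c κ) / E`, `1 / y₃' = κ (x₃ / y₃') + μ`, where
`E = 1 + a κ + b κ²`.  No assumption on the characteristic.
-/

set_option autoImplicit false
set_option linter.unusedSectionVars false

namespace Fermat.Agent.Cofix

open WeierstrassCurve

/-- A Weierstrass curve of the shape `Y² + a₁XY = X³ + a₂X² + a₄X`. -/
structure IsTateForm {R : Type*} [CommRing R] (W : WeierstrassCurve R) : Prop where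
  a₃ : W.a₃ = 0
  a₆ : W.a₆ = 0

lemma isTateForm_of_isShort {R : Type*} [CommRing R] {W : WeierstrassCurve R}
    (hW : Fermat.Agent.Unram.IsShort W) : IsTateForm W := ⟨hW.a₃, hW.a₆⟩

lemma isTateForm_baseChange {R : Type*} [CommRing R] {S : Type*} [CommRing S] [Algebra R S]
    {W : WeierstrassCurve R} (hW : IsTateForm W) : IsTateForm (W⁄S) := by
  constructor
  · change algebraMap R S W.a₃ = 0
    rw [hW.a₃, _root_.map_zero]
  · change algebraMap R S W.a₆ = 0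
    rw [hW.a₆, _root_.map_zero]

namespace NodalAlg

variable {L : Type*} [Field L]

/-- numerator of the slope of the chord in the `(t,s)`-plane -/
def gNum (c a b t₁ t₂ s₂ : L) : L :=
  t₂ ^ 2 + t₁ * t₂ + t₁ ^ 2 + a * (t₁ + t₂) * s₂ + b * s₂ ^ 2 - c * s₂

/-- denominator of the slope of the chord in the `(t,s)`-plane -/
def gDen (c a b t₁ s₁ s₂ : L) : L := 1 + c * t₁ - a * t₁ ^ 2 - b * t₁ * (s₁ + s₂)

/-- slope of the chord in the `(t,s)`-plane -/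
noncomputable def gKappa (c a b t₁ s₁ t₂ s₂ : L) : L := gNum c a b t₁ t₂ s₂ / gDen c a b t₁ s₁ s₂

/-- intercept of the chord in the `(t,s)`-plane -/
noncomputable def gMu (c a b t₁ s₁ t₂ s₂ : L) : L := s₁ - gKappa c a b t₁ s₁ t₂ s₂ * t₁

/-- leading coefficient of the cubic in `t` cut out by the chord -/
noncomputable def gE (c a b t₁ s₁ t₂ s₂ : L) : L :=
  1 + a * gKappa c a b t₁ s₁ t₂ s₂ + b * gKappa c a b t₁ s₁ t₂ s₂ ^ 2

/-- the curve in `(t,s)`-coordinates -/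
theorem ts_equation {W : Affine L} (h3 : W.a₃ = 0) (h6 : W.a₆ = 0) {x y : L}
    (h : W.Equation x y) (hy : y ≠ 0) :
    1 / y + W.a₁ * (x / y) * (1 / y) =
      (x / y) ^ 3 + W.a₂ * (x / y) ^ 2 * (1 / y) + W.a₄ * (x / y) * (1 / y) ^ 2 := by
  rw [Affine.equation_iff, h3, h6] at h
  field_simp
  linear_combination h

/-- the chord identity `(s₂ - s₁) Den = (t₂ - t₁) Num` -/
theorem chord_identity (c a b t₁ s₁ t₂ s₂ : L)
    (h₁ : s₁ + c * t₁ * s₁ = t₁ ^ 3 + a * t₁ ^ 2 * s₁ + b * t₁ * s₁ ^ 2)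
    (h₂ : s₂ + c * t₂ * s₂ = t₂ ^ 3 + a * t₂ ^ 2 * s₂ + b * t₂ * s₂ ^ 2) :
    (s₂ - s₁) * gDen c a b t₁ s₁ s₂ = (t₂ - t₁) * gNum c a b t₁ t₂ s₂ := by
  unfold gDen gNum
  linear_combination h₂ - h₁

section Main

variable [DecidableEq L] {W : Affine L} (h3 : W.a₃ = 0) (h6 : W.a₆ = 0)

include h3 in
theorem negY_eq (x y : L) : W.negY x y = -y - W.a₁ * x := by
  rw [Affine.negY, h3]
  ring

include h3 h6 in
/-- Vieta for the third intersection point (from Mathlib's `addPolynomial_slope`). -/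
theorem vieta {x₁ y₁ x₂ y₂ : L} (he₁ : W.Equation x₁ y₁) (he₂ : W.Equation x₂ y₂)
    (hxy : ¬(x₁ = x₂ ∧ y₁ = W.negY x₂ y₂)) :
    x₁ * x₂ + x₁ * W.addX x₁ x₂ (W.slope x₁ x₂ y₁ y₂) + x₂ * W.addX x₁ x₂ (W.slope x₁ x₂ y₁ y₂) =
        W.a₄ - 2 * W.slope x₁ x₂ y₁ y₂ * (y₁ - W.slope x₁ x₂ y₁ y₂ * x₁)
          - W.a₁ * (y₁ - W.slope x₁ x₂ y₁ y₂ * x₁) ∧
      x₁ * x₂ * W.addX x₁ x₂ (W.slope x₁ x₂ y₁ y₂) = (y₁ - W.slope x₁ x₂ y₁ y₂ * x₁) ^ 2 := by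
  have h := Affine.addPolynomial_slope he₁ he₂ hxy
  rw [Affine.addPolynomial_eq, neg_inj, Cubic.prod_X_sub_C_eq, Cubic.toPoly_injective] at h
  have hc := congrArg Cubic.c h
  have hd := congrArg Cubic.d h
  simp only [h3, h6] at hc hd
  constructor
  · linear_combination -hc
  · linear_combination hd

include h3 h6 in
/-- **The chord formula in `(t,s)`-coordinates**: for affine points `(x₁,y₁)`, `(x₂,y₂)` with
`y₁, y₂ ≠ 0`, not opposite, such that `Den` and `E` do not vanish, the third intersection point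
`(x₃, y₃')` of the chord has `y₃' ≠ 0`, `x₃ / y₃' = -(t₁ + t₂) - (a μ + 2 b κ μ - c κ) / E` and
`1 / y₃' = κ (x₃ / y₃') + μ`; moreover `μ ≠ 0`. -/
theorem formal_third {x₁ y₁ x₂ y₂ : L}
    (he₁ : W.Equation x₁ y₁) (he₂ : W.Equation x₂ y₂) (hy₁ : y₁ ≠ 0) (hy₂ : y₂ ≠ 0)
    (hxy : ¬(x₁ = x₂ ∧ y₁ = W.negY x₂ y₂))
    (hD : gDen W.a₁ W.a₂ W.a₄ (x₁ / y₁) (1 / y₁) (1 / y₂) ≠ 0)
    (hE : gE W.a₁ W.a₂ W.a₄ (x₁ / y₁) (1 / y₁) (x₂ / y₂) (1 / y₂) ≠ 0) :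
    gMu W.a₁ W.a₂ W.a₄ (x₁ / y₁) (1 / y₁) (x₂ / y₂) (1 / y₂) ≠ 0 ∧
    W.negAddY x₁ x₂ y₁ (W.slope x₁ x₂ y₁ y₂) ≠ 0 ∧
    W.addX x₁ x₂ (W.slope x₁ x₂ y₁ y₂) / W.negAddY x₁ x₂ y₁ (W.slope x₁ x₂ y₁ y₂) =
      -(x₁ / y₁ + x₂ / y₂) -
        (W.a₂ * gMu W.a₁ W.a₂ W.a₄ (x₁ / y₁) (1 / y₁) (x₂ / y₂) (1 / y₂) +
          2 * W.a₄ * gKappa W.a₁ W.a₂ W.a₄ (x₁ / y₁) (1 / y₁) (x₂ / y₂) (1 / y₂) *
            gMu W.a₁ W.a₂ W.a₄ (x₁ / y₁) (1 / y₁) (x₂ / y₂) (1 / y₂) -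
          W.a₁ * gKappa W.a₁ W.a₂ W.a₄ (x₁ / y₁) (1 / y₁) (x₂ / y₂) (1 / y₂)) /
            gE W.a₁ W.a₂ W.a₄ (x₁ / y₁) (1 / y₁) (x₂ / y₂) (1 / y₂) ∧
    1 / W.negAddY x₁ x₂ y₁ (W.slope x₁ x₂ y₁ y₂) =
      gKappa W.a₁ W.a₂ W.a₄ (x₁ / y₁) (1 / y₁) (x₂ / y₂) (1 / y₂) *
          (W.addX x₁ x₂ (W.slope x₁ x₂ y₁ y₂) / W.negAddY x₁ x₂ y₁ (W.slope x₁ x₂ y₁ y₂)) +
        gMu W.a₁ W.a₂ W.a₄ (x₁ / y₁) (1 / y₁) (x₂ / y₂) (1 / y₂) := by
  set c := W.a₁ with hc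
  set a := W.a₂ with ha
  set b := W.a₄ with hb
  set t₁ := x₁ / y₁ with ht₁
  set s₁ := 1 / y₁ with hs₁
  set t₂ := x₂ / y₂ with ht₂
  set s₂ := 1 / y₂ with hs₂
  set κ := gKappa c a b t₁ s₁ t₂ s₂ with hκ
  set μ := gMu c a b t₁ s₁ t₂ s₂ with hμ
  set E := gE c a b t₁ s₁ t₂ s₂ with hEdef
  set ℓ := W.slope x₁ x₂ y₁ y₂ with hℓ
  set x₃ := W.addX x₁ x₂ ℓ with hx₃
  -- the two points in `(t,s)`-coordinates
  have hts₁ : s₁ + c * t₁ * s₁ = t₁ ^ 3 + a * t₁ ^ 2 * s₁ + b * t₁ * s₁ ^ 2 :=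
    ts_equation h3 h6 he₁ hy₁
  have hts₂ : s₂ + c * t₂ * s₂ = t₂ ^ 3 + a * t₂ ^ 2 * s₂ + b * t₂ * s₂ ^ 2 :=
    ts_equation h3 h6 he₂ hy₂
  have hchord := chord_identity c a b t₁ s₁ t₂ s₂ hts₁ hts₂
  have hκD : κ * gDen c a b t₁ s₁ s₂ = gNum c a b t₁ t₂ s₂ := by
    rw [hκ, gKappa, div_mul_cancel₀ _ hD]
  -- both points lie on the line `s = κ t + μ`
  have hl₁ : s₁ = κ * t₁ + μ := by rw [hμ, gMu]; ring
  have hl₂ : s₂ = κ * t₂ + μ := by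
    have : (s₂ - s₁ - κ * (t₂ - t₁)) * gDen c a b t₁ s₁ s₂ = 0 := by
      linear_combination hchord - (t₂ - t₁) * hκD
    have h0 := (mul_eq_zero.mp this).resolve_right hD
    linear_combination h0 + hl₁
  -- `1 = κ x + μ y`
  have hs₁y : s₁ * y₁ = 1 := by rw [hs₁]; field_simp
  have hs₂y : s₂ * y₂ = 1 := by rw [hs₂]; field_simp
  have ht₁y : t₁ * y₁ = x₁ := by rw [ht₁]; field_simp
  have ht₂y : t₂ * y₂ = x₂ := by rw [ht₂]; field_simp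
  have hL₁ : κ * x₁ + μ * y₁ = 1 := by linear_combination (-y₁) * hl₁ + hs₁y - κ * ht₁y
  have hL₂ : κ * x₂ + μ * y₂ = 1 := by linear_combination (-y₂) * hl₂ + hs₂y - κ * ht₂y
  have hnegY : ∀ x y : L, W.negY x y = -y - c * x := negY_eq h3
  -- the tangent case: `μ Den = -s₁ (2 + c t₁)`
  have htan : t₁ = t₂ → s₁ = s₂ → μ * gDen c a b t₁ s₁ s₂ = -s₁ * (2 + c * t₁) := by
    intro ht hs
    have e1 : μ * gDen c a b t₁ s₁ s₂ = s₁ * gDen c a b t₁ s₁ s₂ - t₁ * gNum c a b t₁ t₂ s₂ := by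
      rw [← hκD, hμ, gMu]; ring
    rw [e1, ← ht, ← hs]
    unfold gDen gNum
    linear_combination 3 * hts₁
  -- `μ ≠ 0`
  have hμ0 : μ ≠ 0 := by
    intro h0
    rw [h0, zero_mul, add_zero] at hL₁ hL₂
    have hκ0 : κ ≠ 0 := by
      rintro h
      rw [h, zero_mul] at hL₁
      exact zero_ne_one hL₁
    have hx : x₁ = x₂ := mul_left_cancel₀ hκ0 (hL₁.trans hL₂.symm)
    have hy : y₁ = y₂ := by
      rcases Affine.Y_eq_of_X_eq he₁ he₂ hx with h | h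
      · exact h
      · exact absurd ⟨hx, h⟩ hxy
    have ht : t₁ = t₂ := by rw [ht₁, ht₂, hx, hy]
    have hs : s₁ = s₂ := by rw [hs₁, hs₂, hy]
    have hμD := htan ht hs
    rw [h0, zero_mul] at hμD
    have hs₁0 : s₁ ≠ 0 := by
      intro h
      rw [h, zero_mul] at hs₁y
      exact zero_ne_one hs₁y
    have h2 : 2 + c * t₁ = 0 := by
      have h' : s₁ * (2 + c * t₁) = 0 := by linear_combination hμD
      exact (mul_eq_zero.mp h').resolve_left hs₁0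
    apply hxy
    refine ⟨hx, ?_⟩
    rw [hnegY, ← hx, ← hy]
    have : 2 * y₁ + c * x₁ = 0 := by
      have : (2 + c * t₁) * y₁ = 2 * y₁ + c * x₁ := by rw [← ht₁y]; ring
      rw [← this, h2, zero_mul]
    linear_combination this
  -- the slope in `(x,y)`-coordinates
  have hℓκ : ℓ * μ = -κ := by
    by_cases hx : x₁ = x₂
    · have hy : y₁ = y₂ := by
        rcases Affine.Y_eq_of_X_eq he₁ he₂ hx with h | h
        · exact h
        · exact absurd ⟨hx, h⟩ hxy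
      have hyne : y₁ ≠ W.negY x₂ y₂ := fun h => hxy ⟨hx, h⟩
      rw [hℓ, Affine.slope_of_Y_ne hx hyne, hnegY]
      have ht : t₁ = t₂ := by rw [ht₁, ht₂, hx, hy]
      have hs : s₁ = s₂ := by rw [hs₁, hs₂, hy]
      have hμD := htan ht hs
      have h2y : y₁ - (-y₁ - c * x₁) ≠ 0 := by
        intro h
        apply hyne
        rw [hnegY, ← hx, ← hy]
        linear_combination h
      rw [div_mul_eq_mul_div, div_eq_iff h2y]
      -- multiply by `Den`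
      have hNum : gNum c a b t₁ t₂ s₂ * y₁ ^ 2 = 3 * x₁ ^ 2 + 2 * a * x₁ + b - c * y₁ := by
        rw [← ht, ← hs]
        unfold gNum
        rw [ht₁, hs₁]
        field_simp
        ring
      have hsy : s₁ * (2 + c * t₁) * y₁ ^ 2 = y₁ - (-y₁ - c * x₁) := by
        rw [ht₁, hs₁]
        field_simp
        ring
      apply mul_right_cancel₀ hD
      have e2 : -κ * (y₁ - (-y₁ - c * x₁)) * gDen c a b t₁ s₁ s₂ =
          -(y₁ - (-y₁ - c * x₁)) * gNum c a b t₁ t₂ s₂ := by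
        rw [← hκD]; ring
      rw [e2, mul_assoc, hμD, ← hNum, ← hsy]
      ring
    · rw [hℓ, Affine.slope_of_X_ne hx]
      have hx' : x₁ - x₂ ≠ 0 := sub_ne_zero.mpr hx
      rw [div_mul_eq_mul_div, div_eq_iff hx']
      linear_combination hL₁ - hL₂
  have hℓ' : ℓ = -κ / μ := by rw [eq_div_iff hμ0, hℓκ]
  have hν : y₁ - ℓ * x₁ = 1 / μ := by
    rw [eq_div_iff hμ0]
    linear_combination hL₁ - x₁ * hℓκ
  set ν := y₁ - ℓ * x₁ with hνdef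
  have hy₁' : y₁ = ℓ * x₁ + ν := by rw [hνdef]; ring
  have hy₂' : y₂ = ℓ * x₂ + ν := by
    have : μ * (y₂ - (ℓ * x₂ + ν)) = 0 := by
      have hνμ : ν * μ = 1 := by rw [hν]; field_simp
      linear_combination hL₂ - x₂ * hℓκ - hνμ
    have h0 := (mul_eq_zero.mp this).resolve_left hμ0
    linear_combination h0
  obtain ⟨hv2, hv3⟩ := vieta h3 h6 he₁ he₂ hxy
  rw [← hℓ, ← hx₃, ← hνdef] at hv2 hv3
  rw [← hc] at hv2
  have hv1 : x₁ + x₂ + x₃ = ℓ ^ 2 + c * ℓ - a := by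
    rw [hx₃, Affine.addX]; ring
  -- the third point
  set y₃' := W.negAddY x₁ x₂ y₁ ℓ with hy₃'
  have hy₃'' : y₃' = ℓ * x₃ + ν := by
    rw [hy₃', Affine.negAddY, ← hx₃, hνdef]; ring
  have hT3a : y₁ * y₂ * y₃' = ν * (ν ^ 2 - a * ℓ * ν + b * ℓ ^ 2) := by
    rw [hy₁', hy₂', hy₃'']
    linear_combination ℓ ^ 3 * hv3 + ℓ ^ 2 * ν * hv2 + ℓ * ν ^ 2 * hv1
  have hT3b : x₁ * y₂ * y₃' + x₂ * y₁ * y₃' + x₃ * y₁ * y₂ =
      ν * (2 * b * ℓ - c * ℓ * ν - a * ν) := by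
    rw [hy₁', hy₂', hy₃'']
    linear_combination 3 * ℓ ^ 2 * hv3 + 2 * ℓ * ν * hv2 + ν ^ 2 * hv1
  -- in terms of `κ`, `μ`
  have hνμ : ν = 1 / μ := hν
  have hE' : ν ^ 2 - a * ℓ * ν + b * ℓ ^ 2 = E / μ ^ 2 := by
    rw [hνμ, hℓ', hEdef, gE]
    field_simp
    ring
  have hν0 : ν ≠ 0 := by rw [hνμ]; exact one_div_ne_zero hμ0
  have hy₃'0 : y₃' ≠ 0 := by
    intro h0
    rw [h0, mul_zero, hE'] at hT3a
    have : ν * (E / μ ^ 2) ≠ 0 := mul_ne_zero hν0 (div_ne_zero hE (pow_ne_zero 2 hμ0))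
    exact this hT3a.symm
  have hsum : x₁ / y₁ + x₂ / y₂ + x₃ / y₃' = -((a * μ + 2 * b * κ * μ - c * κ) / E) := by
    have e1 : x₁ / y₁ + x₂ / y₂ + x₃ / y₃' =
        (x₁ * y₂ * y₃' + x₂ * y₁ * y₃' + x₃ * y₁ * y₂) / (y₁ * y₂ * y₃') := by
      field_simp
    rw [e1, hT3a, hT3b, hE', hνμ, hℓ']
    field_simp
    ring
  have hline₃ : 1 / y₃' = κ * (x₃ / y₃') + μ := by
    have hνμ' : ν * μ = 1 := by rw [hνμ]; field_simp
    have h1' : κ * x₃ + μ * y₃' = 1 := by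
      rw [hy₃'']
      linear_combination hνμ' + x₃ * hℓκ
    have h2' : 1 / y₃' = (κ * x₃ + μ * y₃') / y₃' := by rw [h1']
    rw [h2', add_div, mul_div_assoc, mul_div_cancel_right₀ _ hy₃'0]
  refine ⟨hμ0, hy₃'0, ?_, hline₃⟩
  linear_combination hsum

end Main

end NodalAlg

end Fermat.Agent.Cofix
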