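import Mathlib
import Fermat.Agent.Unram.FormalVal
import Fermat.Agent.Cofix.NodalAlg

/-!
# S13 / B1: the kernel of reduction `E₁` of `y² + a₁xy = x³ + a₂x² + a₄x` (any residue characteristic)

`W` with `a₃ = a₆ = 0` over a field `L` with a valuation `v`; `a₁`, `a₂`, `a₄` integral.
`E₁ = {O} ∪ {(x, y) | v x > 1}`; for `P ∈ E₁` put `t(P) = x / y` (`t(O) = 0`).
No assumption on `v 2`, so this applies to the Frey model at the prime `2`.

* `NodalFormal.key`: for `P₁ P₂ ∈ E₁` with `v t(P_i) ≤ ρ < 1`: `P₁ + P₂ ∈ E₁`, `v t(P₁+P₂) ≤ ρ` and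
  `v (t(P₁+P₂) - t(P₁) - t(P₂)) ≤ ρ²`;
* `NodalFormal.E1`: `E₁` is a subgroup;
* `NodalFormal.eq_zero_of_nsmul_eq_zero`: `E₁` has no `n`-torsion for `v n = 1`.
-/

set_option autoImplicit false
set_option linter.unusedSectionVars false

namespace Fermat.Agent.Cofix.NodalFormal

open WeierstrassCurve WeierstrassCurve.Affine WeierstrassCurve.Affine.Point
open Fermat.Agent.Unram
open Fermat.Agent.Unram.FormalVal (tc tc_zero tc_some InE1v val_mul_le val_pow_le val_two_le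
  inE1v_neg)

variable {L : Type*} [Field L] {Γ₀ : Type*} [LinearOrderedCommGroupWithZero Γ₀] (v : Valuation L Γ₀)

/-- **The valuation estimates of the Silverman–Tate argument** (with `a₁`). -/
theorem estimates {c a b t₁ t₂ s₁ s₂ : L} {ρ : Γ₀} (hc : v c ≤ 1) (ha : v a ≤ 1) (hb : v b ≤ 1)
    (hρ : ρ < 1) (ht₁ : v t₁ ≤ ρ) (ht₂ : v t₂ ≤ ρ) (hs₁ : v s₁ ≤ ρ ^ 3) (hs₂ : v s₂ ≤ ρ ^ 3)
    {Num D κ μ E : L}
    (hNum : Num = t₂ ^ 2 + t₁ * t₂ + t₁ ^ 2 + a * (t₁ + t₂) * s₂ + b * s₂ ^ 2 - c * s₂)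
    (hD : D = 1 + c * t₁ - a * t₁ ^ 2 - b * t₁ * (s₁ + s₂))
    (hκ : κ = Num / D) (hμ : μ = s₁ - κ * t₁) (hE : E = 1 + a * κ + b * κ ^ 2) :
    v D = 1 ∧ v E = 1 ∧ v κ ≤ ρ ^ 2 ∧ v μ ≤ ρ ^ 3 ∧
      v ((a * μ + 2 * b * κ * μ - c * κ) / E) ≤ ρ ^ 2 := by
  have hρ1 : ρ ≤ 1 := hρ.le
  have hρ2 : ρ ^ 2 < 1 := pow_lt_one' hρ two_ne_zero
  have h32 : ρ ^ 3 ≤ ρ ^ 2 := pow_le_pow_right_of_le_one' hρ1 (by norm_num)
  have h31 : ρ ^ 3 ≤ ρ := by
    calc ρ ^ 3 ≤ ρ ^ 1 := pow_le_pow_right_of_le_one' hρ1 (by norm_num)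
      _ = ρ := pow_one ρ
  have h21 : ρ ^ 2 ≤ ρ := by
    calc ρ ^ 2 ≤ ρ ^ 1 := pow_le_pow_right_of_le_one' hρ1 (by norm_num)
      _ = ρ := pow_one ρ
  -- `D` is a unit
  have hD1 : v D = 1 := by
    have h0 : v (c * t₁) ≤ ρ := by
      calc v (c * t₁) ≤ 1 * ρ := val_mul_le v hc ht₁
        _ = ρ := one_mul _
    have h1 : v (a * t₁ ^ 2) ≤ ρ := by
      calc v (a * t₁ ^ 2) ≤ 1 * ρ ^ 2 := val_mul_le v ha (val_pow_le v ht₁ 2)
        _ = ρ ^ 2 := one_mul _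
        _ ≤ ρ := h21
    have h2 : v (b * t₁ * (s₁ + s₂)) ≤ ρ := by
      have : v (s₁ + s₂) ≤ 1 := v.map_add_le ((hs₁.trans h31).trans hρ1) ((hs₂.trans h31).trans hρ1)
      calc v (b * t₁ * (s₁ + s₂)) ≤ 1 * ρ * 1 := val_mul_le v (val_mul_le v hb ht₁) this
        _ = ρ := by rw [one_mul, mul_one]
    have h3 : v (c * t₁ - a * t₁ ^ 2 - b * t₁ * (s₁ + s₂)) < 1 :=
      lt_of_le_of_lt (v.map_sub_le (v.map_sub_le h0 h1) h2) hρ
    have : D = 1 + (c * t₁ - a * t₁ ^ 2 - b * t₁ * (s₁ + s₂)) := by rw [hD]; ring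
    rw [this]
    exact v.map_one_add_of_lt h3
  -- `Num`
  have hNum2 : v Num ≤ ρ ^ 2 := by
    rw [hNum]
    refine v.map_sub_le (v.map_add_le (v.map_add_le (v.map_add_le (v.map_add_le ?_ ?_) ?_) ?_) ?_) ?_
    · exact val_pow_le v ht₂ 2
    · calc v (t₁ * t₂) ≤ ρ * ρ := val_mul_le v ht₁ ht₂
        _ = ρ ^ 2 := (pow_two ρ).symm
    · exact val_pow_le v ht₁ 2
    · have : v (t₁ + t₂) ≤ ρ := v.map_add_le ht₁ ht₂
      calc v (a * (t₁ + t₂) * s₂) ≤ 1 * ρ * ρ := val_mul_le v (val_mul_le v ha this) (hs₂.trans h31)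
        _ = ρ ^ 2 := by rw [one_mul, pow_two]
    · calc v (b * s₂ ^ 2) ≤ 1 * ρ ^ 2 := val_mul_le v hb (val_pow_le v (hs₂.trans h31) 2)
        _ = ρ ^ 2 := one_mul _
    · calc v (c * s₂) ≤ 1 * ρ ^ 2 := val_mul_le v hc (hs₂.trans h32)
        _ = ρ ^ 2 := one_mul _
  have hκ2 : v κ ≤ ρ ^ 2 := by
    rw [hκ, map_div₀, hD1, div_one]; exact hNum2
  have hμ3 : v μ ≤ ρ ^ 3 := by
    rw [hμ]
    refine v.map_sub_le hs₁ ?_
    calc v (κ * t₁) ≤ ρ ^ 2 * ρ := val_mul_le v hκ2 ht₁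
      _ = ρ ^ 3 := by rw [← pow_succ]
  have hE1 : v E = 1 := by
    have h1 : v (a * κ) ≤ ρ ^ 2 := by
      calc v (a * κ) ≤ 1 * ρ ^ 2 := val_mul_le v ha hκ2
        _ = ρ ^ 2 := one_mul _
    have h2 : v (b * κ ^ 2) ≤ ρ ^ 2 := by
      have : v (κ ^ 2) ≤ ρ ^ 2 := by
        calc v (κ ^ 2) ≤ (ρ ^ 2) ^ 2 := val_pow_le v hκ2 2
          _ ≤ (ρ ^ 2) ^ 1 := pow_le_pow_right_of_le_one' hρ2.le (by norm_num)
          _ = ρ ^ 2 := pow_one _
      calc v (b * κ ^ 2) ≤ 1 * ρ ^ 2 := val_mul_le v hb this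
        _ = ρ ^ 2 := one_mul _
    have h3 : v (a * κ + b * κ ^ 2) < 1 := lt_of_le_of_lt (v.map_add_le h1 h2) hρ2
    have : E = 1 + (a * κ + b * κ ^ 2) := by rw [hE]; ring
    rw [this]
    exact v.map_one_add_of_lt h3
  refine ⟨hD1, hE1, hκ2, hμ3, ?_⟩
  rw [map_div₀, hE1, div_one]
  refine v.map_sub_le (v.map_add_le ?_ ?_) ?_
  · calc v (a * μ) ≤ 1 * ρ ^ 3 := val_mul_le v ha hμ3
      _ = ρ ^ 3 := one_mul _
      _ ≤ ρ ^ 2 := h32
  · calc v (2 * b * κ * μ) ≤ 1 * 1 * ρ ^ 2 * 1 :=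
          val_mul_le v (val_mul_le v (val_mul_le v (val_two_le v) hb) hκ2)
            ((hμ3.trans h31).trans hρ1)
      _ = ρ ^ 2 := by simp
  · calc v (c * κ) ≤ 1 * ρ ^ 2 := val_mul_le v hc hκ2
      _ = ρ ^ 2 := one_mul _


section Local

variable {c a b x y : L}

/-- on `y² + c x y = x³ + a x² + b x` with `c`, `a`, `b` integral: `v x > 1` forces `v x < v y` -/
theorem val_x_lt_val_y (hc : v c ≤ 1) (ha : v a ≤ 1) (hb : v b ≤ 1)
    (heq : y ^ 2 + c * x * y = x ^ 3 + a * x ^ 2 + b * x) (hx : 1 < v x) : v x < v y := by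
  by_contra h
  rw [not_lt] at h
  have hx0 : (0 : Γ₀) < v x := lt_trans zero_lt_one hx
  -- the right hand side has valuation `v x ^ 3`
  have h1 : v (a * x ^ 2) < v (x ^ 3) := by
    rw [map_mul, map_pow, map_pow]
    calc v a * v x ^ 2 ≤ 1 * v x ^ 2 := mul_le_mul' ha le_rfl
      _ = v x ^ 2 := one_mul _
      _ < v x ^ 3 := pow_lt_pow_right₀ hx (by norm_num)
  have h2 : v (b * x) < v (x ^ 3) := by
    rw [map_mul, map_pow]
    calc v b * v x ≤ 1 * v x := mul_le_mul' hb le_rfl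
      _ = v x ^ 1 := by rw [one_mul, pow_one]
      _ < v x ^ 3 := pow_lt_pow_right₀ hx (by norm_num)
  have h3 : v (a * x ^ 2 + b * x) < v (x ^ 3) := v.map_add_lt h1 h2
  have hR : v (x ^ 3 + a * x ^ 2 + b * x) = v x ^ 3 := by
    rw [add_assoc, v.map_add_eq_of_lt_left h3, map_pow]
  -- the left hand side has valuation at most `v x ^ 2`
  have hL : v (y ^ 2 + c * x * y) ≤ v x ^ 2 := by
    refine v.map_add_le ?_ ?_
    · rw [map_pow]; exact pow_le_pow_left' h 2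
    · rw [map_mul, map_mul]
      calc v c * v x * v y ≤ 1 * v x * v x := mul_le_mul' (mul_le_mul' hc le_rfl) h
        _ = v x ^ 2 := by rw [one_mul, pow_two]
  rw [heq, hR] at hL
  exact absurd (pow_lt_pow_right₀ hx (by norm_num : 2 < 3)) (not_lt.mpr hL)

/-- `v(y)² = v(x)³` -/
theorem val_y_sq (hc : v c ≤ 1) (ha : v a ≤ 1) (hb : v b ≤ 1)
    (heq : y ^ 2 + c * x * y = x ^ 3 + a * x ^ 2 + b * x) (hx : 1 < v x) : v y ^ 2 = v x ^ 3 := by
  have hxy := val_x_lt_val_y v hc ha hb heq hx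
  have hx0 : (0 : Γ₀) < v x := lt_trans zero_lt_one hx
  have h1 : v (a * x ^ 2) < v (x ^ 3) := by
    rw [map_mul, map_pow, map_pow]
    calc v a * v x ^ 2 ≤ 1 * v x ^ 2 := mul_le_mul' ha le_rfl
      _ = v x ^ 2 := one_mul _
      _ < v x ^ 3 := pow_lt_pow_right₀ hx (by norm_num)
  have h2 : v (b * x) < v (x ^ 3) := by
    rw [map_mul, map_pow]
    calc v b * v x ≤ 1 * v x := mul_le_mul' hb le_rfl
      _ = v x ^ 1 := by rw [one_mul, pow_one]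
      _ < v x ^ 3 := pow_lt_pow_right₀ hx (by norm_num)
  have h3 : v (a * x ^ 2 + b * x) < v (x ^ 3) := v.map_add_lt h1 h2
  have hR : v (x ^ 3 + a * x ^ 2 + b * x) = v x ^ 3 := by
    rw [add_assoc, v.map_add_eq_of_lt_left h3, map_pow]
  have hy0 : (0 : Γ₀) < v y := lt_trans hx0 hxy
  have h4 : v (c * x * y) < v (y ^ 2) := by
    rw [map_mul, map_mul, map_pow, pow_two]
    have : v c * v x ≤ v x := by
      calc v c * v x ≤ 1 * v x := mul_le_mul' hc le_rfl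
        _ = v x := one_mul _
    calc v c * v x * v y ≤ v x * v y := mul_le_mul' this le_rfl
      _ < v y * v y := mul_lt_mul_of_pos_right hxy hy0
  have hL : v (y ^ 2 + c * x * y) = v y ^ 2 := by
    rw [v.map_add_eq_of_lt_left h4, map_pow]
  rw [← hL, heq, hR]

theorem one_lt_val_y (hc : v c ≤ 1) (ha : v a ≤ 1) (hb : v b ≤ 1)
    (heq : y ^ 2 + c * x * y = x ^ 3 + a * x ^ 2 + b * x) (hx : 1 < v x) : 1 < v y :=
  lt_trans hx (val_x_lt_val_y v hc ha hb heq hx)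

theorem y_ne_zero (hc : v c ≤ 1) (ha : v a ≤ 1) (hb : v b ≤ 1)
    (heq : y ^ 2 + c * x * y = x ^ 3 + a * x ^ 2 + b * x) (hx : 1 < v x) : y ≠ 0 := by
  intro h0
  have := one_lt_val_y v hc ha hb heq hx
  rw [h0, _root_.map_zero] at this
  exact absurd this (not_lt.mpr zero_le_one)

/-- `v(t)² v(x) = 1` for `t = x / y` -/
theorem val_t_sq_mul (hc : v c ≤ 1) (ha : v a ≤ 1) (hb : v b ≤ 1)
    (heq : y ^ 2 + c * x * y = x ^ 3 + a * x ^ 2 + b * x) (hx : 1 < v x) :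
    v (x / y) ^ 2 * v x = 1 := by
  have hy0 : v y ≠ 0 := by
    rw [Ne, map_eq_zero]; exact y_ne_zero v hc ha hb heq hx
  rw [map_div₀, div_pow, val_y_sq v hc ha hb heq hx]
  have hx0 : v x ≠ 0 := (lt_trans zero_lt_one hx).ne'
  field_simp

theorem val_t_lt_one (hc : v c ≤ 1) (ha : v a ≤ 1) (hb : v b ≤ 1)
    (heq : y ^ 2 + c * x * y = x ^ 3 + a * x ^ 2 + b * x) (hx : 1 < v x) : v (x / y) < 1 := by
  by_contra h
  rw [not_lt] at h
  have h1 : 1 ≤ v (x / y) ^ 2 := one_le_pow₀ h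
  have h2 := val_t_sq_mul v hc ha hb heq hx
  have : 1 < v (x / y) ^ 2 * v x := by
    calc 1 < v x := hx
      _ = 1 * v x := (one_mul _).symm
      _ ≤ v (x / y) ^ 2 * v x := mul_le_mul' h1 le_rfl
  rw [h2] at this
  exact lt_irrefl _ this

/-- `v(1/y) = v(t)³` -/
theorem val_s_eq (hc : v c ≤ 1) (ha : v a ≤ 1) (hb : v b ≤ 1)
    (heq : y ^ 2 + c * x * y = x ^ 3 + a * x ^ 2 + b * x) (hx : 1 < v x) :
    v (1 / y) = v (x / y) ^ 3 := by
  have hy0 : v y ≠ 0 := by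
    rw [Ne, map_eq_zero]; exact y_ne_zero v hc ha hb heq hx
  have hx0 : v x ≠ 0 := (lt_trans zero_lt_one hx).ne'
  have h := val_y_sq v hc ha hb heq hx
  rw [map_div₀, map_div₀, map_one, div_pow, ← h]
  field_simp

/-- conversely: an affine point with `v y > 1` has `v x > 1` -/
theorem one_lt_val_x_of_val_y (hc : v c ≤ 1) (ha : v a ≤ 1) (hb : v b ≤ 1)
    (heq : y ^ 2 + c * x * y = x ^ 3 + a * x ^ 2 + b * x) (hy : 1 < v y) : 1 < v x := by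
  by_contra h
  rw [not_lt] at h
  have h1 : v (x ^ 3 + a * x ^ 2 + b * x) ≤ 1 := by
    refine v.map_add_le (v.map_add_le ?_ ?_) ?_
    · rw [map_pow]; exact pow_le_one' h 3
    · rw [map_mul, map_pow]
      calc v a * v x ^ 2 ≤ 1 * 1 := mul_le_mul' ha (pow_le_one' h 2)
        _ = 1 := one_mul _
    · rw [map_mul]
      calc v b * v x ≤ 1 * 1 := mul_le_mul' hb h
        _ = 1 := one_mul _
  have hy0 : (0 : Γ₀) < v y := lt_trans zero_lt_one hy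
  have h4 : v (c * x * y) < v (y ^ 2) := by
    rw [map_mul, map_mul, map_pow, pow_two]
    have : v c * v x ≤ 1 := by
      calc v c * v x ≤ 1 * 1 := mul_le_mul' hc h
        _ = 1 := one_mul _
    calc v c * v x * v y ≤ 1 * v y := mul_le_mul' this le_rfl
      _ = v y := one_mul _
      _ = 1 * v y := (one_mul _).symm
      _ < v y * v y := mul_lt_mul_of_pos_right hy hy0
  have hL : v (y ^ 2 + c * x * y) = v y ^ 2 := by
    rw [v.map_add_eq_of_lt_left h4, map_pow]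
  rw [← heq, hL] at h1
  exact absurd (one_lt_pow₀ hy (by norm_num : 2 ≠ 0)) (not_lt.mpr h1)

end Local


/-! ### Points -/

section Points

variable [DecidableEq L] {W : WeierstrassCurve L}

omit [DecidableEq L] in
lemma _root_.Fermat.Agent.Cofix.IsTateForm.equation_iff (hW : IsTateForm W) (x y : L) :
    W.toAffine.Equation x y ↔ y ^ 2 + W.a₁ * x * y = x ^ 3 + W.a₂ * x ^ 2 + W.a₄ * x := by
  rw [Affine.equation_iff, hW.a₃, hW.a₆]
  constructor <;> intro h <;> linear_combination h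

omit [DecidableEq L] in
lemma _root_.Fermat.Agent.Cofix.IsTateForm.negY (hW : IsTateForm W) (x y : L) :
    W.toAffine.negY x y = -y - W.a₁ * x := by
  rw [Affine.negY, hW.a₃]; ring

variable {v}

/-- **KEY** (Silverman–Tate): addition in `E₁` in terms of the parameter `t`. -/
theorem key (hW : IsTateForm W) (hc : v W.a₁ ≤ 1) (ha : v W.a₂ ≤ 1) (hb : v W.a₄ ≤ 1)
    {P₁ P₂ : W.toAffine.Point} (h₁ : InE1v v P₁) (h₂ : InE1v v P₂) {ρ : Γ₀} (hρ : ρ < 1)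
    (ht₁ : v (tc P₁) ≤ ρ) (ht₂ : v (tc P₂) ≤ ρ) :
    InE1v v (P₁ + P₂) ∧ v (tc (P₁ + P₂)) ≤ ρ ∧ v (tc (P₁ + P₂) - tc P₁ - tc P₂) ≤ ρ ^ 2 := by
  cases P₁ with
  | zero =>
    have h0 : (Point.zero : W.toAffine.Point) = 0 := rfl
    rw [h0, zero_add]
    refine ⟨h₂, ht₂, ?_⟩
    simp
  | some x₁ y₁ hns₁ =>
  cases P₂ with
  | zero =>
    have h0 : (Point.zero : W.toAffine.Point) = 0 := rfl
    rw [h0, add_zero]
    refine ⟨h₁, ht₁, ?_⟩
    simp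
  | some x₂ y₂ hns₂ =>
  have hx₁ : 1 < v x₁ := by
    rcases h₁ with h | h
    · exact absurd h (by simp)
    · exact h
  have hx₂ : 1 < v x₂ := by
    rcases h₂ with h | h
    · exact absurd h (by simp)
    · exact h
  have heq₁ := (hW.equation_iff x₁ y₁).mp hns₁.1
  have heq₂ := (hW.equation_iff x₂ y₂).mp hns₂.1
  have hy₁ : y₁ ≠ 0 := y_ne_zero v hc ha hb heq₁ hx₁
  have hy₂ : y₂ ≠ 0 := y_ne_zero v hc ha hb heq₂ hx₂
  rw [tc_some] at ht₁ ht₂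
  have hρ2 : ρ ^ 2 < 1 := pow_lt_one' hρ two_ne_zero
  have h21 : ρ ^ 2 ≤ ρ := by
    calc ρ ^ 2 ≤ ρ ^ 1 := pow_le_pow_right_of_le_one' hρ.le (by norm_num)
      _ = ρ := pow_one ρ
  by_cases hxy : x₁ = x₂ ∧ y₁ = W.toAffine.negY x₂ y₂
  · rw [Point.add_of_Y_eq hxy.1 hxy.2]
    refine ⟨Or.inl rfl, by simp, ?_⟩
    rw [tc_zero, tc_some, tc_some, hxy.1, hxy.2, hW.negY]
    -- `-t₁ - t₂ = -c t₂² / (1 + c t₂)`
    obtain ⟨t₂, ht₂def⟩ : ∃ t : L, t = x₂ / y₂ := ⟨_, rfl⟩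
    rw [← ht₂def] at ht₂ ⊢
    have hx₂t : x₂ = t₂ * y₂ := by rw [ht₂def]; field_simp
    have hct : v (W.a₁ * t₂) < 1 := by
      calc v (W.a₁ * t₂) ≤ 1 * ρ := val_mul_le v hc ht₂
        _ = ρ := one_mul _
        _ < 1 := hρ
    have hu : v (1 + W.a₁ * t₂) = 1 := v.map_one_add_of_lt hct
    have hu0 : 1 + W.a₁ * t₂ ≠ 0 := by
      intro h0
      rw [h0, _root_.map_zero] at hu
      exact zero_ne_one hu
    have hden : -y₂ - W.a₁ * x₂ = -y₂ * (1 + W.a₁ * t₂) := by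
      rw [hx₂t]; ring
    have e1 : x₂ / (-y₂ - W.a₁ * x₂) = -t₂ / (1 + W.a₁ * t₂) := by
      rw [hden, hx₂t]
      field_simp
    have : (0 : L) - x₂ / (-y₂ - W.a₁ * x₂) - t₂ = -(W.a₁ * t₂ ^ 2) / (1 + W.a₁ * t₂) := by
      rw [e1, eq_div_iff hu0, sub_mul, sub_mul, zero_mul, div_mul_cancel₀ _ hu0]
      ring
    rw [this, map_div₀, hu, div_one, Valuation.map_neg]
    calc v (W.a₁ * t₂ ^ 2) ≤ 1 * ρ ^ 2 := val_mul_le v hc (val_pow_le v ht₂ 2)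
      _ = ρ ^ 2 := one_mul _
  · rw [Point.add_some hxy]
    have hs₁ : v (1 / y₁) ≤ ρ ^ 3 := by
      rw [val_s_eq v hc ha hb heq₁ hx₁]; exact pow_le_pow_left' ht₁ 3
    have hs₂ : v (1 / y₂) ≤ ρ ^ 3 := by
      rw [val_s_eq v hc ha hb heq₂ hx₂]; exact pow_le_pow_left' ht₂ 3
    obtain ⟨hD1, hE1, hκ2, hμ3, hfin⟩ :=
      estimates v hc ha hb hρ ht₁ ht₂ hs₁ hs₂ rfl rfl rfl rfl rfl
    have hD0 : NodalAlg.gDen W.a₁ W.a₂ W.a₄ (x₁ / y₁) (1 / y₁) (1 / y₂) ≠ 0 := by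
      intro h0
      unfold NodalAlg.gDen at h0
      rw [h0, _root_.map_zero] at hD1
      exact zero_ne_one hD1
    have hE0 : NodalAlg.gE W.a₁ W.a₂ W.a₄ (x₁ / y₁) (1 / y₁) (x₂ / y₂) (1 / y₂) ≠ 0 := by
      intro h0
      unfold NodalAlg.gE NodalAlg.gKappa NodalAlg.gNum NodalAlg.gDen at h0
      rw [h0, _root_.map_zero] at hE1
      exact zero_ne_one hE1
    obtain ⟨-, hA1, hA2, hA3⟩ :=
      NodalAlg.formal_third (W := W.toAffine) hW.a₃ hW.a₆ hns₁.1 hns₂.1 hy₁ hy₂ hxy hD0 hE0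
    simp only [NodalAlg.gE, NodalAlg.gMu, NodalAlg.gKappa, NodalAlg.gNum, NodalAlg.gDen] at hA2 hA3
    set x₃ := W.toAffine.addX x₁ x₂ (W.toAffine.slope x₁ x₂ y₁ y₂) with hx₃
    set y₃' := W.toAffine.negAddY x₁ x₂ y₁ (W.toAffine.slope x₁ x₂ y₁ y₂) with hy₃'
    have hy₃ : W.toAffine.addY x₁ x₂ y₁ (W.toAffine.slope x₁ x₂ y₁ y₂) = -y₃' - W.a₁ * x₃ := by
      rw [Affine.addY, hW.negY]
    have hρ3 : ρ ^ 3 < 1 := pow_lt_one' hρ (by norm_num)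
    have h31 : ρ ^ 3 ≤ ρ := by
      calc ρ ^ 3 ≤ ρ ^ 1 := pow_le_pow_right_of_le_one' hρ.le (by norm_num)
        _ = ρ := pow_one ρ
    -- the third point
    obtain ⟨t₃', ht₃'def⟩ : ∃ t : L, t = x₃ / y₃' := ⟨_, rfl⟩
    rw [← ht₃'def] at hA2 hA3
    have hx₃t : x₃ = t₃' * y₃' := by rw [ht₃'def]; field_simp
    have ht₃' : v t₃' ≤ ρ := by
      rw [hA2]
      refine v.map_sub_le ?_ (hfin.trans h21)
      rw [Valuation.map_neg]
      exact v.map_add_le ht₁ ht₂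
    have hdiff' : v (t₃' + (x₁ / y₁ + x₂ / y₂)) ≤ ρ ^ 2 := by
      have aux : ∀ X : L, t₃' = -(x₁ / y₁ + x₂ / y₂) - X → v X ≤ ρ ^ 2 →
          v (t₃' + (x₁ / y₁ + x₂ / y₂)) ≤ ρ ^ 2 := by
        intro X h1 h2
        have h' : t₃' + (x₁ / y₁ + x₂ / y₂) = -X := by rw [h1]; ring
        rw [h', Valuation.map_neg]
        exact h2
      exact aux _ hA2 hfin
    have hs₃' : v (1 / y₃') ≤ ρ ^ 3 := by
      rw [hA3]
      refine v.map_add_le ?_ hμ3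
      calc v (_ * t₃') ≤ ρ ^ 2 * ρ := val_mul_le v hκ2 ht₃'
        _ = ρ ^ 3 := by rw [← pow_succ]
    -- the unit `u = 1 + c t₃'`
    have hct : v (W.a₁ * t₃') < 1 := by
      calc v (W.a₁ * t₃') ≤ 1 * ρ := val_mul_le v hc ht₃'
        _ = ρ := one_mul _
        _ < 1 := hρ
    have hu : v (1 + W.a₁ * t₃') = 1 := v.map_one_add_of_lt hct
    have hu0 : 1 + W.a₁ * t₃' ≠ 0 := by
      intro h0
      rw [h0, _root_.map_zero] at hu
      exact zero_ne_one hu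
    have hden : -y₃' - W.a₁ * x₃ = -y₃' * (1 + W.a₁ * t₃') := by
      rw [hx₃t]; ring
    have hy₃0 : -y₃' - W.a₁ * x₃ ≠ 0 := by
      rw [hden]; exact mul_ne_zero (neg_ne_zero.mpr hA1) hu0
    have ht₃eq : x₃ / (-y₃' - W.a₁ * x₃) = -t₃' / (1 + W.a₁ * t₃') := by
      rw [hden, hx₃t]
      field_simp
    have hs₃eq : 1 / (-y₃' - W.a₁ * x₃) = -(1 / y₃') / (1 + W.a₁ * t₃') := by
      rw [hden]
      field_simp
    have ht₃ : v (x₃ / (-y₃' - W.a₁ * x₃)) ≤ ρ := by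
      rw [ht₃eq, map_div₀, hu, div_one, Valuation.map_neg]; exact ht₃'
    have hs₃ : v (1 / (-y₃' - W.a₁ * x₃)) ≤ ρ ^ 3 := by
      rw [hs₃eq, map_div₀, hu, div_one, Valuation.map_neg]; exact hs₃'
    -- the difference
    have hdiff : v (x₃ / (-y₃' - W.a₁ * x₃) - x₁ / y₁ - x₂ / y₂) ≤ ρ ^ 2 := by
      have : x₃ / (-y₃' - W.a₁ * x₃) - x₁ / y₁ - x₂ / y₂ =
          (-(t₃' + (x₁ / y₁ + x₂ / y₂)) - W.a₁ * (x₁ / y₁ + x₂ / y₂) * t₃') /
            (1 + W.a₁ * t₃') := by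
        rw [ht₃eq, eq_div_iff hu0, sub_mul, sub_mul, div_mul_cancel₀ _ hu0]
        ring
      rw [this, map_div₀, hu, div_one]
      refine v.map_sub_le ?_ ?_
      · rw [Valuation.map_neg]; exact hdiff'
      · calc v (W.a₁ * (x₁ / y₁ + x₂ / y₂) * t₃') ≤ 1 * ρ * ρ :=
              val_mul_le v (val_mul_le v hc (v.map_add_le ht₁ ht₂)) ht₃'
          _ = ρ ^ 2 := by rw [one_mul, pow_two]
    have hvy₃ : 1 < v (-y₃' - W.a₁ * x₃) := by
      have hy0 : v (-y₃' - W.a₁ * x₃) ≠ 0 := by rwa [Ne, map_eq_zero]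
      have h1 : v (1 / (-y₃' - W.a₁ * x₃)) < 1 := lt_of_le_of_lt hs₃ hρ3
      rw [map_div₀, map_one, div_lt_one₀ (zero_lt_iff.mpr hy0)] at h1
      exact h1
    have hns₃ := Affine.nonsingular_add hns₁ hns₂ hxy
    have heq₃ := (hW.equation_iff _ _).mp hns₃.1
    rw [hy₃] at heq₃
    refine ⟨Or.inr ?_, ?_, ?_⟩
    · rw [xc_some]
      exact one_lt_val_x_of_val_y v hc ha hb heq₃ hvy₃
    · rw [tc_some, hy₃]; exact ht₃
    · rw [tc_some, tc_some, tc_some, hy₃]; exact hdiff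

/-- the parameter of a point of `E₁` is topologically nilpotent -/
theorem val_tc_lt_one (hW : IsTateForm W) (hc : v W.a₁ ≤ 1) (ha : v W.a₂ ≤ 1) (hb : v W.a₄ ≤ 1)
    {P : W.toAffine.Point} (h : InE1v v P) : v (tc P) < 1 := by
  cases P with
  | zero =>
    have h0 : (Point.zero : W.toAffine.Point) = 0 := rfl
    rw [h0, tc_zero, _root_.map_zero]
    exact zero_lt_one
  | some x y hns =>
    have hx : 1 < v x := by
      rcases h with h | h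
      · exact absurd h (by simp)
      · exact h
    rw [tc_some]
    exact val_t_lt_one v hc ha hb ((hW.equation_iff x y).mp hns.1) hx

/-- the parameter of a nonzero point of `E₁` is nonzero -/
theorem tc_ne_zero (hW : IsTateForm W) (hc : v W.a₁ ≤ 1) (ha : v W.a₂ ≤ 1) (hb : v W.a₄ ≤ 1)
    {P : W.toAffine.Point} (h : InE1v v P) (hP : P ≠ 0) : tc P ≠ 0 := by
  cases P with
  | zero => exact absurd rfl hP
  | some x y hns =>
    have hx : 1 < v x := by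
      rcases h with h | h
      · exact absurd h (by simp)
      · exact h
    rw [tc_some]
    have hy : y ≠ 0 := y_ne_zero v hc ha hb ((hW.equation_iff x y).mp hns.1) hx
    have hx0 : x ≠ 0 := by
      intro h0
      rw [h0, _root_.map_zero] at hx
      exact absurd hx (not_lt.mpr zero_le_one)
    exact div_ne_zero hx0 hy

/-- for a nonzero point of `E₁`: `v(t)² v(x) = 1` -/
theorem val_tc_sq_mul (hW : IsTateForm W) (hc : v W.a₁ ≤ 1) (ha : v W.a₂ ≤ 1) (hb : v W.a₄ ≤ 1)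
    {P : W.toAffine.Point} (h : InE1v v P) (hP : P ≠ 0) : v (tc P) ^ 2 * v (xc P) = 1 := by
  cases P with
  | zero => exact absurd rfl hP
  | some x y hns =>
    have hx : 1 < v x := by
      rcases h with h | h
      · exact absurd h (by simp)
      · exact h
    rw [tc_some, xc_some]
    exact val_t_sq_mul v hc ha hb ((hW.equation_iff x y).mp hns.1) hx

/-- **(F-sub)** `E₁` is closed under addition. -/
theorem inE1v_add (hW : IsTateForm W) (hc : v W.a₁ ≤ 1) (ha : v W.a₂ ≤ 1) (hb : v W.a₄ ≤ 1)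
    {P₁ P₂ : W.toAffine.Point} (h₁ : InE1v v P₁) (h₂ : InE1v v P₂) : InE1v v (P₁ + P₂) :=
  (key hW hc ha hb h₁ h₂
    (max_lt (val_tc_lt_one hW hc ha hb h₁) (val_tc_lt_one hW hc ha hb h₂))
    (le_max_left _ _) (le_max_right _ _)).1

variable (v) in
/-- **(F-sub)** the kernel of reduction as a subgroup -/
def E1 (hW : IsTateForm W) (hc : v W.a₁ ≤ 1) (ha : v W.a₂ ≤ 1) (hb : v W.a₄ ≤ 1) :
    AddSubgroup W.toAffine.Point where
  carrier := {P | InE1v v P}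
  add_mem' := fun h₁ h₂ => inE1v_add hW hc ha hb h₁ h₂
  zero_mem' := Or.inl rfl
  neg_mem' := fun h => inE1v_neg h

theorem mem_E1_iff (hW : IsTateForm W) (hc : v W.a₁ ≤ 1) (ha : v W.a₂ ≤ 1) (hb : v W.a₄ ≤ 1)
    (P : W.toAffine.Point) : P ∈ E1 v hW hc ha hb ↔ InE1v v P := Iff.rfl

/-- multiples of a point of `E₁`: `t (k P) ≡ k t(P)` modulo `ρ²`, `ρ = v t(P)` -/
theorem nsmul_estimate (hW : IsTateForm W) (hc : v W.a₁ ≤ 1) (ha : v W.a₂ ≤ 1) (hb : v W.a₄ ≤ 1)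
    {P : W.toAffine.Point} (h : InE1v v P) (k : ℕ) :
    InE1v v (k • P) ∧ v (tc (k • P)) ≤ v (tc P) ∧
      v (tc (k • P) - (k : L) * tc P) ≤ v (tc P) ^ 2 := by
  induction k with
  | zero =>
    rw [zero_smul]
    refine ⟨Or.inl rfl, by simp, by simp⟩
  | succ k ih =>
    obtain ⟨ih1, ih2, ih3⟩ := ih
    rw [succ_nsmul]
    obtain ⟨h1, h2, h3⟩ := key hW hc ha hb ih1 h (val_tc_lt_one hW hc ha hb h) ih2 le_rfl
    refine ⟨h1, h2, ?_⟩
    have : tc (k • P + P) - ((k + 1 : ℕ) : L) * tc P =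
        (tc (k • P + P) - tc (k • P) - tc P) + (tc (k • P) - (k : L) * tc P) := by
      push_cast; ring
    rw [this]
    exact v.map_add_le h3 ih3

/-- **(F-tors)** `E₁` has no `n`-torsion when `n` is a unit. -/
theorem eq_zero_of_nsmul_eq_zero (hW : IsTateForm W) (hc : v W.a₁ ≤ 1) (ha : v W.a₂ ≤ 1)
    (hb : v W.a₄ ≤ 1) {P : W.toAffine.Point} (h : InE1v v P) {n : ℕ} (hvn : v (n : L) = 1)
    (hnP : n • P = 0) : P = 0 := by
  by_contra hP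
  have ht0 : tc P ≠ 0 := tc_ne_zero hW hc ha hb h hP
  have hρ0 : 0 < v (tc P) := by
    rw [zero_lt_iff, Ne, map_eq_zero]; exact ht0
  have hρ1 : v (tc P) < 1 := val_tc_lt_one hW hc ha hb h
  obtain ⟨-, -, h3⟩ := nsmul_estimate hW hc ha hb h n
  rw [hnP, tc_zero, zero_sub, Valuation.map_neg, map_mul, hvn, one_mul] at h3
  exact absurd (pow_lt_self_of_lt_one₀ hρ0 hρ1 (by norm_num)) (not_lt.mpr h3)

end Points

/-! ### Specialisation to a valuation subring (names of `Unram/Setup.lean`) -/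

section Subring

variable [DecidableEq L] {W : WeierstrassCurve L} (A : ValuationSubring L)

/-- **KEY** for `A.valuation`. -/
theorem key' (hW : IsTateForm W) (hc : A.valuation W.a₁ ≤ 1) (ha : A.valuation W.a₂ ≤ 1)
    (hb : A.valuation W.a₄ ≤ 1) {P₁ P₂ : W.toAffine.Point} (h₁ : InE1 A P₁) (h₂ : InE1 A P₂)
    {ρ : A.ValueGroup} (hρ : ρ < 1) (ht₁ : A.valuation (tc P₁) ≤ ρ)
    (ht₂ : A.valuation (tc P₂) ≤ ρ) :
    InE1 A (P₁ + P₂) ∧ A.valuation (tc (P₁ + P₂)) ≤ ρ ∧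
      A.valuation (tc (P₁ + P₂) - tc P₁ - tc P₂) ≤ ρ ^ 2 :=
  key hW hc ha hb h₁ h₂ hρ ht₁ ht₂

/-- **(F-sub)** -/
theorem inE1_add (hW : IsTateForm W) (hc : A.valuation W.a₁ ≤ 1) (ha : A.valuation W.a₂ ≤ 1)
    (hb : A.valuation W.a₄ ≤ 1) {P₁ P₂ : W.toAffine.Point} (h₁ : InE1 A P₁) (h₂ : InE1 A P₂) :
    InE1 A (P₁ + P₂) :=
  inE1v_add hW hc ha hb h₁ h₂

theorem inE1_neg {P : W.toAffine.Point} (h : InE1 A P) : InE1 A (-P) := inE1v_neg h

theorem inE1_sub (hW : IsTateForm W) (hc : A.valuation W.a₁ ≤ 1) (ha : A.valuation W.a₂ ≤ 1)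
    (hb : A.valuation W.a₄ ≤ 1) {P₁ P₂ : W.toAffine.Point} (h₁ : InE1 A P₁) (h₂ : InE1 A P₂) :
    InE1 A (P₁ - P₂) := by
  rw [sub_eq_add_neg]
  exact inE1_add A hW hc ha hb h₁ (inE1_neg A h₂)

/-- `E₁` as a subgroup, for a valuation subring -/
noncomputable def E1A (hW : IsTateForm W) (hc : A.valuation W.a₁ ≤ 1) (ha : A.valuation W.a₂ ≤ 1)
    (hb : A.valuation W.a₄ ≤ 1) : AddSubgroup W.toAffine.Point :=
  E1 A.valuation hW hc ha hb

theorem mem_E1A_iff (hW : IsTateForm W) (hc : A.valuation W.a₁ ≤ 1) (ha : A.valuation W.a₂ ≤ 1)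
    (hb : A.valuation W.a₄ ≤ 1) (P : W.toAffine.Point) :
    P ∈ E1A A hW hc ha hb ↔ InE1 A P := Iff.rfl

/-- multiples stay in `E₁` -/
theorem inE1_nsmul (hW : IsTateForm W) (hc : A.valuation W.a₁ ≤ 1) (ha : A.valuation W.a₂ ≤ 1)
    (hb : A.valuation W.a₄ ≤ 1) {P : W.toAffine.Point} (h : InE1 A P) (k : ℕ) :
    InE1 A (k • P) :=
  (nsmul_estimate hW hc ha hb h k).1

/-- **(F-tors)** for `A.valuation`. -/
theorem eq_zero_of_inE1_of_nsmul_eq_zero (hW : IsTateForm W) (hc : A.valuation W.a₁ ≤ 1)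
    (ha : A.valuation W.a₂ ≤ 1) (hb : A.valuation W.a₄ ≤ 1) {P : W.toAffine.Point}
    (h : InE1 A P) {n : ℕ} (hvn : A.valuation (n : L) = 1) (hnP : n • P = 0) : P = 0 :=
  eq_zero_of_nsmul_eq_zero hW hc ha hb h hvn hnP

end Subring

end Fermat.Agent.Cofix.NodalFormal
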