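/-
S13, 2-adic Frey wiring (packages T1, T2): for a Frey package `P` and a valuation subring `A` of `L` over `2`:
the Frey curve `y² + xy = x³ + a₂x² + a₄x` is in the 2-adic context `Ctx2 A (P.freyCurve⁄L)`,
`v(a₄) = v(2)^e` with `e = p·v₂(b) - 4 ≥ 1` prime to `p`; there is a valuation subring over every prime;
and **T2**: no nonzero `p`-torsion point of the Frey curve is fixed by the whole Galois group
(helper8's `walk2_no_fixed_torsion` + helper5's `NodalFormal`).
-/
import Mathlib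
import Fermat.Agent.Unram.Inertia
import Fermat.Agent.Unram.Setup
import Fermat.Agent.Cofix.Setup2
import Fermat.Agent.Cofix.NodalFormal
import Fermat.Agent.Cofix.NoRatTors
import Fermat.Prelude.Def_FLTPrelim_Ramification

set_option autoImplicit false

namespace Fermat.Agent.Cofix

open WeierstrassCurve WeierstrassCurve.Affine WeierstrassCurve.Affine.Point
open Fermat.Agent.Unram

/-! ### Arithmetic of the Frey coefficients at `2` -/

section arith

variable (P : FreyPackage)

lemma frey_two_dvd_b : (2 : ℤ) ∣ P.b := (ZMod.intCast_zmod_eq_zero_iff_dvd P.b 2).1 P.hb2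

lemma frey_not_two_dvd_a : ¬ (2 : ℤ) ∣ P.a := by
  intro h
  obtain ⟨k, hk⟩ := h
  have h4 := P.ha4
  rw [hk] at h4
  have : ((2 * k : ℤ) : ZMod 4) = 2 * (k : ZMod 4) := by push_cast; ring
  rw [this] at h4
  generalize (k : ZMod 4) = z at h4
  revert z
  decide

lemma frey_four_dvd : (4 : ℤ) ∣ P.b ^ P.p - 1 - P.a ^ P.p := by
  have hp5 := P.hp5
  have hodd := P.hp_odd
  refine (ZMod.intCast_zmod_eq_zero_iff_dvd _ 4).1 ?_
  push_cast
  rw [P.ha4]
  obtain ⟨k, hk⟩ := frey_two_dvd_b P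
  have hb : ((P.b : ℤ) : ZMod 4) ^ P.p = 0 := by
    rw [hk]
    have : P.p = 2 + (P.p - 2) := by omega
    rw [this, pow_add]
    push_cast
    have : ((2 : ZMod 4) * (k : ZMod 4)) ^ 2 = 0 := by
      generalize (k : ZMod 4) = z
      revert z
      decide
    rw [this, zero_mul]
  rw [hb]
  have h3 : (3 : ZMod 4) = -1 := by decide
  rw [h3, hodd.neg_one_pow]
  ring

/-- `a₂` of the Frey curve as an integer. -/
lemma frey_a₂_int : ∃ k : ℤ, P.freyCurve.a₂ = (k : ℚ) := by
  obtain ⟨k, hk⟩ := frey_four_dvd P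
  refine ⟨k, ?_⟩
  simp only [FreyPackage.freyCurve]
  have : ((P.b : ℚ) ^ P.p - 1 - (P.a : ℚ) ^ P.p) = 4 * k := by exact_mod_cast congrArg (fun z : ℤ => (z : ℚ)) hk
  rw [this]
  field_simp

end arith

section ctx

variable {L : Type*} [Field L] [Algebra ℚ L] (P : FreyPackage)

/-- There is a valuation subring of `L` (characteristic zero) over every prime `ℓ`. -/
theorem exists_liesOverPrime_of_charZero (ℓ : ℕ) (hℓ : ℓ.Prime) :
    ∃ A : ValuationSubring L, A.LiesOverPrime ℓ := by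
  have : CharZero L := algebraRat.charZero L
  let R : Subring L := (Int.castRingHom L).range
  let ℓR : R := ⟨(ℓ : L), ⟨(ℓ : ℤ), by simp⟩⟩
  have hne : Ideal.span {ℓR} ≠ ⊤ := by
    intro h
    rw [Ideal.span_singleton_eq_top] at h
    obtain ⟨u, hu⟩ := h.exists_right_inv
    obtain ⟨n, hn⟩ := u.2
    have h1 : ((ℓ : L)) * (u : L) = 1 := congrArg Subtype.val hu
    rw [← hn] at h1
    have h2 : ((ℓ * n : ℤ) : L) = ((1 : ℤ) : L) := by push_cast; simpa using h1
    have h3 : (ℓ : ℤ) * n = 1 := Int.cast_injective h2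
    have h4 : (ℓ : ℤ) ∣ 1 := ⟨n, h3.symm⟩
    have h5 := Int.le_of_dvd one_pos h4
    have := hℓ.one_lt
    omega
  obtain ⟨V, _, hV⟩ := Ideal.image_subset_nonunits_valuationSubring _ hne
  refine ⟨V, ?_⟩
  apply hV
  exact ⟨ℓR, Ideal.subset_span rfl, rfl⟩

lemma frey_baseChange_a₁ : (P.freyCurve⁄L).a₁ = 1 := by
  change algebraMap ℚ L (1 : ℚ) = 1
  exact map_one _

lemma frey_baseChange_a₃ : (P.freyCurve⁄L).a₃ = 0 := by
  change algebraMap ℚ L (0 : ℚ) = 0
  exact map_zero _

lemma frey_baseChange_a₆ : (P.freyCurve⁄L).a₆ = 0 := by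
  change algebraMap ℚ L (0 : ℚ) = 0
  exact map_zero _

lemma frey_baseChange_a₂ : ∃ k : ℤ, (P.freyCurve⁄L).a₂ = (k : L) := by
  obtain ⟨k, hk⟩ := frey_a₂_int P
  refine ⟨k, ?_⟩
  change algebraMap ℚ L P.freyCurve.a₂ = _
  rw [hk, map_intCast]

lemma frey_baseChange_a₄ :
    (P.freyCurve⁄L).a₄ * 16 = -((P.a : L) ^ P.p * (P.b : L) ^ P.p) := by
  change algebraMap ℚ L P.freyCurve.a₄ * 16 = _
  have h16 : (16 : L) = algebraMap ℚ L 16 := (map_ofNat _ 16).symm
  have h : P.freyCurve.a₄ * 16 = -(((P.a : ℤ) : ℚ) ^ P.p * ((P.b : ℤ) : ℚ) ^ P.p) := by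
    simp only [FreyPackage.freyCurve]
    ring
  rw [h16, ← map_mul, h, map_neg, map_mul, map_pow, map_pow, map_intCast, map_intCast]

variable (A : ValuationSubring L)

/-- `v(a₄) = v(2)^e`, `e = p · v₂(b) - 4 ≥ 1`, `p ∤ e`. -/
theorem frey_val_a₄ (hA : A.LiesOverPrime 2) :
    ∃ e : ℕ, 1 ≤ e ∧ ¬ P.p ∣ e ∧ A.valuation (P.freyCurve⁄L).a₄ = A.valuation (2 : L) ^ e := by
  have : CharZero L := algebraRat.charZero L
  have hp5 := P.hp5
  have h2 : Nat.Prime 2 := Nat.prime_two
  have hA' : A.valuation ((2 : ℕ) : L) < 1 := valuation_prime_lt_one A hA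
  have hv20 : A.valuation (2 : L) ≠ 0 := by
    rw [Ne, map_eq_zero]; exact two_ne_zero
  have hva : A.valuation (P.a : L) = 1 :=
    valuation_intCast_eq_one_of_not_dvd A h2 hA (by exact_mod_cast frey_not_two_dvd_a P)
  have hvb : A.valuation (P.b : L) = A.valuation (2 : L) ^ padicValInt 2 P.b := by
    have := valuation_intCast A h2 hA P.hb0
    simpa using this
  have hn : 1 ≤ padicValInt 2 P.b := by
    have := Fact.mk h2
    have hd : ((2 : ℕ) : ℤ) ^ 1 ∣ P.b := by simpa using frey_two_dvd_b P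
    rcases (padicValInt_dvd_iff (p := 2) 1 P.b).mp hd with h | h
    · exact absurd h P.hb0
    · exact h
  set n := padicValInt 2 P.b with hn_def
  have hpn : 5 ≤ P.p * n := by nlinarith
  refine ⟨P.p * n - 4, by omega, ?_, ?_⟩
  · intro hdvd
    have h4 : P.p ∣ 4 := by
      have h1 : P.p ∣ P.p * n := dvd_mul_right _ _
      have := Nat.dvd_sub h1 hdvd
      have h' : P.p * n - (P.p * n - 4) = 4 := by omega
      rwa [h'] at this
    have := Nat.le_of_dvd (by norm_num) h4
    omega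
  · have h := congrArg A.valuation (frey_baseChange_a₄ (L := L) P)
    rw [map_mul, Valuation.map_neg, map_mul, map_pow, map_pow, hva, one_pow, one_mul, hvb,
      ← pow_mul] at h
    have h16 : A.valuation (16 : L) = A.valuation (2 : L) ^ 4 := by
      rw [← map_pow]; norm_num
    rw [h16] at h
    have hsplit : A.valuation (2 : L) ^ (n * P.p) =
        A.valuation (2 : L) ^ (P.p * n - 4) * A.valuation (2 : L) ^ 4 := by
      rw [← pow_add]
      congr 1
      rw [mul_comm]
      omega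
    rw [hsplit] at h
    exact mul_right_cancel₀ (pow_ne_zero 4 hv20) h

/-- The Frey curve over a valuation subring above `2` is in the 2-adic context. -/
theorem frey_ctx2 (hA : A.LiesOverPrime 2) : Ctx2 A (P.freyCurve⁄L) := by
  have : CharZero L := algebraRat.charZero L
  have hA' : A.valuation ((2 : ℕ) : L) < 1 := valuation_prime_lt_one A hA
  have hA2 : A.valuation (2 : L) < 1 := by simpa using hA'
  obtain ⟨e, he1, -, he⟩ := frey_val_a₄ P A hA
  obtain ⟨k, hk⟩ := frey_baseChange_a₂ (L := L) P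
  refine ⟨frey_baseChange_a₁ P, frey_baseChange_a₃ P, frey_baseChange_a₆ P, hA2, two_ne_zero, ?_,
    ?_, ?_⟩
  · rw [hk]; exact valuation_intCast_le_one A k
  · rw [he]
    exact pow_lt_one' hA2 (by omega)
  · intro h0
    rw [h0, _root_.map_zero] at he
    have hv20 : A.valuation (2 : L) ≠ 0 := by
      rw [Ne, map_eq_zero]; exact two_ne_zero
    exact pow_ne_zero e hv20 he.symm

end ctx

section T2

variable {L : Type*} [Field L] [DecidableEq L] [Algebra ℚ L] [IsAlgClosed L] [Algebra.IsAlgebraic ℚ L]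

omit [DecidableEq L] [Algebra ℚ L] [IsAlgClosed L] [Algebra.IsAlgebraic ℚ L] in
/-- `v(p) = 1` at a place over `2`. -/
lemma frey_val_p (P : FreyPackage) (A : ValuationSubring L) (hA : A.LiesOverPrime 2) :
    A.valuation (P.p : L) = 1 := by
  apply valuation_natCast_eq_one_of_not_dvd A Nat.prime_two hA
  intro h2
  have := (Nat.prime_dvd_prime_iff_eq Nat.prime_two P.pp).mp h2
  have := P.hp5
  omega

omit [IsAlgClosed L] [Algebra.IsAlgebraic ℚ L] in
/-- `E₁(A)` of the Frey curve, `A` over `2`, has no `p`-torsion (helper5's B1). -/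
theorem frey_eq_zero_of_inE1_two (P : FreyPackage) (A : ValuationSubring L) (hA : A.LiesOverPrime 2)
    {D : (P.freyCurve⁄L).toAffine.Point} (hD : InE1 A D) (hpD : P.p • D = 0) : D = 0 := by
  have hC := frey_ctx2 P A hA
  have hc : A.valuation (P.freyCurve⁄L).a₁ ≤ 1 := by rw [hC.a1, map_one]
  exact NodalFormal.eq_zero_of_inE1_of_nsmul_eq_zero A ⟨hC.a3, hC.a6⟩ hc hC.ha2 hC.ha4.le hD
    (frey_val_p P A hA) hpD

/-- **T2**: no nonzero point of `E[p]` of the Frey curve is fixed by the whole Galois group. -/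
theorem T2_no_rational_torsion (P : FreyPackage) (x : (P.freyCurve⁄L).toAffine.Point)
    (hx : (P.p : ℤ) • x = 0) (hfix : ∀ σ : L ≃ₐ[ℚ] L, σ • x = x) : x = 0 := by
  by_contra hx0
  obtain ⟨A, hA⟩ := exists_liesOverPrime_of_charZero (L := L) 2 Nat.prime_two
  have hC := frey_ctx2 P A hA
  obtain ⟨e, he1, hpe, hve⟩ := frey_val_a₄ P A hA
  have hpx : P.p • x = 0 := by rwa [natCast_zsmul] at hx
  exact walk2_no_fixed_torsion P.freyCurve rfl rfl rfl A hA hC.b2_unit hC.ha2 hve he1 P.pp P.hp5 hpe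
    (fun D hD hpD => frey_eq_zero_of_inE1_two P A hA hD hpD) x hx0 hpx hfix

/-- **T2** in the shape consumed by the glue. -/
theorem T2_no_rational_torsion' (P : FreyPackage) :
    ¬ ∃ x : Submodule.torsionBy ℤ (P.freyCurve⁄L).toAffine.Point P.p,
      x ≠ 0 ∧ ∀ σ : L ≃ₐ[ℚ] L, σ • x = x := by
  rintro ⟨x, hx0, hfix⟩
  apply hx0
  apply Subtype.ext
  refine T2_no_rational_torsion P (x : (P.freyCurve⁄L).toAffine.Point) ?_ (fun σ => ?_)
  · have := x.2
    rwa [Submodule.mem_torsionBy_iff] at this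
  · exact congrArg Subtype.val (hfix σ)

end T2

end Fermat.Agent.Cofix
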