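/-
S13 (Cofix), package T1 (generic form): inertia at `2` acts unipotently on the odd torsion of
`y² + xy = x³ + a₂x² + a₄x` (`a₂` integral, `0 < |a₄| < 1`): `(σ - 1)² = 0` on `E[p]`, i.e.
`σ • (σ • x - x) = σ • x - x`.  Mirror of `Unram/Core.core_of_ctx`, from B1 (`NodalFormal`) and B2 (`DiffTwo`).
-/
import Mathlib
import Fermat.Agent.Unram.Setup
import Fermat.Agent.Unram.Annulus
import Fermat.Agent.Unram.Inertia
import Fermat.Agent.Cofix.Setup2
import Fermat.Agent.Cofix.DiffTwo
import Fermat.Agent.Cofix.NodalFormal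

set_option autoImplicit false
set_option linter.unusedSectionVars false

namespace Fermat.Agent.Cofix.InertiaTwo

open WeierstrassCurve WeierstrassCurve.Affine WeierstrassCurve.Affine.Point
open Fermat.Agent.Unram

section generic

variable {L : Type*} [Field L] [DecidableEq L]

/-- the branch parameter `y/x` of an annulus point is integral. -/
lemma val_theta_le_one {A : ValuationSubring L} {W : WeierstrassCurve L} (h : Ctx2 A W)
    {P : W.toAffine.Point} (hP : InAnn A P) : A.valuation (yc P / xc P) ≤ 1 := by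
  cases P with
  | zero => exact absurd rfl hP.1
  | some x y hP' =>
    have hx1 : A.valuation x < 1 := hP.2.2
    have hxa : A.valuation W.a₄ < A.valuation x := hP.2.1
    have hx0 : x ≠ 0 := by
      intro h0
      rw [h0, _root_.map_zero] at hxa
      exact not_lt_zero hxa
    simp only [xc_some, yc_some]
    exact (DiffTwo.dt_val_theta_le_one A.valuation h.a1 h.a3 h.a6 h.ha2 hP'.1 hx1.le hxa.le hx0).1

variable [Algebra ℚ L]

/-- If `σ` fixes a nonzero multiple of a point of prime order, it fixes the point. -/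
lemma smul_eq_of_smul_nsmul_eq (W' : WeierstrassCurve ℚ) {p : ℕ} (hp : p.Prime)
    (σ : L ≃ₐ[ℚ] L) (x : (W'⁄L).toAffine.Point) (hx : (p : ℤ) • x = 0) (n : ℤ) (hn : n • x ≠ 0)
    (hσ : σ • (n • x) = n • x) : σ • x = x := by
  have hpn : ¬ (p : ℤ) ∣ n := by
    rintro ⟨k, rfl⟩
    apply hn
    rw [mul_comm, mul_smul, hx, smul_zero]
  have hcop : IsCoprime (p : ℤ) n :=
    (Nat.prime_iff_prime_int.mp hp).coprime_iff_not_dvd.mpr hpn
  obtain ⟨u, w, huw⟩ := hcop
  have hx' : x = w • (n • x) := by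
    have : ((u * p + w * n : ℤ)) • x = x := by rw [huw, one_smul]
    rw [add_smul, mul_smul, hx, smul_zero, zero_add, mul_smul] at this
    exact this.symm
  rw [hx', gal_smul_zsmul, hσ]

/-- **T1, generic form**: `σ ≡ id` modulo the maximal ideal of `A` and `σ` preserves `v` ⟹ `(σ - 1)² = 0`
on the `p`-torsion (`p` odd, `v p = 1`) of a curve in the 2-adic context `Ctx2`. -/
theorem unipotent_of_ctx2 (A : ValuationSubring L) (W' : WeierstrassCurve ℚ)
    (hC : Ctx2 A (W'⁄L)) {p : ℕ} (hp : p.Prime) (hp2 : p ≠ 2)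
    (hvp : A.valuation (p : L) = 1) (σ : L ≃ₐ[ℚ] L)
    (H_val : ∀ z : L, A.valuation (σ z) = A.valuation z)
    (H_in : ∀ z : L, A.valuation z ≤ 1 → A.valuation (σ z - z) < 1)
    (x : (W'⁄L).toAffine.Point) (hx : (p : ℤ) • x = 0) :
    σ • (σ • x - x) = σ • x - x := by
  classical
  have hT : IsTateForm (W'⁄L) := ⟨hC.a3, hC.a6⟩
  have hc1 : A.valuation (W'⁄L).a₁ ≤ 1 := by rw [hC.a1, _root_.map_one]
  -- no `p`-torsion in `E₁`
  have tors : ∀ D : (W'⁄L).toAffine.Point, InE1 A D → (p : ℤ) • D = 0 → D = 0 := by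
    intro D hD hpD
    refine NodalFormal.eq_zero_of_inE1_of_nsmul_eq_zero A hT hc1 hC.ha2 hC.ha4.le hD hvp ?_
    rw [← natCast_zsmul]; exact hpD
  -- Case A: `p`-torsion points with `v x ≥ 1` are fixed
  have fixA : ∀ y : (W'⁄L).toAffine.Point, (p : ℤ) • y = 0 → y ≠ 0 →
      1 ≤ A.valuation (xc y) → σ • y = y := by
    intro y hpy hy0 h1
    have h1' : A.valuation (xc y) = 1 := by
      refine le_antisymm (not_lt.mp fun hlt => hy0 ?_) h1
      exact tors _ (Or.inr hlt) hpy
    have hU : InU A y := ⟨hy0, h1'⟩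
    have hσ0 : σ • y ≠ 0 := fun h => hy0 ((smul_eq_zero_iff W' σ y).mp h)
    have hσU : InU A (σ • y) := ⟨hσ0, by rw [xc_smul, H_val]; exact h1'⟩
    have hyc : A.valuation (yc y) ≤ 1 := DiffTwo.val_yc_le_one hC h1'.le
    have hD : InE1 A (σ • y - y) := by
      refine DiffTwo.B2_inE1_sub_of_close hC hσU hU ?_ ?_
      · rw [xc_smul]; exact H_in _ h1'.le
      · rw [yc_smul]; exact H_in _ hyc
    have hD0 : σ • y - y = 0 := by
      refine tors _ hD ?_
      rw [smul_sub, ← gal_smul_zsmul, hpy, gal_smul_zero, sub_zero]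
    exact sub_eq_zero.mp hD0
  have fixed_imp : σ • x = x → σ • (σ • x - x) = σ • x - x := by
    intro h
    rw [h, sub_self, gal_smul_zero]
  by_cases hx0 : x = 0
  · exact fixed_imp (by rw [hx0, gal_smul_zero])
  by_cases hA : 1 ≤ A.valuation (xc x)
  · exact fixed_imp (fixA x hx hx0 hA)
  push Not at hA
  by_cases hB : A.valuation (xc x) ≤ A.valuation (W'⁄L).a₄
  · -- Case B: the double has `v x ≥ 1`
    have h2x : (2 : ℤ) • x ≠ 0 := by
      intro h2
      obtain ⟨k, hk⟩ := hp.odd_of_ne_two hp2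
      apply hx0
      have : ((p : ℤ) - 2 * k) • x = 0 := by
        rw [sub_smul, hx, mul_comm, mul_smul, h2, smul_zero, sub_zero]
      have h1 : ((p : ℤ) - 2 * k) = 1 := by rw [hk]; push_cast; ring
      rwa [h1, one_smul] at this
    have h2x' : (2 : ℕ) • x ≠ 0 := by
      intro h
      apply h2x
      rw [← h, ← natCast_zsmul]
      rfl
    have h1 := DiffTwo.B2_one_le_val_two_nsmul hC hx0 h2x' hB
    have e2 : (2 : ℕ) • x = (2 : ℤ) • x := by
      rw [← natCast_zsmul]; rfl
    rw [e2] at h1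
    have hp2x : (p : ℤ) • ((2 : ℤ) • x) = 0 := by rw [smul_comm, hx, smul_zero]
    have hfix := fixA _ hp2x h2x h1
    exact fixed_imp (smul_eq_of_smul_nsmul_eq W' hp σ x hx 2 h2x hfix)
  push Not at hB
  -- Case C: `x` in the annulus
  have hAnn : InAnn A x := ⟨hx0, hB, hA⟩
  have hσ0 : σ • x ≠ 0 := fun h => hx0 ((smul_eq_zero_iff W' σ x).mp h)
  have hv : A.valuation (xc (σ • x)) = A.valuation (xc x) := by rw [xc_smul, H_val]
  have hσAnn : InAnn A (σ • x) := ⟨hσ0, by rw [hv]; exact hB, by rw [hv]; exact hA⟩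
  have hb : SameBranch A (σ • x) x := by
    unfold SameBranch
    rw [xc_smul, yc_smul, ← map_div₀]
    exact H_in _ (val_theta_le_one hC hAnn)
  have hpD : (p : ℤ) • (σ • x - x) = 0 := by
    rw [smul_sub, ← gal_smul_zsmul, hx, gal_smul_zero, sub_zero]
  rcases DiffTwo.B2_annulus_sub hC hσAnn hAnn hv hb with h0 | h1
  · rw [h0, gal_smul_zero]
  · by_cases hD0 : σ • x - x = 0
    · rw [hD0, gal_smul_zero]
    · exact fixA _ hpD hD0 h1

end generic

end Fermat.Agent.Cofix.InertiaTwo
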