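/-
S13, package C2, generic lemmas (R2), (R3):

* `val_rat_le_val_prime`: a rational number of valuation `< 1` at a valuation subring over `p` has
  valuation `≤ v(p)`;
* `mem_range_of_forall_fixed`: in an algebraic closure `L` of `ℚ`, an element fixed by all of
  `Aut(L/ℚ)` is rational;
* `prod_mem_range_of_stable`: the product over a Galois-stable finset is rational.
-/
import Mathlib
import Fermat.Agent.Unram.Inertia

set_option autoImplicit false

namespace Fermat.Agent.Cofix

open Fermat.Agent.Unram

section ratval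

variable {L : Type*} [Field L] [Algebra ℚ L] (A : ValuationSubring L)

/-- **(R2)** A rational number with `v < 1` at a valuation subring over `p` has `v ≤ v(p)`. -/
theorem val_rat_le_val_prime {p : ℕ} (hp : p.Prime) (hpA : A.LiesOverPrime p) (r : ℚ)
    (hr : A.valuation (algebraMap ℚ L r) < 1) :
    A.valuation (algebraMap ℚ L r) ≤ A.valuation (p : L) := by
  have : CharZero L := algebraRat.charZero L
  by_cases h0 : r = 0
  · subst h0
    rw [map_zero, map_zero]
    exact zero_le
  · rw [eq_ratCast] at hr ⊢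
    rw [valuation_ratCast A hp hpA h0] at hr ⊢
    have hv0 : 0 < A.valuation (p : L) := zero_lt_iff.mpr (valuation_prime_ne_zero A hp)
    have hv1 := valuation_prime_lt_one A hpA
    have hk : 0 < padicValRat p r := (zpow_lt_one_iff_right_of_lt_one₀ hv0 hv1).mp hr
    calc A.valuation (p : L) ^ padicValRat p r ≤ A.valuation (p : L) ^ (1 : ℤ) :=
          zpow_le_zpow_right_of_le_one₀ hv0 hv1.le hk
      _ = A.valuation (p : L) := zpow_one _

/-- A nonzero rational number has valuation an integral power of `v(p)`. -/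
theorem val_rat_eq_zpow {p : ℕ} (hp : p.Prime) (hpA : A.LiesOverPrime p) {r : ℚ} (h0 : r ≠ 0) :
    A.valuation (algebraMap ℚ L r) = A.valuation (p : L) ^ padicValRat p r := by
  have : CharZero L := algebraRat.charZero L
  rw [eq_ratCast, valuation_ratCast A hp hpA h0]

end ratval

section fixed

variable {L : Type*} [Field L] [Algebra ℚ L] [IsAlgClosed L] [Algebra.IsAlgebraic ℚ L]

/-- In an algebraic closure of `ℚ`, an element fixed by every automorphism is rational. -/
theorem mem_range_of_forall_fixed (x : L) (hx : ∀ σ : L ≃ₐ[ℚ] L, σ x = x) :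
    x ∈ (algebraMap ℚ L).range := by
  have : IsAlgClosure ℚ L := ⟨inferInstance, inferInstance⟩
  have : IsGalois ℚ L := IsAlgClosure.isGalois ℚ L
  obtain ⟨y, hy⟩ := (InfiniteGalois.mem_range_algebraMap_iff_fixed x).mpr hx
  exact ⟨y, hy⟩

/-- **(R3)** The product over a Galois-stable finset is rational. -/
theorem prod_mem_range_of_stable [DecidableEq L] (T : Finset L)
    (hT : ∀ σ : L ≃ₐ[ℚ] L, ∀ ρ ∈ T, σ ρ ∈ T) :
    (∏ ρ ∈ T, ρ) ∈ (algebraMap ℚ L).range := by
  apply mem_range_of_forall_fixed
  intro σ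
  rw [map_prod]
  have himg : T.image σ = T := by
    apply Finset.eq_of_subset_of_card_le
    · intro y hy
      obtain ⟨ρ, hρ, rfl⟩ := Finset.mem_image.mp hy
      exact hT σ ρ hρ
    · rw [Finset.card_image_of_injective _ σ.injective]
  calc ∏ ρ ∈ T, σ ρ = ∏ ρ ∈ T.image σ, ρ := by
        rw [Finset.prod_image (fun a _ b _ h => σ.injective h)]
    _ = ∏ ρ ∈ T, ρ := by rw [himg]

/-- The sum over a Galois-stable finset is rational. -/
theorem sum_mem_range_of_stable [DecidableEq L] (T : Finset L)
    (hT : ∀ σ : L ≃ₐ[ℚ] L, ∀ ρ ∈ T, σ ρ ∈ T) :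
    (∑ ρ ∈ T, ρ) ∈ (algebraMap ℚ L).range := by
  apply mem_range_of_forall_fixed
  intro σ
  rw [map_sum]
  have himg : T.image σ = T := by
    apply Finset.eq_of_subset_of_card_le
    · intro y hy
      obtain ⟨ρ, hρ, rfl⟩ := Finset.mem_image.mp hy
      exact hT σ ρ hρ
    · rw [Finset.card_image_of_injective _ σ.injective]
  calc ∑ ρ ∈ T, σ ρ = ∑ ρ ∈ T.image σ, ρ := by
        rw [Finset.sum_image (fun a _ b _ h => σ.injective h)]
    _ = ∑ ρ ∈ T, ρ := by rw [himg]

end fixed

end Fermat.Agent.Cofix
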