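import Mathlib
import Fermat.Agent.Unram.Inertia

/-!
# S13 / C2, lemma R1: the Lagrange (root) bound

A polynomial with integral coefficients and a finite set `T` of integral roots satisfies
`v (F 0) ≤ ∏_{ρ ∈ T} v ρ` (divide successively by `X - ρ`; this keeps the coefficients integral).
-/

set_option autoImplicit false

namespace Fermat.Agent.Cofix

open Polynomial

variable {L : Type*} [Field L] (A : ValuationSubring L)

/-- dividing by `X - r`, `r` integral, keeps the coefficients integral -/
theorem val_coeff_divByMonic_X_sub_C_le (F : L[X]) (hF : ∀ i, A.valuation (F.coeff i) ≤ 1) {r : L}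
    (hr : A.valuation r ≤ 1) (n : ℕ) : A.valuation ((F /ₘ (X - C r)).coeff n) ≤ 1 := by
  rw [coeff_divByMonic_X_sub_C]
  refine Valuation.map_sum_le _ fun i _ => ?_
  rw [map_mul, map_pow]
  calc A.valuation r ^ (i - (n + 1)) * A.valuation (F.coeff i) ≤ 1 * 1 :=
        mul_le_mul' (pow_le_one' hr _) (hF i)
    _ = 1 := one_mul _

/-- **Lagrange bound**, general form: `F : L[X]` with integral coefficients. -/
theorem val_eval_zero_le_prod_of_integral [DecidableEq L] (S : Finset L) :
    ∀ F : L[X], (∀ i, A.valuation (F.coeff i) ≤ 1) → (∀ r ∈ S, F.IsRoot r) →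
      (∀ r ∈ S, A.valuation r ≤ 1) → A.valuation (F.eval 0) ≤ ∏ r ∈ S, A.valuation r := by
  induction S using Finset.induction_on with
  | empty =>
    intro F hF _ _
    rw [Finset.prod_empty, ← coeff_zero_eq_eval_zero]
    exact hF 0
  | insert r S hrS ih =>
    intro F hF hroot hint
    have hr : F.IsRoot r := hroot r (Finset.mem_insert_self _ _)
    have hrv : A.valuation r ≤ 1 := hint r (Finset.mem_insert_self _ _)
    have hfac : (X - C r) * (F /ₘ (X - C r)) = F := mul_divByMonic_eq_iff_isRoot.mpr hr
    set G := F /ₘ (X - C r) with hG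
    have hGint : ∀ i, A.valuation (G.coeff i) ≤ 1 := val_coeff_divByMonic_X_sub_C_le A F hF hrv
    have hGroot : ∀ r' ∈ S, G.IsRoot r' := by
      intro r' hr'
      have h1 : F.IsRoot r' := hroot r' (Finset.mem_insert_of_mem hr')
      rw [← hfac, IsRoot.def, eval_mul, eval_sub, eval_X, eval_C] at h1
      rcases mul_eq_zero.mp h1 with h | h
      · exfalso
        have : r' = r := sub_eq_zero.mp h
        exact hrS (this ▸ hr')
      · exact h
    have hGv := ih G hGint hGroot fun r' hr' => hint r' (Finset.mem_insert_of_mem hr')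
    rw [Finset.prod_insert hrS, ← hfac, eval_mul, eval_sub, eval_X, eval_C, zero_sub, map_mul,
      Valuation.map_neg]
    exact mul_le_mul' le_rfl hGv

/-- **R1**: the Lagrange bound for an integer polynomial. -/
theorem val_eval_zero_le_prod (F : Polynomial ℤ) (T : Finset L)
    (hT : ∀ ρ ∈ T, A.valuation ρ ≤ 1 ∧ (F.map (Int.castRingHom L)).eval ρ = 0) :
    A.valuation (((F.eval 0 : ℤ)) : L) ≤ ∏ ρ ∈ T, A.valuation ρ := by
  classical
  have hcoef : ∀ i, A.valuation ((F.map (Int.castRingHom L)).coeff i) ≤ 1 := by
    intro i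
    rw [coeff_map, eq_intCast]
    exact Fermat.Agent.Unram.valuation_intCast_le_one A _
  have h1 := val_eval_zero_le_prod_of_integral A T (F.map (Int.castRingHom L)) hcoef
    (fun r hr => (hT r hr).2) fun r hr => (hT r hr).1
  rwa [eval_zero_map, eq_intCast] at h1

end Fermat.Agent.Cofix
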