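/-
S13 (cofixed line), shared package XiRec: the `ξ`-recursion for `x(nP)` on a short curve
`Y² = X³ + aX² + bX`, with `ξ = 1/x(P)`.

Polynomials `M_n, Q_n ∈ R[ξ]` (`R` any commutative ring, `a b : R`):
`M₁ = Q₁ = 1`, `M₂ = 4(1 + aξ + bξ²)`, `Q₂ = (1 - bξ²)²`, and with `D_n = Q_n - M_n`,
`S_n = (Q_n + M_n)(Q_n + bξ²M_n) + 2aξM_nQ_n`:
`M_{n+1} = D_n² M_{n-1}`, `Q_{n+1} = 2 S_n M_{n-1} - Q_{n-1} D_n²`.

* `spec`: for a point `P` with `x(P) ≠ 0` and `jP ≠ 0` for `1 ≤ j ≤ n`: `M_n(ξ) ≠ 0` and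
  `x(nP) · (ξ M_n(ξ)) = Q_n(ξ)`.
* `evalD_eq`: `D_n(ξ) = ξ M_n(ξ) (x(nP) - x(P))`.
* `root_of_torsion`: a nonzero point with `pP = 0` (`p` an odd prime) gives a root `ξ(P)` of `D_{p-1}`.
* constant terms: `M_n(0) = n² q_n`, `Q_n(0) = q_n`, `D_{p-1}(0) = -q_{p-1} · p · (p-2)` with `p ∤ q_{p-1}`.
* naturality in the ring.
-/
import Mathlib
import Fermat.Agent.Unram.Setup
import Fermat.Agent.Unram.XOnly
import Fermat.Agent.Unram.Annulus

set_option autoImplicit false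

namespace Fermat.Agent.Cofix.XiRec

open Polynomial WeierstrassCurve WeierstrassCurve.Affine Fermat.Agent.Unram

section poly

variable {R : Type*} [CommRing R]

/-- One step of the recursion: from `u = (M_{n-1}, Q_{n-1})` and `v = (M_n, Q_n)` to
`(M_{n+1}, Q_{n+1})`. -/
noncomputable def step (a b : R) (u v : R[X] × R[X]) : R[X] × R[X] :=
  ((v.2 - v.1) ^ 2 * u.1,
    2 * ((v.2 + v.1) * (v.2 + C b * X ^ 2 * v.1) + 2 * C a * X * v.1 * v.2) * u.1
      - u.2 * (v.2 - v.1) ^ 2)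

/-- The pairs `(M_n, Q_n)`; the value at `0` is junk. -/
noncomputable def MQ (a b : R) : ℕ → R[X] × R[X]
  | 0 => (1, 1)
  | 1 => (1, 1)
  | 2 => (4 * (1 + C a * X + C b * X ^ 2), (1 - C b * X ^ 2) ^ 2)
  | (n + 3) => step a b (MQ a b (n + 1)) (MQ a b (n + 2))

/-- `M_n`. -/
noncomputable def M (a b : R) (n : ℕ) : R[X] := (MQ a b n).1

/-- `Q_n`. -/
noncomputable def Q (a b : R) (n : ℕ) : R[X] := (MQ a b n).2

/-- `D_n = Q_n - M_n`. -/
noncomputable def D (a b : R) (n : ℕ) : R[X] := Q a b n - M a b n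

variable (a b : R)

@[simp] lemma M_one : M a b 1 = 1 := rfl
@[simp] lemma Q_one : Q a b 1 = 1 := rfl
lemma M_two : M a b 2 = 4 * (1 + C a * X + C b * X ^ 2) := rfl
lemma Q_two : Q a b 2 = (1 - C b * X ^ 2) ^ 2 := rfl

lemma M_succ (n : ℕ) : M a b (n + 3) = D a b (n + 2) ^ 2 * M a b (n + 1) := rfl

lemma Q_succ (n : ℕ) : Q a b (n + 3) =
    2 * ((Q a b (n + 2) + M a b (n + 2)) * (Q a b (n + 2) + C b * X ^ 2 * M a b (n + 2))
      + 2 * C a * X * M a b (n + 2) * Q a b (n + 2)) * M a b (n + 1)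
      - Q a b (n + 1) * D a b (n + 2) ^ 2 := rfl

/-- Naturality of the recursion in the coefficient ring. -/
lemma MQ_map {S : Type*} [CommRing S] (f : R →+* S) (n : ℕ) :
    (M a b n).map f = M (f a) (f b) n ∧ (Q a b n).map f = Q (f a) (f b) n := by
  induction n using Nat.strong_induction_on with
  | _ n ih =>
    match n with
    | 0 => exact ⟨by simp [M, MQ], by simp [Q, MQ]⟩
    | 1 => exact ⟨by simp, by simp⟩
    | 2 =>
      refine ⟨?_, ?_⟩
      · rw [M_two, M_two]; simp [Polynomial.map_ofNat]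
      · rw [Q_two, Q_two]; simp
    | (k + 3) =>
      obtain ⟨h1, h2⟩ := ih (k + 1) (by omega)
      obtain ⟨h3, h4⟩ := ih (k + 2) (by omega)
      refine ⟨?_, ?_⟩
      · rw [M_succ, M_succ, D, D]
        simp only [Polynomial.map_mul, Polynomial.map_pow, Polynomial.map_sub, h1, h3, h4]
      · rw [Q_succ, Q_succ, D, D]
        simp only [Polynomial.map_mul, Polynomial.map_pow, Polynomial.map_sub, Polynomial.map_add,
          Polynomial.map_ofNat, Polynomial.map_C, Polynomial.map_X, h1, h2, h3, h4]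

lemma M_map {S : Type*} [CommRing S] (f : R →+* S) (n : ℕ) : (M a b n).map f = M (f a) (f b) n :=
  (MQ_map a b f n).1

lemma Q_map {S : Type*} [CommRing S] (f : R →+* S) (n : ℕ) : (Q a b n).map f = Q (f a) (f b) n :=
  (MQ_map a b f n).2

lemma D_map {S : Type*} [CommRing S] (f : R →+* S) (n : ℕ) : (D a b n).map f = D (f a) (f b) n := by
  rw [D, D, Polynomial.map_sub, M_map, Q_map]

/-! ### Evaluation -/

lemma eval_M_two (ξ : R) : (M a b 2).eval ξ = 4 * (1 + a * ξ + b * ξ ^ 2) := by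
  rw [M_two]; simp

lemma eval_Q_two (ξ : R) : (Q a b 2).eval ξ = (1 - b * ξ ^ 2) ^ 2 := by
  rw [Q_two]; simp

lemma eval_D (ξ : R) (n : ℕ) : (D a b n).eval ξ = (Q a b n).eval ξ - (M a b n).eval ξ := by
  rw [D, eval_sub]

lemma eval_M_succ (ξ : R) (n : ℕ) :
    (M a b (n + 3)).eval ξ =
      ((Q a b (n + 2)).eval ξ - (M a b (n + 2)).eval ξ) ^ 2 * (M a b (n + 1)).eval ξ := by
  rw [M_succ, D]; simp

lemma eval_Q_succ (ξ : R) (n : ℕ) :
    (Q a b (n + 3)).eval ξ =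
      2 * (((Q a b (n + 2)).eval ξ + (M a b (n + 2)).eval ξ) *
          ((Q a b (n + 2)).eval ξ + b * ξ ^ 2 * (M a b (n + 2)).eval ξ)
        + 2 * a * ξ * (M a b (n + 2)).eval ξ * (Q a b (n + 2)).eval ξ) * (M a b (n + 1)).eval ξ
      - (Q a b (n + 1)).eval ξ *
        ((Q a b (n + 2)).eval ξ - (M a b (n + 2)).eval ξ) ^ 2 := by
  rw [Q_succ, D]; simp

/-! ### Constant terms -/

/-- The integer sequence `q_n = Q_n(0)`: `q₁ = q₂ = 1`, `q_{n+1} = q_n² q_{n-1} (n-1)⁴`. -/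
def qc : ℕ → ℕ
  | 0 => 1
  | 1 => 1
  | 2 => 1
  | (n + 3) => qc (n + 2) ^ 2 * qc (n + 1) * (n + 1) ^ 4

lemma qc_succ (n : ℕ) : qc (n + 3) = qc (n + 2) ^ 2 * qc (n + 1) * (n + 1) ^ 4 := rfl

lemma qc_pos (n : ℕ) : 0 < qc n := by
  induction n using Nat.strong_induction_on with
  | _ n ih =>
    match n with
    | 0 => exact Nat.one_pos
    | 1 => exact Nat.one_pos
    | 2 => exact Nat.one_pos
    | (k + 3) =>
      rw [qc_succ]
      have h1 := ih (k + 1) (by omega)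
      have h2 := ih (k + 2) (by omega)
      positivity

/-- A prime `p` does not divide `q_n` for `n ≤ p + 1`. -/
lemma not_dvd_qc {p : ℕ} (hp : p.Prime) (n : ℕ) (hn : n ≤ p + 1) : ¬ p ∣ qc n := by
  induction n using Nat.strong_induction_on with
  | _ n ih =>
    match n with
    | 0 => exact fun h => hp.one_lt.ne' (Nat.dvd_one.mp h)
    | 1 => exact fun h => hp.one_lt.ne' (Nat.dvd_one.mp h)
    | 2 => exact fun h => hp.one_lt.ne' (Nat.dvd_one.mp h)
    | (k + 3) =>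
      rw [qc_succ]
      intro h
      rcases (Nat.Prime.dvd_mul hp).mp h with h | h
      · rcases (Nat.Prime.dvd_mul hp).mp h with h | h
        · exact ih (k + 2) (by omega) (by omega) (hp.dvd_of_dvd_pow h)
        · exact ih (k + 1) (by omega) (by omega) h
      · have := Nat.le_of_dvd (by omega) (hp.dvd_of_dvd_pow h)
        omega

lemma eval_zero_MQ (n : ℕ) (hn : 1 ≤ n) :
    (M a b n).eval 0 = (n : R) ^ 2 * (qc n : R) ∧ (Q a b n).eval 0 = (qc n : R) := by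
  induction n using Nat.strong_induction_on with
  | _ n ih =>
    match n, hn with
    | 1, _ => simp [qc]
    | 2, _ =>
      rw [eval_M_two, eval_Q_two]
      simp only [qc]
      refine ⟨?_, ?_⟩ <;> push_cast <;> ring
    | (k + 3), _ =>
      obtain ⟨h1, h2⟩ := ih (k + 1) (by omega) (by omega)
      obtain ⟨h3, h4⟩ := ih (k + 2) (by omega) (by omega)
      rw [eval_M_succ, eval_Q_succ, h1, h2, h3, h4, qc_succ]
      refine ⟨?_, ?_⟩ <;> push_cast <;> ring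

lemma eval_zero_M (n : ℕ) (hn : 1 ≤ n) : (M a b n).eval 0 = (n : R) ^ 2 * (qc n : R) :=
  (eval_zero_MQ a b n hn).1

lemma eval_zero_Q (n : ℕ) (hn : 1 ≤ n) : (Q a b n).eval 0 = (qc n : R) :=
  (eval_zero_MQ a b n hn).2

lemma eval_zero_D (n : ℕ) (hn : 1 ≤ n) :
    (D a b n).eval 0 = (qc n : R) * (1 - (n : R) ^ 2) := by
  rw [eval_D, eval_zero_M a b n hn, eval_zero_Q a b n hn]; ring

/-- `D_{p-1}(0) = -q_{p-1} · p · (p - 2)`. -/
lemma eval_zero_D_pred (p : ℕ) (hp : 2 ≤ p) :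
    (D a b (p - 1)).eval 0 = -((qc (p - 1) : R) * (p : R) * ((p : R) - 2)) := by
  rw [eval_zero_D a b (p - 1) (by omega)]
  have : ((p - 1 : ℕ) : R) = (p : R) - 1 := by
    rw [Nat.cast_sub (by omega)]; simp
  rw [this]; ring

end poly

/-! ### Specialisation at a point -/

section spec

variable {L : Type*} [Field L] [DecidableEq L] {W : WeierstrassCurve L}

omit [DecidableEq L] in
/-- The field identity behind the induction step. -/
lemma step_identity (a b x X X' Y m q m' q' : L) (hx : x ≠ 0) (hm : m ≠ 0) (hm' : m' ≠ 0)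
    (hX : X * (x⁻¹ * m) = q) (hX' : X' * (x⁻¹ * m') = q') (hne : X ≠ x)
    (hsum : Y + X' = 2 * ((X * x + b) * (X + x) + 2 * a * (X * x)) / (X - x) ^ 2) :
    Y * (x⁻¹ * ((q - m) ^ 2 * m')) =
      2 * ((q + m) * (q + b * x⁻¹ ^ 2 * m) + 2 * a * x⁻¹ * m * q) * m' - q' * (q - m) ^ 2 := by
  have hd : X - x ≠ 0 := sub_ne_zero.mpr hne
  have hY : Y = 2 * ((X * x + b) * (X + x) + 2 * a * (X * x)) / (X - x) ^ 2 - X' :=
    eq_sub_of_add_eq hsum
  subst hX hX'
  rw [hY]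
  field_simp

omit [DecidableEq L] in
lemma xc_ne_zero_of_yc_ne_zero (hW : IsShort W) {P : W.toAffine.Point} (hP : P ≠ 0)
    (hy : yc P ≠ 0) : xc P ≠ 0 := by
  intro hx
  have := hW.yc_sq hP
  rw [hx] at this
  apply hy
  have h0 : yc P ^ 2 = 0 := by rw [this]; ring
  exact pow_eq_zero_iff (two_ne_zero) |>.mp h0

/-- A nonzero point with `y = 0` is `2`-torsion. -/
lemma two_nsmul_eq_zero_of_yc_eq_zero (hW : IsShort W) {P : W.toAffine.Point} (hP : P ≠ 0)
    (hy : yc P = 0) : 2 • P = 0 := by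
  have hneg : -P = P := by
    refine point_ext (_root_.neg_ne_zero.mpr hP) hP (xc_neg P) ?_
    rw [hW.yc_neg, hy, _root_.neg_zero]
  rw [two_nsmul]
  nth_rewrite 1 [← hneg]
  exact neg_add_cancel P

/-- **Specialisation**: if `x(P) ≠ 0` and `jP ≠ 0` for `1 ≤ j ≤ n`, then with `ξ = 1/x(P)`:
`M_n(ξ) ≠ 0` and `x(nP) · (ξ M_n(ξ)) = Q_n(ξ)`. -/
theorem spec (hW : IsShort W) (h2 : (2 : L) ≠ 0) (P : W.toAffine.Point) (hx : xc P ≠ 0) (n : ℕ)
    (hn : 1 ≤ n) (hP : ∀ j, 1 ≤ j → j ≤ n → j • P ≠ 0) :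
    (M W.a₂ W.a₄ n).eval (xc P)⁻¹ ≠ 0 ∧
      xc (n • P) * ((xc P)⁻¹ * (M W.a₂ W.a₄ n).eval (xc P)⁻¹) = (Q W.a₂ W.a₄ n).eval (xc P)⁻¹ := by
  induction n using Nat.strong_induction_on with
  | _ n ih =>
    have hP1 : P ≠ 0 := by
      have := hP 1 le_rfl hn
      rwa [one_nsmul] at this
    match n, hn with
    | 1, _ =>
      refine ⟨by simp, ?_⟩
      rw [one_nsmul, M_one, Q_one]
      simp [hx]
    | 2, _ =>
      have h2P : 2 • P ≠ 0 := hP 2 (by norm_num) le_rfl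
      have hy : yc P ≠ 0 := fun hy => h2P (two_nsmul_eq_zero_of_yc_eq_zero hW hP1 hy)
      have hy2 := hW.yc_sq hP1
      have h4 : (4 : L) ≠ 0 := by
        have : (4 : L) = 2 * 2 := by norm_num
        rw [this]; exact mul_ne_zero h2 h2
      have hM : (M W.a₂ W.a₄ 2).eval (xc P)⁻¹ = 4 * yc P ^ 2 / xc P ^ 3 := by
        rw [eval_M_two, hy2]
        field_simp
      refine ⟨?_, ?_⟩
      · rw [hM]
        exact div_ne_zero (mul_ne_zero h4 (pow_ne_zero 2 hy)) (pow_ne_zero 3 hx)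
      · rw [hM, eval_Q_two, hW.xc_two_nsmul h2 hP1 hy]
        field_simp
    | (k + 3), _ =>
      obtain ⟨hm', hX'⟩ := ih (k + 1) (by omega) (by omega)
        (fun j hj1 hj2 => hP j hj1 (by omega))
      obtain ⟨hm, hX⟩ := ih (k + 2) (by omega) (by omega)
        (fun j hj1 hj2 => hP j hj1 (by omega))
      have hR : (k + 2) • P ≠ 0 := hP (k + 2) (by omega) (by omega)
      have hplus : (k + 2) • P + P = (k + 3) • P := (succ_nsmul P (k + 2)).symm
      have hminus : (k + 2) • P - P = (k + 1) • P := by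
        rw [sub_eq_iff_eq_add, ← succ_nsmul]
      have hne : xc ((k + 2) • P) ≠ xc P := by
        intro hxx
        rcases eq_or_eq_neg_of_xc_eq hR hP1 hxx with e | e
        · apply hP (k + 1) (by omega) (by omega)
          rw [← hminus, e, sub_self]
        · apply hP (k + 3) (by omega) le_rfl
          rw [← hplus, e, neg_add_cancel]
      have hsum := hW.xc_add_add_xc_sub hR hP1 hne
      rw [hplus, hminus] at hsum
      have hd : (Q W.a₂ W.a₄ (k + 2)).eval (xc P)⁻¹ - (M W.a₂ W.a₄ (k + 2)).eval (xc P)⁻¹ ≠ 0 := by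
        rw [← hX]
        intro h0
        apply hne
        have : (M W.a₂ W.a₄ (k + 2)).eval (xc P)⁻¹ * ((xc P)⁻¹ * (xc ((k + 2) • P) - xc P)) = 0 := by
          rw [← h0]; field_simp
        rcases mul_eq_zero.mp this with h | h
        · exact absurd h hm
        · rcases mul_eq_zero.mp h with h | h
          · exact absurd h (inv_ne_zero hx)
          · exact sub_eq_zero.mp h
      refine ⟨?_, ?_⟩
      · rw [eval_M_succ]
        exact mul_ne_zero (pow_ne_zero 2 hd) hm'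
      · rw [eval_M_succ, eval_Q_succ]
        exact step_identity W.a₂ W.a₄ (xc P) (xc ((k + 2) • P)) (xc ((k + 1) • P))
          (xc ((k + 3) • P)) _ _ _ _ hx hm hm' hX hX' hne hsum

/-- `D_n(ξ) = ξ M_n(ξ) (x(nP) - x(P))`. -/
theorem evalD_eq (hW : IsShort W) (h2 : (2 : L) ≠ 0) (P : W.toAffine.Point) (hx : xc P ≠ 0) (n : ℕ)
    (hn : 1 ≤ n) (hP : ∀ j, 1 ≤ j → j ≤ n → j • P ≠ 0) :
    (D W.a₂ W.a₄ n).eval (xc P)⁻¹ =
      (xc P)⁻¹ * (M W.a₂ W.a₄ n).eval (xc P)⁻¹ * (xc (n • P) - xc P) := by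
  obtain ⟨_, hX⟩ := spec hW h2 P hx n hn hP
  rw [eval_D, ← hX]
  field_simp

/-- For a nonzero point killed by the prime `p`, no smaller positive multiple vanishes. -/
lemma nsmul_ne_zero_of_prime {G : Type*} [AddGroup G] {P : G} {p : ℕ} (hp : p.Prime) (hP : P ≠ 0)
    (hpP : p • P = 0) (j : ℕ) (hj1 : 1 ≤ j) (hj2 : j < p) : j • P ≠ 0 := by
  intro hj
  have h1 : addOrderOf P ∣ p := addOrderOf_dvd_of_nsmul_eq_zero hpP
  have h2 : addOrderOf P ∣ j := addOrderOf_dvd_of_nsmul_eq_zero hj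
  rcases (Nat.dvd_prime hp).mp h1 with h | h
  · exact hP (AddMonoid.addOrderOf_eq_one_iff.mp h)
  · rw [h] at h2
    have := Nat.le_of_dvd (by omega) h2
    omega

/-- **Root**: a nonzero point killed by an odd prime `p` gives a root `ξ(P)` of `D_{p-1}`. -/
theorem root_of_torsion (hW : IsShort W) (h2 : (2 : L) ≠ 0) {p : ℕ} (hp : p.Prime) (hp2 : p ≠ 2)
    (P : W.toAffine.Point) (hP : P ≠ 0) (hpP : p • P = 0) :
    xc P ≠ 0 ∧ (D W.a₂ W.a₄ (p - 1)).eval (xc P)⁻¹ = 0 := by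
  have h2p : 2 < p := lt_of_le_of_ne hp.two_le (Ne.symm hp2)
  have hmult : ∀ j, 1 ≤ j → j ≤ p - 1 → j • P ≠ 0 := fun j hj1 hj2 =>
    nsmul_ne_zero_of_prime hp hP hpP j hj1 (by omega)
  have hy : yc P ≠ 0 := fun hy =>
    hmult 2 (by norm_num) (by omega) (two_nsmul_eq_zero_of_yc_eq_zero hW hP hy)
  have hx : xc P ≠ 0 := xc_ne_zero_of_yc_ne_zero hW hP hy
  refine ⟨hx, ?_⟩
  rw [evalD_eq hW h2 P hx (p - 1) (by omega) hmult]
  have : (p - 1) • P = -P := by
    rw [eq_neg_iff_add_eq_zero, ← succ_nsmul, Nat.sub_add_cancel (by omega), hpP]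
  rw [this, xc_neg, sub_self, mul_zero]

end spec

end Fermat.Agent.Cofix.XiRec
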