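/-
S13 (cofixed line), package C2: the root count at `p`.

On the short model `Y² = X³ + aX² + bX` with INTEGER `a, b`, every nonzero `p`-torsion point `x` gives a root
`ξ_x = 1/x(x)` of the integer polynomial `F = XiRec.D a b (p-1)`, whose constant term is `-q_{p-1}·p·(p-2)`
(valuation `v(p)` at a valuation subring `A` over `p`).  Points of `E₁(A)` have `v(ξ) < 1`.  Hence
(`RootBound`) the product of `v(ξ)` over any set of such points, distinct up to sign, is `≥ v(p)`.  For a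
Galois-stable finite set `S` the product of the `ξ` is rational (`RatVal`) of valuation `< 1`, hence `≤ v(p)`;
so no further `p`-torsion point (up to sign) lies in `E₁(A)`.
-/
import Mathlib
import Fermat.Agent.Cofix.XiRec
import Fermat.Agent.Cofix.RootBound
import Fermat.Agent.Cofix.RatVal
import Fermat.Agent.Unram.Inertia
import Fermat.Prelude.Def_FLTPrelim_CofixedLine

set_option autoImplicit false

namespace Fermat.Agent.Cofix.RootCount

open Polynomial WeierstrassCurve WeierstrassCurve.Affine WeierstrassCurve.Affine.Point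
open Fermat.Agent.Unram Fermat.Agent.Cofix

variable {L : Type*} [Field L] [DecidableEq L] [Algebra ℚ L]

omit [DecidableEq L] [Algebra ℚ L] in
/-- The valuation of the constant term of `D_{p-1}`. -/
lemma val_const (A : ValuationSubring L) {p : ℕ} (hp : p.Prime) (hp2 : p ≠ 2)
    (hpA : A.LiesOverPrime p) (a b : ℤ) :
    A.valuation ((((XiRec.D a b (p - 1)).eval 0 : ℤ)) : L) = A.valuation (p : L) := by
  have h2p : 2 < p := lt_of_le_of_ne hp.two_le (Ne.symm hp2)
  rw [XiRec.eval_zero_D_pred a b p hp.two_le]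
  push_cast
  rw [Valuation.map_neg, map_mul, map_mul]
  have h1 : A.valuation ((XiRec.qc (p - 1) : ℕ) : L) = 1 :=
    valuation_natCast_eq_one_of_not_dvd A hp hpA (XiRec.not_dvd_qc hp (p - 1) (by omega))
  have h3 : A.valuation ((p : L) - 2) = 1 := by
    have : ((p : L) - 2) = (((p : ℤ) - 2 : ℤ) : L) := by push_cast; ring
    rw [this]
    refine valuation_intCast_eq_one_of_not_dvd A hp hpA ?_
    intro hdvd
    have h4 : (p : ℤ) ∣ 2 := by
      have := dvd_sub (dvd_refl (p : ℤ)) hdvd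
      simpa using this
    have h5 : p ∣ 2 := by exact_mod_cast h4
    have := Nat.le_of_dvd (by norm_num) h5
    omega
  rw [h1, h3, one_mul, mul_one]

variable [IsAlgClosed L] [Algebra.IsAlgebraic ℚ L]

/-- **Root count** on the short model with integer coefficients. -/
theorem root_count (A : ValuationSubring L) {p : ℕ} (hp : p.Prime) (hp2 : p ≠ 2)
    (hpA : A.LiesOverPrime p) (a b : ℤ)
    (S : Set ((shortW (a : ℚ) (b : ℚ))⁄L).toAffine.Point) (hSfin : S.Finite) (hS0 : S.Nonempty)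
    (hS : ∀ x ∈ S, x ≠ 0 ∧ p • x = 0 ∧ InE1 A x)
    (hstab : ∀ σ : L ≃ₐ[ℚ] L, ∀ x ∈ S, σ • x ∈ S)
    (x' : ((shortW (a : ℚ) (b : ℚ))⁄L).toAffine.Point) (hx'0 : x' ≠ 0) (hpx' : p • x' = 0)
    (hx'E : InE1 A x') (h1 : x' ∉ S) (h2 : -x' ∉ S) : False := by
  classical
  have hchar : CharZero L := algebraRat.charZero L
  have h2L : (2 : L) ≠ 0 := two_ne_zero
  have hW : IsShort ((shortW (a : ℚ) (b : ℚ))⁄L) := isShort_shortW_baseChange _ _
  set F : ℤ[X] := XiRec.D a b (p - 1) with hF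
  -- the base-changed polynomial
  have hFL : F.map (Int.castRingHom L) =
      XiRec.D ((shortW (a : ℚ) (b : ℚ))⁄L).a₂ ((shortW (a : ℚ) (b : ℚ))⁄L).a₄ (p - 1) := by
    rw [hF, XiRec.D_map, shortW_baseChange_a₂, shortW_baseChange_a₄]
    simp
  -- roots
  have hroot : ∀ x : ((shortW (a : ℚ) (b : ℚ))⁄L).toAffine.Point, x ≠ 0 → p • x = 0 →
      xc x ≠ 0 ∧ (F.map (Int.castRingHom L)).eval (xc x)⁻¹ = 0 := by
    intro x hx0 hpx
    rw [hFL]
    exact XiRec.root_of_torsion hW h2L hp hp2 x hx0 hpx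
  have hval : ∀ x : ((shortW (a : ℚ) (b : ℚ))⁄L).toAffine.Point, x ≠ 0 → InE1 A x →
      A.valuation (xc x)⁻¹ < 1 := by
    intro x hx0 hE
    rcases hE with h | h
    · exact absurd h hx0
    · rw [map_inv₀]
      exact inv_lt_one_of_one_lt₀ h
  set T : Finset L := hSfin.toFinset.image (fun x => (xc x)⁻¹) with hT
  have hTmem : ∀ ρ ∈ T, ∃ x ∈ S, ρ = (xc x)⁻¹ := by
    intro ρ hρ
    rw [hT, Finset.mem_image] at hρ
    obtain ⟨x, hx, rfl⟩ := hρ
    exact ⟨x, (Set.Finite.mem_toFinset hSfin).mp hx, rfl⟩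
  have hmemT : ∀ x ∈ S, (xc x)⁻¹ ∈ T := by
    intro x hx
    rw [hT, Finset.mem_image]
    exact ⟨x, (Set.Finite.mem_toFinset hSfin).mpr hx, rfl⟩
  -- the extra root is new
  have hnew : (xc x')⁻¹ ∉ T := by
    intro hmem
    obtain ⟨x, hxS, hxx⟩ := hTmem _ hmem
    have hxc : xc x' = xc x := inv_injective hxx
    rcases eq_or_eq_neg_of_xc_eq hx'0 (hS x hxS).1 hxc with e | e
    · exact h1 (e ▸ hxS)
    · apply h2
      rw [e, neg_neg]
      exact hxS
  -- the root bound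
  have hR1 := val_eval_zero_le_prod A F (insert (xc x')⁻¹ T) (by
    intro ρ hρ
    rcases Finset.mem_insert.mp hρ with rfl | hρ
    · exact ⟨(hval x' hx'0 hx'E).le, (hroot x' hx'0 hpx').2⟩
    · obtain ⟨x, hxS, rfl⟩ := hTmem ρ hρ
      obtain ⟨hx0, hpx, hxE⟩ := hS x hxS
      exact ⟨(hval x hx0 hxE).le, (hroot x hx0 hpx).2⟩)
  rw [Finset.prod_insert hnew, hF, val_const A hp hp2 hpA a b] at hR1
  -- the product over `T` is rational
  have hPi := prod_mem_range_of_stable (L := L) T (by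
    intro σ ρ hρ
    obtain ⟨x, hxS, rfl⟩ := hTmem ρ hρ
    have : σ (xc x)⁻¹ = (xc (σ • x))⁻¹ := by
      rw [xc_smul, map_inv₀]
    rw [this]
    exact hmemT _ (hstab σ x hxS))
  obtain ⟨r, hr⟩ := hPi
  have hprodval : A.valuation (∏ ρ ∈ T, ρ) = ∏ ρ ∈ T, A.valuation ρ := map_prod _ _ _
  -- its valuation is `< 1`
  obtain ⟨x₀, hx₀S⟩ := hS0
  have hx₀T := hmemT x₀ hx₀S
  have hlt1 : ∏ ρ ∈ T, A.valuation ρ < 1 := by
    rw [← Finset.mul_prod_erase T _ hx₀T]
    have hle : ∏ ρ ∈ T.erase (xc x₀)⁻¹, A.valuation ρ ≤ 1 := by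
      refine Finset.prod_le_one' ?_
      intro ρ hρ
      obtain ⟨x, hxS, rfl⟩ := hTmem ρ (Finset.mem_of_mem_erase hρ)
      obtain ⟨hx0, _, hxE⟩ := hS x hxS
      exact (hval x hx0 hxE).le
    obtain ⟨hx0, _, hxE⟩ := hS x₀ hx₀S
    exact mul_lt_one_of_lt_of_le (hval x₀ hx0 hxE) hle
  have hne0 : ∏ ρ ∈ T, A.valuation ρ ≠ 0 := by
    rw [Finset.prod_ne_zero_iff]
    intro ρ hρ
    obtain ⟨x, hxS, rfl⟩ := hTmem ρ hρ
    obtain ⟨hx0, hpx, _⟩ := hS x hxS
    rw [Ne, map_eq_zero]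
    exact inv_ne_zero (hroot x hx0 hpx).1
  have hR2 := val_rat_le_val_prime A hp hpA r (by rw [hr, hprodval]; exact hlt1)
  rw [hr, hprodval] at hR2
  -- contradiction
  have hstrict : A.valuation (xc x')⁻¹ * ∏ ρ ∈ T, A.valuation ρ < ∏ ρ ∈ T, A.valuation ρ := by
    have hpos : 0 < ∏ ρ ∈ T, A.valuation ρ := zero_lt_iff.mpr hne0
    calc A.valuation (xc x')⁻¹ * ∏ ρ ∈ T, A.valuation ρ
        < 1 * ∏ ρ ∈ T, A.valuation ρ := by
          exact mul_lt_mul_of_pos_right (hval x' hx'0 hx'E) hpos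
      _ = ∏ ρ ∈ T, A.valuation ρ := one_mul _
  exact lt_irrefl _ (lt_of_le_of_lt (hR2.trans hR1) hstrict)

/-- **C2**, in the shape consumed by the glue: if the `p`-torsion of the Frey curve is finite and has a
Galois-stable subspace `N ≠ ⊥, ⊤`, then not all of it is mapped into `E₁(A)` by an injective equivariant
homomorphism `φ` to a short model with integer coefficients. -/
theorem C2_frey (P : FreyPackage) (A : ValuationSubring L) (hA : A.LiesOverPrime P.p) (α β : ℤ)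
    (φ : (P.freyCurve⁄L).toAffine.Point →+
      ((shortW ((α : ℚ) + β) ((α : ℚ) * β))⁄L).toAffine.Point)
    (hφ : Function.Injective φ)
    (hφσ : ∀ (σ : L ≃ₐ[ℚ] L) (x : (P.freyCurve⁄L).toAffine.Point), φ (σ • x) = σ • φ x)
    (hfin : Finite (Submodule.torsionBy ℤ (P.freyCurve⁄L).toAffine.Point P.p))
    (N : Submodule (ZMod P.p) (Submodule.torsionBy ℤ (P.freyCurve⁄L).toAffine.Point P.p))
    (hN : IsGaloisStable ℚ N) (hN0 : N ≠ ⊥) (hN1 : N ≠ ⊤) :
    ∃ x : Submodule.torsionBy ℤ (P.freyCurve⁄L).toAffine.Point P.p,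
      ¬ InE1 A (φ (x : (P.freyCurve⁄L).toAffine.Point)) := by
  classical
  by_contra hall
  push Not at hall
  have hp2 : P.p ≠ 2 := by have := P.hp5; omega
  -- rewrite the coefficients as integer casts
  have hab : shortW ((α : ℚ) + β) ((α : ℚ) * β) = shortW (((α + β : ℤ)) : ℚ) (((α * β : ℤ)) : ℚ) := by
    push_cast; rfl
  -- a nonzero element of `N` and an element outside `N`
  obtain ⟨n₀, hn₀N, hn₀0⟩ := (Submodule.ne_bot_iff N).mp hN0
  obtain ⟨y, hyN⟩ : ∃ y, y ∉ N := by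
    by_contra h
    push Not at h
    exact hN1 (eq_top_iff.mpr fun z _ => h z)
  have hy0 : y ≠ 0 := fun h => hyN (h ▸ N.zero_mem)
  have htors : ∀ x : Submodule.torsionBy ℤ (P.freyCurve⁄L).toAffine.Point P.p,
      P.p • φ (x : (P.freyCurve⁄L).toAffine.Point) = 0 := by
    intro x
    have := x.2
    rw [Submodule.mem_torsionBy_iff] at this
    rw [← map_nsmul, ← natCast_zsmul, this, _root_.map_zero]
  have hφ0 : ∀ x : Submodule.torsionBy ℤ (P.freyCurve⁄L).toAffine.Point P.p, x ≠ 0 →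
      φ (x : (P.freyCurve⁄L).toAffine.Point) ≠ 0 := by
    intro x hx h
    apply hx
    apply Subtype.ext
    apply hφ
    rw [h, Submodule.coe_zero, _root_.map_zero]
  revert φ
  rw [hab]
  intro φ hφ hφσ hall htors hφ0
  set S : Set ((shortW (((α + β : ℤ)) : ℚ) (((α * β : ℤ)) : ℚ))⁄L).toAffine.Point :=
    (fun x : Submodule.torsionBy ℤ (P.freyCurve⁄L).toAffine.Point P.p =>
      φ (x : (P.freyCurve⁄L).toAffine.Point)) '' {x | x ∈ N ∧ x ≠ 0} with hSdef
  refine root_count A P.pp hp2 hA (α + β) (α * β) S ((Set.toFinite _).image _)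
    ⟨_, ⟨n₀, ⟨hn₀N, hn₀0⟩, rfl⟩⟩ ?_ ?_ (φ (y : (P.freyCurve⁄L).toAffine.Point)) (hφ0 y hy0)
    (htors y) (hall y) ?_ ?_
  · rintro _ ⟨x, ⟨_, hx0⟩, rfl⟩
    exact ⟨hφ0 x hx0, htors x, hall x⟩
  · rintro σ _ ⟨x, ⟨hxN, hx0⟩, rfl⟩
    refine ⟨σ • x, ⟨hN σ x hxN, ?_⟩, ?_⟩
    · intro h
      apply hx0
      have h' : σ • (x : (P.freyCurve⁄L).toAffine.Point) = 0 := congrArg Subtype.val h
      exact Subtype.ext ((smul_eq_zero_iff P.freyCurve σ _).mp h')
    · exact hφσ σ _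
  · rintro ⟨x, ⟨hxN, _⟩, hxy⟩
    apply hyN
    have : x = y := Subtype.ext (hφ hxy)
    rwa [← this]
  · rintro ⟨x, ⟨hxN, _⟩, hxy⟩
    apply hyN
    have h1 : φ ((-x : Submodule.torsionBy ℤ (P.freyCurve⁄L).toAffine.Point P.p) :
        (P.freyCurve⁄L).toAffine.Point) = φ (y : (P.freyCurve⁄L).toAffine.Point) := by
      rw [Submodule.coe_neg, map_neg]
      change φ _ = _ at hxy
      rw [hxy, neg_neg]
    have : -x = y := Subtype.ext (hφ h1)
    rw [← this]
    exact N.neg_mem hxN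

end Fermat.Agent.Cofix.RootCount
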