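/-
S13, package E (third part): the Frey-level forms of T1 (unipotence at `2`) and C2 (root count at `p`)
in the shapes consumed by `cofixed_of_packages`, and the resulting generic statement in which only the
existence of a nonzero `p`-torsion point and the two global inputs remain as hypotheses.
-/
import Mathlib
import Fermat.Agent.Cofix.Assemble
import Fermat.Agent.Cofix.InertiaTwo
import Fermat.Agent.Cofix.Frey2
import Fermat.Agent.Cofix.RootCount

set_option autoImplicit false

namespace Fermat.Agent.Cofix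

open WeierstrassCurve WeierstrassCurve.Affine WeierstrassCurve.Affine.Point
open Fermat.Agent.Unram

section final

variable {L : Type} [Field L] [DecidableEq L] [Algebra ℚ L] [IsAlgClosed L]
  [Algebra.IsAlgebraic ℚ L]

/-- T1 on the Frey curve: inertia at a place over `2` acts unipotently on the `p`-torsion. -/
theorem frey_unipotent_at_two (P : FreyPackage) (A : ValuationSubring L) (hA : A.LiesOverPrime 2)
    (σ : L ≃ₐ[ℚ] L) (hσ : σ ∈ A.inertiaSubgroupIn ℚ) (x : (P.freyCurve⁄L).toAffine.Point)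
    (hx : (P.p : ℤ) • x = 0) : σ • (σ • x - x) = σ • x - x := by
  have hp2 : P.p ≠ 2 := by have := P.hp5; omega
  exact InertiaTwo.unipotent_of_ctx2 A P.freyCurve (frey_ctx2 P A hA) P.pp hp2 (frey_val_p P A hA) σ
    (valuation_apply_eq A (mem_decompositionSubgroup_of_mem_inertiaSubgroupIn A hσ))
    (fun z hz => valuation_apply_sub_lt_one A hσ hz) x hx

/-- C2 on the Frey curve: with a proper nonzero Galois-stable subspace, not all of the `p`-torsion
lies in the kernel of reduction at a place over `p`. -/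
theorem frey_exists_not_inE1 (P : FreyPackage) (A : ValuationSubring L) (hA : A.LiesOverPrime P.p)
    (hfin : Finite (Submodule.torsionBy ℤ (P.freyCurve⁄L).toAffine.Point P.p))
    (N : Submodule (ZMod P.p) (Submodule.torsionBy ℤ (P.freyCurve⁄L).toAffine.Point P.p))
    (hN : IsGaloisStable ℚ N) (hN0 : N ≠ ⊥) (hN1 : N ≠ ⊤) :
    ∃ x : Submodule.torsionBy ℤ (P.freyCurve⁄L).toAffine.Point P.p,
      ¬ InE1 A (x : (P.freyCurve⁄L).toAffine.Point) := by
  have hp2 : P.p ≠ 2 := by have := P.hp5; omega
  obtain ⟨α, β, m, -, -, -, -, -, φ, hφ, hφσ, hE⟩ := exists_freyModel_inE1 P A P.pp hp2 hA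
  obtain ⟨x, hx⟩ := RootCount.C2_frey P A hA α β φ hφ hφσ hfin N hN hN0 hN1
  exact ⟨x, fun h => hx ((hE _).mpr h)⟩

/-- The generic statement: only torsion existence and the two global inputs remain. -/
theorem cofixed_of_torsion (P : FreyPackage)
    (hmink : ∀ H : Subgroup (L ≃ₐ[ℚ] L), H.Normal → IsOpen (H : Set (L ≃ₐ[ℚ] L)) →
      (∀ ℓ : ℕ, ℓ.Prime → ∃ A : ValuationSubring L, A.LiesOverPrime ℓ ∧
        A.inertiaSubgroupIn ℚ ≤ H) → H = ⊤)
    (hexA : ∀ ℓ : ℕ, ℓ.Prime → ∃ A : ValuationSubring L, A.LiesOverPrime ℓ)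
    (hA : ∃ x : (P.freyCurve⁄L).toAffine.Point, x ≠ 0 ∧ (P.p : ℤ) • x = 0)
    (hred : ¬ GaloisRepIsIrreducible (K := L) ℚ P.freyCurve P.p) :
    HasGaloisStableCofixedLine (K := L) ℚ P.freyCurve P.p :=
  cofixed_of_packages P hmink hexA hA (frey_unipotent_at_two P) (T2_no_rational_torsion P)
    (frey_exists_not_inE1 P) hred

end final

end Fermat.Agent.Cofix
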