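/-
S13 package C1: inertia moves `p`-torsion points only inside the kernel of reduction `E₁`, also at the
residue characteristic `p` itself.  This is `Unram.core_of_ctx` re-run WITHOUT the torsion-freeness of
`E₁` (which fails when `v(p) < 1`): for the curve `W : Y² = X(X+α)(X+β)` (`q ∤ α`, `q ∤ α - β`,
`v_q(β) = p m`, `q` an odd prime, `q = p` allowed), `A` over `q`, `σ` in the inertia group of `A` and
`x ∈ W[p]`: `σ • x - x ∈ E₁(A)`.
-/
import Fermat.Agent.Unram.Core
import Fermat.Agent.Unram.FreyModel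

set_option autoImplicit false

namespace Fermat.Agent.Cofix

open WeierstrassCurve WeierstrassCurve.Affine WeierstrassCurve.Affine.Point
open Fermat.Agent.Unram

section core

variable {L : Type*} [Field L] [DecidableEq L] [Algebra ℚ L]

omit [Algebra ℚ L] in
/-- `E₁` is stable under integer multiples. -/
lemma inE1_zsmul {W : WeierstrassCurve L} {A : ValuationSubring L} {α β : L} (hC : Ctx A W α β)
    {P : W.toAffine.Point} (hP : InE1 A P) (n : ℤ) : InE1 A (n • P) :=
  (FormalMain.mem_E1_iff hC _).1 ((FormalMain.E1 hC).zsmul_mem ((FormalMain.mem_E1_iff hC P).2 hP) n)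

/-- If `σ` moves a nonzero multiple of a point of prime order inside `E₁`, it moves the point
inside `E₁`. -/
lemma inE1_smul_sub_of_multiple (W' : WeierstrassCurve ℚ) {A : ValuationSubring L} {α β : L}
    (hC : Ctx A (W'⁄L) α β) {p : ℕ} (hp : p.Prime)
    (σ : L ≃ₐ[ℚ] L) (x : (W'⁄L).toAffine.Point) (hx : (p : ℤ) • x = 0) (n : ℤ) (hn : n • x ≠ 0)
    (hσ : InE1 A (σ • (n • x) - n • x)) : InE1 A (σ • x - x) := by
  have hpn : ¬ (p : ℤ) ∣ n := by
    rintro ⟨k, rfl⟩
    apply hn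
    rw [mul_comm, mul_smul, hx, smul_zero]
  have hcop : IsCoprime (p : ℤ) n :=
    (Nat.prime_iff_prime_int.mp hp).coprime_iff_not_dvd.mpr hpn
  obtain ⟨u, w, huw⟩ := hcop
  have hx' : x = w • (n • x) := by
    have : ((u * p + w * n : ℤ)) • x = x := by rw [huw, one_smul]
    rw [add_smul, mul_smul, hx, smul_zero, zero_add, mul_smul] at this
    exact this.symm
  have h2 : σ • x - x = w • (σ • (n • x) - n • x) := by
    rw [smul_sub, ← gal_smul_zsmul, ← hx']
  rw [h2]
  exact inE1_zsmul hC hσ w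

/-- **C1**, with the arithmetic inputs already converted into valuation statements: `Unram.core_of_ctx`
without the hypothesis `v(p) = 1`; the conclusion is that `σ • x - x` lies in `E₁`. -/
theorem inE1_smul_sub_of_ctx [IsAlgClosed L] (A : ValuationSubring L) (a b : ℚ) {α β : ℚ}
    (hC : Ctx A ((shortW a b)⁄L) (algebraMap ℚ L α) (algebraMap ℚ L β))
    {p q : ℕ} (hp : p.Prime) (hp2 : p ≠ 2) (m : ℕ)
    (hvb : A.valuation ((shortW a b)⁄L).a₄ = A.valuation (q : L) ^ (p * m))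
    (σ : L ≃ₐ[ℚ] L)
    (H_val : ∀ z : L, A.valuation (σ z) = A.valuation z)
    (H_in : ∀ z : L, A.valuation z ≤ 1 → A.valuation (σ z - z) < 1)
    (x : ((shortW a b)⁄L).toAffine.Point) (hx : (p : ℤ) • x = 0) : InE1 A (σ • x - x) := by
  classical
  by_cases hx0 : x = 0
  · rw [hx0, gal_smul_zero, sub_zero]; exact Or.inl rfl
  have hp0 : p ≠ 0 := hp.ne_zero
  -- a nonzero multiple suffices
  have key : ∀ n : ℤ, n • x ≠ 0 → InE1 A (σ • (n • x) - n • x) → InE1 A (σ • x - x) := fun n hn h =>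
    inE1_smul_sub_of_multiple (shortW a b) hC hp σ x hx n hn h
  -- Case A: a multiple with `v x ≥ 1`
  have caseA : ∀ n : ℤ, n • x ≠ 0 → 1 ≤ A.valuation (xc (n • x)) → InE1 A (σ • x - x) := by
    intro n hn h1
    refine key n hn ?_
    rcases h1.lt_or_eq with hlt | heq
    · refine FormalMain.inE1_sub hC (Or.inr ?_) (Or.inr hlt)
      rw [xc_smul, H_val]; exact hlt
    · exact DirectComp.inE1_smul_sub_of_val_eq_one (shortW a b) hC σ H_in (n • x) heq.symm
  -- Case B: a multiple with `v x ≤ v b`, `v x < 1`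
  have caseB : ∀ n : ℤ, n • x ≠ 0 →
      A.valuation (xc (n • x)) ≤ A.valuation ((shortW a b)⁄L).a₄ →
      A.valuation (xc (n • x)) < 1 → InE1 A (σ • x - x) := by
    intro n hn hb h1
    have h2n : (2 : ℤ) • (n • x) ≠ 0 := by
      intro h2
      have hpn : (p : ℤ) • (n • x) = 0 := by rw [smul_comm, hx, smul_zero]
      obtain ⟨k, hk⟩ := hp.odd_of_ne_two hp2
      apply hn
      have : ((p : ℤ) - 2 * k) • (n • x) = 0 := by
        rw [sub_smul, hpn, mul_comm, mul_smul, h2, smul_zero, sub_zero]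
      have h1 : ((p : ℤ) - 2 * k) = 1 := by rw [hk]; push_cast; ring
      rwa [h1, one_smul] at this
    obtain ⟨hP0, hy0⟩ := ne_zero_and_yc_ne_zero_of_two_zsmul_ne_zero hC.short h2n
    have := hC.one_le_val_xc_two_nsmul hP0 hy0 hb h1
    rw [← natCast_zsmul, Nat.cast_ofNat, ← mul_smul] at this
    rw [← mul_smul] at h2n
    exact caseA _ h2n this
  by_cases hA : ∃ n : ℤ, n • x ≠ 0 ∧ 1 ≤ A.valuation (xc (n • x))
  · obtain ⟨n, hn, h1⟩ := hA
    exact caseA n hn h1
  by_cases hB : ∃ n : ℤ, n • x ≠ 0 ∧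
      A.valuation (xc (n • x)) ≤ A.valuation ((shortW a b)⁄L).a₄ ∧ A.valuation (xc (n • x)) < 1
  · obtain ⟨n, hn, hb, h1⟩ := hB
    exact caseB n hn hb h1
  -- Case C: all nonzero multiples in the annulus
  push Not at hA hB
  have hann : ∀ n : ℤ, n • x ≠ 0 →
      A.valuation ((shortW a b)⁄L).a₄ < A.valuation (xc (n • x)) ∧ A.valuation (xc (n • x)) < 1 := by
    intro n hn
    have h1 := hA n hn
    exact ⟨not_le.mp fun hle => absurd (hB n hn hle) (not_le.mpr h1), h1⟩
  have hmult : ∀ k : ℕ, 1 ≤ k → k < p → (k : ℤ) • x ≠ 0 := by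
    intro k hk1 hkp hk0
    have hpk : ¬ (p : ℤ) ∣ (k : ℤ) := by
      intro hdvd
      have := Nat.le_of_dvd (by omega) (Int.natCast_dvd_natCast.mp hdvd)
      omega
    have hcop : IsCoprime (p : ℤ) (k : ℤ) :=
      (Nat.prime_iff_prime_int.mp hp).coprime_iff_not_dvd.mpr hpk
    obtain ⟨u, w, huw⟩ := hcop
    apply hx0
    have : ((u * p + w * k : ℤ)) • x = x := by rw [huw, one_smul]
    rw [add_smul, mul_smul, hx, smul_zero, zero_add, mul_smul, hk0, smul_zero] at this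
    exact this.symm
  have hx1 : (1 : ℤ) • x ≠ 0 := by rwa [one_smul]
  have hannx := hann 1 hx1
  rw [one_smul] at hannx
  -- multiplicative reduction
  have hβ1 : A.valuation (algebraMap ℚ L β) < 1 := by
    rw [← hC.val_b]
    exact hannx.1.trans hannx.2
  have hpx : p • x = 0 := by rw [← natCast_zsmul]; exact hx
  obtain ⟨j, hj⟩ := walk hC hβ1 hp hp2 hpx (fun k hk1 hkp => by
    have := hann k (hmult k hk1 hkp)
    rwa [natCast_zsmul] at this)
  -- `v (xc x) = (v q)^(2 j m)`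
  have hval : A.valuation (xc x) = A.valuation (q : L) ^ (2 * j * m) := by
    have hpow : A.valuation (xc x) ^ p = (A.valuation (q : L) ^ (2 * j * m)) ^ p := by
      rw [hj, hvb, ← zpow_natCast (A.valuation (q : L)) (p * m), ← zpow_mul, ← zpow_natCast _ p,
        ← zpow_mul]
      congr 1
      push_cast
      ring
    exact (pow_left_inj hp0).mp hpow
  -- the auxiliary point
  have hX0 : A.valuation (algebraMap ℚ L ((q : ℚ) ^ (2 * j * m))) = A.valuation (xc x) := by
    rw [hval, map_zpow₀, map_natCast, map_zpow₀]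
  obtain ⟨P₀, hσP₀, hP₀⟩ :=
    exists_pZero_of_isAlgClosed (shortW a b) hC hannx.2 hannx.1 _ hX0
  have hσP₀ := hσP₀ σ H_in
  rcases hP₀ with rfl | hQ
  · rw [hσP₀, sub_self]; exact Or.inl rfl
  -- `D = σ x - x = σ Q - Q` with `Q = x - P₀`
  have hD : σ • x - x = σ • (x - P₀) - (x - P₀) := by
    rw [gal_smul_sub, hσP₀]; abel
  rw [hD]
  rcases hQ.lt_or_eq with hlt | heq
  · refine FormalMain.inE1_sub hC (Or.inr ?_) (Or.inr hlt)
    rw [xc_smul, H_val]; exact hlt
  · exact DirectComp.inE1_smul_sub_of_val_eq_one (shortW a b) hC σ H_in _ heq.symm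

omit [DecidableEq L] in
/-- The valuation context of `Y² = X(X+α)(X+β)` at a valuation subring over an odd prime `q` with
`q ∤ α`, `q ∤ α - β`, `β ≠ 0`. -/
theorem ctx_of_arith (A : ValuationSubring L) {q : ℕ}
    (hq : q.Prime) (hq2 : q ≠ 2) (hqA : A.LiesOverPrime q) (α β : ℤ) (hα : ¬ (q : ℤ) ∣ α)
    (hαβ : ¬ (q : ℤ) ∣ α - β) (hβ0 : β ≠ 0) :
    Ctx A ((shortW (α + β : ℚ) (α * β : ℚ))⁄L) (algebraMap ℚ L (α : ℚ))
      (algebraMap ℚ L (β : ℚ)) := by
  have : CharZero L := algebraRat.charZero L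
  have hcast : ∀ n : ℤ, algebraMap ℚ L (n : ℚ) = (n : L) := fun n => map_intCast _ n
  have h2 : A.valuation (2 : L) = 1 := by
    have h := valuation_natCast_eq_one_of_not_dvd A hq hqA (n := 2) (fun hdvd => hq2
      ((Nat.prime_dvd_prime_iff_eq hq Nat.prime_two).mp hdvd))
    simpa using h
  refine ⟨isShort_shortW_baseChange _ _, ?_, ?_, h2, ?_, ?_, ?_, ?_⟩
  · rw [shortW_baseChange_a₂, map_add]
  · rw [shortW_baseChange_a₄, map_mul]
  · rw [hcast]; exact valuation_intCast_eq_one_of_not_dvd A hq hqA hα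
  · rw [hcast]; exact valuation_intCast_le_one A β
  · rw [hcast]; exact Int.cast_ne_zero.mpr hβ0
  · rw [← map_sub, ← Int.cast_sub, hcast]
    exact valuation_intCast_eq_one_of_not_dvd A hq hqA hαβ

omit [DecidableEq L] in
/-- `v(a₄) = v(α) v(q)^(v_q β)` for `Y² = X(X+α)(X+β)`. -/
theorem val_a₄_of_arith (A : ValuationSubring L) {q : ℕ}
    (hq : q.Prime) (hqA : A.LiesOverPrime q) (α β : ℤ) (hβ0 : β ≠ 0) :
    A.valuation ((shortW (α + β : ℚ) (α * β : ℚ))⁄L).a₄ =
      A.valuation (algebraMap ℚ L (α : ℚ)) * A.valuation (q : L) ^ padicValInt q β := by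
  have : CharZero L := algebraRat.charZero L
  have hcast : ∀ n : ℤ, algebraMap ℚ L (n : ℚ) = (n : L) := fun n => map_intCast _ n
  rw [shortW_baseChange_a₄, map_mul, map_mul, hcast β, valuation_intCast A hq hqA hβ0]

/-- **C1**: inertia at an odd prime `q` (the case `q = p` included) moves the `p`-torsion of
`Y² = X(X+α)(X+β)` only inside the kernel of reduction, when `q ∤ α`, `q ∤ α - β` and
`p ∣ v_q(β)`. -/
theorem inE1_smul_sub [IsAlgClosed L] [Algebra.IsAlgebraic ℚ L] (A : ValuationSubring L) {q p : ℕ}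
    (hq : q.Prime) (hq2 : q ≠ 2) (hqA : A.LiesOverPrime q) (hp : p.Prime) (hp2 : p ≠ 2)
    (α β : ℤ) (hα : ¬ (q : ℤ) ∣ α) (hαβ : ¬ (q : ℤ) ∣ α - β) (hβ0 : β ≠ 0) (m : ℕ)
    (hβ : padicValInt q β = p * m) (σ : L ≃ₐ[ℚ] L) (hσ : σ ∈ A.inertiaSubgroupIn ℚ)
    (x : ((shortW (α + β : ℚ) (α * β : ℚ))⁄L).toAffine.Point) (hx : (p : ℤ) • x = 0) :
    InE1 A (σ • x - x) := by
  have : CharZero L := algebraRat.charZero L
  have hcast : ∀ n : ℤ, algebraMap ℚ L (n : ℚ) = (n : L) := fun n => map_intCast _ n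
  have hC := ctx_of_arith A hq hq2 hqA α β hα hαβ hβ0
  have hvb : A.valuation ((shortW (α + β : ℚ) (α * β : ℚ))⁄L).a₄ = A.valuation (q : L) ^ (p * m) := by
    rw [hC.val_b, hcast, valuation_intCast A hq hqA hβ0, hβ]
  exact inE1_smul_sub_of_ctx A _ _ hC hp hp2 m hvb σ
    (valuation_apply_eq A (mem_decompositionSubgroup_of_mem_inertiaSubgroupIn A hσ))
    (fun z hz => valuation_apply_sub_lt_one A hσ hz) x hx

/-- **C1 for the Frey curve**: for a Frey package, an odd prime `q` (the case `q = P.p` included) and a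
valuation subring `A` over `q` there is a model `Y² = X(X+α)(X+β)` in valuation context at `A`
receiving the Frey curve Galois-equivariantly and injectively, such that inertia at `A` moves the
image of the `p`-torsion only inside the kernel of reduction `E₁(A)`. -/
theorem frey_inE1 (P : FreyPackage) [IsAlgClosed L] [Algebra.IsAlgebraic ℚ L]
    (A : ValuationSubring L) {q : ℕ} (hq : q.Prime) (hq2 : q ≠ 2) (hqA : A.LiesOverPrime q) :
    ∃ (α β : ℤ) (m : ℕ), ¬ (q : ℤ) ∣ α ∧ ¬ (q : ℤ) ∣ (α - β) ∧ β ≠ 0 ∧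
      padicValInt q β = P.p * m ∧
      Ctx A ((shortW ((α : ℚ) + β) ((α : ℚ) * β))⁄L) (algebraMap ℚ L (α : ℚ))
        (algebraMap ℚ L (β : ℚ)) ∧
      ∃ φ : (P.freyCurve⁄L).Point →+ ((shortW ((α : ℚ) + β) ((α : ℚ) * β))⁄L).Point,
        Function.Injective φ ∧
        (∀ (σ : L ≃ₐ[ℚ] L) (x : (P.freyCurve⁄L).Point), φ (σ • x) = σ • φ x) ∧
        ∀ σ ∈ A.inertiaSubgroupIn ℚ, ∀ x : (P.freyCurve⁄L).Point, (P.p : ℤ) • x = 0 →
          InE1 A (φ (σ • x) - φ x) := by
  obtain ⟨α, β, m, h1, h2, h3, h4, φ, hφ, hφσ⟩ := exists_freyModel P (L := L) hq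
  refine ⟨α, β, m, h1, h2, h3, h4, ctx_of_arith A hq hq2 hqA α β h1 h2 h3, φ, hφ, hφσ, ?_⟩
  intro σ hσ x hx
  have hp2 : P.p ≠ 2 := by have := P.hp5; omega
  have hx' : (P.p : ℤ) • φ x = 0 := by rw [← map_zsmul, hx, _root_.map_zero]
  rw [hφσ σ x]
  exact inE1_smul_sub A hq hq2 hqA P.pp hp2 α β h1 h2 h3 m h4 σ hσ (φ x) hx'

end core

end Fermat.Agent.Cofix
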