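/-
S13, package C1 (second half): the statements of `InertiaE1` transported to the Frey model itself.

`exists_freyModel_xc` re-runs `Unram.exists_freyModel` and records that the map to the short model
is `x ↦ 4x - r` (`r ∈ ℤ`) on `x`-coordinates; over a valuation subring above an odd prime this
preserves the kernel of reduction `E₁` (`v(4) = 1`, `v(r) ≤ 1`).  Hence:

* `inE1_sub_frey`: `E₁(A)` is a subgroup of the Frey curve for `A` over an odd prime;
* `inE1_smul_sub_frey`: inertia at `A` (over an odd prime `q`, `q = p` allowed) moves the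
  `p`-torsion of the Frey curve only inside `E₁(A)`;
* `eq_zero_of_inE1_frey`: no `n`-torsion in `E₁(A)` for `v(n) = 1`.
-/
import Mathlib
import Fermat.Agent.Cofix.InertiaE1

set_option autoImplicit false

namespace Fermat.Agent.Cofix

open WeierstrassCurve WeierstrassCurve.Affine WeierstrassCurve.Affine.Point
open Fermat.Agent.Unram

section transfer

variable {L : Type*} [Field L]

/-- `1 < v(4x - r)` iff `1 < v(x)` when `v(4) = 1` and `v(r) ≤ 1`. -/
theorem one_lt_val_four_mul_sub_iff (A : ValuationSubring L) (h4 : A.valuation (4 : L) = 1)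
    {r : L} (hr : A.valuation r ≤ 1) (x : L) :
    1 < A.valuation (4 * x - r) ↔ 1 < A.valuation x := by
  have h4x : A.valuation (4 * x) = A.valuation x := by rw [map_mul, h4, one_mul]
  constructor
  · intro h
    have h1 : A.valuation ((4 * x - r) + r) = A.valuation (4 * x - r) :=
      Valuation.map_add_eq_of_lt_left _ (lt_of_le_of_lt hr h)
    rw [sub_add_cancel, h4x] at h1
    rw [h1]; exact h
  · intro h
    have h1 : A.valuation (4 * x - r) = A.valuation (4 * x) :=
      Valuation.map_sub_eq_of_lt_left _ (by rw [h4x]; exact lt_of_le_of_lt hr h)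
    rw [h1, h4x]; exact h

/-- A point map which is `x ↦ 4x - r` on `x`-coordinates preserves and reflects `E₁`. -/
theorem inE1_map_iff [DecidableEq L] (A : ValuationSubring L) (h4 : A.valuation (4 : L) = 1)
    {E W : WeierstrassCurve L} (φ : E.toAffine.Point →+ W.toAffine.Point)
    (hφ : Function.Injective φ) {r : L} (hr : A.valuation r ≤ 1)
    (hxc : ∀ x : E.toAffine.Point, x ≠ 0 → xc (φ x) = 4 * xc x - r) (x : E.toAffine.Point) :
    InE1 A (φ x) ↔ InE1 A x := by
  by_cases hx : x = 0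
  · subst hx
    rw [_root_.map_zero]
    exact ⟨fun _ => Or.inl rfl, fun _ => Or.inl rfl⟩
  · have hφx : φ x ≠ 0 := fun h => hx (hφ (by rw [h, _root_.map_zero]))
    unfold InE1
    rw [hxc x hx, one_lt_val_four_mul_sub_iff A h4 hr]
    constructor
    · rintro (h | h)
      · exact absurd h hφx
      · exact Or.inr h
    · rintro (h | h)
      · exact absurd h hx
      · exact Or.inr h

end transfer

section frey

variable {L : Type*} [Field L] [DecidableEq L] [Algebra ℚ L]

/-- `Unram.exists_freyModel` together with the formula for the `x`-coordinate of the map. -/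
theorem exists_freyModel_xc (P : FreyPackage) {q : ℕ} (hq : q.Prime) :
    ∃ (α β : ℤ) (m : ℕ), ¬ (q : ℤ) ∣ α ∧ ¬ (q : ℤ) ∣ (α - β) ∧ β ≠ 0 ∧
      padicValInt q β = P.p * m ∧
      ∃ φ : (P.freyCurve⁄L).Point →+ ((shortW ((α : ℚ) + β) ((α : ℚ) * β))⁄L).Point,
        Function.Injective φ ∧
        (∀ (σ : L ≃ₐ[ℚ] L) (x : (P.freyCurve⁄L).Point), φ (σ • x) = σ • φ x) ∧
        ∃ r : ℤ, ∀ x : (P.freyCurve⁄L).Point, x ≠ 0 → xc (φ x) = 4 * xc x - (r : L) := by
  have hFLT : ((P.a : ℚ) ^ P.p + (P.b : ℚ) ^ P.p = (P.c : ℚ) ^ P.p) := by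
    exact_mod_cast congrArg (fun z : ℤ => (z : ℚ)) P.hFLT
  have hp0 : P.p ≠ 0 := P.hp0
  have hpow : ∀ {z : ℤ}, ¬ (q : ℤ) ∣ z → ¬ (q : ℤ) ∣ z ^ P.p := fun hz hdvd =>
    hz ((Nat.prime_iff_prime_int.mp hq).dvd_of_dvd_pow hdvd)
  have h2Q : (2 : ℚ) ≠ 0 := two_ne_zero
  -- the three models
  by_cases hb : (q : ℤ) ∣ P.b
  · -- `q ∣ b`: `(α, β, r) = (-A, B, 0)`
    have hqa : ¬ (q : ℤ) ∣ P.a := not_dvd_of_isCoprime hq (by rw [gcd_comm]; exact P.hgcdab) hb
    have hqc : ¬ (q : ℤ) ∣ P.c := not_dvd_of_isCoprime hq P.hgcdbc hb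
    have hrel : ToShort.Rel P.freyCurve
        (shortW (((-(P.a ^ P.p) : ℤ) : ℚ) + ((P.b ^ P.p : ℤ) : ℚ))
          (((-(P.a ^ P.p) : ℤ) : ℚ) * ((P.b ^ P.p : ℤ) : ℚ))) 0 :=
      { e1 := rfl, e3 := rfl, e6 := rfl, w := isShort_shortW _ _
        ha := by
          simp only [shortW_a₂, FreyPackage.freyCurve]
          push_cast
          ring
        hb := by
          simp only [shortW_a₄, FreyPackage.freyCurve]
          push_cast
          ring
        hc := by ring
        two := h2Q }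
    refine ⟨-(P.a ^ P.p), P.b ^ P.p, padicValInt q P.b, ?_, ?_, pow_ne_zero _ P.hb0, ?_,
      ToShort.hom (hrel.baseChange (L := L)), ToShort.hom_injective _, ?_, 0, ?_⟩
    · rw [dvd_neg]
      exact hpow hqa
    · have : -(P.a ^ P.p) - P.b ^ P.p = -(P.c ^ P.p) := by rw [← P.hFLT]; ring
      rw [this, dvd_neg]
      exact hpow hqc
    · rw [padicValInt_pow' hq _ P.hb0]
    · intro σ x
      have := ToShort.hom_smul hrel σ x
      simpa using this
    · intro x hx
      rw [ToShort.hom_apply, ToShort.xc_toFun _ hx, _root_.map_zero, Int.cast_zero]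
  · by_cases hc : (q : ℤ) ∣ P.c
    · -- `q ∣ c`: `(α, β, r) = (A, C, A)`
      have hqa : ¬ (q : ℤ) ∣ P.a :=
        not_dvd_of_isCoprime hq (by rw [gcd_comm]; exact P.hgcdac) hc
      have hrel : ToShort.Rel P.freyCurve
          (shortW (((P.a ^ P.p : ℤ) : ℚ) + ((P.c ^ P.p : ℤ) : ℚ))
            (((P.a ^ P.p : ℤ) : ℚ) * ((P.c ^ P.p : ℤ) : ℚ))) ((P.a : ℚ) ^ P.p) :=
        { e1 := rfl, e3 := rfl, e6 := rfl, w := isShort_shortW _ _
          ha := by
            simp only [shortW_a₂, FreyPackage.freyCurve]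
            push_cast
            rw [← hFLT]
            ring
          hb := by
            simp only [shortW_a₄, FreyPackage.freyCurve]
            push_cast
            rw [← hFLT]
            ring
          hc := by
            simp only [FreyPackage.freyCurve]
            ring
          two := h2Q }
      refine ⟨P.a ^ P.p, P.c ^ P.p, padicValInt q P.c, hpow hqa, ?_, pow_ne_zero _ P.hc0, ?_,
        ToShort.hom (hrel.baseChange (L := L)), ToShort.hom_injective _, ?_, P.a ^ P.p, ?_⟩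
      · have : P.a ^ P.p - P.c ^ P.p = -(P.b ^ P.p) := by rw [← P.hFLT]; ring
        rw [this, dvd_neg]
        exact hpow hb
      · rw [padicValInt_pow' hq _ P.hc0]
      · intro σ x
        exact ToShort.hom_smul hrel σ x
      · intro x hx
        rw [ToShort.hom_apply, ToShort.xc_toFun _ hx, map_pow, map_intCast, Int.cast_pow]
    · -- `q ∤ bc`: `(α, β, r) = (B, -A, 0)`
      have hrel : ToShort.Rel P.freyCurve
          (shortW (((P.b ^ P.p : ℤ) : ℚ) + ((-(P.a ^ P.p) : ℤ) : ℚ))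
            (((P.b ^ P.p : ℤ) : ℚ) * ((-(P.a ^ P.p) : ℤ) : ℚ))) 0 :=
        { e1 := rfl, e3 := rfl, e6 := rfl, w := isShort_shortW _ _
          ha := by
            simp only [shortW_a₂, FreyPackage.freyCurve]
            push_cast
            ring
          hb := by
            simp only [shortW_a₄, FreyPackage.freyCurve]
            push_cast
            ring
          hc := by ring
          two := h2Q }
      refine ⟨P.b ^ P.p, -(P.a ^ P.p), padicValInt q P.a, hpow hb, ?_,
        neg_ne_zero.mpr (pow_ne_zero _ P.ha0), ?_,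
        ToShort.hom (hrel.baseChange (L := L)), ToShort.hom_injective _, ?_, 0, ?_⟩
      · have : P.b ^ P.p - -(P.a ^ P.p) = P.c ^ P.p := by rw [← P.hFLT]; ring
        rw [this]
        exact hpow hc
      · rw [padicValInt_neg_pow hq _ P.ha0]
      · intro σ x
        have := ToShort.hom_smul hrel σ x
        simpa using this
      · intro x hx
        rw [ToShort.hom_apply, ToShort.xc_toFun _ hx, _root_.map_zero, Int.cast_zero]

/-- The Frey model at an odd prime `q`, in valuation context at `A` over `q`, with a point map that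
preserves and reflects `E₁(A)`. -/
theorem exists_freyModel_inE1 (P : FreyPackage) (A : ValuationSubring L) {q : ℕ} (hq : q.Prime)
    (hq2 : q ≠ 2) (hqA : A.LiesOverPrime q) :
    ∃ (α β : ℤ) (m : ℕ), ¬ (q : ℤ) ∣ α ∧ ¬ (q : ℤ) ∣ (α - β) ∧ β ≠ 0 ∧
      padicValInt q β = P.p * m ∧
      Ctx A ((shortW ((α : ℚ) + β) ((α : ℚ) * β))⁄L) (algebraMap ℚ L (α : ℚ))
        (algebraMap ℚ L (β : ℚ)) ∧
      ∃ φ : (P.freyCurve⁄L).Point →+ ((shortW ((α : ℚ) + β) ((α : ℚ) * β))⁄L).Point,
        Function.Injective φ ∧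
        (∀ (σ : L ≃ₐ[ℚ] L) (x : (P.freyCurve⁄L).Point), φ (σ • x) = σ • φ x) ∧
        ∀ x : (P.freyCurve⁄L).Point, InE1 A (φ x) ↔ InE1 A x := by
  obtain ⟨α, β, m, h1, h2, h3, h4, φ, hφ, hφσ, r, hr⟩ := exists_freyModel_xc P (L := L) hq
  refine ⟨α, β, m, h1, h2, h3, h4, ctx_of_arith A hq hq2 hqA α β h1 h2 h3, φ, hφ, hφσ, ?_⟩
  have h4' : A.valuation (4 : L) = 1 := by
    have h := valuation_natCast_eq_one_of_not_dvd A hq hqA (n := 4) (fun hdvd => hq2 (by
      have h22 : q ∣ 2 * 2 := by simpa using hdvd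
      rcases (Nat.Prime.dvd_mul hq).mp h22 with h | h <;>
        exact (Nat.prime_dvd_prime_iff_eq hq Nat.prime_two).mp h))
    simpa using h
  exact inE1_map_iff A h4' φ hφ (valuation_intCast_le_one A r) hr

/-- **C1'** (general odd prime): `E₁(A)` is a subgroup of the Frey curve. -/
theorem inE1_sub_frey (P : FreyPackage) (A : ValuationSubring L) {q : ℕ} (hq : q.Prime)
    (hq2 : q ≠ 2) (hqA : A.LiesOverPrime q) {x y : (P.freyCurve⁄L).toAffine.Point}
    (hx : InE1 A x) (hy : InE1 A y) : InE1 A (x - y) := by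
  obtain ⟨α, β, m, -, -, -, -, hC, φ, -, -, hE⟩ := exists_freyModel_inE1 P A hq hq2 hqA
  rw [← hE, map_sub]
  exact FormalMain.inE1_sub hC ((hE x).mpr hx) ((hE y).mpr hy)

/-- `E₁(A)` of the Frey curve has no `n`-torsion for `v(n) = 1` (`A` over an odd prime). -/
theorem eq_zero_of_inE1_frey (P : FreyPackage) (A : ValuationSubring L) {q : ℕ} (hq : q.Prime)
    (hq2 : q ≠ 2) (hqA : A.LiesOverPrime q) {x : (P.freyCurve⁄L).toAffine.Point}
    (hx : InE1 A x) {n : ℕ} (hvn : A.valuation (n : L) = 1) (hnx : n • x = 0) : x = 0 := by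
  obtain ⟨α, β, m, -, -, -, -, hC, φ, hφ, -, hE⟩ := exists_freyModel_inE1 P A hq hq2 hqA
  apply hφ
  rw [_root_.map_zero]
  refine FormalMain.eq_zero_of_inE1_of_nsmul_eq_zero hC ((hE x).mpr hx) hvn ?_
  rw [← map_nsmul, hnx, _root_.map_zero]

/-- **C1** (general odd prime `q`, `q = P.p` allowed): inertia at `A` moves the `p`-torsion of the
Frey curve only inside the kernel of reduction `E₁(A)`. -/
theorem inE1_smul_sub_frey [IsAlgClosed L] [Algebra.IsAlgebraic ℚ L] (P : FreyPackage)
    (A : ValuationSubring L) {q : ℕ} (hq : q.Prime) (hq2 : q ≠ 2) (hqA : A.LiesOverPrime q)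
    (σ : L ≃ₐ[ℚ] L) (hσ : σ ∈ A.inertiaSubgroupIn ℚ) (x : (P.freyCurve⁄L).toAffine.Point)
    (hx : (P.p : ℤ) • x = 0) : InE1 A (σ • x - x) := by
  obtain ⟨α, β, m, h1, h2, h3, h4, hC, φ, hφ, hφσ, hE⟩ := exists_freyModel_inE1 P A hq hq2 hqA
  have hp2 : P.p ≠ 2 := by have := P.hp5; omega
  have hx' : (P.p : ℤ) • φ x = 0 := by rw [← map_zsmul, hx, _root_.map_zero]
  rw [← hE, map_sub, hφσ σ x]
  exact inE1_smul_sub A hq hq2 hqA P.pp hp2 α β h1 h2 h3 m h4 σ hσ (φ x) hx'

/-- **C1** in the blueprint shape (`q = P.p`). -/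
theorem C1_inertia_p [IsAlgClosed L] [Algebra.IsAlgebraic ℚ L] (P : FreyPackage)
    (A : ValuationSubring L) (hA : A.LiesOverPrime P.p)
    (σ : L ≃ₐ[ℚ] L) (hσ : σ ∈ A.inertiaSubgroupIn ℚ) (x : (P.freyCurve⁄L).toAffine.Point)
    (hx : (P.p : ℤ) • x = 0) : InE1 A (σ • x - x) :=
  inE1_smul_sub_frey P A P.pp (by have := P.hp5; omega) hA σ hσ x hx

/-- **C1'** in the blueprint shape (`q = P.p`). -/
theorem C1_inE1_sub (P : FreyPackage) (A : ValuationSubring L) (hA : A.LiesOverPrime P.p)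
    {x y : (P.freyCurve⁄L).toAffine.Point} (hx : InE1 A x) (hy : InE1 A y) : InE1 A (x - y) :=
  inE1_sub_frey P A P.pp (by have := P.hp5; omega) hA hx hy

end frey

end Fermat.Agent.Cofix
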