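/-
S13 (Cofix), package T1, Frey wiring: the Frey curve `y² + xy = x³ + a₂x² + a₄x` satisfies the 2-adic context
`Ctx2` at every valuation subring over `2`, hence inertia at `2` acts unipotently on `E[p]`.
-/
import Mathlib
import Fermat.Prelude.Def_FLTPrelim_FreyPackage
import Fermat.Prelude.Def_FLTPrelim_Ramification
import Fermat.Agent.Unram.Inertia
import Fermat.Agent.Cofix.Setup2
import Fermat.Agent.Cofix.InertiaTwo

set_option autoImplicit false
set_option linter.unusedSectionVars false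

namespace Fermat.Agent.Cofix.InertiaTwo

open WeierstrassCurve WeierstrassCurve.Affine WeierstrassCurve.Affine.Point
open Fermat.Agent.Unram

/-- `4 ∣ a^p + 1` (`a ≡ 3 mod 4`, `p` odd). -/
lemma frey_four_dvd_a_pow_add_one (P : FreyPackage) : (4 : ℤ) ∣ P.a ^ P.p + 1 := by
  have h1 : (4 : ℤ) ∣ P.a + 1 := by
    have h : ((P.a + 1 : ℤ) : ZMod 4) = 0 := by
      push_cast
      rw [P.ha4]
      decide
    exact_mod_cast (ZMod.intCast_zmod_eq_zero_iff_dvd _ 4).1 h
  have h2 : P.a + 1 ∣ P.a ^ P.p + 1 ^ P.p := Odd.add_dvd_pow_add_pow _ _ P.hp_odd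
  rw [one_pow] at h2
  exact h1.trans h2

/-- `32 ∣ b^p` (`b` even, `p ≥ 5`). -/
lemma frey_thirtytwo_dvd_b_pow (P : FreyPackage) : (32 : ℤ) ∣ P.b ^ P.p := by
  have h2 : (2 : ℤ) ∣ P.b := by
    exact_mod_cast (ZMod.intCast_zmod_eq_zero_iff_dvd P.b 2).1 P.hb2
  have h3 : (2 : ℤ) ^ P.p ∣ P.b ^ P.p := pow_dvd_pow_of_dvd h2 _
  have h5 : (2 : ℤ) ^ 5 ∣ 2 ^ P.p := pow_dvd_pow 2 P.hp5
  have e : (32 : ℤ) = 2 ^ 5 := by norm_num
  rw [e]
  exact h5.trans h3

/-- `4 ∣ b^p - 1 - a^p`. -/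
lemma frey_four_dvd_a2_num (P : FreyPackage) : (4 : ℤ) ∣ P.b ^ P.p - 1 - P.a ^ P.p := by
  have h1 := frey_four_dvd_a_pow_add_one P
  have h2 : (4 : ℤ) ∣ P.b ^ P.p := Dvd.dvd.trans ⟨8, by norm_num⟩ (frey_thirtytwo_dvd_b_pow P)
  have e : P.b ^ P.p - 1 - P.a ^ P.p = P.b ^ P.p - (P.a ^ P.p + 1) := by ring
  rw [e]
  exact dvd_sub h2 h1

section ctx

variable {L : Type*} [Field L] [Algebra ℚ L]

/-- **The Frey curve is in the 2-adic context** at every valuation subring over `2`. -/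
theorem frey_ctx2_at_two (P : FreyPackage) (A : ValuationSubring L) (hA : A.LiesOverPrime 2) :
    Ctx2 A (P.freyCurve⁄L) := by
  have hchar : CharZero L := algebraRat.charZero L
  obtain ⟨k, hk⟩ := frey_four_dvd_a2_num P
  obtain ⟨m, hm⟩ := frey_thirtytwo_dvd_b_pow P
  have ha2 : (P.freyCurve⁄L).a₂ = (k : L) := by
    change algebraMap ℚ L P.freyCurve.a₂ = _
    have h : P.freyCurve.a₂ = (k : ℚ) := by
      simp only [FreyPackage.freyCurve]
      rw [div_eq_iff (by norm_num)]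
      have := congrArg (Int.cast : ℤ → ℚ) hk
      push_cast at this
      rw [this]
      ring
    rw [h, map_intCast]
  have ha4 : (P.freyCurve⁄L).a₄ = (2 : L) * ((-(P.a ^ P.p) * m : ℤ) : L) := by
    change algebraMap ℚ L P.freyCurve.a₄ = _
    have h : P.freyCurve.a₄ = ((2 * (-(P.a ^ P.p) * m) : ℤ) : ℚ) := by
      simp only [FreyPackage.freyCurve]
      rw [div_eq_iff (by norm_num)]
      have := congrArg (Int.cast : ℤ → ℚ) hm
      push_cast at this ⊢
      rw [this]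
      ring
    rw [h, map_intCast]
    push_cast
    ring
  have h2 : A.valuation (2 : L) < 1 := by
    have := valuation_prime_lt_one A hA
    simpa using this
  refine ⟨?_, ?_, ?_, h2, two_ne_zero, ?_, ?_, ?_⟩
  · change algebraMap ℚ L (1 : ℚ) = 1
    exact _root_.map_one _
  · change algebraMap ℚ L (0 : ℚ) = 0
    exact _root_.map_zero _
  · change algebraMap ℚ L (0 : ℚ) = 0
    exact _root_.map_zero _
  · rw [ha2]
    exact valuation_intCast_le_one A k
  · rw [ha4, map_mul]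
    calc A.valuation (2 : L) * A.valuation ((-(P.a ^ P.p) * m : ℤ) : L)
        ≤ A.valuation (2 : L) * 1 := by
          gcongr
          exact valuation_intCast_le_one A _
      _ = A.valuation (2 : L) := mul_one _
      _ < 1 := h2
  · change algebraMap ℚ L P.freyCurve.a₄ ≠ 0
    rw [Ne, map_eq_zero_iff _ (algebraMap ℚ L).injective]
    simp only [FreyPackage.freyCurve]
    have ha : (P.a : ℚ) ≠ 0 := Int.cast_ne_zero.mpr P.ha0
    have hb : (P.b : ℚ) ≠ 0 := Int.cast_ne_zero.mpr P.hb0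
    have : -(P.a : ℚ) ^ P.p * (P.b : ℚ) ^ P.p / 16 ≠ 0 := by
      refine div_ne_zero (mul_ne_zero (neg_ne_zero.mpr (pow_ne_zero _ ha)) (pow_ne_zero _ hb)) (by norm_num)
    exact this

variable [DecidableEq L] [Algebra.IsAlgebraic ℚ L]

/-- **T1** (blueprint form): inertia at `2` is unipotent on `E[p]` of the Frey curve. -/
theorem T1_inertia_two_unipotent (P : FreyPackage) (A : ValuationSubring L) (hA : A.LiesOverPrime 2)
    (σ : L ≃ₐ[ℚ] L) (hσ : σ ∈ A.inertiaSubgroupIn ℚ) (x : (P.freyCurve⁄L).toAffine.Point)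
    (hx : (P.p : ℤ) • x = 0) : σ • (σ • x - x) = σ • x - x := by
  have hp2 : P.p ≠ 2 := by have := P.hp5; omega
  have hvp : A.valuation (P.p : L) = 1 :=
    valuation_natCast_eq_one_of_not_dvd A Nat.prime_two hA (fun hdvd => hp2
      ((Nat.prime_dvd_prime_iff_eq Nat.prime_two P.pp).mp hdvd).symm)
  exact unipotent_of_ctx2 A P.freyCurve (frey_ctx2_at_two P A hA) P.pp hp2 hvp σ
    (valuation_apply_eq A (mem_decompositionSubgroup_of_mem_inertiaSubgroupIn A hσ))
    (fun z hz => valuation_apply_sub_lt_one A hσ hz) x hx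

end ctx

end Fermat.Agent.Cofix.InertiaTwo
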