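/-
S13, 2-adic packages (T1, T2): valuations and residues of rational numbers at a valuation subring over `2`
(generic field `L` with `Algebra ℚ L`).  `v(2)^ℤ` is torsion-free and ordered, rational numbers have valuation in
`v(2)^ℤ`, and a rational number integral at `2` reduces to `0` or `1`.
-/
import Mathlib
import Fermat.Agent.Unram.Inertia
import Fermat.Agent.Unram.Setup
import Fermat.Prelude.Def_FLTPrelim_Ramification

set_option autoImplicit false

namespace Fermat.Agent.Cofix.Rat2

open WeierstrassCurve WeierstrassCurve.Affine WeierstrassCurve.Affine.Point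
open Fermat.Agent.Unram

section rat2

variable {L : Type*} [Field L] [Algebra ℚ L] (A : ValuationSubring L)

omit [Algebra ℚ L] in
theorem val_two_lt_one (hA : A.LiesOverPrime 2) : A.valuation (2 : L) < 1 := by
  have hA' : A.valuation ((2 : ℕ) : L) < 1 := valuation_prime_lt_one A hA
  simpa using hA'

omit [Algebra ℚ L] in
theorem val_two_pos [CharZero L] : 0 < A.valuation (2 : L) := by
  rw [zero_lt_iff, Ne, map_eq_zero]; exact two_ne_zero

theorem zpow_val_two_inj (hA : A.LiesOverPrime 2) {m n : ℤ}
    (h : A.valuation (2 : L) ^ m = A.valuation (2 : L) ^ n) : m = n := by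
  have : CharZero L := algebraRat.charZero L
  exact (zpow_right_inj₀ (val_two_pos A) (val_two_lt_one A hA).ne).mp h

theorem zpow_val_two_lt_one_iff (hA : A.LiesOverPrime 2) {m : ℤ} :
    A.valuation (2 : L) ^ m < 1 ↔ 0 < m := by
  have : CharZero L := algebraRat.charZero L
  have h := (zpow_right_strictAnti₀ (val_two_pos A) (val_two_lt_one A hA)).lt_iff_gt (a := m) (b := 0)
  simpa using h

theorem zpow_val_two_lt_iff (hA : A.LiesOverPrime 2) {m n : ℤ} :
    A.valuation (2 : L) ^ m < A.valuation (2 : L) ^ n ↔ n < m := by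
  have : CharZero L := algebraRat.charZero L
  exact (zpow_right_strictAnti₀ (val_two_pos A) (val_two_lt_one A hA)).lt_iff_gt

omit [Algebra ℚ L] in
theorem val_intCast_of_odd (hA : A.LiesOverPrime 2) {n : ℤ} (hn : ¬ (2 : ℤ) ∣ n) :
    A.valuation (n : L) = 1 :=
  valuation_intCast_eq_one_of_not_dvd A Nat.prime_two hA (by exact_mod_cast hn)

omit [Algebra ℚ L] in
theorem val_intCast_of_even (hA : A.LiesOverPrime 2) {n : ℤ} (hn : (2 : ℤ) ∣ n) :
    A.valuation (n : L) < 1 := by
  obtain ⟨k, rfl⟩ := hn
  push_cast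
  rw [map_mul]
  exact mul_lt_one_of_lt_of_le (val_two_lt_one A hA) (valuation_intCast_le_one A k)

/-- The valuation of a nonzero rational number at a place over `2` is an integral power of `v(2)`. -/
theorem val_rat_eq_zpow (hA : A.LiesOverPrime 2) {z : L} (hz : z ∈ Set.range (algebraMap ℚ L))
    (hz0 : z ≠ 0) : ∃ m : ℤ, A.valuation z = A.valuation (2 : L) ^ m := by
  have : CharZero L := algebraRat.charZero L
  obtain ⟨r, rfl⟩ := hz
  have hr : r ≠ 0 := by rintro rfl; exact hz0 (map_zero _)
  refine ⟨padicValRat 2 r, ?_⟩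
  have := valuation_ratCast A Nat.prime_two hA hr
  rw [eq_ratCast]
  simpa using this

/-- A rational number integral at `2` reduces to `0` or `1` (the residue field of `ℤ₍₂₎` is `𝔽₂`). -/
theorem val_rat_residue (hA : A.LiesOverPrime 2) {z : L} (hz : z ∈ Set.range (algebraMap ℚ L))
    (h1 : A.valuation z ≤ 1) : A.valuation z < 1 ∨ A.valuation (z - 1) < 1 := by
  have : CharZero L := algebraRat.charZero L
  obtain ⟨r, rfl⟩ := hz
  rw [eq_ratCast] at h1 ⊢
  have hden0 : (r.den : L) ≠ 0 := by exact_mod_cast r.den_ne_zero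
  have hr : (r : L) = (r.num : L) / (r.den : L) := Rat.cast_def r
  -- the denominator is odd
  have hdodd : ¬ (2 : ℤ) ∣ (r.den : ℤ) := by
    intro hd
    have hnum : ¬ (2 : ℤ) ∣ r.num := by
      intro hn
      have hcop := r.reduced
      have h2n : 2 ∣ r.num.natAbs := Int.natCast_dvd.mp (by simpa using hn)
      have h2d : 2 ∣ r.den := by exact_mod_cast hd
      have := Nat.dvd_gcd h2n h2d
      rw [hcop] at this
      omega
    have hvn := val_intCast_of_odd A hA hnum
    have hvd := val_intCast_of_even A hA hd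
    rw [hr, map_div₀, hvn] at h1
    have hvd' : A.valuation ((r.den : ℤ) : L) ≠ 0 := by
      rw [Ne, map_eq_zero]; exact_mod_cast r.den_ne_zero
    rw [Int.cast_natCast] at hvd hvd'
    rw [div_le_iff₀ (zero_lt_iff.mpr hvd'), one_mul] at h1
    exact absurd hvd (not_lt.mpr h1)
  have hvd : A.valuation (r.den : L) = 1 := by
    have := val_intCast_of_odd A hA hdodd
    simpa using this
  by_cases hn : (2 : ℤ) ∣ r.num
  · left
    rw [hr, map_div₀, hvd, div_one]
    exact val_intCast_of_even A hA hn
  · right
    have hsub : (r : L) - 1 = ((r.num - r.den : ℤ) : L) / (r.den : L) := by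
      rw [hr]; push_cast; field_simp
    rw [hsub, map_div₀, hvd, div_one]
    apply val_intCast_of_even A hA
    omega

end rat2

section rational

variable {L : Type*} [Field L] [DecidableEq L] [Algebra ℚ L] [IsAlgClosed L] [Algebra.IsAlgebraic ℚ L]
  (W' : WeierstrassCurve ℚ)

omit [DecidableEq L] in
/-- The fixed field of all automorphisms of an algebraic closure `L` of `ℚ` is `ℚ`. -/
theorem mem_range_of_forall_fixed {z : L} (h : ∀ σ : L ≃ₐ[ℚ] L, σ z = z) :
    z ∈ Set.range (algebraMap ℚ L) := by
  have : IsAlgClosure ℚ L := ⟨inferInstance, inferInstance⟩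
  exact (InfiniteGalois.mem_range_algebraMap_iff_fixed z).mpr h

/-- A point fixed by the whole Galois group has rational coordinates, and so have all its multiples. -/
theorem coords_rational_of_fixed (x : (W'⁄L).toAffine.Point) (hfix : ∀ σ : L ≃ₐ[ℚ] L, σ • x = x)
    (k : ℕ) : xc (k • x) ∈ Set.range (algebraMap ℚ L) ∧ yc (k • x) ∈ Set.range (algebraMap ℚ L) := by
  have hk : ∀ σ : L ≃ₐ[ℚ] L, σ • (k • x) = k • x := fun σ => by
    rw [gal_smul_nsmul, hfix σ]
  constructor
  · apply mem_range_of_forall_fixed
    intro σ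
    rw [← xc_smul, hk σ]
  · apply mem_range_of_forall_fixed
    intro σ
    rw [← yc_smul, hk σ]

end rational

end Fermat.Agent.Cofix.Rat2
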