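/-
S13 (cofixed line), package C2, blueprint shape on the Frey model: if the `p`-torsion of the Frey curve has a
Galois-stable subspace `N ≠ ⊥, ⊤`, then not all of it lies in `E₁(A)` for `A` over `p`.
(`RootCount.C2_frey` transported by `FreyE1.exists_freyModel_inE1` at `q = p`.)
-/
import Mathlib
import Fermat.Agent.Cofix.RootCount
import Fermat.Agent.Cofix.FreyE1

set_option autoImplicit false

namespace Fermat.Agent.Cofix

open WeierstrassCurve WeierstrassCurve.Affine WeierstrassCurve.Affine.Point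
open Fermat.Agent.Unram

variable {L : Type*} [Field L] [DecidableEq L] [Algebra ℚ L] [IsAlgClosed L]
  [Algebra.IsAlgebraic ℚ L]

/-- **C2** (blueprint shape). -/
theorem C2_exists_not_inE1 (P : FreyPackage) (A : ValuationSubring L) (hA : A.LiesOverPrime P.p)
    (hfin : Finite (Submodule.torsionBy ℤ (P.freyCurve⁄L).toAffine.Point P.p))
    (N : Submodule (ZMod P.p) (Submodule.torsionBy ℤ (P.freyCurve⁄L).toAffine.Point P.p))
    (hN : IsGaloisStable ℚ N) (hN0 : N ≠ ⊥) (hN1 : N ≠ ⊤) :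
    ∃ x : Submodule.torsionBy ℤ (P.freyCurve⁄L).toAffine.Point P.p,
      ¬ InE1 A (x : (P.freyCurve⁄L).toAffine.Point) := by
  have hp2 : P.p ≠ 2 := by have := P.hp5; omega
  obtain ⟨α, β, m, -, -, -, -, -, φ, hφ, hφσ, hiff⟩ := exists_freyModel_inE1 P A P.pp hp2 hA
  obtain ⟨x, hx⟩ := RootCount.C2_frey P A hA α β φ hφ hφσ hfin N hN hN0 hN1
  exact ⟨x, fun h => hx ((hiff _).mpr h)⟩

end Fermat.Agent.Cofix
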