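/-
S13 package A (algebraic route): a short curve `Y² = X³ + aX² + bX` with `b ≠ 0` over an algebraically
closed field of characteristic `0` has a nonzero point of order `p`, for every odd prime `p`.

Pure algebra: if `E[p] = 0` then the `x`-only multiplication-by-`p` map `x ↦ N(x)/D(x)` (helper6's
`rep_all`) is injective on a cofinite set, hence of degree one after reduction to lowest terms (Wronskian
argument); this contradicts the compatibility with the translation by the `2`-torsion point `(0,0)`,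
`x ↦ b/x`, because the leading ratio of `N/D` is `1/p²` and `p⁴ ≠ 1`.
-/
import Fermat.Agent.Cofix.TorsionBound
import Fermat.Agent.Unram.XOnly
import Fermat.Agent.Unram.FreyMaps

set_option autoImplicit false
set_option linter.unusedSectionVars false
set_option linter.style.haveILetI false

namespace Fermat.Agent.Cofix.TorsAlg

open Polynomial WeierstrassCurve WeierstrassCurve.Affine Fermat.Agent.Unram Fermat.Agent.Cofix

/-! ### Polynomial part -/

section poly

variable {L : Type*} [Field L]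

/-- Reduction to lowest terms. -/
lemma exists_coprime_factor (N D : L[X]) :
    ∃ C N' D' : L[X], N = C * N' ∧ D = C * D' ∧ IsCoprime N' D' := by
  classical
  letI := EuclideanDomain.gcdMonoid L[X]
  obtain ⟨N', D', h1, h2, h3⟩ := extract_gcd N D
  exact ⟨gcd N D, N', D', h1, h2, (gcd_isUnit_iff _ _).1 h3⟩

/-- Coprime polynomials have no common root. -/
lemma eval_ne_zero_of_isCoprime {N' D' : L[X]} (h : IsCoprime N' D') {x : L} (hN : N'.eval x = 0) :
    D'.eval x ≠ 0 := by
  obtain ⟨u, v, huv⟩ := h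
  intro hD
  have := congrArg (Polynomial.eval x) huv
  simp [hN, hD] at this

end poly

section polymain

variable {L : Type*} [Field L] [IsAlgClosed L] [CharZero L]

/-- The set of non-roots of a nonzero polynomial over an infinite field is infinite. -/
lemma infinite_setOf_eval_ne_zero {B : L[X]} (hB : B ≠ 0) : {x : L | B.eval x ≠ 0}.Infinite := by
  have hfin : {x : L | B.IsRoot x}.Finite := Polynomial.finite_setOfPred_isRoot hB
  have : {x : L | B.eval x ≠ 0} = {x : L | B.IsRoot x}ᶜ := by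
    ext x; simp [Polynomial.IsRoot]
  rw [this]
  exact hfin.infinite_compl

/-- The Wronskian of two coprime polynomials, the first nonconstant, is nonzero. -/
lemma wronskian_ne_zero {N' D' : L[X]} (hcop : IsCoprime N' D') (hdeg : N'.natDegree ≠ 0) :
    N' * derivative D' - derivative N' * D' ≠ 0 := by
  intro hw
  have h1 : N' ∣ derivative N' * D' := ⟨derivative D', by linear_combination -hw⟩
  have h2 : N' ∣ derivative N' := hcop.dvd_of_dvd_mul_right h1
  have h3 : derivative N' = 0 := by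
    by_contra hne
    have := natDegree_le_of_dvd h2 hne
    have := natDegree_derivative_lt hdeg
    omega
  exact hdeg (Polynomial.derivative_eq_zero.mp h3)

/-- **Degree two or more is impossible** for a reduced fraction injective on a cofinite set. -/
lemma natDegree_le_one_of_inj {N' D' C Bad : L[X]} (hcop : IsCoprime N' D')
    (hdeg : D'.natDegree < N'.natDegree) (hBad : Bad ≠ 0)
    (hinj : ∀ x x', Bad.eval x ≠ 0 → Bad.eval x' ≠ 0 →
      (C * N').eval x * (C * D').eval x' = (C * N').eval x' * (C * D').eval x → x = x') :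
    N'.natDegree ≤ 1 := by
  classical
  by_contra hd
  push Not at hd
  have hN'0 : N' ≠ 0 := by
    intro h; rw [h] at hd; simp at hd
  have hdeg0 : N'.natDegree ≠ 0 := by omega
  set w : L[X] := N' * derivative D' - derivative N' * D' with hw
  have hw0 : w ≠ 0 := wronskian_ne_zero hcop hdeg0
  have hBw : Bad * w ≠ 0 := mul_ne_zero hBad hw0
  set S : Finset L := (Bad * w).roots.toFinset with hS
  set S₁ : Finset L := S.image (fun x => N'.eval x / D'.eval x) with hS₁
  obtain ⟨x₁, hx₁⟩ := Infinite.exists_notMem_finset S₁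
  set F : L[X] := N' - Polynomial.C x₁ * D' with hF
  have hCD : (Polynomial.C x₁ * D').natDegree < N'.natDegree :=
    lt_of_le_of_lt (natDegree_C_mul_le _ _) hdeg
  have hFdeg : F.natDegree = N'.natDegree := natDegree_sub_eq_left_of_natDegree_lt hCD
  have hF0 : F ≠ 0 := by
    intro h; rw [h] at hFdeg; simp at hFdeg; omega
  -- facts about roots of `F`
  have hroot : ∀ ρ : L, F.IsRoot ρ → D'.eval ρ ≠ 0 ∧ N'.eval ρ = x₁ * D'.eval ρ ∧
      Bad.eval ρ ≠ 0 ∧ w.eval ρ ≠ 0 := by
    intro ρ hρ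
    have h1 : N'.eval ρ = x₁ * D'.eval ρ := by
      have : F.eval ρ = 0 := hρ
      rw [hF, eval_sub, eval_mul, eval_C] at this
      exact sub_eq_zero.mp this
    have h2 : D'.eval ρ ≠ 0 := by
      intro h0
      have hN : N'.eval ρ = 0 := by rw [h1, h0, mul_zero]
      exact eval_ne_zero_of_isCoprime hcop hN h0
    have h3 : ρ ∉ S := by
      intro hmem
      apply hx₁
      rw [hS₁, Finset.mem_image]
      refine ⟨ρ, hmem, ?_⟩
      rw [h1, mul_div_assoc, div_self h2, mul_one]
    have h4 : (Bad * w).eval ρ ≠ 0 := by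
      intro h0
      apply h3
      rw [hS, Multiset.mem_toFinset, mem_roots hBw]
      exact h0
    rw [eval_mul] at h4
    exact ⟨h2, h1, left_ne_zero_of_mul h4, right_ne_zero_of_mul h4⟩
  -- a first root
  have hFd : F.degree ≠ 0 := by
    rw [degree_eq_natDegree hF0, hFdeg]
    exact_mod_cast hdeg0
  obtain ⟨ρ₁, hρ₁⟩ := IsAlgClosed.exists_root F hFd
  set G : L[X] := F /ₘ (X - Polynomial.C ρ₁) with hG
  have hFG : (X - Polynomial.C ρ₁) * G = F := mul_divByMonic_eq_iff_isRoot.mpr hρ₁
  have hGdeg : G.natDegree = N'.natDegree - 1 := by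
    rw [hG, natDegree_divByMonic _ (monic_X_sub_C ρ₁), hFdeg, natDegree_X_sub_C]
  have hG0 : G ≠ 0 := by
    intro h; rw [h] at hGdeg; simp at hGdeg; omega
  have hGd : G.degree ≠ 0 := by
    rw [degree_eq_natDegree hG0, hGdeg]
    have : N'.natDegree - 1 ≠ 0 := by omega
    exact_mod_cast this
  obtain ⟨ρ₂, hρ₂⟩ := IsAlgClosed.exists_root G hGd
  have hρ₂F : F.IsRoot ρ₂ := by
    rw [← hFG]
    exact (root_mul_left_of_isRoot _ hρ₂)
  obtain ⟨hD₁, hN₁, hB₁, hw₁⟩ := hroot ρ₁ hρ₁
  obtain ⟨hD₂, hN₂, hB₂, -⟩ := hroot ρ₂ hρ₂F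
  -- the two roots are distinct
  have hne : ρ₁ ≠ ρ₂ := by
    intro heq
    apply hw₁
    have hder : derivative F = G + (X - Polynomial.C ρ₁) * derivative G := by
      rw [← hFG, derivative_mul, derivative_sub, derivative_X, derivative_C, sub_zero, one_mul]
    have h1 : (derivative F).eval ρ₁ = 0 := by
      rw [hder, eval_add, eval_mul, eval_sub, eval_X, eval_C, sub_self, zero_mul, add_zero, heq]
      exact hρ₂
    have h2 : (derivative N').eval ρ₁ = x₁ * (derivative D').eval ρ₁ := by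
      rw [hF, derivative_sub, derivative_mul, derivative_C, zero_mul, zero_add, eval_sub,
        eval_mul, eval_C] at h1
      exact sub_eq_zero.mp h1
    rw [hw, eval_sub, eval_mul, eval_mul, h2, hN₁]
    ring
  apply hne
  apply hinj ρ₁ ρ₂ hB₁ hB₂
  simp only [eval_mul]
  rw [hN₁, hN₂]
  ring

end polymain

section polyfinal

variable {L : Type*} [Field L] [IsAlgClosed L] [CharZero L]

/-- **The polynomial contradiction.** A fraction `N/D` with leading data `(e, c)` and leading ratio `1/s`,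
`s² ≠ 1`, cannot be at the same time injective on a cofinite set and compatible with `x ↦ b/x`. -/
theorem poly_contradiction {N D Bad : L[X]} {e : ℕ} {c s b : L}
    (hLD : LeadData N D e c s) (hs : s ≠ 0) (hs2 : s ^ 2 ≠ 1) (hb : b ≠ 0) (hBad : Bad ≠ 0)
    (hDne : ∀ x, Bad.eval x ≠ 0 → D.eval x ≠ 0)
    (hinj : ∀ x x', Bad.eval x ≠ 0 → Bad.eval x' ≠ 0 →
      N.eval x * D.eval x' = N.eval x' * D.eval x → x = x')
    (hsym : ∀ x, Bad.eval x ≠ 0 → x ≠ 0 ∧ D.eval (b / x) ≠ 0 ∧
      N.eval (b / x) * N.eval x = b * (D.eval (b / x) * D.eval x)) : False := by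
  obtain ⟨he, hc, degN, coeffN, degD, coeffD⟩ := hLD
  have hsc : s * c ≠ 0 := mul_ne_zero hs hc
  have hNdeg : N.natDegree = e := natDegree_eq_of_le_of_coeff_ne_zero degN (coeffN ▸ hc)
  have hDdeg : D.natDegree = e - 1 := natDegree_eq_of_le_of_coeff_ne_zero degD (coeffD ▸ hsc)
  have hN0 : N ≠ 0 := by
    intro h; rw [h, coeff_zero] at coeffN; exact hc coeffN.symm
  have hD0 : D ≠ 0 := by
    intro h; rw [h, coeff_zero] at coeffD; exact hsc coeffD.symm
  have hNlc : N.leadingCoeff = c := by rw [leadingCoeff, hNdeg, coeffN]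
  have hDlc : D.leadingCoeff = s * c := by rw [leadingCoeff, hDdeg, coeffD]
  obtain ⟨C, N', D', hN, hD, hcop⟩ := exists_coprime_factor N D
  have hC0 : C ≠ 0 := by
    intro h; rw [h, zero_mul] at hN; exact hN0 hN
  have hN'0 : N' ≠ 0 := by
    intro h; rw [h, mul_zero] at hN; exact hN0 hN
  have hD'0 : D' ≠ 0 := by
    intro h; rw [h, mul_zero] at hD; exact hD0 hD
  have hdN : N.natDegree = C.natDegree + N'.natDegree := by rw [hN, natDegree_mul hC0 hN'0]
  have hdD : D.natDegree = C.natDegree + D'.natDegree := by rw [hD, natDegree_mul hC0 hD'0]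
  have hdeg : N'.natDegree = D'.natDegree + 1 := by omega
  have hlcN : c = C.leadingCoeff * N'.leadingCoeff := by rw [← hNlc, hN, leadingCoeff_mul]
  have hlcD : s * c = C.leadingCoeff * D'.leadingCoeff := by rw [← hDlc, hD, leadingCoeff_mul]
  have hClc : C.leadingCoeff ≠ 0 := leadingCoeff_ne_zero.mpr hC0
  have hlc : D'.leadingCoeff = s * N'.leadingCoeff := by
    apply mul_left_cancel₀ hClc
    rw [← hlcD, hlcN]; ring
  -- degree one
  have hle : N'.natDegree ≤ 1 := by
    refine natDegree_le_one_of_inj (C := C) hcop (by omega) hBad ?_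
    intro x x' hx hx' h
    rw [← hN, ← hD] at h
    exact hinj x x' hx hx' h
  have hN1 : N'.natDegree = 1 := by omega
  have hD1 : D'.natDegree = 0 := by omega
  set α : L := N'.coeff 1 with hα
  set β : L := N'.coeff 0 with hβ
  set δ : L := D'.coeff 0 with hδ
  have hN'eq : N' = Polynomial.C α * X + Polynomial.C β :=
    eq_X_add_C_of_natDegree_le_one hle
  have hD'eq : D' = Polynomial.C δ := eq_C_of_natDegree_eq_zero hD1
  have hαlc : N'.leadingCoeff = α := by rw [leadingCoeff, hN1]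
  have hδlc : D'.leadingCoeff = δ := by rw [leadingCoeff, hD1]
  have hα0 : α ≠ 0 := by rw [← hαlc]; exact leadingCoeff_ne_zero.mpr hN'0
  have hδα : δ = s * α := by rw [← hδlc, hlc, hαlc]
  -- the identity from the symmetry
  set Q : L[X] := (Polynomial.C (α * b) + Polynomial.C β * X) * (Polynomial.C α * X + Polynomial.C β)
    - Polynomial.C (b * δ ^ 2) * X with hQ
  have hQroot : ∀ x, Bad.eval x ≠ 0 → Q.IsRoot x := by
    intro x hx
    obtain ⟨hx0, hDbx, hsymx⟩ := hsym x hx
    have hDx := hDne x hx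
    rw [hN, hD] at hsymx
    rw [hD] at hDbx hDx
    simp only [eval_mul] at hsymx hDbx hDx
    have hCx : C.eval x ≠ 0 := left_ne_zero_of_mul hDx
    have hCbx : C.eval (b / x) ≠ 0 := left_ne_zero_of_mul hDbx
    have h1 : N'.eval (b / x) * N'.eval x = b * (D'.eval (b / x) * D'.eval x) := by
      apply mul_left_cancel₀ (mul_ne_zero hCbx hCx)
      linear_combination hsymx
    rw [hN'eq, hD'eq] at h1
    simp only [eval_add, eval_mul, eval_C, eval_X] at h1
    rw [Polynomial.IsRoot, hQ]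
    simp only [eval_sub, eval_add, eval_mul, eval_C, eval_X]
    have h2 : (α * (b / x) + β) * x = α * b + β * x := by field_simp
    calc (α * b + β * x) * (α * x + β) - b * δ ^ 2 * x
        = ((α * (b / x) + β) * (α * x + β) - b * (δ * δ)) * x := by rw [← h2]; ring
      _ = 0 := by rw [h1]; ring
  have hQ0 : Q = 0 := by
    apply Polynomial.eq_zero_of_infinite_isRoot
    exact (infinite_setOf_eval_ne_zero hBad).mono (fun x hx => hQroot x hx)
  have hexp : Q = Polynomial.C (α * β) * X ^ 2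
      + Polynomial.C (α ^ 2 * b + β ^ 2 - b * δ ^ 2) * X + Polynomial.C (α * b * β) := by
    rw [hQ]
    simp only [map_mul, map_add, map_sub, map_pow]
    ring
  have hQ2 : Q.coeff 2 = α * β := by
    rw [hexp, coeff_add, coeff_add, coeff_C_mul, coeff_C_mul, coeff_X_pow, coeff_X, coeff_C]
    norm_num
  have hQ1 : Q.coeff 1 = α ^ 2 * b + β ^ 2 - b * δ ^ 2 := by
    rw [hexp, coeff_add, coeff_add, coeff_C_mul, coeff_C_mul, coeff_X_pow, coeff_X, coeff_C]
    norm_num
  rw [hQ0, coeff_zero] at hQ2 hQ1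
  have hβ0 : β = 0 := (mul_eq_zero.mp hQ2.symm).resolve_left hα0
  apply hs2
  have h3 : b * (α ^ 2 * (1 - s ^ 2)) = 0 := by
    rw [hβ0, hδα] at hQ1
    linear_combination -hQ1
  have h4 : α ^ 2 * (1 - s ^ 2) = 0 := (mul_eq_zero.mp h3).resolve_left hb
  have h5 : 1 - s ^ 2 = 0 := (mul_eq_zero.mp h4).resolve_left (pow_ne_zero 2 hα0)
  linear_combination -h5

end polyfinal

/-! ### Points -/

section points

variable {L : Type*} [Field L] [DecidableEq L] {W : WeierstrassCurve L}

/-- The `2`-torsion point `T = (0, 0)`. -/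
lemma nonsingular_zero_zero (hW : IsShort W) (hb : W.a₄ ≠ 0) : W.toAffine.Nonsingular 0 0 := by
  rw [Affine.nonsingular_iff, hW.equation_iff]
  refine ⟨by ring, Or.inl ?_⟩
  rw [hW.a₁]
  intro h
  apply hb
  linear_combination -h

/-- The cubic `x³ + a x² + b x` as a polynomial. -/
noncomputable def cubic (W : WeierstrassCurve L) : L[X] :=
  X ^ 3 + Polynomial.C W.a₂ * X ^ 2 + Polynomial.C W.a₄ * X

lemma cubic_eval (x : L) : (cubic W).eval x = x ^ 3 + W.a₂ * x ^ 2 + W.a₄ * x := by
  simp [cubic]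

lemma cubic_ne_zero : cubic W ≠ 0 := by
  intro h
  have : (cubic W).coeff 3 = 1 := by
    simp [cubic]
  rw [h, coeff_zero] at this
  exact zero_ne_one this

/-- Every `x₀` which is not a root of the cubic is the `x`-coordinate of a point. -/
lemma exists_point_of_x [IsAlgClosed L] (hW : IsShort W) (h2 : (2 : L) ≠ 0) {x₀ : L}
    (hx : (cubic W).eval x₀ ≠ 0) : ∃ P : W.toAffine.Point, P ≠ 0 ∧ xc P = x₀ := by
  rw [cubic_eval] at hx
  obtain ⟨y₀, hy₀⟩ := IsAlgClosed.exists_pow_nat_eq (x₀ ^ 3 + W.a₂ * x₀ ^ 2 + W.a₄ * x₀) two_pos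
  have hy0 : y₀ ≠ 0 := by
    intro h
    rw [h] at hy₀
    apply hx
    rw [← hy₀]; ring
  have hns : W.toAffine.Nonsingular x₀ y₀ := by
    rw [Affine.nonsingular_iff, hW.equation_iff]
    refine ⟨hy₀, Or.inr ?_⟩
    rw [hW.a₁, hW.a₃]
    intro h
    apply hy0
    have : (2 : L) * y₀ = 0 := by linear_combination h
    exact (mul_eq_zero.mp this).resolve_left h2
  exact ⟨Point.some x₀ y₀ hns, Point.some_ne_zero _, xc_some _⟩

/-- Translation by `T = (0,0)`: `x(P + T) = b / x(P)`. -/
lemma xc_add_T (hW : IsShort W) {T P : W.toAffine.Point} (hT : T ≠ 0) (hxT : xc T = 0)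
    (hyT : yc T = 0) (hP : P ≠ 0) (hx : xc P ≠ 0) : xc (P + T) = W.a₄ / xc P := by
  have hne : xc P ≠ xc T := by rw [hxT]; exact hx
  rw [hW.xc_add_of_xc_ne hP hT hne, hxT, hyT, sub_zero, sub_zero, sub_zero]
  have hy := hW.yc_sq hP
  field_simp
  rw [hy]; ring

end points

section bad

variable {L : Type*} [Field L] [DecidableEq L] [CharZero L] {W : WeierstrassCurve L}

/-- The bad polynomial: it vanishes at the `x`-coordinates of all nonzero points killed by some
`1 ≤ k ≤ K`. -/
lemma exists_bad (hW : IsShort W) : ∀ K : ℕ, ∃ B : L[X], B ≠ 0 ∧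
    ∀ P : W.toAffine.Point, P ≠ 0 → ∀ k, 1 ≤ k → k ≤ K → k • P = 0 → B.eval (xc P) = 0 := by
  have h2 : (2 : L) ≠ 0 := two_ne_zero
  intro K
  induction K with
  | zero => exact ⟨1, one_ne_zero, fun P _ k hk1 hk0 => by omega⟩
  | succ K ih =>
    obtain ⟨B, hB0, hB⟩ := ih
    rcases Nat.lt_or_ge K 2 with hK | hK
    · -- `K + 1 ≤ 2`: use the cubic
      refine ⟨B * cubic W, mul_ne_zero hB0 cubic_ne_zero, fun P hP k hk1 hkK hkP => ?_⟩
      rw [eval_mul]
      have hk : k = 1 ∨ k = 2 := by omega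
      rcases hk with rfl | rfl
      · rw [one_nsmul] at hkP
        exact absurd hkP hP
      · have hy : yc P = 0 := by
          by_contra hy
          exact hW.two_nsmul_ne_zero h2 hP hy hkP
        rw [cubic_eval, hW.cubic_eq_zero_of_yc_eq_zero hP hy, mul_zero]
    · -- `K + 1 ≥ 3`: use `N_K - X D_K`
      obtain ⟨N, D, e, c, hLD, -, hrep⟩ := rep_all hW K (by omega)
      have hΨ : N - X * D ≠ 0 := by
        intro h0
        have hcoeff : (N - X * D).coeff e = c * (1 - (K : L) ^ 2) := by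
          obtain ⟨e', rfl⟩ : ∃ e', e = e' + 1 := ⟨e - 1, by have := hLD.he; omega⟩
          rw [coeff_sub, coeff_X_mul, hLD.coeffN]
          have := hLD.coeffD
          rw [Nat.add_sub_cancel] at this
          rw [this]; ring
        rw [h0, coeff_zero] at hcoeff
        have hK2 : (1 : L) - (K : L) ^ 2 ≠ 0 := by
          intro h
          have h1 : ((K ^ 2 : ℕ) : L) = ((1 : ℕ) : L) := by
            push_cast
            linear_combination -h
          have h2 : K ^ 2 = 1 := Nat.cast_injective h1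
          have : 4 ≤ K ^ 2 := by nlinarith
          omega
        exact mul_ne_zero hLD.hc hK2 hcoeff.symm
      refine ⟨B * (N - X * D), mul_ne_zero hB0 hΨ, fun P hP k hk1 hkK hkP => ?_⟩
      rw [eval_mul]
      by_cases hsmall : ∃ k', 1 ≤ k' ∧ k' ≤ K ∧ k' • P = 0
      · obtain ⟨k', hk'1, hk'K, hk'P⟩ := hsmall
        rw [hB P hP k' hk'1 hk'K hk'P, zero_mul]
      · push Not at hsmall
        have hkeq : k = K + 1 := by
          by_contra hne
          exact hsmall k hk1 (by omega) hkP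
        subst hkeq
        obtain ⟨-, hN⟩ := hrep P (fun j hj1 hjK => hsmall j hj1 hjK)
        have hneg : K • P = -P := by
          rw [eq_neg_iff_add_eq_zero, ← succ_nsmul]
          exact hkP
        rw [hneg, xc_neg] at hN
        rw [eval_sub, eval_mul, eval_X, ← hN, sub_self, mul_zero]

end bad

section main

variable {L : Type*} [Field L] [DecidableEq L] [CharZero L] [IsAlgClosed L] {W : WeierstrassCurve L}

/-- **Existence of `p`-torsion** on `Y² = X³ + aX² + bX`, `b ≠ 0`, over an algebraically closed field of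
characteristic `0`. -/
theorem exists_torsion_point (hW : IsShort W) (hb : W.a₄ ≠ 0) {p : ℕ} (hp : p.Prime)
    (hp2 : p ≠ 2) : ∃ P : W.toAffine.Point, P ≠ 0 ∧ p • P = 0 := by
  by_contra hcon
  push Not at hcon
  have htors : ∀ P : W.toAffine.Point, p • P = 0 → P = 0 := fun P h =>
    by_contra fun hP => hcon P hP h
  have h2 : (2 : L) ≠ 0 := two_ne_zero
  have hp1 : 1 ≤ p := hp.one_le
  obtain ⟨N, D, e, c, hLD, -, hrep⟩ := rep_all hW p hp1
  obtain ⟨B, hB0, hB⟩ := exists_bad hW (2 * p)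
  have hBad0 : B * cubic W ≠ 0 := mul_ne_zero hB0 cubic_ne_zero
  -- the point `T`
  set T : W.toAffine.Point := Point.some 0 0 (nonsingular_zero_zero hW hb) with hTdef
  have hT0 : T ≠ 0 := Point.some_ne_zero _
  have hxT : xc T = 0 := xc_some _
  have hyT : yc T = 0 := yc_some _
  have h2T : 2 • T = 0 := two_nsmul_eq_zero_of_yc_eq_zero hW hyT
  have hevenT : ∀ k : ℕ, (2 * k) • T = 0 := fun k => by
    rw [mul_nsmul, h2T, smul_zero]
  obtain ⟨m, hm⟩ := hp.odd_of_ne_two hp2
  have hpT : p • T = T := by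
    rw [hm, add_nsmul, hevenT, zero_add, one_nsmul]
  -- good points
  have hgood : ∀ x : L, (B * cubic W).eval x ≠ 0 → ∃ P : W.toAffine.Point, P ≠ 0 ∧ xc P = x ∧
      ∀ k, 1 ≤ k → k ≤ 2 * p → k • P ≠ 0 := by
    intro x hx
    rw [eval_mul] at hx
    obtain ⟨P, hP0, hPx⟩ := exists_point_of_x hW h2 (right_ne_zero_of_mul hx)
    refine ⟨P, hP0, hPx, fun k hk1 hk2 hkP => ?_⟩
    apply left_ne_zero_of_mul hx
    rw [← hPx]
    exact hB P hP0 k hk1 hk2 hkP
  have hp4 : ((p : L) ^ 2) ^ 2 ≠ 1 := by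
    intro h
    have h1 : ((p ^ 4 : ℕ) : L) = ((1 : ℕ) : L) := by
      push_cast
      rw [← h]; ring
    have h2 : p ^ 4 = 1 := Nat.cast_injective h1
    have h3 : 2 ≤ p := hp.two_le
    have : 2 ^ 4 ≤ p ^ 4 := Nat.pow_le_pow_left h3 4
    omega
  have hpL : ((p : L)) ^ 2 ≠ 0 := pow_ne_zero 2 (Nat.cast_ne_zero.mpr hp.ne_zero)
  refine poly_contradiction (b := W.a₄) hLD hpL hp4 hb hBad0 ?_ ?_ ?_
  · -- `D` does not vanish at good points
    intro x hx
    obtain ⟨P, hP0, hPx, hPk⟩ := hgood x hx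
    rw [← hPx]
    exact (hrep P (fun k hk1 hkp => hPk k hk1 (by omega))).1
  · -- injectivity
    intro x x' hx hx' h
    obtain ⟨P, hP0, hPx, hPk⟩ := hgood x hx
    obtain ⟨P', hP'0, hP'x, hP'k⟩ := hgood x' hx'
    obtain ⟨hD, hN⟩ := hrep P (fun k hk1 hkp => hPk k hk1 (by omega))
    obtain ⟨hD', hN'⟩ := hrep P' (fun k hk1 hkp => hP'k k hk1 (by omega))
    rw [hPx] at hD hN
    rw [hP'x] at hD' hN'
    have hxeq : xc (p • P) = xc (p • P') := by
      apply mul_right_cancel₀ (mul_ne_zero hD hD')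
      linear_combination (D.eval x') * hN - (D.eval x) * hN' + h
    have hpP0 : p • P ≠ 0 := hPk p hp1 (by omega)
    have hpP'0 : p • P' ≠ 0 := hP'k p hp1 (by omega)
    rw [← hPx, ← hP'x]
    rcases eq_or_eq_neg_of_xc_eq hpP0 hpP'0 hxeq with h1 | h1
    · have : p • (P - P') = 0 := by rw [nsmul_sub, h1, sub_self]
      have := htors _ this
      rw [sub_eq_zero.mp this]
    · have : p • (P + P') = 0 := by rw [nsmul_add, h1, neg_add_cancel]
      have := htors _ this
      rw [eq_neg_of_add_eq_zero_left this, xc_neg]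
  · -- symmetry
    intro x hx
    obtain ⟨P, hP0, hPx, hPk⟩ := hgood x hx
    have hx0 : x ≠ 0 := by
      intro h0
      rw [eval_mul, cubic_eval, h0] at hx
      apply hx
      ring
    have hxP0 : xc P ≠ 0 := by rw [hPx]; exact hx0
    have hQx : xc (P + T) = W.a₄ / x := by rw [xc_add_T hW hT0 hxT hyT hP0 hxP0, hPx]
    have hQ0 : P + T ≠ 0 := add_ne_zero_of_xc_ne hP0 hT0 (by rw [hxT]; exact hxP0)
    have hQk : ∀ k, 1 ≤ k → k ≤ p → k • (P + T) ≠ 0 := by
      intro k hk1 hkp hk0
      apply hPk (2 * k) (by omega) (by omega)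
      have h1 : (2 * k) • (P + T) = 0 := by rw [mul_nsmul', hk0, smul_zero]
      rw [nsmul_add, hevenT, add_zero] at h1
      exact h1
    obtain ⟨hD, hN⟩ := hrep P (fun k hk1 hkp => hPk k hk1 (by omega))
    obtain ⟨hDQ, hNQ⟩ := hrep (P + T) hQk
    rw [hPx] at hD hN
    rw [hQx] at hDQ hNQ
    refine ⟨hx0, hDQ, ?_⟩
    have hpP0 : p • P ≠ 0 := hPk p hp1 (by omega)
    have hxpP : xc (p • P) ≠ 0 := by
      intro h0
      apply hPk (2 * p) (by omega) le_rfl
      have : 2 • (p • P) = 0 := by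
        rcases eq_or_eq_neg_of_xc_eq hpP0 hT0 (h0.trans hxT.symm) with h1 | h1
        · rw [h1, h2T]
        · rw [h1, smul_neg, h2T, neg_zero]
      rw [mul_nsmul']
      exact this
    have hpQ : p • (P + T) = p • P + T := by rw [nsmul_add, hpT]
    rw [hpQ, xc_add_T hW hT0 hxT hyT hpP0 hxpP] at hNQ
    rw [← hNQ, ← hN]
    field_simp

end main

/-! ### The Frey curve -/

section frey

variable {L : Type*} [Field L] [DecidableEq L] [Algebra ℚ L] [IsAlgClosed L]

/-- **Package A**: the Frey curve has a nonzero point of order `p` over any algebraically closed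
field extension of `ℚ`. -/
theorem frey_exists_torsion (P : FreyPackage) :
    ∃ x : (P.freyCurve⁄L).toAffine.Point, x ≠ 0 ∧ (P.p : ℤ) • x = 0 := by
  haveI : CharZero L := algebraRat.charZero L
  have hp2 : P.p ≠ 2 := by have := P.hp5; omega
  -- the short model and the inverse change of variables
  have hE := Fermat.Agent.Unram.FreyMaps.freyCurve_eq P
  have hE' : shortW ((P.b : ℚ) ^ P.p - (P.a : ℚ) ^ P.p) (-((P.a : ℚ) ^ P.p) * (P.b : ℚ) ^ P.p)
      = (⟨Units.mk0 2 two_ne_zero, 0, 1, 0⟩ : VariableChange ℚ)⁻¹ • P.freyCurve := by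
    rw [hE, inv_smul_smul]
  have hshort : IsShort ((shortW ((P.b : ℚ) ^ P.p - (P.a : ℚ) ^ P.p)
      (-((P.a : ℚ) ^ P.p) * (P.b : ℚ) ^ P.p))⁄L) := isShort_shortW_baseChange _ _
  have hb : ((shortW ((P.b : ℚ) ^ P.p - (P.a : ℚ) ^ P.p)
      (-((P.a : ℚ) ^ P.p) * (P.b : ℚ) ^ P.p))⁄L).a₄ ≠ 0 := by
    rw [shortW_baseChange_a₄]
    intro h0
    have h1 : -((P.a : ℚ) ^ P.p) * (P.b : ℚ) ^ P.p = 0 :=
      (algebraMap ℚ L).injective (h0.trans (map_zero _).symm)
    have ha : (P.a : ℚ) ≠ 0 := Int.cast_ne_zero.mpr P.ha0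
    have hb : (P.b : ℚ) ≠ 0 := Int.cast_ne_zero.mpr P.hb0
    exact mul_ne_zero (neg_ne_zero.mpr (pow_ne_zero _ ha)) (pow_ne_zero _ hb) h1
  obtain ⟨Q, hQ0, hQp⟩ := exists_torsion_point hshort hb P.pp hp2
  refine ⟨Fermat.Agent.Unram.VarChange.pointHomBC hE' Q, ?_, ?_⟩
  · intro h0
    exact hQ0 ((Fermat.Agent.Unram.VarChange.pointHomBC_eq_zero_iff hE' Q).mp h0)
  · rw [natCast_zsmul, ← map_nsmul, hQp, map_zero]

end frey

end Fermat.Agent.Cofix.TorsAlg
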