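import Mathlib
import Fermat.Agent.Unram.Setup
import Fermat.Agent.Unram.XOnly
import Fermat.Agent.Unram.Annulus
import Fermat.Agent.Cofix.XiRec

/-!
# S13 / package A2: real torsion points on `y² = x³ + a x² + b x`, `a, b > 0`

`W` a real short curve with `a = W.a₂ > 0`, `b = W.a₄ > 0` (the largest real root of the cubic is `0`).
On the branch `x > 0`, `y > 0` we use the coordinate `ξ = 1/x ∈ (0, ∞)` and the `ξ`-recursion of
`Cofix/XiRec`: `D_n(ξ) = ξ M_n(ξ) (x(nP) - x(P))` as long as `kP ≠ 0` for `1 ≤ k ≤ n`.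

Induction: if `D_n(ξ₀) > 0` and all `P(ξ)`, `ξ ∈ (0, ξ₀)`, have `kP(ξ) ≠ 0` for `1 ≤ k ≤ n`, then since
`D_n(0) = q_n (1 - n²) < 0` the polynomial `D_n` has a smallest root `ξ₁ ∈ (0, ξ₀)`; there
`(n+1) P(ξ₁) = 0`, below it `(n+1) P(ξ) ≠ 0`, and `D_{n+1}(ξ₁) = Q_{n+1}(ξ₁) > 0`.

Main result: `exists_real_torsion`: for every `m ≥ 3` there is a real point `P ≠ 0` with `m • P = 0`.
-/

set_option autoImplicit false

namespace Fermat.Agent.Cofix.RealXi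

open Polynomial WeierstrassCurve WeierstrassCurve.Affine Fermat.Agent.Unram Fermat.Agent.Cofix.XiRec

variable {W : WeierstrassCurve ℝ}

/-- the cubic `x³ + a x² + b x` -/
def cub (W : WeierstrassCurve ℝ) (x : ℝ) : ℝ := x ^ 3 + W.a₂ * x ^ 2 + W.a₄ * x

lemma cub_pos (ha : 0 < W.a₂) (hb : 0 < W.a₄) {x : ℝ} (hx : 0 < x) : 0 < cub W x := by
  unfold cub
  positivity

lemma nonsingular_sqrt (hW : IsShort W) (ha : 0 < W.a₂) (hb : 0 < W.a₄) {x : ℝ} (hx : 0 < x) :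
    W.toAffine.Nonsingular x (Real.sqrt (cub W x)) := by
  have hc := cub_pos ha hb hx
  have hs : 0 < Real.sqrt (cub W x) := Real.sqrt_pos.mpr hc
  rw [Affine.nonsingular_iff']
  refine ⟨(hW.equation_iff _ _).mpr ?_, Or.inr ?_⟩
  · rw [Real.sq_sqrt hc.le]
    rfl
  · rw [hW.a₁, hW.a₃]
    have : 0 < 2 * Real.sqrt (cub W x) + 0 * x + 0 := by linarith
    exact this.ne'

/-- The point `P(ξ) = (1/ξ, +√f(1/ξ))` on the branch `x > 0`, `y > 0` (junk `0` for `ξ ≤ 0`). -/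
noncomputable def pt (hW : IsShort W) (ha : 0 < W.a₂) (hb : 0 < W.a₄) (ξ : ℝ) : W.toAffine.Point :=
  if h : 0 < ξ then Point.some ξ⁻¹ (Real.sqrt (cub W ξ⁻¹)) (nonsingular_sqrt hW ha hb (inv_pos.mpr h))
  else 0

section pt

variable (hW : IsShort W) (ha : 0 < W.a₂) (hb : 0 < W.a₄) {ξ : ℝ} (hξ : 0 < ξ)

include hξ

lemma pt_ne_zero : pt hW ha hb ξ ≠ 0 := by
  rw [pt, dif_pos hξ]
  exact Point.some_ne_zero _

lemma xc_pt : xc (pt hW ha hb ξ) = ξ⁻¹ := by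
  rw [pt, dif_pos hξ]
  rfl

lemma yc_pt_pos : 0 < yc (pt hW ha hb ξ) := by
  rw [pt, dif_pos hξ]
  exact Real.sqrt_pos.mpr (cub_pos ha hb (inv_pos.mpr hξ))

lemma xc_pt_ne_zero : xc (pt hW ha hb ξ) ≠ 0 := by
  rw [xc_pt hW ha hb hξ]
  exact (inv_pos.mpr hξ).ne'

lemma xc_pt_inv : (xc (pt hW ha hb ξ))⁻¹ = ξ := by
  rw [xc_pt hW ha hb hξ, inv_inv]

lemma two_nsmul_pt_ne_zero : 2 • pt hW ha hb ξ ≠ 0 :=
  hW.two_nsmul_ne_zero two_ne_zero (pt_ne_zero hW ha hb hξ) (yc_pt_pos hW ha hb hξ).ne'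

end pt

/-! ### Signs -/

/-- `M_n(ξ) ≥ 0` for `ξ ≥ 0`. -/
lemma eval_M_nonneg (ha : 0 < W.a₂) (hb : 0 < W.a₄) {ξ : ℝ} (hξ : 0 ≤ ξ) (n : ℕ) :
    0 ≤ (M W.a₂ W.a₄ n).eval ξ := by
  induction n using Nat.strong_induction_on with
  | _ n ih =>
    match n with
    | 0 => simp [M, MQ]
    | 1 => simp
    | 2 =>
      rw [eval_M_two]
      positivity
    | (k + 3) =>
      rw [eval_M_succ]
      exact mul_nonneg (sq_nonneg _) (ih (k + 1) (by omega))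

/-- `D_n(0) < 0` for `n ≥ 2`. -/
lemma eval_zero_D_neg (n : ℕ) (hn : 2 ≤ n) : (D W.a₂ W.a₄ n).eval 0 < 0 := by
  rw [eval_zero_D W.a₂ W.a₄ n (by omega)]
  have h1 : (0 : ℝ) < (qc n : ℝ) := by exact_mod_cast qc_pos n
  have h2 : (2 : ℝ) ≤ (n : ℝ) := by exact_mod_cast hn
  have h3 : (1 : ℝ) - (n : ℝ) ^ 2 < 0 := by nlinarith
  exact mul_neg_of_pos_of_neg h1 h3

/-- **Sign at a torsion point.** If `x(P) > 0`, `jP ≠ 0` for `1 ≤ j ≤ k+2` and `(k+3)P = 0`, then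
`D_{k+3}(ξ(P)) > 0`. -/
lemma sign_D (hW : IsShort W) (ha : 0 < W.a₂) (hb : 0 < W.a₄) (P : W.toAffine.Point)
    (hx : 0 < xc P) (k : ℕ) (hP : ∀ j, 1 ≤ j → j ≤ k + 2 → j • P ≠ 0) (hk : (k + 3) • P = 0) :
    0 < (D W.a₂ W.a₄ (k + 3)).eval (xc P)⁻¹ := by
  have hx0 : xc P ≠ 0 := hx.ne'
  have hξ : 0 < (xc P)⁻¹ := inv_pos.mpr hx
  obtain ⟨hm2, -⟩ := spec hW two_ne_zero P hx0 (k + 2) (by omega) hP
  obtain ⟨hm1, -⟩ := spec hW two_ne_zero P hx0 (k + 1) (by omega)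
    (fun j hj1 hj2 => hP j hj1 (by omega))
  have hD2 : (D W.a₂ W.a₄ (k + 2)).eval (xc P)⁻¹ = 0 := by
    rw [evalD_eq hW two_ne_zero P hx0 (k + 2) (by omega) hP]
    have : (k + 2) • P = -P := by
      rw [eq_neg_iff_add_eq_zero, ← succ_nsmul]
      exact hk
    rw [this, xc_neg, sub_self, mul_zero]
  rw [eval_D] at hD2
  have hQM : (Q W.a₂ W.a₄ (k + 2)).eval (xc P)⁻¹ = (M W.a₂ W.a₄ (k + 2)).eval (xc P)⁻¹ :=
    sub_eq_zero.mp hD2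
  have hm1pos : 0 < (M W.a₂ W.a₄ (k + 1)).eval (xc P)⁻¹ :=
    lt_of_le_of_ne (eval_M_nonneg ha hb hξ.le (k + 1)) (Ne.symm hm1)
  rw [eval_D, eval_M_succ, eval_Q_succ, hQM]
  set μ := (M W.a₂ W.a₄ (k + 2)).eval (xc P)⁻¹ with hμ
  set ν := (M W.a₂ W.a₄ (k + 1)).eval (xc P)⁻¹ with hν
  set ξ := (xc P)⁻¹ with hξdef
  have hμ2 : 0 < μ ^ 2 := by positivity
  have h1 : 0 < 1 + W.a₂ * ξ + W.a₄ * ξ ^ 2 := by positivity
  have key : 2 * ((μ + μ) * (μ + W.a₄ * ξ ^ 2 * μ) + 2 * W.a₂ * ξ * μ * μ) * ν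
      - (Q W.a₂ W.a₄ (k + 1)).eval ξ * (μ - μ) ^ 2 - (μ - μ) ^ 2 * ν
      = 4 * μ ^ 2 * (1 + W.a₂ * ξ + W.a₄ * ξ ^ 2) * ν := by ring
  rw [key]
  positivity

/-! ### The induction -/

/-- `Good n ξ`: no multiple `j P(ξ)`, `1 ≤ j ≤ n`, vanishes. -/
def Good (hW : IsShort W) (ha : 0 < W.a₂) (hb : 0 < W.a₄) (n : ℕ) (ξ : ℝ) : Prop :=
  ∀ j, 1 ≤ j → j ≤ n → j • pt hW ha hb ξ ≠ 0

section step

variable (hW : IsShort W) (ha : 0 < W.a₂) (hb : 0 < W.a₄)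

/-- On good points, `D_n(ξ) = 0` iff `x(nP) = x(P)`. -/
lemma eval_D_eq_zero_iff {n : ℕ} (hn : 1 ≤ n) {ξ : ℝ} (hξ : 0 < ξ) (hg : Good hW ha hb n ξ) :
    (D W.a₂ W.a₄ n).eval ξ = 0 ↔ xc (n • pt hW ha hb ξ) = xc (pt hW ha hb ξ) := by
  have hx0 := xc_pt_ne_zero hW ha hb hξ
  have h1 := evalD_eq hW two_ne_zero (pt hW ha hb ξ) hx0 n hn hg
  obtain ⟨hm, -⟩ := spec hW two_ne_zero (pt hW ha hb ξ) hx0 n hn hg
  rw [xc_pt_inv hW ha hb hξ] at h1 hm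
  rw [h1]
  constructor
  · intro h
    rcases mul_eq_zero.mp h with h | h
    · rcases mul_eq_zero.mp h with h | h
      · exact absurd h hξ.ne'
      · exact absurd h hm
    · exact sub_eq_zero.mp h
  · intro h
    rw [h, sub_self, mul_zero]

/-- **Step.** -/
lemma step {n : ℕ} (hn : 2 ≤ n) {ξ₀ : ℝ} (hξ₀ : 0 < ξ₀) (hD : 0 < (D W.a₂ W.a₄ n).eval ξ₀)
    (hgood : ∀ ξ, 0 < ξ → ξ < ξ₀ → Good hW ha hb n ξ) :
    ∃ ξ₁, 0 < ξ₁ ∧ ξ₁ < ξ₀ ∧ (n + 1) • pt hW ha hb ξ₁ = 0 ∧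
      ∀ ξ, 0 < ξ → ξ < ξ₁ → Good hW ha hb (n + 1) ξ := by
  set p : ℝ[X] := D W.a₂ W.a₄ n with hp
  have hp0 : p.eval 0 < 0 := eval_zero_D_neg n hn
  have hpne : p ≠ 0 := by
    intro h
    rw [h, eval_zero] at hp0
    exact lt_irrefl _ hp0
  -- IVT
  have hivt := intermediate_value_Icc hξ₀.le (p.continuous.continuousOn (s := Set.Icc 0 ξ₀))
  have hmem : (0 : ℝ) ∈ Set.Icc (p.eval 0) (p.eval ξ₀) := ⟨hp0.le, hD.le⟩
  obtain ⟨c, ⟨hc0, hc1⟩, hpc⟩ := hivt hmem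
  have hpc' : p.eval c = 0 := hpc
  have hc0' : 0 < c := by
    rcases hc0.lt_or_eq with h | h
    · exact h
    · rw [← h] at hpc'
      rw [hpc'] at hp0
      exact absurd hp0 (lt_irrefl _)
  have hc1' : c < ξ₀ := by
    rcases hc1.lt_or_eq with h | h
    · exact h
    · rw [h] at hpc'
      rw [hpc'] at hD
      exact absurd hD (lt_irrefl _)
  -- smallest positive root
  set S : Finset ℝ := p.roots.toFinset.filter (fun ξ => 0 < ξ) with hS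
  have hcS : c ∈ S := by
    rw [hS, Finset.mem_filter, Multiset.mem_toFinset, mem_roots hpne]
    exact ⟨hpc', hc0'⟩
  have hSne : S.Nonempty := ⟨c, hcS⟩
  set ξ₁ := S.min' hSne with hξ₁
  have hξ₁S : ξ₁ ∈ S := Finset.min'_mem S hSne
  rw [hS, Finset.mem_filter, Multiset.mem_toFinset, mem_roots hpne] at hξ₁S
  obtain ⟨hroot, hξ₁pos⟩ := hξ₁S
  have hroot' : p.eval ξ₁ = 0 := hroot
  have hξ₁le : ξ₁ ≤ c := Finset.min'_le S c hcS
  have hξ₁lt : ξ₁ < ξ₀ := lt_of_le_of_lt hξ₁le hc1'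
  have hmin : ∀ ξ, 0 < ξ → ξ < ξ₁ → p.eval ξ ≠ 0 := by
    intro ξ hξ hlt h0
    have : ξ ∈ S := by
      rw [hS, Finset.mem_filter, Multiset.mem_toFinset, mem_roots hpne]
      exact ⟨h0, hξ⟩
    exact absurd (Finset.min'_le S ξ this) (not_le.mpr hlt)
  refine ⟨ξ₁, hξ₁pos, hξ₁lt, ?_, ?_⟩
  · -- `(n+1) P(ξ₁) = 0`
    have hg := hgood ξ₁ hξ₁pos hξ₁lt
    have hxx := (eval_D_eq_zero_iff hW ha hb (by omega) hξ₁pos hg).mp hroot'
    have hP1 := pt_ne_zero hW ha hb hξ₁pos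
    have hnP := hg n (by omega) le_rfl
    rcases eq_or_eq_neg_of_xc_eq hnP hP1 hxx with e | e
    · exfalso
      apply hg (n - 1) (by omega) (by omega)
      have h2 : n • pt hW ha hb ξ₁ = (n - 1) • pt hW ha hb ξ₁ + pt hW ha hb ξ₁ := by
        rw [← succ_nsmul, Nat.sub_add_cancel (by omega)]
      rw [h2] at e
      exact add_eq_right.mp e
    · rw [succ_nsmul, e, neg_add_cancel]
  · intro ξ hξ hlt j hj1 hj2
    have hg := hgood ξ hξ (lt_trans hlt hξ₁lt)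
    rcases Nat.lt_or_ge j (n + 1) with hj | hj
    · exact hg j hj1 (by omega)
    · have hj' : j = n + 1 := by omega
      subst hj'
      intro h0
      apply hmin ξ hξ hlt
      rw [eval_D_eq_zero_iff hW ha hb (by omega) hξ hg]
      have : n • pt hW ha hb ξ = -pt hW ha hb ξ := by
        rw [eq_neg_iff_add_eq_zero, ← succ_nsmul]
        exact h0
      rw [this, xc_neg]

/-- Base of the induction: `D₂ > 0` far out, and all points of the branch are good for `n = 2`. -/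
lemma base : ∃ ξ₀ : ℝ, 0 < ξ₀ ∧ 0 < (D W.a₂ W.a₄ 2).eval ξ₀ ∧
    ∀ ξ, 0 < ξ → ξ < ξ₀ → Good hW ha hb 2 ξ := by
  set a := W.a₂ with haa
  set b := W.a₄ with hbb
  have hξpos : 0 < (a + 14) / b + 1 := by positivity
  refine ⟨(a + 14) / b + 1, hξpos, ?_, ?_⟩
  · rw [eval_D, eval_M_two, eval_Q_two]
    set ξ₀ := (a + 14) / b + 1 with hξ₀
    have h1 : 1 ≤ ξ₀ := by
      have : 0 ≤ (a + 14) / b := by positivity
      linarith
    have hs : b * ξ₀ = a + 14 + b := by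
      rw [hξ₀]
      field_simp
    set t := b * ξ₀ ^ 2 with ht
    have ht' : t = (a + 14 + b) * ξ₀ := by rw [ht, ← hs]; ring
    have ht14 : 14 ≤ t := by
      rw [ht']
      nlinarith
    have hat : a * ξ₀ ≤ t := by
      rw [ht']
      nlinarith
    nlinarith
  · intro ξ hξ _ j hj1 hj2
    have hj : j = 1 ∨ j = 2 := by omega
    rcases hj with rfl | rfl
    · rw [one_nsmul]
      exact pt_ne_zero hW ha hb hξ
    · exact two_nsmul_pt_ne_zero hW ha hb hξ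

/-- The induction hypothesis holds for every `n ≥ 2`. -/
lemma exists_good (n : ℕ) (hn : 2 ≤ n) : ∃ ξ₀ : ℝ, 0 < ξ₀ ∧ 0 < (D W.a₂ W.a₄ n).eval ξ₀ ∧
    ∀ ξ, 0 < ξ → ξ < ξ₀ → Good hW ha hb n ξ := by
  induction n, hn using Nat.le_induction with
  | base => exact base hW ha hb
  | succ n hn ih =>
    obtain ⟨ξ₀, hξ₀, hD, hgood⟩ := ih
    obtain ⟨ξ₁, hξ₁, hlt, hzero, hgood'⟩ := step hW ha hb hn hξ₀ hD hgood
    refine ⟨ξ₁, hξ₁, ?_, hgood'⟩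
    obtain ⟨k, rfl⟩ : ∃ k, n = k + 2 := ⟨n - 2, by omega⟩
    have h := sign_D hW ha hb (pt hW ha hb ξ₁) (by
      rw [xc_pt hW ha hb hξ₁]; exact inv_pos.mpr hξ₁) k (hgood ξ₁ hξ₁ hlt) hzero
    rwa [xc_pt_inv hW ha hb hξ₁] at h

end step

/-- **Real torsion points.** On a real curve `y² = x³ + a x² + b x` with `a, b > 0` there is, for every
`m ≥ 3`, a point `P ≠ 0` with `m • P = 0` (and `x(P) > 0`, `y(P) > 0`). -/
theorem exists_real_torsion (hW : IsShort W) (ha : 0 < W.a₂) (hb : 0 < W.a₄) (m : ℕ) (hm : 3 ≤ m) :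
    ∃ P : W.toAffine.Point, P ≠ 0 ∧ m • P = 0 ∧ 0 < xc P ∧ 0 < yc P := by
  obtain ⟨n, rfl⟩ : ∃ n, m = n + 1 := ⟨m - 1, by omega⟩
  obtain ⟨ξ₀, hξ₀, hD, hgood⟩ := exists_good hW ha hb n (by omega)
  obtain ⟨ξ₁, hξ₁, -, hzero, -⟩ := step hW ha hb (by omega) hξ₀ hD hgood
  refine ⟨pt hW ha hb ξ₁, pt_ne_zero hW ha hb hξ₁, hzero, ?_, yc_pt_pos hW ha hb hξ₁⟩
  rw [xc_pt hW ha hb hξ₁]
  exact inv_pos.mpr hξ₁

end Fermat.Agent.Cofix.RealXi
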