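import Mathlib
import Fermat.Agent.Unram.Setup
import Fermat.Agent.Unram.XOnly

/-!
# S13 / package A3: transfer of torsion points with algebraic coordinates

`W` a Weierstrass curve over a field `k`, `M / k` any field extension (e.g. `ℝ / ℚ`), `L / k` an
algebraically closed extension.  A nonzero point `P ∈ W(M)` with `n • P = 0` whose coordinates are algebraic
over `k` produces a nonzero point `P' ∈ W(L)` with `n • P' = 0`:

* descend `P` to the relative algebraic closure `F` of `k` in `M` (`Point.map F.val` is injective);
* push it to `L` along `IsAlgClosed.lift : F →ₐ[k] L`.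

For short curves `y² = x³ + a x² + b x` only the algebraicity of the `x`-coordinate is needed.
-/

set_option autoImplicit false

namespace Fermat.Agent.Cofix.Transfer

open WeierstrassCurve WeierstrassCurve.Affine
open Fermat.Agent.Unram

section descend

variable {k M : Type*} [Field k] [Field M] [DecidableEq M] [Algebra k M] (W : WeierstrassCurve k)

/-- A point of `W(M)` whose coordinates are algebraic over `k` comes from the relative algebraic closure. -/
theorem exists_point_algebraicClosure (P : (W⁄M).toAffine.Point) (hx : IsAlgebraic k (xc P))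
    (hy : IsAlgebraic k (yc P)) :
    ∃ P₀ : (W⁄(algebraicClosure k M)).toAffine.Point,
      Point.map (W' := W) (algebraicClosure k M).val P₀ = P := by
  cases P with
  | zero => exact ⟨0, rfl⟩
  | some x y h =>
    simp only [xc_some, yc_some] at hx hy
    have hx' : x ∈ algebraicClosure k M := (mem_algebraicClosure_iff' (F := k) (E := M)).2 hx.isIntegral
    have hy' : y ∈ algebraicClosure k M := (mem_algebraicClosure_iff' (F := k) (E := M)).2 hy.isIntegral
    have h0 : (W⁄(algebraicClosure k M)).toAffine.Nonsingular (⟨x, hx'⟩ : algebraicClosure k M)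
        ⟨y, hy'⟩ :=
      (W.toAffine.baseChange_nonsingular (S := k) (algebraicClosure k M).val.injective
        (⟨x, hx'⟩ : algebraicClosure k M) ⟨y, hy'⟩).mp h
    exact ⟨Point.some _ _ h0, rfl⟩

/-- **Transfer of torsion.** A nonzero `n`-torsion point over `M` with algebraic coordinates gives a
nonzero `n`-torsion point over every algebraically closed extension `L` of `k`. -/
theorem exists_torsion_of_algebraic {n : ℕ} (P : (W⁄M).toAffine.Point) (hP : P ≠ 0) (hn : n • P = 0)
    (hx : IsAlgebraic k (xc P)) (hy : IsAlgebraic k (yc P))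
    (L : Type*) [Field L] [DecidableEq L] [Algebra k L] [IsAlgClosed L] :
    ∃ P' : (W⁄L).toAffine.Point, P' ≠ 0 ∧ n • P' = 0 := by
  obtain ⟨P₀, hP₀⟩ := exists_point_algebraicClosure W P hx hy
  have hinj := Point.map_injective (W' := W) (algebraicClosure k M).val
  have hP₀0 : P₀ ≠ 0 := by
    rintro rfl
    exact hP (by rw [← hP₀]; rfl)
  have hnP₀ : n • P₀ = 0 := by
    apply hinj
    rw [map_nsmul, hP₀, hn]
    rfl
  let φ : (algebraicClosure k M) →ₐ[k] L := IsAlgClosed.lift
  refine ⟨Point.map (W' := W) φ P₀, ?_, ?_⟩
  · intro h0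
    apply hP₀0
    apply Point.map_injective (W' := W) φ
    rw [h0]
    rfl
  · rw [← map_nsmul, hnP₀]
    rfl

end descend

section short

variable {k M : Type*} [Field k] [Field M] [DecidableEq M] [Algebra k M] (a b : k)

omit [DecidableEq M] in
/-- On a short curve the `y`-coordinate is algebraic as soon as the `x`-coordinate is. -/
theorem isAlgebraic_yc_of_xc (P : ((shortW a b)⁄M).toAffine.Point) (hx : IsAlgebraic k (xc P)) :
    IsAlgebraic k (yc P) := by
  by_cases hP : P = 0
  · rw [hP]
    simpa using (isAlgebraic_zero : IsAlgebraic k (0 : M))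
  have hsq := (isShort_shortW_baseChange (S := M) a b).yc_sq hP
  have h1 : IsAlgebraic k (yc P ^ 2) := by
    rw [hsq]
    have ha : IsAlgebraic k (((shortW a b)⁄M).a₂) := isAlgebraic_algebraMap (A := M) a
    have hb : IsAlgebraic k (((shortW a b)⁄M).a₄) := isAlgebraic_algebraMap (A := M) b
    exact ((hx.pow 3).add (ha.mul (hx.pow 2))).add (hb.mul hx)
  exact IsAlgebraic.of_pow (by norm_num : 0 < 2) h1

/-- **Transfer of torsion, short curves.** -/
theorem exists_torsion_of_algebraic_short {n : ℕ} (P : ((shortW a b)⁄M).toAffine.Point) (hP : P ≠ 0)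
    (hn : n • P = 0) (hx : IsAlgebraic k (xc P))
    (L : Type*) [Field L] [DecidableEq L] [Algebra k L] [IsAlgClosed L] :
    ∃ P' : ((shortW a b)⁄L).toAffine.Point, P' ≠ 0 ∧ n • P' = 0 :=
  exists_torsion_of_algebraic (shortW a b) P hP hn hx (isAlgebraic_yc_of_xc a b P hx) L

end short

/-- The instance used by package A: from a real torsion point to any algebraically closed `L / ℚ`. -/
theorem exists_torsion_of_real {a b : ℚ} {n : ℕ} (P : ((shortW a b)⁄ℝ).toAffine.Point) (hP : P ≠ 0)
    (hn : n • P = 0) (hx : IsAlgebraic ℚ (xc P))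
    (L : Type*) [Field L] [DecidableEq L] [Algebra ℚ L] [IsAlgClosed L] :
    ∃ P' : ((shortW a b)⁄L).toAffine.Point, P' ≠ 0 ∧ n • P' = 0 :=
  exists_torsion_of_algebraic_short a b P hP hn hx L

end Fermat.Agent.Cofix.Transfer
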