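import Mathlib
import Fermat.Prelude.Def_FLTPrelim_FreyPackage
import Fermat.Agent.Unram.Setup
import Fermat.Agent.Unram.XOnly
import Fermat.Agent.Unram.VarChange
import Fermat.Agent.Cofix.XiRec
import Fermat.Agent.Cofix.TorsTransfer
import Fermat.Agent.Cofix.TorsRealXi

/-!
# S13 / package A: the Frey curve has a nonzero `p`-torsion point over every algebraically closed `L / ℚ`

* `isAlgebraic_xc_of_torsion`: the `x`-coordinate of a nonzero `p`-torsion point of `(shortW a b)⁄M`,
  `a b : ℚ`, is algebraic over `ℚ` (root of `XiRec.D a b (p-1)`, a nonzero rational polynomial).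
* `exists_torsion_short`: `a, b > 0` rational, `p` an odd prime: a nonzero `p`-torsion point of
  `(shortW a b)⁄L` (real point from `TorsRealXi`, transferred by `TorsTransfer`).
* `exists_positive_model`: the Frey curve is a change of variables of a rational `shortW a b`, `a, b > 0`
  (translate the largest real root of `X (X - A) (X + B)` to `0`).
* `A_exists_torsion`: the blueprint statement.
-/

set_option autoImplicit false

namespace Fermat.Agent.Cofix.TorsFrey

open Polynomial WeierstrassCurve WeierstrassCurve.Affine Fermat.Agent.Unram Fermat.Agent.Cofix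

section algebraic

variable {M : Type*} [Field M] [CharZero M] [Algebra ℚ M] [DecidableEq M]

/-- The `x`-coordinate of a nonzero `p`-torsion point on a rational short curve is algebraic. -/
theorem isAlgebraic_xc_of_torsion (a b : ℚ) {p : ℕ} (hp : p.Prime) (hp2 : p ≠ 2)
    (P : ((shortW a b)⁄M).toAffine.Point) (hP : P ≠ 0) (hpP : p • P = 0) :
    IsAlgebraic ℚ (xc P) := by
  have hW : IsShort ((shortW a b)⁄M) := isShort_shortW_baseChange a b
  obtain ⟨hx, hroot⟩ := XiRec.root_of_torsion hW two_ne_zero hp hp2 P hP hpP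
  have ha2 : ((shortW a b)⁄M).a₂ = algebraMap ℚ M a := rfl
  have ha4 : ((shortW a b)⁄M).a₄ = algebraMap ℚ M b := rfl
  rw [ha2, ha4, ← XiRec.D_map a b (algebraMap ℚ M) (p - 1), eval_map, ← aeval_def] at hroot
  have hne : XiRec.D a b (p - 1) ≠ 0 := by
    intro h0
    have h1 := XiRec.eval_zero_D_pred a b p hp.two_le
    rw [h0, eval_zero] at h1
    have hq : (0 : ℚ) < (XiRec.qc (p - 1) : ℚ) := by exact_mod_cast XiRec.qc_pos (p - 1)
    have hpp : (0 : ℚ) < (p : ℚ) := by exact_mod_cast hp.pos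
    have hp3 : (3 : ℚ) ≤ (p : ℚ) := by
      have : 3 ≤ p := by
        have := hp.two_le
        omega
      exact_mod_cast this
    have : (0 : ℚ) < (XiRec.qc (p - 1) : ℚ) * (p : ℚ) * ((p : ℚ) - 2) := by
      have : (0 : ℚ) < (p : ℚ) - 2 := by linarith
      positivity
    linarith
  have hinv : IsAlgebraic ℚ (xc P)⁻¹ := ⟨_, hne, hroot⟩
  have := hinv.inv
  rwa [inv_inv] at this

end algebraic

/-- A nonzero `p`-torsion point on `(shortW a b)⁄L` for rational `a, b > 0` and algebraically closed `L`. -/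
theorem exists_torsion_short {a b : ℚ} (ha : 0 < a) (hb : 0 < b) {p : ℕ} (hp : p.Prime) (hp2 : p ≠ 2)
    (L : Type*) [Field L] [DecidableEq L] [Algebra ℚ L] [IsAlgClosed L] :
    ∃ P' : ((shortW a b)⁄L).toAffine.Point, P' ≠ 0 ∧ p • P' = 0 := by
  have hW : IsShort ((shortW a b)⁄ℝ) := isShort_shortW_baseChange a b
  have ha2 : 0 < ((shortW a b)⁄ℝ).a₂ := by
    have : ((shortW a b)⁄ℝ).a₂ = algebraMap ℚ ℝ a := rfl
    rw [this, eq_ratCast]
    exact_mod_cast ha
  have hb4 : 0 < ((shortW a b)⁄ℝ).a₄ := by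
    have : ((shortW a b)⁄ℝ).a₄ = algebraMap ℚ ℝ b := rfl
    rw [this, eq_ratCast]
    exact_mod_cast hb
  have hp3 : 3 ≤ p := by
    have := hp.two_le
    omega
  obtain ⟨P, hP, hpP, -, -⟩ := RealXi.exists_real_torsion hW ha2 hb4 p hp3
  exact Transfer.exists_torsion_of_real P hP hpP (isAlgebraic_xc_of_torsion a b hp hp2 P hP hpP) L

section models

/-- `Y² = X(X-A)(X+B)` is the translate `(X, Y) ↦ (X + B, Y)` of `Y² = X(X-B)(X-(A+B))`. -/
lemma short_eq_smul_short_translate_neg {K : Type*} [Field K] (A B : K) :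
    shortW (B - A) (-A * B)
      = (⟨1, B, 0, 0⟩ : VariableChange K) • shortW (-B - (A + B)) (B * (A + B)) := by
  ext
  · simp only [variableChange_a₁, shortW_a₁, inv_one, Units.val_one]
    ring
  · simp only [variableChange_a₂, shortW_a₁, shortW_a₂, inv_one, Units.val_one]
    ring
  · simp only [variableChange_a₃, shortW_a₁, shortW_a₃, inv_one, Units.val_one]
    ring
  · simp only [variableChange_a₄, shortW_a₁, shortW_a₂, shortW_a₃, shortW_a₄, inv_one,
      Units.val_one]
    ring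
  · simp only [variableChange_a₆, shortW_a₁, shortW_a₂, shortW_a₃, shortW_a₄, shortW_a₆, inv_one,
      Units.val_one]
    ring

/-- If `W₁ = C • W₂` then `W₂ = C⁻¹ • W₁`. -/
lemma eq_inv_smul_of_eq_smul {K : Type*} [Field K] {W₁ W₂ : WeierstrassCurve K}
    {C : VariableChange K} (h : W₁ = C • W₂) : W₂ = C⁻¹ • W₁ := by
  rw [h, inv_smul_smul]

/-- The Frey curve is a rational change of variables of a short curve `y² = x³ + a x² + b x` with
`a, b > 0`. -/
theorem exists_positive_model (P : FreyPackage) :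
    ∃ (a b : ℚ) (C : VariableChange ℚ), 0 < a ∧ 0 < b ∧ shortW a b = C • P.freyCurve := by
  set A : ℚ := (P.a : ℚ) ^ P.p with hA
  set B : ℚ := (P.b : ℚ) ^ P.p with hB
  have hFLT : A + B = (P.c : ℚ) ^ P.p := by
    rw [hA, hB]
    exact_mod_cast congrArg (fun z : ℤ => (z : ℚ)) P.hFLT
  have hA0 : A ≠ 0 := pow_ne_zero _ (by exact_mod_cast P.ha0)
  have hB0 : B ≠ 0 := pow_ne_zero _ (by exact_mod_cast P.hb0)
  have hC0 : A + B ≠ 0 := by
    rw [hFLT]
    exact pow_ne_zero _ (by exact_mod_cast P.hc0)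
  have h2 : (2 : ℚ) ≠ 0 := two_ne_zero
  have hfrey : P.freyCurve = (⟨Units.mk0 2 h2, 0, 1, 0⟩ : VariableChange ℚ) • shortW (B - A) (-A * B) :=
    VarChange.frey_eq_smul_short h2 A B
  have h0 : shortW (B - A) (-A * B) = (⟨Units.mk0 2 h2, 0, 1, 0⟩ : VariableChange ℚ)⁻¹ • P.freyCurve :=
    eq_inv_smul_of_eq_smul hfrey
  rcases lt_or_gt_of_ne hA0 with hAneg | hApos
  · rcases lt_or_gt_of_ne hB0 with hBneg | hBpos
    · -- `A < 0`, `B < 0`: largest root `-B`
      refine ⟨-B - (A + B), B * (A + B), (⟨1, B, 0, 0⟩ : VariableChange ℚ)⁻¹ *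
        (⟨Units.mk0 2 h2, 0, 1, 0⟩ : VariableChange ℚ)⁻¹, by linarith, ?_, ?_⟩
      · exact mul_pos_of_neg_of_neg hBneg (by linarith)
      · rw [mul_smul, ← h0]
        exact eq_inv_smul_of_eq_smul (short_eq_smul_short_translate_neg A B)
    · -- `A < 0 < B`: largest root `0`
      refine ⟨B - A, -A * B, (⟨Units.mk0 2 h2, 0, 1, 0⟩ : VariableChange ℚ)⁻¹, by linarith, ?_, h0⟩
      exact mul_pos (by linarith) hBpos
  · rcases lt_or_gt_of_ne hC0 with hCneg | hCpos
    · -- `A > 0`, `A + B < 0`: then `B < 0`, largest root `-B`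
      have hBneg : B < 0 := by linarith
      refine ⟨-B - (A + B), B * (A + B), (⟨1, B, 0, 0⟩ : VariableChange ℚ)⁻¹ *
        (⟨Units.mk0 2 h2, 0, 1, 0⟩ : VariableChange ℚ)⁻¹, by linarith, ?_, ?_⟩
      · exact mul_pos_of_neg_of_neg hBneg hCneg
      · rw [mul_smul, ← h0]
        exact eq_inv_smul_of_eq_smul (short_eq_smul_short_translate_neg A B)
    · -- `A > 0`, `A + B > 0`: largest root `A`
      refine ⟨2 * A + B, A * (A + B), (⟨1, -A, 0, 0⟩ : VariableChange ℚ)⁻¹ *
        (⟨Units.mk0 2 h2, 0, 1, 0⟩ : VariableChange ℚ)⁻¹, by linarith, mul_pos hApos hCpos, ?_⟩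
      rw [mul_smul, ← h0]
      exact eq_inv_smul_of_eq_smul (VarChange.short_eq_smul_short_translate A B)

end models

/-- **Package A.** The Frey curve has a nonzero `p`-torsion point over every algebraically closed
extension of `ℚ`. -/
theorem A_exists_torsion (P : FreyPackage) {L : Type*} [Field L] [DecidableEq L] [Algebra ℚ L]
    [IsAlgClosed L] :
    ∃ x : (P.freyCurve⁄L).toAffine.Point, x ≠ 0 ∧ (P.p : ℤ) • x = 0 := by
  obtain ⟨a, b, C, ha, hb, hmodel⟩ := exists_positive_model P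
  have hp2 : P.p ≠ 2 := by
    have := P.hp5
    omega
  obtain ⟨P', hP', hpP'⟩ := exists_torsion_short ha hb P.pp hp2 L
  refine ⟨VarChange.pointHomBC (L := L) hmodel P', ?_, ?_⟩
  · intro h0
    exact hP' ((VarChange.pointHomBC_eq_zero_iff hmodel P').mp h0)
  · rw [natCast_zsmul, ← map_nsmul, hpP', map_zero]

end Fermat.Agent.Cofix.TorsFrey
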