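/-
S13, package A (existence of `p`-torsion), Frey wiring: the map `(x, y) ↦ (4x - r, 8y + 4x)` of
`Unram/FreyModel.lean` is a BIJECTION on points, and for every Frey package one of the three translates
`Y² = X(X+α')(X+β')` with `α', β' > 0` (largest real root moved to `0`) is available.  Hence a nonzero
`n`-torsion point on every short curve `Y² = X³ + aX² + bX` with `a, b > 0` rational gives a nonzero
`n`-torsion point on the Frey curve.
-/
import Mathlib
import Fermat.Agent.Unram.FreyModel

set_option autoImplicit false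

namespace Fermat.Agent.Cofix.TorsFreyWire

open WeierstrassCurve WeierstrassCurve.Affine WeierstrassCurve.Affine.Point
open Fermat.Agent.Unram Fermat.Agent.Unram.ToShort

section surj

variable {L : Type*} [Field L] {E W : WeierstrassCurve L} {r : L}

/-- The inverse substitution preserves nonsingular points. -/
lemma nonsingular_inv (h : Rel E W r) {X Y : L} (hXY : W.toAffine.Nonsingular X Y) :
    E.toAffine.Nonsingular ((X + r) / 4) ((Y - X - r) / 8) := by
  have h2 := h.two
  have h4 : (4 : L) ≠ 0 := by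
    have : (4 : L) = 2 ^ 2 := by norm_num
    rw [this]; exact pow_ne_zero _ h.two
  have h8 : (8 : L) ≠ 0 := by
    have : (8 : L) = 2 ^ 3 := by norm_num
    rw [this]; exact pow_ne_zero _ h.two
  have h16 : (16 : L) ≠ 0 := by
    have : (16 : L) = 2 ^ 4 := by norm_num
    rw [this]; exact pow_ne_zero _ h.two
  have h64 : (64 : L) ≠ 0 := by
    have : (64 : L) = 2 ^ 6 := by norm_num
    rw [this]; exact pow_ne_zero _ h.two
  set x := (X + r) / 4 with hx
  set y := (Y - X - r) / 8 with hy
  have hX : X = 4 * x - r := by rw [hx]; field_simp; ring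
  have hY : Y = 8 * y + 4 * x := by rw [hx, hy]; field_simp; ring
  rw [Affine.nonsingular_iff'] at hXY ⊢
  obtain ⟨heq, hns⟩ := hXY
  rw [h.w.equation_iff, h.ha, h.hb, hX, hY] at heq
  rw [h.w.a₁, h.w.a₃, h.ha, h.hb, hX, hY] at hns
  have hE : E.toAffine.Equation x y := by
    rw [Affine.equation_iff, h.e1, h.e3, h.e6]
    apply mul_left_cancel₀ h64
    linear_combination heq - h.hc
  refine ⟨hE, ?_⟩
  rw [h.e1, h.e3]
  by_cases h0 : 2 * y + 1 * x + 0 = 0
  · left
    rcases hns with hl | hr
    · intro hl0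
      apply hl
      linear_combination 16 * hl0 - 8 * h0
    · exfalso
      apply hr
      linear_combination 8 * h0
  · right
    exact h0

/-- The map `(x, y) ↦ (4x - r, 8y + 4x)` is surjective on points. -/
lemma toFun_surjective (h : Rel E W r) : Function.Surjective (toFun h) := by
  have h4 : (4 : L) ≠ 0 := by
    have : (4 : L) = 2 ^ 2 := by norm_num
    rw [this]; exact pow_ne_zero _ h.two
  have h8 : (8 : L) ≠ 0 := by
    have : (8 : L) = 2 ^ 3 := by norm_num
    rw [this]; exact pow_ne_zero _ h.two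
  intro Q
  cases Q with
  | zero => exact ⟨0, rfl⟩
  | some X Y hXY =>
    refine ⟨.some _ _ (nonsingular_inv h hXY), ?_⟩
    rw [toFun_some]
    have hX : 4 * ((X + r) / 4) - r = X := by field_simp; ring
    have hY : 8 * ((Y - X - r) / 8) + 4 * ((X + r) / 4) = Y := by field_simp; ring
    simp only [Point.some.injEq]
    exact ⟨hX, hY⟩

variable [DecidableEq L]

/-- Torsion points pull back along the bijective additive map. -/
lemma exists_torsion_of_rel (h : Rel E W r) {n : ℕ}
    (hW : ∃ Q : W.toAffine.Point, Q ≠ 0 ∧ n • Q = 0) :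
    ∃ x : E.toAffine.Point, x ≠ 0 ∧ (n : ℤ) • x = 0 := by
  obtain ⟨Q, hQ0, hnQ⟩ := hW
  obtain ⟨x, rfl⟩ := toFun_surjective h Q
  refine ⟨x, ?_, ?_⟩
  · rintro rfl
    exact hQ0 rfl
  · rw [natCast_zsmul]
    apply hom_injective h
    rw [map_nsmul, _root_.map_zero, hom_apply]
    exact hnQ

end surj

section frey

variable {L : Type*} [Field L] [DecidableEq L] [Algebra ℚ L]

/-- The three relations of the Frey curve with the short models `r ∈ {0, A, -B}`. -/
lemma frey_rel (P : FreyPackage) (r : ℚ)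
    (hr : r * (r - (P.a : ℚ) ^ P.p) * (r + (P.b : ℚ) ^ P.p) = 0) :
    Rel P.freyCurve
      (shortW (3 * r + ((P.b : ℚ) ^ P.p - (P.a : ℚ) ^ P.p))
        (3 * r ^ 2 + 2 * r * ((P.b : ℚ) ^ P.p - (P.a : ℚ) ^ P.p) -
          (P.a : ℚ) ^ P.p * (P.b : ℚ) ^ P.p)) r where
  e1 := rfl
  e3 := rfl
  e6 := rfl
  w := isShort_shortW _ _
  ha := by
    simp only [shortW_a₂, FreyPackage.freyCurve]
    ring
  hb := by
    simp only [shortW_a₄, FreyPackage.freyCurve]
    ring
  hc := by
    simp only [FreyPackage.freyCurve]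
    linear_combination hr
  two := two_ne_zero

/-- **Package A, Frey wiring**: torsion on all short curves `Y² = X³ + aX² + bX`, `a, b > 0` rational,
gives torsion on the Frey curve. -/
theorem frey_exists_torsion_of_short (P : FreyPackage) {n : ℕ}
    (hshort : ∀ a b : ℚ, 0 < a → 0 < b →
      ∃ Q : ((shortW a b)⁄L).toAffine.Point, Q ≠ 0 ∧ n • Q = 0) :
    ∃ x : (P.freyCurve⁄L).toAffine.Point, x ≠ 0 ∧ (n : ℤ) • x = 0 := by
  have hFLT : ((P.a : ℚ) ^ P.p + (P.b : ℚ) ^ P.p = (P.c : ℚ) ^ P.p) := by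
    exact_mod_cast congrArg (fun z : ℤ => (z : ℚ)) P.hFLT
  have hA0 : (P.a : ℚ) ^ P.p ≠ 0 := pow_ne_zero _ (by exact_mod_cast P.ha0)
  have hB0 : (P.b : ℚ) ^ P.p ≠ 0 := pow_ne_zero _ (by exact_mod_cast P.hb0)
  have hC0 : (P.c : ℚ) ^ P.p ≠ 0 := pow_ne_zero _ (by exact_mod_cast P.hc0)
  set A : ℚ := (P.a : ℚ) ^ P.p with hA
  set B : ℚ := (P.b : ℚ) ^ P.p with hB
  set C : ℚ := (P.c : ℚ) ^ P.p with hC
  -- the choice of the root `r`
  have key : ∃ r : ℚ, r * (r - A) * (r + B) = 0 ∧ 0 < 3 * r + (B - A) ∧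
      0 < 3 * r ^ 2 + 2 * r * (B - A) - A * B := by
    rcases lt_or_gt_of_ne hA0 with hAneg | hApos
    · rcases lt_or_gt_of_ne hB0 with hBneg | hBpos
      · -- `A < 0`, `B < 0`: `r = -B`
        refine ⟨-B, by ring, by linarith, ?_⟩
        have : 3 * (-B) ^ 2 + 2 * (-B) * (B - A) - A * B = B * (A + B) := by ring
        rw [this]
        exact mul_pos_of_neg_of_neg hBneg (by linarith)
      · -- `A < 0 < B`: `r = 0`
        refine ⟨0, by ring, by linarith, ?_⟩
        have : 3 * (0 : ℚ) ^ 2 + 2 * 0 * (B - A) - A * B = -(A * B) := by ring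
        rw [this]
        exact neg_pos.mpr (mul_neg_of_neg_of_pos hAneg hBpos)
    · rcases lt_or_gt_of_ne hC0 with hCneg | hCpos
      · -- `A > 0`, `C < 0`: `B < 0`, `r = -B`
        have hBneg : B < 0 := by linarith
        refine ⟨-B, by ring, by linarith, ?_⟩
        have : 3 * (-B) ^ 2 + 2 * (-B) * (B - A) - A * B = B * (A + B) := by ring
        rw [this]
        exact mul_pos_of_neg_of_neg hBneg (by linarith)
      · -- `A > 0`, `C > 0`: `r = A`
        refine ⟨A, by ring, by linarith, ?_⟩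
        have : 3 * A ^ 2 + 2 * A * (B - A) - A * B = A * (A + B) := by ring
        rw [this]
        exact mul_pos hApos (by linarith)
  obtain ⟨r, hr, ha, hb⟩ := key
  have hrel := frey_rel P r hr
  exact exists_torsion_of_rel (hrel.baseChange (L := L)) (hshort _ _ ha hb)

end frey

end Fermat.Agent.Cofix.TorsFreyWire
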